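import Mathlib
import Fermat.Prelude.Def_GaloisRep_Flat

set_option autoImplicit false
set_option linter.unusedSectionVars false

/-!
# S28, package B0: basics on `ℤ_(ℓ) = GaloisRep.ratLocalizedAt ℓ`

* `res ℓ : ℤ_(ℓ) →+* ZMod ℓ` (reduction mod `ℓ`), surjective, `res x = 0 ↔ ℓ ∣ x`;
* `Prime (ℓ : ℤ_(ℓ))`;
* `IsFractionRing ℤ_(ℓ) ℚ`, `IsIntegrallyClosed ℤ_(ℓ)`;
* `Prime (C ℓ : ℤ_(ℓ)[X])`.
-/

namespace Fermat.Agent.S28.ZlBasics

open Polynomial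

noncomputable section

variable (ℓ : ℕ)

/-- `ℤ_(ℓ)` as a type. -/
abbrev Zl : Type := ↥(GaloisRep.ratLocalizedAt ℓ)

theorem mem_iff {x : ℚ} : x ∈ GaloisRep.ratLocalizedAt ℓ ↔ x.den.Coprime ℓ := Iff.rfl

theorem intCast_mem_Zl (n : ℤ) : (n : ℚ) ∈ GaloisRep.ratLocalizedAt ℓ :=
  intCast_mem (GaloisRep.ratLocalizedAt ℓ) n

theorem natCast_mem_Zl (n : ℕ) : (n : ℚ) ∈ GaloisRep.ratLocalizedAt ℓ :=
  natCast_mem (GaloisRep.ratLocalizedAt ℓ) n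

variable [hℓ : Fact ℓ.Prime]

theorem den_ne_zero_zmod (x : Zl ℓ) : (((x : ℚ).den : ℕ) : ZMod ℓ) ≠ 0 := by
  intro h
  rw [ZMod.natCast_eq_zero_iff] at h
  have hc : ((x : ℚ).den).Coprime ℓ := x.2
  have h1 : ℓ ∣ Nat.gcd (x : ℚ).den ℓ := Nat.dvd_gcd h (dvd_refl ℓ)
  rw [hc] at h1
  exact hℓ.out.one_lt.ne' (Nat.dvd_one.mp h1)

/-- reduction `ℤ_(ℓ) → 𝔽_ℓ`. -/
def res : Zl ℓ →+* ZMod ℓ where
  toFun x := ((x : ℚ) : ZMod ℓ)
  map_one' := by simp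
  map_zero' := by simp
  map_mul' x y := by
    show (((x * y : Zl ℓ) : ℚ) : ZMod ℓ) = _
    rw [Subring.coe_mul]
    exact Rat.cast_mul_of_ne_zero (den_ne_zero_zmod ℓ x) (den_ne_zero_zmod ℓ y)
  map_add' x y := by
    show (((x + y : Zl ℓ) : ℚ) : ZMod ℓ) = _
    rw [Subring.coe_add]
    exact Rat.cast_add_of_ne_zero (den_ne_zero_zmod ℓ x) (den_ne_zero_zmod ℓ y)

theorem res_apply (x : Zl ℓ) : res ℓ x = ((x : ℚ) : ZMod ℓ) := rfl

theorem res_intCast (n : ℤ) : res ℓ (n : Zl ℓ) = (n : ZMod ℓ) := map_intCast _ n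

theorem res_natCast (n : ℕ) : res ℓ (n : Zl ℓ) = (n : ZMod ℓ) := map_natCast _ n

theorem res_surjective : Function.Surjective (res ℓ) := by
  intro a
  refine ⟨((a.val : ℕ) : Zl ℓ), ?_⟩
  rw [res_natCast, ZMod.natCast_zmod_val]

/-- an element of `ℤ_(ℓ)` is `num / den`. -/
theorem den_mul_self (x : Zl ℓ) : (((x : ℚ).den : ℕ) : Zl ℓ) * x = (((x : ℚ).num : ℤ) : Zl ℓ) := by
  apply Subtype.ext
  push_cast
  exact Rat.den_mul_eq_num (x : ℚ)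

/-- the inverse of an integer prime to `ℓ`, in `ℤ_(ℓ)`. -/
def invNat (n : ℕ) (hn : n.Coprime ℓ) : Zl ℓ :=
  ⟨(n : ℚ)⁻¹, by
    show ((n : ℚ)⁻¹).den.Coprime ℓ
    rcases Nat.eq_zero_or_pos n with h0 | hpos
    · subst h0
      simp
    · rw [Rat.inv_natCast_den_of_pos hpos]
      exact hn⟩

theorem invNat_mul (n : ℕ) (hn : n.Coprime ℓ) (hn0 : n ≠ 0) : invNat ℓ n hn * (n : Zl ℓ) = 1 := by
  apply Subtype.ext
  have h : (n : ℚ) ≠ 0 := by exact_mod_cast hn0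
  show (n : ℚ)⁻¹ * (((n : Zl ℓ) : Zl ℓ) : ℚ) = 1
  have h2 : (((n : Zl ℓ) : Zl ℓ) : ℚ) = (n : ℚ) := by simp
  rw [h2, inv_mul_cancel₀ h]

theorem isUnit_natCast_of_coprime (n : ℕ) (hn : n.Coprime ℓ) : IsUnit (n : Zl ℓ) := by
  have hn0 : n ≠ 0 := by
    rintro rfl
    rw [Nat.coprime_zero_left] at hn
    exact hℓ.out.one_lt.ne' hn
  exact IsUnit.of_mul_eq_one _ (by rw [mul_comm]; exact invNat_mul ℓ n hn hn0)

theorem res_eq_zero_iff (x : Zl ℓ) : res ℓ x = 0 ↔ (ℓ : Zl ℓ) ∣ x := by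
  constructor
  · intro h
    -- `den * x = num`, so `num ≡ 0`, so `ℓ ∣ num`, and `den` is a unit
    have h1 : res ℓ ((((x : ℚ).den : ℕ) : Zl ℓ) * x) = 0 := by rw [map_mul, h, mul_zero]
    rw [den_mul_self, res_intCast, ZMod.intCast_zmod_eq_zero_iff_dvd] at h1
    obtain ⟨m, hm⟩ := h1
    have hu := isUnit_natCast_of_coprime ℓ (x : ℚ).den x.2
    have h2 : (((x : ℚ).den : ℕ) : Zl ℓ) * x = (ℓ : Zl ℓ) * (m : Zl ℓ) := by
      rw [den_mul_self, hm]; push_cast; rfl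
    obtain ⟨u, hu'⟩ := hu
    refine ⟨(↑u⁻¹ : Zl ℓ) * (m : Zl ℓ), ?_⟩
    have : x = (↑u⁻¹ : Zl ℓ) * ((((x : ℚ).den : ℕ) : Zl ℓ) * x) := by
      rw [← hu', ← mul_assoc, Units.inv_mul, one_mul]
    rw [this, h2]
    ring
  · rintro ⟨y, rfl⟩
    rw [map_mul, res_natCast, ZMod.natCast_self, zero_mul]

theorem natCast_ne_zero : (ℓ : Zl ℓ) ≠ 0 := by
  intro h
  have := congrArg (Subtype.val) h
  simp at this
  exact hℓ.out.ne_zero this

theorem not_isUnit_l : ¬ IsUnit (ℓ : Zl ℓ) := by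
  intro h
  have := h.map (res ℓ)
  rw [res_natCast, ZMod.natCast_self] at this
  exact not_isUnit_zero this

/-- `ℓ` is a prime element of `ℤ_(ℓ)`. -/
theorem prime_l : Prime (ℓ : Zl ℓ) := by
  refine ⟨natCast_ne_zero ℓ, not_isUnit_l ℓ, fun a b hab => ?_⟩
  rw [← res_eq_zero_iff] at hab ⊢
  rw [← res_eq_zero_iff]
  rw [map_mul] at hab
  exact mul_eq_zero.mp hab

/-- every rational is a quotient of elements of `ℤ_(ℓ)`; `ℤ_(ℓ)` is a valuation ring of `ℚ`. -/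
theorem mem_or_inv_mem (x : ℚ) : x ∈ GaloisRep.ratLocalizedAt ℓ ∨ x⁻¹ ∈ GaloisRep.ratLocalizedAt ℓ := by
  by_cases h : x.den.Coprime ℓ
  · exact Or.inl h
  · right
    -- `ℓ ∣ den`, hence `ℓ ∤ num`, and `den x⁻¹ ∣ num x`
    have hdvd : ℓ ∣ x.den := by
      by_contra hnd
      exact h ((Nat.Prime.coprime_iff_not_dvd hℓ.out).mpr hnd).symm
    have hnum : ¬ (ℓ : ℤ) ∣ x.num := by
      intro hn
      have h1 : ℓ ∣ x.num.natAbs := Int.natCast_dvd.mp hn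
      have hcop : Nat.Coprime x.num.natAbs x.den := x.reduced
      have := Nat.dvd_gcd h1 hdvd
      rw [hcop] at this
      exact hℓ.out.one_lt.ne' (Nat.dvd_one.mp this)
    show (x⁻¹).den.Coprime ℓ
    rw [Rat.inv_def, ]
    have hx0 : x.num ≠ 0 := by
      rintro h0
      exact hnum (by rw [h0]; exact dvd_zero _)
    have hden : (Rat.divInt (x.den : ℤ) x.num).den ∣ x.num.natAbs := by
      have := Rat.den_dvd (x.den : ℤ) x.num
      exact Int.natCast_dvd.mp this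
    refine Nat.Coprime.coprime_dvd_left hden ?_
    rw [Nat.coprime_comm, Nat.Prime.coprime_iff_not_dvd hℓ.out]
    intro h2
    exact hnum (Int.natCast_dvd.mpr h2)

/-- `ℤ_(ℓ)` as a valuation subring of `ℚ`. -/
def valSubring : ValuationSubring ℚ :=
  { GaloisRep.ratLocalizedAt ℓ with mem_or_inv_mem' := mem_or_inv_mem ℓ }

theorem valSubring_toSubring : (valSubring ℓ).toSubring = GaloisRep.ratLocalizedAt ℓ := rfl

instance isIntegrallyClosed_Zl : IsIntegrallyClosed (Zl ℓ) :=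
  (inferInstance : IsIntegrallyClosed ↥(valSubring ℓ))

instance isFractionRing_Zl : IsFractionRing (Zl ℓ) ℚ :=
  (inferInstance : IsFractionRing ↥(valSubring ℓ) ℚ)

instance isDomain_Zl : IsDomain (Zl ℓ) := inferInstance

/-- `ℓ` is a prime element of `ℤ_(ℓ)[X]`. -/
theorem prime_C_l : Prime (C (ℓ : Zl ℓ) : (Zl ℓ)[X]) :=
  Polynomial.prime_C_iff.mpr (prime_l ℓ)

/-- `ℤ_(ℓ)[X]` is integrally closed. -/
example : IsIntegrallyClosed (Zl ℓ)[X] := inferInstance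

/-- divisibility by `ℓ` in `ℤ_(ℓ)[X]` is coefficientwise, i.e. detected by `map res`. -/
theorem C_l_dvd_iff (P : (Zl ℓ)[X]) : C (ℓ : Zl ℓ) ∣ P ↔ P.map (res ℓ) = 0 := by
  rw [Polynomial.C_dvd_iff_dvd_coeff]
  constructor
  · intro h
    ext n
    rw [Polynomial.coeff_map, Polynomial.coeff_zero, res_eq_zero_iff]
    exact h n
  · intro h n
    rw [← res_eq_zero_iff, ← Polynomial.coeff_map, h, Polynomial.coeff_zero]

end

end Fermat.Agent.S28.ZlBasics
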