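import Mathlib
import Fermat.Prelude.Def_ModularCurve_JqCoeff
import Fermat.Prelude.Def_ModularCurve_X0ModL
import Fermat.Prelude.Thm_ModularCurve_coeffMap_qExpand
import Fermat.Prelude.Thm_ModularCurve_coeff_jqModC_pow_self
import Fermat.Prelude.Thm_ModularCurve_coeff_jqModC_pow_of_lt
import Fermat.Agent.S28.ZlBasics

set_option autoImplicit false
set_option linter.unusedSectionVars false

/-!
# S28, package B2: reduction of `ℓ`-integral Laurent series

* `intSeries ℓ : Subring (LaurentSeries ℚ)` : series all of whose coefficients lie in `ℤ_(ℓ)`;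
* `redSeries ℓ : intSeries ℓ →+* LaurentSeries (ZMod ℓ)` : coefficientwise reduction;
* `redSeries f = 0 ↔ f ∈ ℓ · intSeries`;
* `jq`, `jq⁻¹`, `j(q^d)` are `ℓ`-integral with reductions `jqModC (ZMod ℓ)`, its inverse,
  `jqNModC (ZMod ℓ) d` (the PRELUDE series; `jqModC ℚ = jq` by `rfl`);
* polynomial expressions; transcendence of `jqModC K` and of its inverse over a field `K`.
-/

namespace Fermat.Agent.S28.SeriesRed

open Polynomial ModularCurve Fermat.Agent.S28.ZlBasics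

noncomputable section

variable (ℓ : ℕ) [hℓ : Fact ℓ.Prime]

/-- coefficientwise inclusion `ℤ_(ℓ)((q)) → ℚ((q))`. -/
def incl : LaurentSeries (Zl ℓ) →+* LaurentSeries ℚ :=
  coeffMap (GaloisRep.ratLocalizedAt ℓ).subtype

theorem incl_coeff (g : LaurentSeries (Zl ℓ)) (n : ℤ) : (incl ℓ g).coeff n = (g.coeff n : ℚ) := rfl

theorem incl_injective : Function.Injective (incl ℓ) := by
  intro g g' h
  ext n
  have := congrArg (fun f => f.coeff n) h
  simpa [incl_coeff] using this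

/-- the subring of `ℓ`-integral Laurent series. -/
def intSeries : Subring (LaurentSeries ℚ) := (incl ℓ).range

/-- build an `ℓ`-integral series from its coefficients. -/
def liftZl (f : LaurentSeries ℚ) (hf : ∀ n, f.coeff n ∈ GaloisRep.ratLocalizedAt ℓ) :
    LaurentSeries (Zl ℓ) where
  coeff n := ⟨f.coeff n, hf n⟩
  isPWO_support' := f.isPWO_support.mono (by
    intro n hn
    rw [Function.mem_support] at hn
    rw [HahnSeries.mem_support]
    intro h
    exact hn (Subtype.ext h))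

theorem incl_liftZl (f : LaurentSeries ℚ) (hf : ∀ n, f.coeff n ∈ GaloisRep.ratLocalizedAt ℓ) :
    incl ℓ (liftZl ℓ f hf) = f := by
  ext n
  rfl

theorem mem_intSeries_iff {f : LaurentSeries ℚ} :
    f ∈ intSeries ℓ ↔ ∀ n, f.coeff n ∈ GaloisRep.ratLocalizedAt ℓ := by
  constructor
  · rintro ⟨g, rfl⟩ n
    rw [incl_coeff]
    exact (g.coeff n).2
  · intro hf
    exact ⟨liftZl ℓ f hf, incl_liftZl ℓ f hf⟩

/-- `ℤ_(ℓ)((q)) ≃ intSeries ℓ`. -/
def inclEquiv : LaurentSeries (Zl ℓ) ≃+* intSeries ℓ :=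
  RingEquiv.ofBijective (incl ℓ).rangeRestrict
    ⟨fun _ _ h => incl_injective ℓ (congrArg Subtype.val h), (incl ℓ).rangeRestrict_surjective⟩

theorem coe_inclEquiv (g : LaurentSeries (Zl ℓ)) : ((inclEquiv ℓ g : intSeries ℓ) : LaurentSeries ℚ) = incl ℓ g :=
  rfl

theorem incl_inclEquiv_symm (f : intSeries ℓ) : incl ℓ ((inclEquiv ℓ).symm f) = (f : LaurentSeries ℚ) := by
  have h := coe_inclEquiv ℓ ((inclEquiv ℓ).symm f)
  rw [RingEquiv.apply_symm_apply] at h
  exact h.symm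

/-- coefficientwise reduction mod `ℓ`. -/
def redSeries : intSeries ℓ →+* LaurentSeries (ZMod ℓ) :=
  (coeffMap (res ℓ)).comp (inclEquiv ℓ).symm.toRingHom

theorem redSeries_inclEquiv (g : LaurentSeries (Zl ℓ)) :
    redSeries ℓ (inclEquiv ℓ g) = coeffMap (res ℓ) g := by
  simp [redSeries]

theorem coeff_redSeries (f : intSeries ℓ) (n : ℤ) :
    (redSeries ℓ f).coeff n = res ℓ ⟨(f : LaurentSeries ℚ).coeff n, (mem_intSeries_iff ℓ).mp f.2 n⟩ := by
  have h : ((inclEquiv ℓ).symm f).coeff n =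
      ⟨(f : LaurentSeries ℚ).coeff n, (mem_intSeries_iff ℓ).mp f.2 n⟩ := by
    apply Subtype.ext
    rw [← incl_coeff, incl_inclEquiv_symm]
  show res ℓ (((inclEquiv ℓ).symm f).coeff n) = _
  rw [h]

/-- the kernel of the reduction is `ℓ · intSeries`. -/
theorem redSeries_eq_zero_iff (f : intSeries ℓ) :
    redSeries ℓ f = 0 ↔ ∃ g : intSeries ℓ, f = (ℓ : intSeries ℓ) * g := by
  constructor
  · intro h
    have hdiv : ∀ n, ((ℓ : ℚ)⁻¹ • (f : LaurentSeries ℚ)).coeff n ∈ GaloisRep.ratLocalizedAt ℓ := by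
      intro n
      have hn := congrArg (fun s => s.coeff n) h
      simp only [coeff_redSeries, HahnSeries.coeff_zero] at hn
      rw [res_eq_zero_iff] at hn
      obtain ⟨y, hy⟩ := hn
      have hy' : (f : LaurentSeries ℚ).coeff n = (ℓ : ℚ) * (y : ℚ) := by
        have := congrArg Subtype.val hy
        simpa using this
      have hl : (ℓ : ℚ) ≠ 0 := by exact_mod_cast hℓ.out.ne_zero
      rw [HahnSeries.coeff_smul, hy', smul_eq_mul, ← mul_assoc, inv_mul_cancel₀ hl, one_mul]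
      exact y.2
    refine ⟨⟨(ℓ : ℚ)⁻¹ • (f : LaurentSeries ℚ), (mem_intSeries_iff ℓ).mpr hdiv⟩, ?_⟩
    apply Subtype.ext
    have hl : (ℓ : ℚ) ≠ 0 := by exact_mod_cast hℓ.out.ne_zero
    ext n
    simp only [Subring.coe_mul, Subring.coe_natCast]
    rw [← nsmul_eq_mul, HahnSeries.coeff_smul, HahnSeries.coeff_smul, nsmul_eq_mul, smul_eq_mul,
      ← mul_assoc, mul_inv_cancel₀ hl, one_mul]
  · rintro ⟨g, rfl⟩
    rw [map_mul, map_natCast]
    have : ((ℓ : ℕ) : LaurentSeries (ZMod ℓ)) = 0 := by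
      have h0 : ((ℓ : ℕ) : ZMod ℓ) = 0 := ZMod.natCast_self ℓ
      have : ((ℓ : ℕ) : LaurentSeries (ZMod ℓ)) = HahnSeries.C ((ℓ : ℕ) : ZMod ℓ) := by
        rw [map_natCast]
      rw [this, h0, map_zero]
    rw [this, zero_mul]

/-! ### integer series -/

theorem intCoeffMap_mem (f : LaurentSeries ℤ) : coeffMap (Int.castRingHom ℚ) f ∈ intSeries ℓ := by
  rw [mem_intSeries_iff]
  intro n
  rw [coeffMap_coeff]
  exact intCast_mem_Zl ℓ _

/-- an integer series, as an `ℓ`-integral series. -/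
def ofInt (f : LaurentSeries ℤ) : intSeries ℓ := ⟨coeffMap (Int.castRingHom ℚ) f, intCoeffMap_mem ℓ f⟩

theorem redSeries_ofInt (f : LaurentSeries ℤ) :
    redSeries ℓ (ofInt ℓ f) = coeffMap (Int.castRingHom (ZMod ℓ)) f := by
  ext n
  rw [coeff_redSeries, coeffMap_coeff]
  have h : (⟨((ofInt ℓ f : intSeries ℓ) : LaurentSeries ℚ).coeff n,
      (mem_intSeries_iff ℓ).mp (ofInt ℓ f).2 n⟩ : Zl ℓ) = ((f.coeff n : ℤ) : Zl ℓ) := by
    apply Subtype.ext
    simp [ofInt]
  rw [h, res_intCast]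
  rfl

theorem jq_eq_coeffMap : jq = coeffMap (Int.castRingHom ℚ) (jqModC ℤ) := by
  rw [coeffMap_jqModC]
  rfl

theorem jq_mem : jq ∈ intSeries ℓ := by
  rw [jq_eq_coeffMap]
  exact intCoeffMap_mem ℓ _

/-- `j`, as an `ℓ`-integral series. -/
def jInt : intSeries ℓ := ⟨jq, jq_mem ℓ⟩

theorem redSeries_jInt : redSeries ℓ (jInt ℓ) = jqModC (ZMod ℓ) := by
  have h : jInt ℓ = ofInt ℓ (jqModC ℤ) := Subtype.ext jq_eq_coeffMap
  rw [h, redSeries_ofInt, coeffMap_jqModC]

theorem jqN_eq_coeffMap (d : ℕ) [NeZero d] :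
    qExpand ℚ d jq = coeffMap (Int.castRingHom ℚ) (qExpand ℤ d (jqModC ℤ)) := by
  rw [coeffMap_qExpand, ← jq_eq_coeffMap]

theorem jqN_mem (d : ℕ) [NeZero d] : qExpand ℚ d jq ∈ intSeries ℓ := by
  rw [jqN_eq_coeffMap]
  exact intCoeffMap_mem ℓ _

/-- `j(q^d)`, as an `ℓ`-integral series. -/
def jNInt (d : ℕ) [NeZero d] : intSeries ℓ := ⟨qExpand ℚ d jq, jqN_mem ℓ d⟩

theorem redSeries_jNInt (d : ℕ) [NeZero d] : redSeries ℓ (jNInt ℓ d) = jqNModC (ZMod ℓ) d := by
  have h : jNInt ℓ d = ofInt ℓ (qExpand ℤ d (jqModC ℤ)) := Subtype.ext (jqN_eq_coeffMap d)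
  rw [h, redSeries_ofInt, coeffMap_qExpand, coeffMap_jqModC]
  rfl

/-! ### the inverse of `j` -/

/-- the inverse of the integral `j`-series: `q · (jNum)⁻¹`. -/
def jqInvZ : LaurentSeries ℤ :=
  HahnSeries.single (1 : ℤ) 1 * HahnSeries.ofPowerSeries ℤ ℤ (jNum.invOfUnit 1)

theorem jqModC_int_mul_jqInvZ : jqModC ℤ * jqInvZ = 1 := by
  have hmap : jNum.map (Int.castRingHom ℤ) = jNum := by
    ext n
    simp
  have hu : jNum * jNum.invOfUnit 1 = 1 :=
    PowerSeries.mul_invOfUnit jNum 1 (by rw [constantCoeff_jNum]; rfl)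
  have hsingle : (HahnSeries.single (-1 : ℤ) (1 : ℤ)) * HahnSeries.single (1 : ℤ) 1 = 1 := by
    rw [HahnSeries.single_mul_single]
    simp
  rw [jqModC, jqInvZ, hmap]
  calc HahnSeries.single (-1 : ℤ) 1 * HahnSeries.ofPowerSeries ℤ ℤ jNum *
        (HahnSeries.single (1 : ℤ) 1 * HahnSeries.ofPowerSeries ℤ ℤ (jNum.invOfUnit 1))
      = (HahnSeries.single (-1 : ℤ) (1 : ℤ) * HahnSeries.single (1 : ℤ) 1) *
        (HahnSeries.ofPowerSeries ℤ ℤ jNum * HahnSeries.ofPowerSeries ℤ ℤ (jNum.invOfUnit 1)) := by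
        ring
    _ = 1 := by rw [hsingle, ← map_mul, hu, map_one, one_mul]

theorem jqModC_mul_coeffMap_jqInvZ (R : Type*) [CommRing R] :
    jqModC R * coeffMap (Int.castRingHom R) jqInvZ = 1 := by
  rw [← coeffMap_jqModC (Int.castRingHom R), ← map_mul, jqModC_int_mul_jqInvZ, map_one]

theorem inv_jqModC (K : Type*) [Field K] :
    (jqModC K)⁻¹ = coeffMap (Int.castRingHom K) jqInvZ :=
  inv_eq_of_mul_eq_one_right (jqModC_mul_coeffMap_jqInvZ K)

theorem jq_inv_eq_coeffMap : jq⁻¹ = coeffMap (Int.castRingHom ℚ) jqInvZ :=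
  inv_jqModC ℚ

theorem jq_inv_mem : jq⁻¹ ∈ intSeries ℓ := by
  rw [jq_inv_eq_coeffMap]
  exact intCoeffMap_mem ℓ _

/-- `j⁻¹`, as an `ℓ`-integral series. -/
def jInvInt : intSeries ℓ := ⟨jq⁻¹, jq_inv_mem ℓ⟩

theorem redSeries_jInvInt : redSeries ℓ (jInvInt ℓ) = (jqModC (ZMod ℓ))⁻¹ := by
  have h : jInvInt ℓ = ofInt ℓ jqInvZ := Subtype.ext jq_inv_eq_coeffMap
  rw [h, redSeries_ofInt, inv_jqModC]

/-! ### constants and polynomial expressions -/

/-- the constants `ℤ_(ℓ) → intSeries ℓ`. -/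
def cInt : Zl ℓ →+* intSeries ℓ := (inclEquiv ℓ).toRingHom.comp HahnSeries.C

theorem coe_cInt (a : Zl ℓ) : ((cInt ℓ a : intSeries ℓ) : LaurentSeries ℚ) = HahnSeries.C (a : ℚ) := by
  show incl ℓ (HahnSeries.C a) = _
  rw [incl, HahnSeries.C_apply, coeffMap_single]
  rfl

theorem redSeries_cInt (a : Zl ℓ) : redSeries ℓ (cInt ℓ a) = HahnSeries.C (res ℓ a) := by
  show redSeries ℓ (inclEquiv ℓ (HahnSeries.C a)) = _
  rw [redSeries_inclEquiv, HahnSeries.C_apply, coeffMap_single]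
  rfl

/-- reduction commutes with polynomial expressions with `ℤ_(ℓ)`-coefficients. -/
theorem redSeries_eval₂ (P : (Zl ℓ)[X]) (x : intSeries ℓ) :
    redSeries ℓ (P.eval₂ (cInt ℓ) x) =
      (P.map (res ℓ)).eval₂ (HahnSeries.C : ZMod ℓ →+* LaurentSeries (ZMod ℓ)) (redSeries ℓ x) := by
  rw [Polynomial.hom_eval₂, Polynomial.eval₂_map]
  congr 1
  exact RingHom.ext fun a => redSeries_cInt ℓ a

/-- the underlying rational series of a polynomial expression. -/
theorem coe_eval₂ (P : (Zl ℓ)[X]) (x : intSeries ℓ) :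
    ((P.eval₂ (cInt ℓ) x : intSeries ℓ) : LaurentSeries ℚ) =
      P.eval₂ ((HahnSeries.C : ℚ →+* LaurentSeries ℚ).comp (GaloisRep.ratLocalizedAt ℓ).subtype)
        (x : LaurentSeries ℚ) := by
  have h := Polynomial.hom_eval₂ P (cInt ℓ) (intSeries ℓ).subtype x
  rw [Subring.coe_subtype] at h
  rw [h]
  congr 1
  exact RingHom.ext fun a => coe_cInt ℓ a

/-! ### transcendence of `j` and `j⁻¹` in any characteristic -/

/-- `j` is transcendental over the coefficient ring: a polynomial vanishing at `jqModC R` is zero. -/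
theorem eval₂_jqModC_eq_zero {R : Type*} [CommRing R] (P : R[X])
    (h : P.eval₂ (HahnSeries.C : R →+* LaurentSeries R) (jqModC R) = 0) : P = 0 := by
  by_contra hP
  have hlead : P.leadingCoeff ≠ 0 := Polynomial.leadingCoeff_ne_zero.mpr hP
  have hcoeff := congrArg (fun s => s.coeff (-(P.natDegree : ℤ))) h
  simp only [HahnSeries.coeff_zero] at hcoeff
  rw [Polynomial.eval₂_eq_sum_range, HahnSeries.coeff_sum] at hcoeff
  rw [Finset.sum_eq_single P.natDegree] at hcoeff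
  · rw [HahnSeries.C_mul_eq_smul, HahnSeries.coeff_smul, coeff_jqModC_pow_self, smul_eq_mul,
      mul_one] at hcoeff
    exact hlead hcoeff
  · intro i hi hne
    rw [HahnSeries.C_mul_eq_smul, HahnSeries.coeff_smul, coeff_jqModC_pow_of_lt, smul_zero]
    have : i < P.natDegree := lt_of_le_of_ne (Nat.lt_succ_iff.mp (Finset.mem_range.mp hi)) hne
    omega
  · intro hn
    exact absurd (Finset.mem_range.mpr (Nat.lt_succ_self _)) hn

/-- `j⁻¹` is transcendental over a field of coefficients. -/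
theorem eval₂_inv_jqModC_eq_zero {K : Type*} [Field K] (P : K[X])
    (h : P.eval₂ (HahnSeries.C : K →+* LaurentSeries K) (jqModC K)⁻¹ = 0) : P = 0 := by
  have hj : jqModC K ≠ 0 := jqModC_ne_zero_of_nontrivial K
  have hji : (jqModC K)⁻¹ ≠ 0 := inv_ne_zero hj
  let _ : Invertible (jqModC K)⁻¹ := invertibleOfNonzero hji
  have h1 := Polynomial.eval₂_reverse_mul_pow (HahnSeries.C : K →+* LaurentSeries K)
    (jqModC K)⁻¹ P
  rw [h, invOf_eq_inv, inv_inv] at h1
  have h2 : P.reverse.eval₂ (HahnSeries.C : K →+* LaurentSeries K) (jqModC K) = 0 := by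
    rcases mul_eq_zero.mp h1 with h3 | h3
    · exact h3
    · exact absurd (eq_zero_of_pow_eq_zero h3) hji
  have h3 := eval₂_jqModC_eq_zero P.reverse h2
  exact Polynomial.reverse_eq_zero.mp h3

end

end Fermat.Agent.S28.SeriesRed
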