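import Mathlib
import Fermat.Agent.S24.JConj

set_option autoImplicit false

/-!
# S28 / A1: Hermite data of the conjugates of `j_d`, refined with the level `κ`

For `g : SL(2,ℤ)` put `κ_N(g) = gcd(g₁₀, N)`.  It only depends on the coset `g Γ₀(N)`, divides `N`,
and equals `N` exactly for the trivial coset.  For `d ∣ N` the conjugate
`conjG J d g z = J (d (g⁻¹ z))` equals `J ((a z + b) / e)` with `a e = d`, `a = gcd(d, κ_N(g))`,
`0 ≤ b < e`, `gcd(a, b, e) = 1`.  For `d = N` the normalised triple `(a, b, e)` determines the coset.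
-/

namespace Fermat.Agent.S28.HermiteGcd

open UpperHalfPlane CongruenceSubgroup Matrix.SpecialLinearGroup
open Fermat.Agent.S20 Fermat.Agent.S20.Rank Fermat.Agent.S24.JConj
open scoped MatrixGroups

/-- the level of `g` with respect to `N`: `gcd(g₁₀, N)` -/
def kappa (N : ℕ) (g : SL(2, ℤ)) : ℕ := Int.gcd (g 1 0) N

theorem kappa_dvd (N : ℕ) (g : SL(2, ℤ)) : kappa N g ∣ N := by
  have h : ((Int.gcd (g 1 0) (N : ℤ) : ℕ) : ℤ) ∣ (N : ℤ) := Int.gcd_dvd_right _ _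
  exact Int.natCast_dvd_natCast.mp h

theorem det_eq (g : SL(2, ℤ)) : g 0 0 * g 1 1 - g 0 1 * g 1 0 = 1 := by
  have := g.det_coe
  rwa [Matrix.det_fin_two] at this

theorem inv_one_zero (g : SL(2, ℤ)) : (g⁻¹) 1 0 = - g 1 0 := by
  rw [Matrix.SpecialLinearGroup.coe_inv, Matrix.adjugate_fin_two]
  simp

theorem kappa_inv (N : ℕ) (g : SL(2, ℤ)) : kappa N g⁻¹ = kappa N g := by
  unfold kappa
  rw [inv_one_zero, Int.neg_gcd]

theorem mem_Gamma0_iff_dvd (N : ℕ) (g : SL(2, ℤ)) : g ∈ Gamma0 N ↔ (N : ℤ) ∣ g 1 0 := by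
  rw [Gamma0_mem]
  exact ZMod.intCast_zmod_eq_zero_iff_dvd _ _

/-- `κ` only depends on the left coset `g Γ₀(N)` -/
theorem kappa_mul_of_mem_Gamma0 (N : ℕ) (g γ : SL(2, ℤ)) (hγ : γ ∈ Gamma0 N) :
    kappa N (g * γ) = kappa N g := by
  rw [mem_Gamma0_iff_dvd] at hγ
  obtain ⟨c, hc⟩ := hγ
  have hdet := det_eq γ
  have hentry : (g * γ) 1 0 = g 1 0 * γ 0 0 + g 1 1 * γ 1 0 := by
    rw [Matrix.SpecialLinearGroup.coe_mul, Matrix.mul_apply, Fin.sum_univ_two]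
  unfold kappa
  apply Nat.dvd_antisymm
  · -- gcd((gγ)₁₀, N) ∣ gcd(g₁₀, N)
    apply Nat.dvd_gcd
    · -- divides |g₁₀|
      have h1 : ((Int.gcd ((g * γ) 1 0) N : ℕ) : ℤ) ∣ (g * γ) 1 0 := Int.gcd_dvd_left _ _
      have h2 : ((Int.gcd ((g * γ) 1 0) N : ℕ) : ℤ) ∣ (N : ℤ) := Int.gcd_dvd_right _ _
      have h3 : ((Int.gcd ((g * γ) 1 0) N : ℕ) : ℤ) ∣ g 1 0 := by
        have e : g 1 0 = (g * γ) 1 0 * γ 1 1 - (N : ℤ) * (g 1 1 * c * γ 1 1 + g 1 0 * γ 0 1 * c) := by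
          rw [hentry, hc]
          linear_combination (-(g 1 0)) * hdet - (g 1 0 * γ 0 1) * hc
        rw [e]
        exact dvd_sub (Dvd.dvd.mul_right h1 _) (Dvd.dvd.mul_right h2 _)
      exact Int.natCast_dvd.mp h3
    · exact Int.natCast_dvd_natCast.mp (by
        have : ((Int.gcd ((g * γ) 1 0) N : ℕ) : ℤ) ∣ (N : ℤ) := Int.gcd_dvd_right _ _
        simpa using this)
  · apply Nat.dvd_gcd
    · have h1 : ((Int.gcd (g 1 0) N : ℕ) : ℤ) ∣ g 1 0 := Int.gcd_dvd_left _ _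
      have h2 : ((Int.gcd (g 1 0) N : ℕ) : ℤ) ∣ (N : ℤ) := Int.gcd_dvd_right _ _
      have h3 : ((Int.gcd (g 1 0) N : ℕ) : ℤ) ∣ (g * γ) 1 0 := by
        rw [hentry, hc]
        exact dvd_add (Dvd.dvd.mul_right h1 _)
          (Dvd.dvd.mul_left (Dvd.dvd.mul_right h2 _) _)
      exact Int.natCast_dvd.mp h3
    · exact Int.natCast_dvd_natCast.mp (by
        have : ((Int.gcd (g 1 0) N : ℕ) : ℤ) ∣ (N : ℤ) := Int.gcd_dvd_right _ _
        simpa using this)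

/-- `κ` on the coset space `Q N = SL(2,ℤ) ⧸ Γ₀(N)` -/
def kappaQ (N : ℕ) : Q N → ℕ :=
  Quotient.lift (kappa N) (by
    intro g g' h
    have h' : g⁻¹ * g' ∈ Gamma0 N := QuotientGroup.leftRel_apply.mp h
    have : g' = g * (g⁻¹ * g') := by group
    rw [this, kappa_mul_of_mem_Gamma0 N g _ h'])

@[simp] theorem kappaQ_mk (N : ℕ) (g : SL(2, ℤ)) :
    kappaQ N (QuotientGroup.mk g : Q N) = kappa N g := rfl

theorem kappaQ_dvd (N : ℕ) (q : Q N) : kappaQ N q ∣ N := by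
  induction q using QuotientGroup.induction_on with
  | H g => exact kappa_dvd N g

/-- `κ = N` exactly on `Γ₀(N)` -/
theorem kappa_eq_iff_mem_Gamma0 (N : ℕ) (g : SL(2, ℤ)) : kappa N g = N ↔ g ∈ Gamma0 N := by
  rw [mem_Gamma0_iff_dvd]
  unfold kappa
  constructor
  · intro h
    have h1 : ((Int.gcd (g 1 0) N : ℕ) : ℤ) ∣ g 1 0 := Int.gcd_dvd_left _ _
    rwa [h] at h1
  · intro h
    apply Nat.dvd_antisymm
    · exact Int.natCast_dvd_natCast.mp (by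
        have : ((Int.gcd (g 1 0) N : ℕ) : ℤ) ∣ (N : ℤ) := Int.gcd_dvd_right _ _
        simpa using this)
    · exact Nat.dvd_gcd (Int.natCast_dvd.mp h) dvd_rfl

/-- `κ = N` exactly for the trivial coset -/
theorem kappaQ_eq_iff (N : ℕ) (q : Q N) : kappaQ N q = N ↔ q = QuotientGroup.mk 1 := by
  induction q using QuotientGroup.induction_on with
  | H g =>
    rw [kappaQ_mk, kappa_eq_iff_mem_Gamma0]
    constructor
    · intro h
      exact (QuotientGroup.eq.mpr (by simpa using h)).symm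
    · intro h
      have := QuotientGroup.eq.mp h.symm
      simpa using this

/-- for `d ∣ N`: `gcd(d, g₁₀) = gcd(d, κ_N(g))` -/
theorem gcd_eq_gcd_kappa {d N : ℕ} (hdN : d ∣ N) (g : SL(2, ℤ)) :
    Int.gcd (d : ℤ) (g 1 0) = Nat.gcd d (kappa N g) := by
  unfold kappa
  apply Nat.dvd_antisymm
  · apply Nat.dvd_gcd
    · exact Int.natCast_dvd_natCast.mp (by
        have : ((Int.gcd (d : ℤ) (g 1 0) : ℕ) : ℤ) ∣ (d : ℤ) := Int.gcd_dvd_left _ _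
        simpa using this)
    · apply Nat.dvd_gcd
      · have : ((Int.gcd (d : ℤ) (g 1 0) : ℕ) : ℤ) ∣ g 1 0 := Int.gcd_dvd_right _ _
        exact Int.natCast_dvd.mp this
      · have h1 : Int.gcd (d : ℤ) (g 1 0) ∣ d := Int.natCast_dvd_natCast.mp (by
          have : ((Int.gcd (d : ℤ) (g 1 0) : ℕ) : ℤ) ∣ (d : ℤ) := Int.gcd_dvd_left _ _
          simpa using this)
        exact h1.trans hdN
  · have h1 : Nat.gcd d (Int.gcd (g 1 0) N) ∣ d := Nat.gcd_dvd_left _ _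
    have h2 : Nat.gcd d (Int.gcd (g 1 0) N) ∣ Int.gcd (g 1 0) N := Nat.gcd_dvd_right _ _
    have h3 : ((Int.gcd (g 1 0) N : ℕ) : ℤ) ∣ g 1 0 := Int.gcd_dvd_left _ _
    apply Int.dvd_gcd
    · exact Int.natCast_dvd_natCast.mpr h1
    · exact (Int.natCast_dvd_natCast.mpr h2).trans h3

/-! ### The refined Hermite decomposition -/

/-- Hermite normal form of `diag(N,1) δ` with `a = gcd(N, δ₁₀)`, `0 ≤ b < d`, `gcd(a,b,d) = 1`. -/
theorem hermite_decomp_gcd (N : ℕ) [NeZero N] (δ : SL(2, ℤ)) :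
    ∃ (γ : SL(2, ℤ)) (a b d : ℤ), 0 < a ∧ 0 < d ∧ a * d = N ∧
      a = Int.gcd (N : ℤ) (δ 1 0) ∧ 0 ≤ b ∧ b < d ∧ Int.gcd a (Int.gcd b d) = 1 ∧
      (N : ℤ) * δ 0 0 = γ 0 0 * a ∧ (N : ℤ) * δ 0 1 = γ 0 0 * b + γ 0 1 * d ∧
      δ 1 0 = γ 1 0 * a ∧ δ 1 1 = γ 1 0 * b + γ 1 1 * d := by
  obtain ⟨γ, a, b, d, ha, hd, had, h1, h2, h3, h4⟩ := hermite_decomp N δ
  have hdetγ := det_eq γ
  have hdetδ := det_eq δ
  -- normalise `b`
  set k := b / d with hk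
  set b' := b % d with hb'
  have hbk : b = d * k + b' := (Int.mul_ediv_add_emod b d).symm
  have hb'0 : 0 ≤ b' := Int.emod_nonneg _ hd.ne'
  have hb'd : b' < d := Int.emod_lt_of_pos _ hd
  let γ' : SL(2, ℤ) := ⟨!![γ 0 0, γ 0 0 * k + γ 0 1; γ 1 0, γ 1 0 * k + γ 1 1], by
    rw [Matrix.det_fin_two_of]; linear_combination hdetγ⟩
  have g00 : γ' 0 0 = γ 0 0 := by simp [γ']
  have g01 : γ' 0 1 = γ 0 0 * k + γ 0 1 := by simp [γ']
  have g10 : γ' 1 0 = γ 1 0 := by simp [γ']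
  have g11 : γ' 1 1 = γ 1 0 * k + γ 1 1 := by simp [γ']
  refine ⟨γ', a, b', d, ha, hd, had, ?_, hb'0, hb'd, ?_, ?_, ?_, ?_, ?_⟩
  · -- `a = gcd(N, δ₁₀)`
    have h5 : ((Int.gcd (N : ℤ) (δ 1 0) : ℕ) : ℤ) = a := by
      apply Int.dvd_antisymm (by positivity) ha.le
      · have hN : ((Int.gcd (N : ℤ) (δ 1 0) : ℕ) : ℤ) ∣ (N : ℤ) := Int.gcd_dvd_left _ _
        have hδ : ((Int.gcd (N : ℤ) (δ 1 0) : ℕ) : ℤ) ∣ δ 1 0 := Int.gcd_dvd_right _ _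
        have e : a = (N : ℤ) * (γ 1 1 * δ 0 0) + δ 1 0 * (-γ 0 1) := by
          linear_combination (-a) * hdetγ - γ 1 1 * h1 + γ 0 1 * h3
        rw [e]
        exact dvd_add (Dvd.dvd.mul_right hN _) (Dvd.dvd.mul_right hδ _)
      · apply Int.dvd_coe_gcd
        · exact ⟨d, had.symm⟩
        · exact ⟨γ 1 0, by rw [h3]; ring⟩
    exact h5.symm
  · -- primitivity
    set t := Int.gcd a (Int.gcd b' d) with ht
    have ht1 : (t : ℤ) ∣ a := Int.gcd_dvd_left _ _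
    have ht2 : (t : ℤ) ∣ ((Int.gcd b' d : ℕ) : ℤ) := Int.gcd_dvd_right _ _
    have ht3 : (t : ℤ) ∣ b' := ht2.trans (Int.gcd_dvd_left _ _)
    have ht4 : (t : ℤ) ∣ d := ht2.trans (Int.gcd_dvd_right _ _)
    have ht5 : (t : ℤ) ∣ δ 1 0 := by rw [h3]; exact Dvd.dvd.mul_left ht1 _
    have ht6 : (t : ℤ) ∣ δ 1 1 := by
      rw [h4, hbk]
      exact dvd_add (Dvd.dvd.mul_left (dvd_add (Dvd.dvd.mul_right ht4 _) ht3) _)
        (Dvd.dvd.mul_left ht4 _)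
    have ht7 : (t : ℤ) ∣ 1 := by
      rw [← hdetδ]
      exact dvd_sub (Dvd.dvd.mul_left ht6 _) (Dvd.dvd.mul_left ht5 _)
    exact Nat.eq_one_of_dvd_one (Int.natCast_dvd_natCast.mp (by simpa using ht7))
  · rw [g00]; exact h1
  · rw [g00, g01, h2, hbk]; ring
  · rw [g10]; exact h3
  · rw [g10, g11, h4, hbk]; ring

/-- The point form: `d (g⁻¹ z) = γ ((a z + b) / e)` with `a = gcd(d, κ_N(g))` (`d ∣ N`),
`0 ≤ b < e`, `gcd(a,b,e) = 1`. -/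
theorem exists_hermite_point_gcd {d N : ℕ} [NeZero d] (hdN : d ∣ N) (g : SL(2, ℤ)) :
    ∃ (γ : SL(2, ℤ)) (a b e : ℤ) (ha : 0 < a) (he : 0 < e), a * e = d ∧
      a = Nat.gcd d (kappa N g) ∧ 0 ≤ b ∧ b < e ∧ Int.gcd a (Int.gcd b e) = 1 ∧
      ∀ z : ℍ, mulN d (g⁻¹ • z) = γ • affH a b e (intCast_pos' ha) (intCast_pos' he) z := by
  obtain ⟨γ, a, b, e, ha, he, hae, hgcd, hb0, hbe, hprim, h1, h2, h3, h4⟩ :=
    hermite_decomp_gcd d g⁻¹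
  refine ⟨γ, a, b, e, ha, he, hae, ?_, hb0, hbe, hprim,
    mulN_smul_of_decomp d g⁻¹ γ a b e ha he h1 h2 h3 h4⟩
  rw [hgcd, inv_one_zero, Int.gcd_neg, gcd_eq_gcd_kappa hdN g]

section J

variable {J : ℍ → ℂ}

/-- **Hermite shape of the conjugates of `j_d`, `d ∣ N`, with the level `κ_N`.** -/
theorem conjG_eq_affH_gcd (hinv : ∀ (γ : SL(2, ℤ)) (z : ℍ), J (γ • z) = J z)
    {d N : ℕ} [NeZero d] (hdN : d ∣ N) (g : SL(2, ℤ)) :
    ∃ (a b e : ℤ) (ha : 0 < a) (he : 0 < e), a * e = d ∧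
      a = Nat.gcd d (kappa N g) ∧ 0 ≤ b ∧ b < e ∧ Int.gcd a (Int.gcd b e) = 1 ∧
      ∀ z : ℍ, conjG J d g z = J (affH a b e (intCast_pos' ha) (intCast_pos' he) z) := by
  obtain ⟨γ, a, b, e, ha, he, hae, hgcd, hb0, hbe, hprim, h⟩ := exists_hermite_point_gcd hdN g
  exact ⟨a, b, e, ha, he, hae, hgcd, hb0, hbe, hprim, fun z => by
    unfold conjG
    rw [h z, hinv]⟩

end J

/-! ### The Hermite data determine the coset (level `N`) -/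

/-- Two elements of `SL(2,ℤ)` with the same Hermite data `(a, b, e)` for `diag(N,1) δ` differ by an
element of `Γ₀(N)` on the left. -/
theorem mul_inv_mem_Gamma0_of_hermite (N : ℕ) (δ δ' γ γ' : SL(2, ℤ)) (a b e : ℤ)
    (hae : a * e = N)
    (h3 : δ 1 0 = γ 1 0 * a) (h4 : δ 1 1 = γ 1 0 * b + γ 1 1 * e)
    (h3' : δ' 1 0 = γ' 1 0 * a) (h4' : δ' 1 1 = γ' 1 0 * b + γ' 1 1 * e) :
    δ * δ'⁻¹ ∈ Gamma0 N := by
  rw [mem_Gamma0_iff_dvd]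
  have hentry : (δ * δ'⁻¹) 1 0 = δ 1 0 * δ' 1 1 - δ 1 1 * δ' 1 0 := by
    rw [Matrix.SpecialLinearGroup.coe_mul, Matrix.mul_apply, Fin.sum_univ_two,
      Matrix.SpecialLinearGroup.coe_inv, Matrix.adjugate_fin_two]
    simp
    ring
  refine ⟨γ 1 0 * γ' 1 1 - γ 1 1 * γ' 1 0, ?_⟩
  rw [hentry, h3, h4, h3', h4', ← hae]
  ring

/-- the cosets `g Γ₀(N)` with the same Hermite data coincide -/
theorem mk_eq_of_hermite (N : ℕ) (g g' γ γ' : SL(2, ℤ)) (a b e : ℤ)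
    (hae : a * e = N)
    (h3 : (g⁻¹) 1 0 = γ 1 0 * a) (h4 : (g⁻¹) 1 1 = γ 1 0 * b + γ 1 1 * e)
    (h3' : (g'⁻¹) 1 0 = γ' 1 0 * a) (h4' : (g'⁻¹) 1 1 = γ' 1 0 * b + γ' 1 1 * e) :
    (QuotientGroup.mk g : Q N) = QuotientGroup.mk g' := by
  have h := mul_inv_mem_Gamma0_of_hermite N g⁻¹ g'⁻¹ γ γ' a b e hae h3 h4 h3' h4'
  rw [inv_inv] at h
  exact QuotientGroup.eq.mpr h

/-- a choice of normalised Hermite data `(a, b, e)` of `diag(N,1) g⁻¹` -/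
theorem exists_hermiteData (N : ℕ) [NeZero N] (g : SL(2, ℤ)) :
    ∃ abe : ℤ × ℤ × ℤ, 0 < abe.1 ∧ 0 < abe.2.2 ∧ abe.1 * abe.2.2 = N ∧
      abe.1 = Nat.gcd N (kappa N g) ∧ 0 ≤ abe.2.1 ∧ abe.2.1 < abe.2.2 ∧
      Int.gcd abe.1 (Int.gcd abe.2.1 abe.2.2) = 1 ∧
      ∃ γ : SL(2, ℤ), (N : ℤ) * (g⁻¹) 0 0 = γ 0 0 * abe.1 ∧
        (N : ℤ) * (g⁻¹) 0 1 = γ 0 0 * abe.2.1 + γ 0 1 * abe.2.2 ∧
        (g⁻¹) 1 0 = γ 1 0 * abe.1 ∧ (g⁻¹) 1 1 = γ 1 0 * abe.2.1 + γ 1 1 * abe.2.2 := by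
  obtain ⟨γ, a, b, e, ha, he, hae, hgcd, hb0, hbe, hprim, h1, h2, h3, h4⟩ :=
    hermite_decomp_gcd N g⁻¹
  refine ⟨(a, b, e), ha, he, hae, ?_, hb0, hbe, hprim, γ, h1, h2, h3, h4⟩
  show a = _
  rw [hgcd, inv_one_zero, Int.gcd_neg, gcd_eq_gcd_kappa dvd_rfl g]

end Fermat.Agent.S28.HermiteGcd
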