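import Mathlib
import Fermat.Agent.S28.HermiteGcd
import Fermat.Agent.S24.JFun
import Fermat.Agent.S24.PsiLe
import Fermat.Agent.S24.EtaBridge
import Fermat.Agent.S24.CuspExp
import Fermat.Agent.S24.JPoly

set_option autoImplicit false

/-!
# S28 / A2: the conjugates of the `Δ`-quotient units

For `d ∣ N` the modular unit `φ_d(z) = d¹² Δ(d z) / Δ(z)` on `Γ₀(d)` has the `SL(2,ℤ)`-conjugates
`unitG d g z = φ_d (g⁻¹ z)` (same indexing as `JConj.conjG J d g`).  With the Hermite data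
`diag(d,1) g⁻¹ = γ (a b; 0 e)` the weight-`12` cocycle gives
`unitG d g z = a¹² Δ((a z + b)/e) / Δ(z)`, `a = gcd(d, κ_N(g))`, and hence the exact `q_N`-expansion:
`unitG d g · q_N^N` is a power series in `q_N` over any subring containing the `N`-th roots of unity, of
order `m = a (N/e) = N a²/d` with leading coefficient `a¹² exp(2πi b/e)`.
-/

namespace Fermat.Agent.S28.DeltaConj

open UpperHalfPlane CongruenceSubgroup Matrix.SpecialLinearGroup Filter Topology Complex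
open Fermat.Agent.S20 Fermat.Agent.S20.Rank Fermat.Agent.S24 Fermat.Agent.S24.JConj
open Fermat.Agent.S28.HermiteGcd
open scoped MatrixGroups ModularForm Manifold Real

noncomputable section

local notation "Δ" => ModularForm.discriminant

/-- weight `12` transformation law of `Δ`, natural-number exponent -/
theorem delta_smul (γ : SL(2, ℤ)) (z : ℍ) : Δ (γ • z) = denom γ z ^ 12 * Δ z := by
  have h := levelOne_smul_apply isMF_disc γ z
  rw [h]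
  norm_cast

theorem delta_ne_zero (z : ℍ) : Δ z ≠ 0 := ModularForm.discriminant_ne_zero z

/-- **Weight-12 cocycle.** If `diag(d,1) δ = γ (a b; 0 e)` then
`d¹² Δ(d (δ z)) / Δ(δ z) = a¹² Δ((a z + b)/e) / Δ(z)`. -/
theorem unit_of_decomp (d : ℕ) [NeZero d] (δ γ : SL(2, ℤ)) (a b e : ℤ) (ha : 0 < a) (he : 0 < e)
    (hae : a * e = d)
    (h1 : (d : ℤ) * δ 0 0 = γ 0 0 * a) (h2 : (d : ℤ) * δ 0 1 = γ 0 0 * b + γ 0 1 * e)
    (h3 : δ 1 0 = γ 1 0 * a) (h4 : δ 1 1 = γ 1 0 * b + γ 1 1 * e) (z : ℍ) :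
    (d : ℂ) ^ 12 * Δ (mulN d (δ • z)) / Δ (δ • z) =
      (a : ℂ) ^ 12 * Δ (affH a b e (intCast_pos' ha) (intCast_pos' he) z) / Δ z := by
  set w := affH a b e (intCast_pos' ha) (intCast_pos' he) z with hw
  have hpt := mulN_smul_of_decomp d δ γ a b e ha he h1 h2 h3 h4 z
  rw [← hw] at hpt
  rw [hpt, delta_smul γ w, delta_smul δ z]
  have heC : (e : ℂ) ≠ 0 := by exact_mod_cast he.ne'
  have hwc : (w : ℂ) = ((a : ℂ) * z + b) / e := by
    rw [hw, coe_affH]; push_cast; rfl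
  have c3 : ((δ 1 0 : ℤ) : ℂ) = (γ 1 0 : ℤ) * a := by exact_mod_cast h3
  have c4 : ((δ 1 1 : ℤ) : ℂ) = (γ 1 0 : ℤ) * b + (γ 1 1 : ℤ) * e := by exact_mod_cast h4
  have hden : denom δ z = (e : ℂ) * denom γ w := by
    rw [ModularGroup.denom_apply, ModularGroup.denom_apply, hwc]
    rw [c3, c4]
    field_simp
    ring
  have hdC : (d : ℂ) = (a : ℂ) * e := by exact_mod_cast congrArg (fun x : ℤ => (x : ℂ)) hae.symm
  have hden1 : denom γ w ≠ 0 := denom_ne_zero _ w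
  have hΔz := delta_ne_zero z
  rw [hden, hdC]
  field_simp

/-- the conjugate of the unit `φ_d(z) = d¹² Δ(dz)/Δ(z)` attached to `g : SL(2,ℤ)` -/
def unitG (d : ℕ) [NeZero d] (g : SL(2, ℤ)) (z : ℍ) : ℂ :=
  (d : ℂ) ^ 12 * Δ (mulN d (g⁻¹ • z)) / Δ (g⁻¹ • z)

theorem unitG_one (d : ℕ) [NeZero d] (z : ℍ) :
    unitG d 1 z = (d : ℂ) ^ 12 * Δ (mulN d z) / Δ z := by
  unfold unitG
  rw [inv_one, one_smul]

theorem unitG_ne_zero (d : ℕ) [NeZero d] (g : SL(2, ℤ)) (z : ℍ) : unitG d g z ≠ 0 := by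
  unfold unitG
  have hd : (d : ℂ) ≠ 0 := by exact_mod_cast NeZero.ne d
  exact div_ne_zero (mul_ne_zero (pow_ne_zero _ hd) (delta_ne_zero _)) (delta_ne_zero _)

theorem unitG_smul (d : ℕ) [NeZero d] (g δ : SL(2, ℤ)) (z : ℍ) :
    unitG d g (δ • z) = unitG d (δ⁻¹ * g) z := by
  unfold unitG
  rw [mul_inv_rev, inv_inv, mul_smul]

theorem mdiff_unitG (d : ℕ) [NeZero d] (g : SL(2, ℤ)) : MDiff (unitG d g) := by
  have h1 : MDiff (fun z : ℍ => Δ (mulN d z)) :=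
    mdiff_comp_affH _ _ _ _ _ mdiff_delta
  have h2 : MDiff (fun z : ℍ => Δ (mulN d (g⁻¹ • z))) := Fermat.Agent.S24.PsiLe.mdiff_comp_SL g⁻¹ h1
  have h3 : MDiff (fun z : ℍ => Δ (g⁻¹ • z)) := Fermat.Agent.S24.PsiLe.mdiff_comp_SL g⁻¹ mdiff_delta
  have h4 : MDiff (fun z : ℍ => (d : ℂ) ^ 12 * Δ (mulN d (g⁻¹ • z))) :=
    (mdifferentiable_const (c := (d : ℂ) ^ 12)).mul h2
  exact h4.div h3 (fun z => delta_ne_zero _)

/-- `φ_d` is invariant under `Γ₀(d)`. -/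
theorem unit_smul_of_mem_Gamma0 (d : ℕ) [NeZero d] (γ : SL(2, ℤ)) (hγ : γ ∈ Gamma0 d) (z : ℍ) :
    (d : ℂ) ^ 12 * Δ (mulN d (γ • z)) / Δ (γ • z) = (d : ℂ) ^ 12 * Δ (mulN d z) / Δ z := by
  rw [Gamma0_mem] at hγ
  have hdvd : (d : ℤ) ∣ γ 1 0 := (ZMod.intCast_zmod_eq_zero_iff_dvd _ _).mp hγ
  obtain ⟨c', hc'⟩ := hdvd
  have hdet : γ 0 0 * γ 1 1 - γ 0 1 * γ 1 0 = 1 := HermiteGcd.det_eq γ
  have hd : (0 : ℤ) < d := by exact_mod_cast Nat.pos_of_ne_zero (NeZero.ne d)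
  let γ' : SL(2, ℤ) := ⟨!![γ 0 0, d * γ 0 1; c', γ 1 1], by
    rw [Matrix.det_fin_two_of]; rw [hc'] at hdet; linarith⟩
  have := unit_of_decomp d γ γ' d 0 1 hd one_pos (by ring) (by simp [γ', mul_comm]) (by simp [γ'])
    (by simp [γ', hc', mul_comm]) (by simp [γ']) z
  rw [this]
  have hpt : affH (d : ℤ) (0 : ℤ) (1 : ℤ) (intCast_pos' hd) (intCast_pos' one_pos) z = mulN d z := by
    apply UpperHalfPlane.ext
    rw [coe_mulN, coe_affH]
    push_cast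
    ring
  rw [hpt]
  push_cast
  rfl

theorem unitG_mul_of_mem_Gamma0 (d : ℕ) [NeZero d] (g γ : SL(2, ℤ)) (hγ : γ ∈ Gamma0 d) :
    unitG d (g * γ) = unitG d g := by
  funext z
  unfold unitG
  rw [mul_inv_rev, mul_smul]
  exact unit_smul_of_mem_Gamma0 d γ⁻¹ (inv_mem hγ) _

theorem unitG_mul_of_mem_Gamma0_of_dvd {d N : ℕ} [NeZero d] (hdN : d ∣ N) (g γ : SL(2, ℤ))
    (hγ : γ ∈ Gamma0 N) : unitG d (g * γ) = unitG d g :=
  unitG_mul_of_mem_Gamma0 d g γ (JConj.Gamma0_le_of_dvd hdN hγ)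

/-- the conjugate unit attached to a coset `q = g Γ₀(N)` -/
def unitQ (d N : ℕ) [NeZero d] (q : Q N) : ℍ → ℂ := unitG d q.out

theorem unitQ_mk {d N : ℕ} [NeZero d] (hdN : d ∣ N) (g : SL(2, ℤ)) :
    unitQ d N (QuotientGroup.mk g) = unitG d g := by
  unfold unitQ
  obtain ⟨h, hh⟩ := QuotientGroup.mk_out_eq_mul (Gamma0 N) g
  rw [hh]
  exact unitG_mul_of_mem_Gamma0_of_dvd hdN g h h.2

/-- translation law: `unitQ q (δ z) = unitQ (δ⁻¹ q) z` -/
theorem unitQ_smul {d N : ℕ} [NeZero d] (hdN : d ∣ N) (q : Q N) (δ : SL(2, ℤ)) (z : ℍ) :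
    unitQ d N q (δ • z) = unitQ d N (δ⁻¹ • q) z := by
  induction q using QuotientGroup.induction_on with
  | H g =>
    have : δ⁻¹ • (QuotientGroup.mk g : Q N) = QuotientGroup.mk (δ⁻¹ * g) := rfl
    rw [this, unitQ_mk hdN, unitQ_mk hdN, unitG_smul]

/-- **Joint Hermite shape** of the conjugates of `j_d` and of `φ_d`, with the level `κ_N`. -/
theorem exists_hermite_joint {J : ℍ → ℂ} (hinv : ∀ (γ : SL(2, ℤ)) (z : ℍ), J (γ • z) = J z)
    {d N : ℕ} [NeZero d] (hdN : d ∣ N) (g : SL(2, ℤ)) :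
    ∃ (a b e : ℤ) (ha : 0 < a) (he : 0 < e), a * e = d ∧
      a = Nat.gcd d (kappa N g) ∧ 0 ≤ b ∧ b < e ∧ Int.gcd a (Int.gcd b e) = 1 ∧
      (∀ z : ℍ, conjG J d g z = J (affH a b e (intCast_pos' ha) (intCast_pos' he) z)) ∧
      ∀ z : ℍ, unitG d g z =
        (a : ℂ) ^ 12 * Δ (affH a b e (intCast_pos' ha) (intCast_pos' he) z) / Δ z := by
  obtain ⟨γ, a, b, e, ha, he, hae, hgcd, hb0, hbe, hprim, h1, h2, h3, h4⟩ :=
    hermite_decomp_gcd d g⁻¹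
  refine ⟨a, b, e, ha, he, hae, ?_, hb0, hbe, hprim, fun z => ?_, fun z => ?_⟩
  · rw [hgcd, inv_one_zero, Int.gcd_neg, gcd_eq_gcd_kappa hdN g]
  · unfold conjG
    rw [mulN_smul_of_decomp d g⁻¹ γ a b e ha he h1 h2 h3 h4 z, hinv]
  · exact unit_of_decomp d g⁻¹ γ a b e ha he hae h1 h2 h3 h4 z

theorem unitG_eq_affH {d N : ℕ} [NeZero d] (hdN : d ∣ N) (g : SL(2, ℤ)) :
    ∃ (a b e : ℤ) (ha : 0 < a) (he : 0 < e), a * e = d ∧
      a = Nat.gcd d (kappa N g) ∧ 0 ≤ b ∧ b < e ∧ Int.gcd a (Int.gcd b e) = 1 ∧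
      ∀ z : ℍ, unitG d g z =
        (a : ℂ) ^ 12 * Δ (affH a b e (intCast_pos' ha) (intCast_pos' he) z) / Δ z := by
  obtain ⟨a, b, e, ha, he, hae, hgcd, hb0, hbe, hprim, -, h⟩ :=
    exists_hermite_joint (J := jFun) jFun_smul hdN g
  exact ⟨a, b, e, ha, he, hae, hgcd, hb0, hbe, hprim, h⟩


/-! ### The exact `q_N`-expansion of the conjugate units -/

open Fermat.Agent.S24.EtaBridge (etaFun etaFun_ne_zero toC rep_dedekindEtaUnit
  rep_dedekindEtaUnitInv)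
open Fermat.Agent.S24.CuspExp (substMulPow coeff_substMulPow rep_substMulPow rep_const rep_X_pow
  qParam_one_affH exp_ratio_pow_eq_one norm_exp_two_pi_I_mul_ratio)
open Fermat.Agent.S24.JPoly (qq CoeffIn qq_ne_zero qq_pow_self qq_one norm_qq_lt_one)

local notation "𝕢" => Function.Periodic.qParam

/-- `Δ = q ∏ (1 - qⁿ)²⁴` in terms of the eta function on the disc -/
theorem delta_eq_q_mul_eta (z : ℍ) : Δ z = 𝕢 1 (z : ℂ) * etaFun (𝕢 1 (z : ℂ)) ^ 24 := by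
  have h2 := ModularForm.discriminant_eq_q_prod z
  have hq : ‖𝕢 1 (z : ℂ)‖ < 1 := Function.Periodic.norm_qParam_lt_one one_pos z.im_pos
  have h3 : ∏' n : ℕ, (1 - ModularForm.eta_q n ↑z) ^ 24 = etaFun (𝕢 1 (z : ℂ)) ^ 24 := by
    unfold etaFun
    exact (ModularForm.multipliable_one_sub_pow hq).tprod_pow 24
  rw [h2, h3]

/-- the power series `c ζ X^m · E(ζ X^m) · E(X^N)⁻¹`, `E = ∏ (1 - Xⁿ)²⁴` -/
def unitSeries (c ζ : ℂ) (m N : ℕ) : PowerSeries ℂ :=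
  PowerSeries.X ^ m * (PowerSeries.C (c * ζ) *
    (substMulPow (toC ModularCurve.dedekindEtaUnit) ζ m *
      substMulPow (toC ModularCurve.dedekindEtaUnitInv) 1 N))

theorem coeff_zero_substMulPow (P : PowerSeries ℂ) (ζ : ℂ) (m : ℕ) :
    PowerSeries.coeff 0 (substMulPow P ζ m) = PowerSeries.coeff 0 P := by
  rw [coeff_substMulPow]
  simp

theorem coeff_zero_toC_dedekindEtaUnit :
    PowerSeries.coeff 0 (toC ModularCurve.dedekindEtaUnit) = 1 := by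
  rw [toC, PowerSeries.coeff_map, PowerSeries.coeff_zero_eq_constantCoeff,
    ModularCurve.constantCoeff_dedekindEtaUnit]
  simp

theorem coeff_zero_toC_dedekindEtaUnitInv :
    PowerSeries.coeff 0 (toC ModularCurve.dedekindEtaUnitInv) = 1 := by
  rw [toC, PowerSeries.coeff_map, PowerSeries.coeff_zero_eq_constantCoeff,
    ModularCurve.constantCoeff_dedekindEtaUnitInv]
  simp

theorem coeff_unitSeries_of_lt (c ζ : ℂ) (m N : ℕ) {k : ℕ} (hk : k < m) :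
    PowerSeries.coeff k (unitSeries c ζ m N) = 0 := by
  unfold unitSeries
  rw [PowerSeries.coeff_X_pow_mul', if_neg (not_le.mpr hk)]

theorem coeff_unitSeries_self (c ζ : ℂ) (m N : ℕ) :
    PowerSeries.coeff m (unitSeries c ζ m N) = c * ζ := by
  unfold unitSeries
  rw [PowerSeries.coeff_X_pow_mul', if_pos le_rfl, Nat.sub_self, PowerSeries.coeff_C_mul,
    PowerSeries.coeff_zero_eq_constantCoeff, map_mul, ← PowerSeries.coeff_zero_eq_constantCoeff,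
    coeff_zero_substMulPow, coeff_zero_substMulPow,
    coeff_zero_toC_dedekindEtaUnit, coeff_zero_toC_dedekindEtaUnitInv]
  ring

theorem coeffIn_substMulPow_toC (A : Subring ℂ) (P : PowerSeries ℤ) {ζ : ℂ} (hζ : ζ ∈ A) (m : ℕ) :
    CoeffIn A (substMulPow (toC P) ζ m) := by
  intro k
  rw [coeff_substMulPow]
  split_ifs
  · refine A.mul_mem ?_ (A.pow_mem hζ _)
    rw [toC, PowerSeries.coeff_map]
    exact intCast_mem A _
  · exact A.zero_mem

theorem coeffIn_unitSeries (A : Subring ℂ) {c ζ : ℂ} (hc : c ∈ A) (hζ : ζ ∈ A) (m N : ℕ) :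
    CoeffIn A (unitSeries c ζ m N) := by
  unfold unitSeries
  refine (CoeffIn.X.pow m).mul (CoeffIn.C_mul (A.mul_mem hc hζ) ?_)
  exact (coeffIn_substMulPow_toC A _ hζ m).mul (coeffIn_substMulPow_toC A _ A.one_mem N)

theorem rep_unitSeries (c : ℂ) {ζ : ℂ} (hζ : ‖ζ‖ ≤ 1) {m N : ℕ} (hm : 0 < m) (hN : 0 < N) :
    Fermat.Agent.S24.EtaBridge.Rep (unitSeries c ζ m N)
      (fun q => q ^ m * (c * ζ * (etaFun (ζ * q ^ m) ^ 24 * (etaFun (1 * q ^ N) ^ 24)⁻¹))) := by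
  unfold unitSeries
  exact (rep_X_pow m).mul ((rep_const (c * ζ)).mul
    ((rep_substMulPow rep_dedekindEtaUnit hζ hm).mul
      (rep_substMulPow rep_dedekindEtaUnitInv (by simp) hN)))

/-- **Exact expansion of `a¹² Δ((az+b)/e)/Δ(z)`**, `e t = N`, `m = a t`. -/
theorem rep_unit_affH {N : ℕ} [NeZero N] (a b e : ℤ) (ha : 0 < a) (he : 0 < e) {t : ℤ}
    (ht : (N : ℤ) = e * t) :
    Fermat.Agent.S24.JPoly.Rep N
      (unitSeries ((a : ℂ) ^ 12) (cexp (2 * π * Complex.I * ((b : ℂ) / e))) (a * t).toNat N)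
      (fun z : ℍ => (a : ℂ) ^ 12 * Δ (affH a b e (intCast_pos' ha) (intCast_pos' he) z) / Δ z *
        qq N z ^ N) := by
  have hN : 0 < N := Nat.pos_of_ne_zero (NeZero.ne N)
  have htpos : 0 < t := by
    have h1 : (0 : ℤ) < e * t := by rw [← ht]; exact_mod_cast hN
    exact (mul_pos_iff_of_pos_left he).mp h1
  set m : ℕ := (a * t).toNat with hm
  have hmpos : 0 < m := Int.pos_iff_toNat_pos.mp (mul_pos ha htpos)
  set ζ : ℂ := cexp (2 * π * Complex.I * ((b : ℂ) / e)) with hζ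
  have hζnorm : ‖ζ‖ ≤ 1 := (norm_exp_two_pi_I_mul_ratio b e).le
  have hrep := rep_unitSeries ((a : ℂ) ^ 12) hζnorm hmpos hN
  intro z
  have hq : ‖qq N z‖ < 1 := norm_qq_lt_one N z
  have h := hrep (qq N z) hq
  -- identify the value
  set w := affH a b e (intCast_pos' ha) (intCast_pos' he) z with hw
  have hqw : 𝕢 1 (w : ℂ) = ζ * qq N z ^ m := by
    rw [hw, qParam_one_affH a b e ha he hN ht z, Fermat.Agent.S24.JPoly.qq_def]
  have hqz : 𝕢 1 (z : ℂ) = qq N z ^ N := by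
    rw [qq_pow_self, qq_one]
  have hq0 : qq N z ≠ 0 := qq_ne_zero N z
  have hζ0 : ζ ≠ 0 := Complex.exp_ne_zero _
  have hqN : ‖qq N z ^ N‖ < 1 := by
    rw [norm_pow]; exact pow_lt_one₀ (norm_nonneg _) hq hN.ne'
  have he2 : etaFun (qq N z ^ N) ^ 24 ≠ 0 := pow_ne_zero _ (etaFun_ne_zero hqN)
  have hval : (a : ℂ) ^ 12 * Δ w / Δ z * qq N z ^ N =
      qq N z ^ m * ((a : ℂ) ^ 12 * ζ * (etaFun (ζ * qq N z ^ m) ^ 24 *
        (etaFun (1 * qq N z ^ N) ^ 24)⁻¹)) := by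
    rw [delta_eq_q_mul_eta w, delta_eq_q_mul_eta z, hqw, hqz, one_mul]
    field_simp
  show HasSum _ ((a : ℂ) ^ 12 * Δ w / Δ z * qq N z ^ N)
  rw [hval]
  exact h

/-- **A2, main export.** Joint Hermite data of `conjG J d g` and `unitG d g` and the exact
`q_N`-expansion of `unitG d g` over any subring `A` containing the `N`-th roots of unity. -/
theorem exists_unit_expansion (A : Subring ℂ) {N : ℕ} [NeZero N]
    (hroots : ∀ ζ : ℂ, ζ ^ N = 1 → ζ ∈ A)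
    {J : ℍ → ℂ} (hinv : ∀ (γ : SL(2, ℤ)) (z : ℍ), J (γ • z) = J z)
    {d : ℕ} [NeZero d] (hdN : d ∣ N) (g : SL(2, ℤ)) :
    ∃ (a b e : ℤ) (ha : 0 < a) (he : 0 < e) (m : ℕ) (p : PowerSeries ℂ), a * e = d ∧
      a = Nat.gcd d (kappa N g) ∧ 0 ≤ b ∧ b < e ∧ Int.gcd a (Int.gcd b e) = 1 ∧
      (m : ℤ) * e = a * N ∧ (m : ℤ) * d = N * a ^ 2 ∧
      (∀ z : ℍ, conjG J d g z = J (affH a b e (intCast_pos' ha) (intCast_pos' he) z)) ∧
      (∀ z : ℍ, unitG d g z =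
        (a : ℂ) ^ 12 * Δ (affH a b e (intCast_pos' ha) (intCast_pos' he) z) / Δ z) ∧
      CoeffIn A p ∧
      Fermat.Agent.S24.JPoly.Rep N p (fun z : ℍ => unitG d g z * qq N z ^ N) ∧
      (∀ k < m, PowerSeries.coeff k p = 0) ∧
      PowerSeries.coeff m p = (a : ℂ) ^ 12 * cexp (2 * π * Complex.I * ((b : ℂ) / e)) := by
  obtain ⟨a, b, e, ha, he, hae, hgcd, hb0, hbe, hprim, hJ, hU⟩ := exists_hermite_joint hinv hdN g
  have heN : e ∣ (N : ℤ) := by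
    have h1 : e ∣ (d : ℤ) := Dvd.intro_left a hae
    exact h1.trans (by exact_mod_cast hdN)
  obtain ⟨t, ht⟩ := heN
  have hN : 0 < N := Nat.pos_of_ne_zero (NeZero.ne N)
  have htpos : 0 < t := by
    have h1 : (0 : ℤ) < e * t := by rw [← ht]; exact_mod_cast hN
    exact (mul_pos_iff_of_pos_left he).mp h1
  have hm : (((a * t).toNat : ℕ) : ℤ) = a * t := Int.toNat_of_nonneg (mul_pos ha htpos).le
  set ζ : ℂ := cexp (2 * π * Complex.I * ((b : ℂ) / e)) with hζ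
  have hζN : ζ ^ N = 1 := exp_ratio_pow_eq_one b e he ht
  refine ⟨a, b, e, ha, he, (a * t).toNat, unitSeries ((a : ℂ) ^ 12) ζ (a * t).toNat N, hae, hgcd,
    hb0, hbe, hprim, ?_, ?_, hJ, hU, ?_, ?_, ?_, ?_⟩
  · rw [hm, ht]; ring
  · rw [hm, ht, ← hae]; ring
  · exact coeffIn_unitSeries A (A.pow_mem (intCast_mem A a) 12) (hroots ζ hζN) _ _
  · have := rep_unit_affH (N := N) a b e ha he ht
    refine this.congr fun z => ?_
    rw [hU z]
  · intro k hk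
    exact coeff_unitSeries_of_lt _ _ _ _ hk
  · exact coeff_unitSeries_self _ _ _ _

/-- the conjugate units have `A`-rational finite-pole `q_N`-expansions -/
theorem hasRatExp_unitG (A : Subring ℂ) {N : ℕ} [NeZero N]
    (hroots : ∀ ζ : ℂ, ζ ^ N = 1 → ζ ∈ A) {d : ℕ} [NeZero d] (hdN : d ∣ N) (g : SL(2, ℤ)) :
    Fermat.Agent.S24.JPoly.HasRatExp N A (unitG d g) := by
  obtain ⟨a, b, e, ha, he, m, p, -, -, -, -, -, -, -, -, -, hp, hrep, -, -⟩ :=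
    exists_unit_expansion A hroots (J := jFun) jFun_smul hdN g
  exact ⟨N, p, hp, hrep⟩

theorem hasRatExp_unitQ (A : Subring ℂ) {N : ℕ} [NeZero N]
    (hroots : ∀ ζ : ℂ, ζ ^ N = 1 → ζ ∈ A) {d : ℕ} [NeZero d] (hdN : d ∣ N) (q : Q N) :
    Fermat.Agent.S24.JPoly.HasRatExp N A (unitQ d N q) :=
  hasRatExp_unitG A hroots hdN q.out

theorem mdiff_unitQ (d N : ℕ) [NeZero d] (q : Q N) : MDiff (unitQ d N q) := mdiff_unitG d q.out

theorem unitQ_ne_zero (d N : ℕ) [NeZero d] (q : Q N) (z : ℍ) : unitQ d N q z ≠ 0 :=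
  unitG_ne_zero d q.out z

/-- the trivial coset gives `φ_d` itself -/
theorem unitQ_one {d N : ℕ} [NeZero d] (hdN : d ∣ N) (z : ℍ) :
    unitQ d N (QuotientGroup.mk 1) z = (d : ℂ) ^ 12 * Δ (mulN d z) / Δ z := by
  rw [unitQ_mk hdN, unitG_one]

/-- symmetric functions of the conjugate units are `SL(2,ℤ)`-invariant: the family
`q ↦ unitQ d N q (δ z)` is the family `q ↦ unitQ d N q z` reindexed by the bijection `δ⁻¹ •`. -/
theorem prod_unitQ_smul {d N : ℕ} [NeZero d] [NeZero N] (hdN : d ∣ N) (δ : SL(2, ℤ)) (z : ℍ)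
    (F : ℂ → ℂ) :
    ∏ q : Q N, F (unitQ d N q (δ • z)) = ∏ q : Q N, F (unitQ d N q z) := by
  have h : ∀ q : Q N, F (unitQ d N q (δ • z)) = F (unitQ d N (δ⁻¹ • q) z) := fun q => by
    rw [unitQ_smul hdN]
  simp_rw [h]
  exact Fintype.prod_equiv (MulAction.toPerm δ⁻¹) _ _ (fun q => rfl)

theorem sum_unitQ_smul {d N : ℕ} [NeZero d] [NeZero N] (hdN : d ∣ N) (δ : SL(2, ℤ)) (z : ℍ)
    (F : Q N → ℂ → ℂ) (hF : ∀ q, F (δ⁻¹ • q) = F q) :
    ∑ q : Q N, F q (unitQ d N q (δ • z)) = ∑ q : Q N, F q (unitQ d N q z) := by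
  have h : ∀ q : Q N, F q (unitQ d N q (δ • z)) = F (δ⁻¹ • q) (unitQ d N (δ⁻¹ • q) z) := fun q => by
    rw [unitQ_smul hdN, hF]
  simp_rw [h]
  exact Fintype.sum_equiv (MulAction.toPerm δ⁻¹) _ _ (fun q => rfl)

end

end Fermat.Agent.S28.DeltaConj
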