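import Mathlib
import Fermat.Agent.S28.HermiteGcd
import Fermat.Agent.S28.DeltaConj

set_option autoImplicit false

/-!
# S28 / E2: the conjugates `τ_{N,c}` of `j_N`, their exact `q_N`-expansions and leading data

* `abe N : Q N → ℤ × ℤ × ℤ`: the normalised Hermite triple `(a, b, e)` of `diag(N,1) q.out⁻¹`,
  an **injective** function of the coset;
* `conjFn jFun N q z = jFun ((a z + b)/e)`, and `conjFn jFun N q · q_N^(a²)` is the power series
  `ζ⁻¹ · jNum(ζ X^(a²))`, `ζ = exp(2πi b/e)`: order `-a²`, leading coefficient `ζ⁻¹`;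
* the leading data `(a, ζ)` determine the coset;
* ring homomorphisms to a field in which `N ≠ 0` are injective on `N`-th roots of unity;
* per-coset form of the unit expansion of `DeltaConj` with the order
  `m = (N/d) gcd(d, κ_N(q))²`.
-/

namespace Fermat.Agent.S28.TauConj

open UpperHalfPlane CongruenceSubgroup Matrix.SpecialLinearGroup Filter Topology Complex
open Fermat.Agent.S20 Fermat.Agent.S20.Rank Fermat.Agent.S24 Fermat.Agent.S24.JConj
open Fermat.Agent.S28.HermiteGcd Fermat.Agent.S28.DeltaConj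
open Fermat.Agent.S24.EtaBridge (toC rep_jNum jNumFun jNumFun_qParam)
open Fermat.Agent.S24.CuspExp (substMulPow coeff_substMulPow rep_substMulPow rep_const
  qParam_one_affH exp_ratio_pow_eq_one norm_exp_two_pi_I_mul_ratio)
open Fermat.Agent.S24.JPoly (qq CoeffIn qq_ne_zero norm_qq_lt_one)
open scoped MatrixGroups ModularForm Manifold Real

noncomputable section

local notation "𝕢" => Function.Periodic.qParam

/-! ### The Hermite triple of a coset -/

/-- the normalised Hermite triple `(a, b, e)` of `diag(N,1) q.out⁻¹` -/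
def abe (N : ℕ) [NeZero N] (q : Q N) : ℤ × ℤ × ℤ := Classical.choose (exists_hermiteData N q.out)

theorem abe_spec (N : ℕ) [NeZero N] (q : Q N) :
    0 < (abe N q).1 ∧ 0 < (abe N q).2.2 ∧ (abe N q).1 * (abe N q).2.2 = N ∧
      (abe N q).1 = Nat.gcd N (kappa N q.out) ∧ 0 ≤ (abe N q).2.1 ∧ (abe N q).2.1 < (abe N q).2.2 ∧
      Int.gcd (abe N q).1 (Int.gcd (abe N q).2.1 (abe N q).2.2) = 1 ∧
      ∃ γ : SL(2, ℤ), (N : ℤ) * (q.out⁻¹) 0 0 = γ 0 0 * (abe N q).1 ∧
        (N : ℤ) * (q.out⁻¹) 0 1 = γ 0 0 * (abe N q).2.1 + γ 0 1 * (abe N q).2.2 ∧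
        (q.out⁻¹) 1 0 = γ 1 0 * (abe N q).1 ∧
        (q.out⁻¹) 1 1 = γ 1 0 * (abe N q).2.1 + γ 1 1 * (abe N q).2.2 :=
  Classical.choose_spec (exists_hermiteData N q.out)

theorem abe_a_pos (N : ℕ) [NeZero N] (q : Q N) : 0 < (abe N q).1 := (abe_spec N q).1
theorem abe_e_pos (N : ℕ) [NeZero N] (q : Q N) : 0 < (abe N q).2.2 := (abe_spec N q).2.1
theorem abe_mul (N : ℕ) [NeZero N] (q : Q N) : (abe N q).1 * (abe N q).2.2 = N :=
  (abe_spec N q).2.2.1
theorem abe_b_nonneg (N : ℕ) [NeZero N] (q : Q N) : 0 ≤ (abe N q).2.1 := (abe_spec N q).2.2.2.2.1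
theorem abe_b_lt (N : ℕ) [NeZero N] (q : Q N) : (abe N q).2.1 < (abe N q).2.2 :=
  (abe_spec N q).2.2.2.2.2.1
theorem abe_prim (N : ℕ) [NeZero N] (q : Q N) :
    Int.gcd (abe N q).1 (Int.gcd (abe N q).2.1 (abe N q).2.2) = 1 := (abe_spec N q).2.2.2.2.2.2.1

theorem kappaQ_eq_kappa_out (N : ℕ) (q : Q N) : kappaQ N q = kappa N q.out := by
  conv_lhs => rw [← QuotientGroup.out_eq' q]
  rfl

/-- `a = κ_N(q)` -/
theorem abe_a_eq (N : ℕ) [NeZero N] (q : Q N) : (abe N q).1 = kappaQ N q := by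
  rw [(abe_spec N q).2.2.2.1, kappaQ_eq_kappa_out]
  congr 1
  exact Nat.gcd_eq_right (kappa_dvd N q.out)

/-- **the Hermite triple determines the coset** -/
theorem abe_injective (N : ℕ) [NeZero N] : Function.Injective (abe N) := by
  intro q q' h
  obtain ⟨-, -, hae, -, -, -, -, γ, -, -, h3, h4⟩ := abe_spec N q
  obtain ⟨-, -, -, -, -, -, -, γ', -, -, h3', h4'⟩ := abe_spec N q'
  rw [← h] at h3' h4'
  have := mk_eq_of_hermite N q.out q'.out γ γ' _ _ _ hae h3 h4 h3' h4'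
  rwa [QuotientGroup.out_eq', QuotientGroup.out_eq'] at this

/-- the root of unity `ζ = exp(2πi b/e)` attached to a coset -/
def zetaQ (N : ℕ) [NeZero N] (q : Q N) : ℂ :=
  cexp (2 * π * Complex.I * (((abe N q).2.1 : ℂ) / (abe N q).2.2))

theorem zetaQ_pow (N : ℕ) [NeZero N] (q : Q N) : zetaQ N q ^ N = 1 := by
  unfold zetaQ
  refine exp_ratio_pow_eq_one _ _ (abe_e_pos N q) (t := (abe N q).1) ?_
  rw [mul_comm]; exact (abe_mul N q).symm

theorem zetaQ_ne_zero (N : ℕ) [NeZero N] (q : Q N) : zetaQ N q ≠ 0 := Complex.exp_ne_zero _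

theorem exp_ratio_injective {e b b' : ℤ} (he : 0 < e) (hb0 : 0 ≤ b) (hb : b < e) (hb0' : 0 ≤ b')
    (hb' : b' < e)
    (h : cexp (2 * π * Complex.I * ((b : ℂ) / e)) = cexp (2 * π * Complex.I * ((b' : ℂ) / e))) :
    b = b' := by
  rw [Complex.exp_eq_exp_iff_exists_int] at h
  obtain ⟨n, hn⟩ := h
  have heC : (e : ℂ) ≠ 0 := by exact_mod_cast he.ne'
  have hpi : (2 * (π : ℂ) * Complex.I) ≠ 0 := Complex.two_pi_I_ne_zero
  have h1 : (b : ℂ) = b' + n * e := by
    have : 2 * (π : ℂ) * Complex.I * ((b : ℂ) / e) = 2 * π * Complex.I * (((b' : ℂ) + n * e) / e) := by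
      rw [hn]; field_simp
    have h2 := mul_left_cancel₀ hpi this
    field_simp at h2
    linear_combination h2
  have h2 : b = b' + n * e := by exact_mod_cast h1
  have hn0 : n = 0 := by
    by_contra hne
    rcases lt_or_gt_of_ne hne with hlt | hgt
    · have : n ≤ -1 := by omega
      nlinarith
    · have : 1 ≤ n := by omega
      nlinarith
  rw [hn0] at h2
  simpa using h2

/-- **the leading data `(a, ζ)` determine the coset** -/
theorem leading_data_injective (N : ℕ) [NeZero N] {q q' : Q N} (ha : (abe N q).1 = (abe N q').1)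
    (hζ : zetaQ N q = zetaQ N q') : q = q' := by
  apply abe_injective N
  have he : (abe N q).2.2 = (abe N q').2.2 := by
    have h1 := abe_mul N q
    have h2 := abe_mul N q'
    rw [← ha] at h2
    exact mul_left_cancel₀ (abe_a_pos N q).ne' (h1.trans h2.symm)
  have hb : (abe N q).2.1 = (abe N q').2.1 := by
    unfold zetaQ at hζ
    rw [← he] at hζ
    refine exp_ratio_injective (abe_e_pos N q) (abe_b_nonneg N q) (abe_b_lt N q) (abe_b_nonneg N q')
      ?_ hζ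
    rw [he]; exact abe_b_lt N q'
  exact Prod.ext ha (Prod.ext hb he)

/-! ### The conjugates of `j_N` -/

theorem conjFn_eq_affH (N : ℕ) [NeZero N] (q : Q N) (z : ℍ) :
    conjFn jFun N q z = jFun (affH (abe N q).1 (abe N q).2.1 (abe N q).2.2
      (intCast_pos' (abe_a_pos N q)) (intCast_pos' (abe_e_pos N q)) z) := by
  obtain ⟨ha, he, -, -, -, -, -, γ, h1, h2, h3, h4⟩ := abe_spec N q
  unfold conjFn conjG
  rw [mulN_smul_of_decomp N q.out⁻¹ γ _ _ _ ha he h1 h2 h3 h4 z, jFun_smul]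

/-- the power series `ζ⁻¹ · jNum(ζ X^m)` -/
def tauSeries (ζ : ℂ) (m : ℕ) : PowerSeries ℂ :=
  PowerSeries.C ζ⁻¹ * substMulPow (toC ModularCurve.jNum) ζ m

theorem coeff_zero_tauSeries (ζ : ℂ) (m : ℕ) : PowerSeries.coeff 0 (tauSeries ζ m) = ζ⁻¹ := by
  unfold tauSeries
  rw [PowerSeries.coeff_C_mul, coeff_zero_substMulPow, toC, PowerSeries.coeff_map,
    PowerSeries.coeff_zero_eq_constantCoeff, ModularCurve.constantCoeff_jNum]
  simp

theorem coeffIn_tauSeries (A : Subring ℂ) {ζ : ℂ} (hζ : ζ ∈ A) (hζ' : ζ⁻¹ ∈ A) (m : ℕ) :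
    CoeffIn A (tauSeries ζ m) := by
  unfold tauSeries
  exact CoeffIn.C_mul hζ' (coeffIn_substMulPow_toC A _ hζ m)

/-- **Exact expansion of `jFun((az+b)/e)`**, `e t = N`, `m = a t`. -/
theorem rep_tau_affH {N : ℕ} [NeZero N] (a b e : ℤ) (ha : 0 < a) (he : 0 < e) {t : ℤ}
    (ht : (N : ℤ) = e * t) :
    Fermat.Agent.S24.JPoly.Rep N
      (tauSeries (cexp (2 * π * Complex.I * ((b : ℂ) / e))) (a * t).toNat)
      (fun z : ℍ => jFun (affH a b e (intCast_pos' ha) (intCast_pos' he) z) *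
        qq N z ^ (a * t).toNat) := by
  have hN : 0 < N := Nat.pos_of_ne_zero (NeZero.ne N)
  have htpos : 0 < t := by
    have h1 : (0 : ℤ) < e * t := by rw [← ht]; exact_mod_cast hN
    exact (mul_pos_iff_of_pos_left he).mp h1
  set m : ℕ := (a * t).toNat with hm
  have hmpos : 0 < m := Int.pos_iff_toNat_pos.mp (mul_pos ha htpos)
  set ζ : ℂ := cexp (2 * π * Complex.I * ((b : ℂ) / e)) with hζ
  have hζnorm : ‖ζ‖ ≤ 1 := (norm_exp_two_pi_I_mul_ratio b e).le
  have hζ0 : ζ ≠ 0 := Complex.exp_ne_zero _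
  have hrep : Fermat.Agent.S24.EtaBridge.Rep (tauSeries ζ m)
      (fun q => ζ⁻¹ * jNumFun (ζ * q ^ m)) := by
    unfold tauSeries
    exact (rep_const ζ⁻¹).mul (rep_substMulPow rep_jNum hζnorm hmpos)
  intro z
  have hq : ‖qq N z‖ < 1 := norm_qq_lt_one N z
  have h := hrep (qq N z) hq
  set w := affH a b e (intCast_pos' ha) (intCast_pos' he) z with hw
  have hqw : 𝕢 1 (w : ℂ) = ζ * qq N z ^ m := by
    rw [hw, qParam_one_affH a b e ha he hN ht z, Fermat.Agent.S24.JPoly.qq_def]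
  have hval : jFun w * qq N z ^ m = ζ⁻¹ * jNumFun (ζ * qq N z ^ m) := by
    rw [← hqw, jNumFun_qParam, hqw]
    have : jFun w = ModularForm.E₄ w ^ 3 / ModularForm.discriminant w := rfl
    rw [this]
    field_simp
  show HasSum _ (jFun w * qq N z ^ m)
  rw [hval]
  exact h

/-- natural-number exponent `a²` of the coset -/
def ordQ (N : ℕ) [NeZero N] (q : Q N) : ℕ := ((abe N q).1 * (abe N q).1).toNat

theorem ordQ_cast (N : ℕ) [NeZero N] (q : Q N) : ((ordQ N q : ℕ) : ℤ) = (abe N q).1 ^ 2 := by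
  unfold ordQ
  rw [Int.toNat_of_nonneg (mul_self_nonneg _)]
  ring

theorem ordQ_eq (N : ℕ) [NeZero N] (q : Q N) : ordQ N q = (kappaQ N q) ^ 2 := by
  have h := ordQ_cast N q
  rw [abe_a_eq] at h
  exact_mod_cast h

/-- **E2, main export**: `τ_{N,q} · q_N^(κ²)` is the power series `ζ⁻¹ jNum(ζ X^(κ²))`. -/
theorem rep_conjFn (N : ℕ) [NeZero N] (q : Q N) :
    Fermat.Agent.S24.JPoly.Rep N (tauSeries (zetaQ N q) (ordQ N q))
      (fun z : ℍ => conjFn jFun N q z * qq N z ^ ordQ N q) := by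
  have ht : (N : ℤ) = (abe N q).2.2 * (abe N q).1 := by rw [mul_comm]; exact (abe_mul N q).symm
  have := rep_tau_affH (N := N) (abe N q).1 (abe N q).2.1 (abe N q).2.2 (abe_a_pos N q)
    (abe_e_pos N q) ht
  refine this.congr fun z => ?_
  rw [conjFn_eq_affH]
  rfl

theorem coeffIn_tauSeries_zetaQ (A : Subring ℂ) (N : ℕ) [NeZero N]
    (hroots : ∀ ζ : ℂ, ζ ^ N = 1 → ζ ∈ A) (q : Q N) :
    CoeffIn A (tauSeries (zetaQ N q) (ordQ N q)) :=
  coeffIn_tauSeries A (hroots _ (zetaQ_pow N q))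
    (hroots _ (by rw [inv_pow, zetaQ_pow, inv_one])) _

theorem hasRatExp_conjFn (A : Subring ℂ) (N : ℕ) [NeZero N]
    (hroots : ∀ ζ : ℂ, ζ ^ N = 1 → ζ ∈ A) (q : Q N) :
    Fermat.Agent.S24.JPoly.HasRatExp N A (conjFn jFun N q) :=
  ⟨ordQ N q, _, coeffIn_tauSeries_zetaQ A N hroots q, rep_conjFn N q⟩

/-! ### Roots of unity stay distinct after reduction -/

/-- a ring hom to a field in which `N ≠ 0` is injective on `N`-th roots of unity -/
theorem root_of_unity_injective {R k : Type*} [CommRing R] [IsDomain R] [Field k] (ρ : R →+* k)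
    (N : ℕ) (hN : (N : k) ≠ 0) {ζ ζ' : R} (hζ : ζ ^ N = 1) (hζ' : ζ' ^ N = 1) (h : ρ ζ = ρ ζ') :
    ζ = ζ' := by
  have hN0 : N ≠ 0 := by rintro rfl; exact hN (by simp)
  obtain ⟨n, rfl⟩ := Nat.exists_eq_succ_of_ne_zero hN0
  set ω := ζ * ζ' ^ n with hω
  have hωN : ω ^ (n + 1) = 1 := by
    rw [hω, mul_pow, hζ, one_mul, ← pow_mul, mul_comm, pow_mul, hζ', one_pow]
  have hρω : ρ ω = 1 := by
    rw [hω, map_mul, map_pow, h, ← map_pow, ← map_mul, ← pow_succ', hζ', map_one]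
  by_cases h1 : ω = 1
  · -- ζ = ζ' * (ζ * ζ'^n) = ζ'
    have : ζ = ζ * (ζ' ^ (n + 1)) := by rw [hζ', mul_one]
    rw [this, pow_succ, ← mul_assoc, ← hω, h1, one_mul]
  · exfalso
    have hgeom : (ω - 1) * ∑ i ∈ Finset.range (n + 1), ω ^ i = 0 := by
      rw [mul_comm, geom_sum_mul, hωN, sub_self]
    have hsum : ∑ i ∈ Finset.range (n + 1), ω ^ i = 0 :=
      (mul_eq_zero.mp hgeom).resolve_left (sub_ne_zero.mpr h1)
    have := congrArg ρ hsum
    rw [map_sum, map_zero] at this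
    simp only [map_pow, hρω, one_pow, Finset.sum_const, Finset.card_range, nsmul_eq_mul,
      mul_one] at this
    exact hN this

/-! ### The unit expansion per coset -/

/-- the order of `u_{d,q} · q_N^N` -/
def unitOrd (d N : ℕ) (q : Q N) : ℕ := (N / d) * (Nat.gcd d (kappaQ N q)) ^ 2

/-- **Per-coset form of the unit expansion** (`DeltaConj.exists_unit_expansion`). -/
theorem exists_unitQ_expansion (A : Subring ℂ) {N : ℕ} [NeZero N]
    (hroots : ∀ ζ : ℂ, ζ ^ N = 1 → ζ ∈ A) {d : ℕ} [NeZero d] (hdN : d ∣ N) (q : Q N) :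
    ∃ (p : PowerSeries ℂ) (ζ : ℂ), ζ ^ N = 1 ∧ CoeffIn A p ∧
      Fermat.Agent.S24.JPoly.Rep N p (fun z : ℍ => unitQ d N q z * qq N z ^ N) ∧
      (∀ k < unitOrd d N q, PowerSeries.coeff k p = 0) ∧
      PowerSeries.coeff (unitOrd d N q) p = ((Nat.gcd d (kappaQ N q) : ℕ) : ℂ) ^ 12 * ζ := by
  obtain ⟨a, b, e, ha, he, m, p, hae, hgcd, -, -, -, hme, hmd, -, -, hp, hrep, hlt, hlead⟩ :=
    exists_unit_expansion A hroots (J := jFun) jFun_smul hdN q.out
  have heN : e ∣ (N : ℤ) := by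
    have h1 : e ∣ (d : ℤ) := Dvd.intro_left a hae
    exact h1.trans (by exact_mod_cast hdN)
  obtain ⟨t, ht⟩ := heN
  have hm : m = unitOrd d N q := by
    unfold unitOrd
    rw [kappaQ_eq_kappa_out]
    have hd0 : (0 : ℤ) < d := by exact_mod_cast Nat.pos_of_ne_zero (NeZero.ne d)
    obtain ⟨c, hc⟩ := hdN
    have hc' : N / d = c := by rw [hc]; exact Nat.mul_div_cancel_left c (Nat.pos_of_ne_zero (NeZero.ne d))
    rw [hc']
    have hNc : (N : ℤ) = (d : ℤ) * c := by exact_mod_cast hc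
    have h1 : (m : ℤ) * d = ((c * (Nat.gcd d (kappa N q.out)) ^ 2 : ℕ) : ℤ) * d := by
      rw [hmd, hgcd, hNc]; push_cast; ring
    have h2 := mul_right_cancel₀ hd0.ne' h1
    exact_mod_cast h2
  refine ⟨p, cexp (2 * π * Complex.I * ((b : ℂ) / e)), exp_ratio_pow_eq_one b e he ht, hp, hrep, ?_, ?_⟩
  · rw [← hm]; exact hlt
  · rw [← hm, hlead, hgcd, kappaQ_eq_kappa_out]
    push_cast
    rfl

/-! ### The trivial coset -/

theorem abe_one (N : ℕ) [NeZero N] : abe N (QuotientGroup.mk 1 : Q N) = ((N : ℤ), 0, 1) := by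
  set q : Q N := QuotientGroup.mk 1 with hq
  have ha : (abe N q).1 = N := by
    rw [abe_a_eq, (kappaQ_eq_iff N q).mpr rfl]
  have hN0 : (N : ℤ) ≠ 0 := by exact_mod_cast NeZero.ne N
  have he : (abe N q).2.2 = 1 := by
    have h := abe_mul N q
    rw [ha] at h
    have : (N : ℤ) * (abe N q).2.2 = N * 1 := by rw [h, mul_one]
    exact mul_left_cancel₀ hN0 this
  have hb : (abe N q).2.1 = 0 := by
    have h1 := abe_b_nonneg N q
    have h2 := abe_b_lt N q
    rw [he] at h2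
    omega
  exact Prod.ext ha (Prod.ext hb he)

theorem zetaQ_one (N : ℕ) [NeZero N] : zetaQ N (QuotientGroup.mk 1 : Q N) = 1 := by
  unfold zetaQ
  rw [abe_one]
  simp

theorem ordQ_one (N : ℕ) [NeZero N] : ordQ N (QuotientGroup.mk 1 : Q N) = N ^ 2 := by
  rw [ordQ_eq, (kappaQ_eq_iff N _).mpr rfl]

theorem conjFn_one (N : ℕ) [NeZero N] (z : ℍ) :
    conjFn jFun N (QuotientGroup.mk 1 : Q N) z = jFun (mulN N z) := by
  rw [conjFn_mk jFun_smul, conjG_one]

end

end Fermat.Agent.S28.TauConj
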