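import Mathlib
import Fermat.Prelude.Def_ModularCurve_JqCoeff
import Fermat.Prelude.Def_ModularCurve_LaurentCoeff
import Fermat.Agent.S24.CuspExp
import Fermat.Agent.S24.JConj
import Fermat.Agent.S24.JPoly
import Fermat.Agent.S24.PsiLe
import Fermat.Agent.S28.TauConj
import Fermat.Prelude.Def_ModularCurve_X0ModL

set_option autoImplicit false

/-!
# S28 (A4a): the conjugates of `j_N` as formal Laurent series

Formal side of the `j_N`-conjugates `JConj.conjFn jFun N c` (`c : Q N`): shape of a Laurent series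
`single (-m) 1 * ofPowerSeries p`, the Prelude series `qExpand M (jqModC ℂ)` in that shape, and the
permutation of the conjugates by `SL(2, ℤ)`.
-/

namespace Fermat.Agent.S28.ConjJ

open HahnSeries ModularCurve
open Fermat.Agent.S24.EtaBridge (toC)
open Fermat.Agent.S24.CuspExp (substMulPow coeff_substMulPow)

noncomputable section

section Shape

variable {R : Type*} [CommRing R]

/-- the Laurent series `t^(-m) * p(t)` -/
def laurentOf (m : ℕ) (p : PowerSeries R) : LaurentSeries R :=
  HahnSeries.single (-(m : ℤ)) 1 * HahnSeries.ofPowerSeries ℤ R p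

theorem laurentOf_coeff (m : ℕ) (p : PowerSeries R) (k : ℤ) :
    (laurentOf m p).coeff k = (HahnSeries.ofPowerSeries ℤ R p).coeff (k + m) := by
  rw [laurentOf, HahnSeries.coeff_single_mul, one_mul, sub_neg_eq_add]

theorem laurentOf_coeff_of_lt (m : ℕ) (p : PowerSeries R) {k : ℤ} (hk : k < -(m : ℤ)) :
    (laurentOf m p).coeff k = 0 := by
  rw [laurentOf_coeff]
  exact ofPowerSeries_coeff_of_neg _ (by omega)

theorem laurentOf_coeff_add (m : ℕ) (p : PowerSeries R) (n : ℕ) :
    (laurentOf m p).coeff ((n : ℤ) - m) = PowerSeries.coeff n p := by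
  rw [laurentOf_coeff, sub_add_cancel, HahnSeries.ofPowerSeries_apply_coeff]

theorem laurentOf_coeff_neg (m : ℕ) (p : PowerSeries R) :
    (laurentOf m p).coeff (-(m : ℤ)) = PowerSeries.coeff 0 p := by
  have h := laurentOf_coeff_add m p 0
  simpa using h

end Shape

section QExpand

/-- `qExpand M` of a power series is the power series in `t^M`. -/
theorem qExpand_ofPowerSeries (M : ℕ) [NeZero M] (P : PowerSeries ℂ) :
    qExpand ℂ M (HahnSeries.ofPowerSeries ℤ ℂ P) =
      HahnSeries.ofPowerSeries ℤ ℂ (substMulPow P 1 M) := by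
  have hM : (0 : ℤ) < M := by exact_mod_cast Nat.pos_of_ne_zero (NeZero.ne M)
  ext k
  by_cases hdvd : (M : ℤ) ∣ k
  · obtain ⟨k', rfl⟩ := hdvd
    rw [qExpand_coeff_mul]
    rcases lt_or_ge k' 0 with hk | hk
    · rw [ofPowerSeries_coeff_of_neg _ hk, ofPowerSeries_coeff_of_neg _ (by nlinarith)]
    · lift k' to ℕ using hk
      rw [HahnSeries.ofPowerSeries_apply_coeff]
      have : (M : ℤ) * (k' : ℤ) = ((M * k' : ℕ) : ℤ) := by push_cast; ring
      rw [this, HahnSeries.ofPowerSeries_apply_coeff, coeff_substMulPow, if_pos (dvd_mul_right _ _),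
        Nat.mul_div_cancel_left _ (Nat.pos_of_ne_zero (NeZero.ne M)), one_pow, mul_one]
  · rw [qExpand_coeff_of_not_dvd _ _ hdvd]
    rcases lt_or_ge k 0 with hk | hk
    · rw [ofPowerSeries_coeff_of_neg _ hk]
    · lift k to ℕ using hk
      rw [HahnSeries.ofPowerSeries_apply_coeff, coeff_substMulPow, if_neg]
      intro h
      exact hdvd (Int.natCast_dvd_natCast.mpr h)

/-- the Prelude series `j(t^M)` in the shape `t^(-M) * p(t)` -/
theorem qExpand_jqModC_eq (M : ℕ) [NeZero M] :
    qExpand ℂ M (jqModC ℂ) = laurentOf M (substMulPow (toC jNum) 1 M) := by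
  rw [jqModC, map_mul, qExpand_single, qExpand_ofPowerSeries, laurentOf, mul_neg_one]

end QExpand

section Lift

/-- a Laurent series over `ℂ` with coefficients in the subring `A`, as a Laurent series over `A` -/
def liftCoeff (A : Subring ℂ) (x : LaurentSeries ℂ) (h : ∀ k, x.coeff k ∈ A) : LaurentSeries A where
  coeff k := ⟨x.coeff k, h k⟩
  isPWO_support' := x.isPWO_support.mono (by
    intro k hk
    simp only [Function.mem_support, ne_eq] at hk ⊢
    intro h0
    apply hk
    exact Subtype.ext h0)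

@[simp]
theorem liftCoeff_coeff (A : Subring ℂ) (x : LaurentSeries ℂ) (h : ∀ k, x.coeff k ∈ A) (k : ℤ) :
    ((liftCoeff A x h).coeff k : ℂ) = x.coeff k := rfl

theorem coeffMap_liftCoeff (A : Subring ℂ) (x : LaurentSeries ℂ) (h : ∀ k, x.coeff k ∈ A) :
    coeffMap A.subtype (liftCoeff A x h) = x := by
  ext k
  rfl

theorem coeffMap_subtype_injective (A : Subring ℂ) :
    Function.Injective (coeffMap A.subtype) := by
  intro x y hxy
  ext k
  have := congrArg (fun z : LaurentSeries ℂ => z.coeff k) hxy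
  simpa using this

end Lift

section Conj

open Fermat.Agent.S20 Fermat.Agent.S24 Fermat.Agent.S24.JConj Fermat.Agent.S28.HermiteGcd
  Fermat.Agent.S28.TauConj
open Fermat.Agent.S24.JPoly (qq CoeffIn HasRatExp)
open scoped MatrixGroups Manifold

variable (N : ℕ) [NeZero N]

/-- the formal `t`-expansion (`t = q^{1/N}`) of the conjugate `conjFn jFun N c` of `j_N` -/
def xC (c : Q N) : LaurentSeries ℂ :=
  laurentOf (ordQ N c) (tauSeries (zetaQ N c) (ordQ N c))

/-- `xC N c` is the expansion of `conjFn jFun N c` (restatement of `TauConj.rep_conjFn`) -/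
theorem rep_xC (c : Q N) :
    Fermat.Agent.S24.JPoly.Rep N (tauSeries (zetaQ N c) (ordQ N c))
      (fun z : UpperHalfPlane => conjFn jFun N c z * qq N z ^ ordQ N c) :=
  rep_conjFn N c

theorem xC_coeff_of_lt (c : Q N) {k : ℤ} (hk : k < -(ordQ N c : ℤ)) : (xC N c).coeff k = 0 :=
  laurentOf_coeff_of_lt _ _ hk

theorem xC_coeff_lc (c : Q N) : (xC N c).coeff (-(ordQ N c : ℤ)) = (zetaQ N c)⁻¹ := by
  rw [xC, laurentOf_coeff_neg, coeff_zero_tauSeries]

theorem xC_coeff_mem (A : Subring ℂ) (hroots : ∀ ζ : ℂ, ζ ^ N = 1 → ζ ∈ A) (c : Q N) (k : ℤ) :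
    (xC N c).coeff k ∈ A := by
  rw [xC, laurentOf_coeff]
  rcases lt_or_ge (k + (ordQ N c : ℤ)) 0 with h | h
  · rw [ofPowerSeries_coeff_of_neg _ h]; exact A.zero_mem
  · obtain ⟨n, hn⟩ := Int.eq_ofNat_of_zero_le h
    rw [hn, HahnSeries.ofPowerSeries_apply_coeff]
    exact coeffIn_tauSeries_zetaQ A N hroots c n

theorem tauSeries_one (m : ℕ) : tauSeries 1 m = substMulPow (toC jNum) 1 m := by
  rw [tauSeries, inv_one, map_one, one_mul]

/-- the conjugate attached to the trivial coset is `j(t^{N²})` -/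
theorem xC_one : xC N (QuotientGroup.mk 1 : Q N) = qExpand ℂ (N * N) (jqModC ℂ) := by
  rw [xC, zetaQ_one, ordQ_one, tauSeries_one, qExpand_jqModC_eq, pow_two]

/-- the leading data determine the coset -/
theorem xC_leading_injective {c c' : Q N} (hm : ordQ N c = ordQ N c')
    (hlc : (zetaQ N c)⁻¹ = (zetaQ N c')⁻¹) : c = c' := by
  refine leading_data_injective N ?_ (inv_injective hlc)
  have h1 := ordQ_cast N c
  have h2 := ordQ_cast N c'
  rw [hm, h2] at h1
  have ha := abe_a_pos N c
  have ha' := abe_a_pos N c'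
  nlinarith [sq_nonneg ((abe N c).1 - (abe N c').1), sq_nonneg ((abe N c).1 + (abe N c').1)]

/-! ### coefficients in a subring `A` containing the `N`-th roots of unity -/

variable (A : Subring ℂ) (hroots : ∀ ζ : ℂ, ζ ^ N = 1 → ζ ∈ A)

/-- the conjugates as Laurent series over `A` -/
def xA (c : Q N) : LaurentSeries A := liftCoeff A (xC N c) (xC_coeff_mem N A hroots c)

theorem coeffMap_xA (c : Q N) : coeffMap A.subtype (xA N A hroots c) = xC N c :=
  coeffMap_liftCoeff _ _ _

/-- the leading coefficient, in `A` -/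
def lcA (c : Q N) : A :=
  ⟨(zetaQ N c)⁻¹, hroots _ (by rw [inv_pow, zetaQ_pow, inv_one])⟩

theorem xA_coeff_of_lt (c : Q N) {k : ℤ} (hk : k < -(ordQ N c : ℤ)) :
    (xA N A hroots c).coeff k = 0 :=
  Subtype.ext (xC_coeff_of_lt N c hk)

theorem xA_coeff_lc (c : Q N) : (xA N A hroots c).coeff (-(ordQ N c : ℤ)) = lcA N A hroots c :=
  Subtype.ext (xC_coeff_lc N c)

theorem lcA_pow (c : Q N) : lcA N A hroots c ^ N = 1 :=
  Subtype.ext (by
    show ((zetaQ N c)⁻¹) ^ N = 1
    rw [inv_pow, zetaQ_pow, inv_one])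

theorem xA_leading_injective {c c' : Q N} (hm : ordQ N c = ordQ N c')
    (hlc : lcA N A hroots c = lcA N A hroots c') : c = c' :=
  xC_leading_injective N hm (congrArg Subtype.val hlc)

/-- the conjugate attached to the trivial coset is `j(t^{N²})` over `A` -/
theorem xA_one : xA N A hroots (QuotientGroup.mk 1 : Q N) = qExpand A (N * N) (jqModC A) := by
  apply coeffMap_subtype_injective A
  rw [coeffMap_xA, xC_one, coeffMap_qExpand, coeffMap_jqModC]

/-! ### the action of `SL(2, ℤ)` -/

/-- the permutation of the cosets induced by `γ` -/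
def permOf (γ : SL(2, ℤ)) : Equiv.Perm (Q N) where
  toFun c := γ⁻¹ • c
  invFun c := γ • c
  left_inv c := by simp
  right_inv c := by simp

theorem conjFn_smul_perm (γ : SL(2, ℤ)) (c : Q N) (z : UpperHalfPlane) :
    conjFn jFun N c (γ • z) = conjFn jFun N (permOf N γ c) z :=
  conjFn_smul jFun_smul N c γ z

theorem mdiff_conjFn (c : Q N) : MDiff (conjFn jFun N c) := by
  have h1 : MDiff (fun z : UpperHalfPlane => jFun (mulN N z)) :=
    Fermat.Agent.S20.Rank.mdiff_comp_affH _ _ _ _ _ mdiff_jFun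
  exact Fermat.Agent.S24.PsiLe.mdiff_comp_SL c.out⁻¹ h1

end Conj

end

end Fermat.Agent.S28.ConjJ
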