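import Mathlib
import Fermat.Prelude.Def_ModularCurve_JqCoeff

/-!
# S28: the interface between the analytic part and the formal core

`ConjSystem R N I` packages everything the char-`ℓ` irreducibility argument needs to know about the
conjugates of `j_N` and of the eta quotients `Δ(dz)/Δ(z)`, `d ∣ N`, as formal Laurent series in
`t = q^{1/N}` over a coefficient ring `R` (in the application `R` is a subring of `ℂ` containing the
`N`-th roots of unity and `1/N`, and `I = Γ₀(N)\SL₂(ℤ)`).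
-/

set_option autoImplicit false

namespace Fermat.Agent.S28.Defs

open Polynomial

noncomputable section

/-- `j(t^N)`, i.e. the `q`-expansion of `j` written in the variable `t = q^{1/N}`. -/
def jt (R : Type) [CommRing R] (N : ℕ) [NeZero N] : LaurentSeries R :=
  ModularCurve.qExpand R N (ModularCurve.jqModC R)

/-- `j(t^{N²}) = j_N(q)` in the variable `t = q^{1/N}`. -/
def jNt (R : Type) [CommRing R] (N : ℕ) [NeZero N] : LaurentSeries R :=
  ModularCurve.qExpand R (N * N) (ModularCurve.jqModC R)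

/-- evaluation `R[X] → R((t))`, `X ↦ j(t^N)`. -/
def evalJt (R : Type) [CommRing R] (N : ℕ) [NeZero N] : R[X] →+* LaurentSeries R :=
  (Polynomial.aeval (jt R N)).toRingHom

/-- the `t`-order of the conjugate of level `κ` of the unit `Δ(dz)/Δ(z)`. -/
def ordU (N d κ : ℕ) : ℤ := ((N / d : ℕ) : ℤ) * ((Nat.gcd d κ : ℕ) : ℤ) ^ 2 - (N : ℤ)

/-- The formal data of the conjugates. -/
structure ConjSystem (R : Type) [CommRing R] (N : ℕ) [NeZero N] (I : Type) [Fintype I]
    [DecidableEq I] where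
  /-- the conjugates of `j_N` -/
  x : I → LaurentSeries R
  /-- the trivial coset -/
  s0 : I
  hx0 : x s0 = jNt R N
  /-- minus the order of `x s` -/
  m : I → ℕ
  /-- the leading coefficient of `x s` -/
  lc : I → R
  hx_low : ∀ (s : I) (k : ℤ), k < -(m s : ℤ) → (x s).coeff k = 0
  hx_lc : ∀ s : I, (x s).coeff (-(m s : ℤ)) = lc s
  hlc : ∀ s : I, lc s ^ N = 1
  hinj : ∀ s s' : I, m s = m s' → lc s = lc s' → s = s'
  /-- the modular polynomial, in `R[X][Y]` -/
  Φ : R[X][X]
  hΦ_monic : Φ.Monic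
  hΦ : Φ.map (evalJt R N) = ∏ s : I, (X - C (x s))
  /-- the level of a conjugate -/
  κ : I → ℕ
  hκ : ∀ s : I, κ s ∣ N
  hκ0 : ∀ s : I, κ s = N ↔ s = s0
  /-- the conjugates of the unit `Δ(dz)/Δ(z)` and of its inverse -/
  u : ℕ → I → LaurentSeries R
  v : ℕ → I → LaurentSeries R
  huv : ∀ d ∈ N.divisors, ∀ s : I, u d s * v d s = 1
  hu_low : ∀ d ∈ N.divisors, ∀ (s : I) (k : ℤ), k < ordU N d (κ s) → (u d s).coeff k = 0
  hu_lc : ∀ d ∈ N.divisors, ∀ s : I, IsUnit ((u d s).coeff (ordU N d (κ s)))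
  /-- Lagrange numerators of `u d` and `v d` -/
  L : ℕ → R[X][X]
  L' : ℕ → R[X][X]
  hL : ∀ d ∈ N.divisors, (L d).map (evalJt R N) =
    ∑ s : I, C (u d s) * ∏ s' ∈ Finset.univ.erase s, (X - C (x s'))
  hL' : ∀ d ∈ N.divisors, (L' d).map (evalJt R N) =
    ∑ s : I, C (v d s) * ∏ s' ∈ Finset.univ.erase s, (X - C (x s'))
  /-- integrality equations of `u d` and `v d` over `R[j]` -/
  W : ℕ → R[X][X]
  W' : ℕ → R[X][X]
  hW_monic : ∀ d ∈ N.divisors, (W d).Monic
  hW'_monic : ∀ d ∈ N.divisors, (W' d).Monic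
  hW : ∀ d ∈ N.divisors, ∀ s : I, ((W d).map (evalJt R N)).eval (u d s) = 0
  hW' : ∀ d ∈ N.divisors, ∀ s : I, ((W' d).map (evalJt R N)).eval (v d s) = 0

end

end Fermat.Agent.S28.Defs
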