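import Mathlib
import Fermat.Agent.S24.JPoly
import Fermat.Agent.S24.JExp
import Fermat.Prelude.Def_ModularCurve_JqCoeff
import Fermat.Prelude.Def_ModularCurve_LaurentCoeff

set_option autoImplicit false

/-!
# S28 / A3: the analytic → formal dictionary and the symmetric-function theorem

`RatFun N A` is the ring of functions `ℍ → ℂ` having a finite-pole `q_N`-expansion with coefficients
in the subring `A ⊆ ℂ`; `fexp` sends such a function to its formal expansion, a Laurent series in
`t = q_N`.  `fexp` is an injective ring homomorphism.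
-/

namespace Fermat.Agent.S28.SymmRat

open UpperHalfPlane Filter Topology Function Fermat.Agent.S24.JPoly
open scoped MatrixGroups Manifold ModularForm

noncomputable section

/-! ### Formal series attached to a pair (pole bound, power series) -/

/-- the Laurent series `t ^ (-m) * p(t)` -/
def ser (m : ℕ) (p : PowerSeries ℂ) : LaurentSeries ℂ :=
  HahnSeries.single (-(m : ℤ)) 1 * HahnSeries.ofPowerSeries ℤ ℂ p

theorem ser_add (m : ℕ) (p p' : PowerSeries ℂ) : ser m (p + p') = ser m p + ser m p' := by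
  simp only [ser, map_add, mul_add]

theorem ser_mul (m m' : ℕ) (p p' : PowerSeries ℂ) :
    ser (m + m') (p * p') = ser m p * ser m' p' := by
  simp only [ser, map_mul]
  have : (HahnSeries.single (-((m + m' : ℕ) : ℤ)) (1 : ℂ)) =
      HahnSeries.single (-(m : ℤ)) 1 * HahnSeries.single (-(m' : ℤ)) 1 := by
    rw [HahnSeries.single_mul_single, one_mul]
    congr 1
    push_cast
    ring_nf
  rw [this]
  ring

theorem ser_zero_one : ser 0 1 = 1 := by
  simp [ser]

theorem ser_mul_X_pow (m k : ℕ) (p : PowerSeries ℂ) :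
    ser (m + k) (p * PowerSeries.X ^ k) = ser m p := by
  rw [ser_mul]
  have : ser k (PowerSeries.X ^ k) = 1 := by
    rw [ser, HahnSeries.ofPowerSeries_X_pow, HahnSeries.single_mul_single, one_mul]
    simp
  rw [this, mul_one]

theorem ser_neg (m : ℕ) (p : PowerSeries ℂ) : ser m (-p) = -ser m p := by
  simp only [ser, map_neg, mul_neg]

theorem coeff_ser (m : ℕ) (p : PowerSeries ℂ) (k : ℤ) :
    (ser m p).coeff k = if 0 ≤ k + m then PowerSeries.coeff (k + m).toNat p else 0 := by
  rw [ser, HahnSeries.coeff_single_mul, one_mul, sub_neg_eq_add]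
  split_ifs with h
  · obtain ⟨n, hn⟩ := Int.eq_ofNat_of_zero_le h
    rw [hn, HahnSeries.ofPowerSeries_apply_coeff]
    simp
  · rw [not_le] at h
    exact ModularCurve.ofPowerSeries_coeff_of_neg _ h

theorem ser_injective (m : ℕ) : Function.Injective (ser m) := by
  intro p p' h
  ext n
  have := congrArg (fun f : LaurentSeries ℂ => f.coeff ((n : ℤ) - m)) h
  simp only [coeff_ser] at this
  simpa using this

variable {N : ℕ} [NeZero N]

/-- **Well-definedness.** Two representations of the same function give the same Laurent series. -/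
theorem ser_eq_of_rep {h : ℍ → ℂ} {m m' : ℕ} {p p' : PowerSeries ℂ}
    (hp : Rep N p (fun z => h z * qq N z ^ m)) (hp' : Rep N p' (fun z => h z * qq N z ^ m')) :
    ser m p = ser m' p' := by
  have h1 : Rep N (p * PowerSeries.X ^ m') (fun z => h z * qq N z ^ (m + m')) :=
    (hp.mul (Rep.X.pow m')).congr fun z => by rw [pow_add, mul_assoc]
  have h2 : Rep N (p' * PowerSeries.X ^ m) (fun z => h z * qq N z ^ (m + m')) :=
    (hp'.mul (Rep.X.pow m)).congr fun z => by rw [pow_add, mul_assoc, mul_comm (qq N z ^ m)]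
  have h3 := h1.unique h2
  rw [← ser_mul_X_pow m m' p, ← ser_mul_X_pow m' m p', h3, add_comm]

/-! ### The ring of functions with a rational expansion -/

variable (N) (A : Subring ℂ)

/-- the ring of functions on `ℍ` having a finite-pole `q_N`-expansion with coefficients in `A` -/
def RatFun : Subring (ℍ → ℂ) where
  carrier := {h | HasRatExp N A h}
  mul_mem' ha hb := ha.mul hb
  one_mem' := HasRatExp.one
  add_mem' ha hb := ha.add hb
  zero_mem' := HasRatExp.zero
  neg_mem' ha := ha.neg

variable {N A}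

theorem mem_ratFun {h : ℍ → ℂ} : h ∈ RatFun N A ↔ HasRatExp N A h := Iff.rfl

/-- the pole bound chosen for `h` -/
def poleBd (h : RatFun N A) : ℕ := (h.2 : HasRatExp N A h.1).choose

/-- the power series chosen for `h` -/
def pser (h : RatFun N A) : PowerSeries ℂ := (h.2 : HasRatExp N A h.1).choose_spec.choose

theorem coeffIn_pser (h : RatFun N A) : CoeffIn A (pser h) :=
  (h.2 : HasRatExp N A h.1).choose_spec.choose_spec.1

theorem rep_pser (h : RatFun N A) :
    Rep N (pser h) (fun z => (h : ℍ → ℂ) z * qq N z ^ poleBd h) :=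
  (h.2 : HasRatExp N A h.1).choose_spec.choose_spec.2

/-- the formal expansion, as a function -/
def fexpFun (h : RatFun N A) : LaurentSeries ℂ := ser (poleBd h) (pser h)

/-- the formal expansion is computed by any representation -/
theorem fexpFun_eq_of_rep (h : RatFun N A) {m : ℕ} {p : PowerSeries ℂ}
    (hp : Rep N p (fun z => (h : ℍ → ℂ) z * qq N z ^ m)) : fexpFun h = ser m p :=
  ser_eq_of_rep (rep_pser h) hp

variable (N A)

/-- **The formal expansion** `RatFun N A → ℂ((t))`, `t = q_N`, a ring homomorphism. -/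
def fexp : RatFun N A →+* LaurentSeries ℂ where
  toFun := fexpFun
  map_one' := by
    rw [fexpFun_eq_of_rep (1 : RatFun N A) (m := 0) (p := 1)
      (Rep.one.congr fun z => by simp), ser_zero_one]
  map_mul' h h' := by
    rw [fexpFun_eq_of_rep (h * h') (m := poleBd h + poleBd h') (p := pser h * pser h')
      (((rep_pser h).mul (rep_pser h')).congr fun z => by
        simp only [Subring.coe_mul, Pi.mul_apply, pow_add]; ring), ser_mul]
    rfl
  map_zero' := by
    rw [fexpFun_eq_of_rep (0 : RatFun N A) (m := 0) (p := 0)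
      (by
        intro z
        simp only [map_zero, zero_mul, Subring.coe_zero, Pi.zero_apply]
        exact hasSum_zero)]
    simp [ser]
  map_add' h h' := by
    rw [fexpFun_eq_of_rep (h + h') (m := poleBd h + poleBd h')
      (p := pser h * PowerSeries.X ^ poleBd h' + pser h' * PowerSeries.X ^ poleBd h)
      ((((rep_pser h).mul (Rep.X.pow (poleBd h'))).add
        ((rep_pser h').mul (Rep.X.pow (poleBd h)))).congr fun z => by
        simp only [Subring.coe_add, Pi.add_apply, pow_add]; ring), ser_add, ser_mul_X_pow,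
      add_comm (poleBd h) (poleBd h'), ser_mul_X_pow]
    rfl

variable {N A}

theorem fexp_eq_of_rep (h : RatFun N A) {m : ℕ} {p : PowerSeries ℂ}
    (hp : Rep N p (fun z => (h : ℍ → ℂ) z * qq N z ^ m)) : fexp N A h = ser m p :=
  fexpFun_eq_of_rep h hp

theorem fexp_apply (h : RatFun N A) : fexp N A h = ser (poleBd h) (pser h) := rfl

theorem coeff_fexp_mem (h : RatFun N A) (k : ℤ) : (fexp N A h).coeff k ∈ A := by
  rw [fexp_apply, coeff_ser]
  split_ifs
  · exact coeffIn_pser h _
  · exact A.zero_mem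

theorem fexp_injective : Function.Injective (fexp N A) := by
  rw [injective_iff_map_eq_zero]
  intro h hh
  have h0 : ser (poleBd h) (pser h) = ser (poleBd h) 0 := by
    rw [← fexp_apply, hh]; simp [ser]
  have hp : pser h = 0 := ser_injective _ h0
  have hr := rep_pser h
  rw [hp] at hr
  apply Subtype.ext
  funext z
  have hz : (h : ℍ → ℂ) z * qq N z ^ poleBd h = 0 := by
    have h0 : HasSum (fun n : ℕ => PowerSeries.coeff n (0 : PowerSeries ℂ) * qq N z ^ n) 0 := by
      simp only [map_zero, zero_mul]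
      exact hasSum_zero
    exact (hr z).unique h0
  rcases mul_eq_zero.mp hz with h1 | h1
  · exact h1
  · exact absurd h1 (pow_ne_zero _ (qq_ne_zero N z))

/-! ### Coefficients in `A`: the expansion as a Laurent series over `A` -/

/-- A Laurent series over `ℂ` with coefficients in `A`, as a Laurent series over `A`. -/
def liftA (f : LaurentSeries ℂ) (hf : ∀ k, f.coeff k ∈ A) : LaurentSeries ↥A where
  coeff k := ⟨f.coeff k, hf k⟩
  isPWO_support' := by
    have : (Function.support fun k => (⟨f.coeff k, hf k⟩ : ↥A)) = f.support := by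
      ext k
      simp only [Function.mem_support, ne_eq, HahnSeries.mem_support]
      exact not_congr (by rw [Subtype.ext_iff]; rfl)
    rw [this]
    exact f.isPWO_support

theorem coeffMap_liftA (f : LaurentSeries ℂ) (hf : ∀ k, f.coeff k ∈ A) :
    ModularCurve.coeffMap A.subtype (liftA f hf) = f := by
  ext k
  rfl

theorem coeffMap_subtype_injective :
    Function.Injective (ModularCurve.coeffMap (A.subtype) : LaurentSeries ↥A → LaurentSeries ℂ) := by
  intro x y h
  ext k
  have := congrArg (fun f : LaurentSeries ℂ => f.coeff k) h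
  simpa using this

variable (N A)

/-- **The formal expansion over `A`**, `RatFun N A →+* A((t))`. -/
def fexpA : RatFun N A →+* LaurentSeries ↥A where
  toFun h := liftA (fexp N A h) (coeff_fexp_mem h)
  map_one' := coeffMap_subtype_injective (by rw [coeffMap_liftA, map_one, map_one])
  map_mul' h h' := coeffMap_subtype_injective (by
    rw [coeffMap_liftA, map_mul, map_mul, coeffMap_liftA, coeffMap_liftA])
  map_zero' := coeffMap_subtype_injective (by rw [coeffMap_liftA, map_zero, map_zero])
  map_add' h h' := coeffMap_subtype_injective (by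
    rw [coeffMap_liftA, map_add, map_add, coeffMap_liftA, coeffMap_liftA])

variable {N A}

@[simp] theorem coeffMap_fexpA (h : RatFun N A) :
    ModularCurve.coeffMap A.subtype (fexpA N A h) = fexp N A h :=
  coeffMap_liftA _ _

theorem coeff_fexpA (h : RatFun N A) (k : ℤ) :
    (((fexpA N A h).coeff k : ↥A) : ℂ) = (fexp N A h).coeff k := rfl

theorem fexpA_injective : Function.Injective (fexpA N A) := fun h h' hh =>
  fexp_injective (by rw [← coeffMap_fexpA, ← coeffMap_fexpA, hh])

/-! ### Level change: a `q`-expansion is a `q_N`-expansion -/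

omit [NeZero N] in
theorem rep_expand (hN : N ≠ 0) {c : PowerSeries ℂ} {g : ℍ → ℂ} (h : Rep 1 c g) :
    Rep N (c.expand N hN) g := fun z => by
  have hinj : Function.Injective (fun k : ℕ => N * k) := fun a b hab =>
    Nat.eq_of_mul_eq_mul_left (Nat.pos_of_ne_zero hN) hab
  have hout : ∀ n ∉ Set.range (fun k : ℕ => N * k),
      PowerSeries.coeff n (c.expand N hN) * qq N z ^ n = 0 := fun n hn => by
    have : ¬ N ∣ n := fun ⟨k, hk⟩ => hn ⟨k, hk.symm⟩
    rw [PowerSeries.coeff_expand_of_not_dvd N hN c this, zero_mul]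
  refine (hinj.hasSum_iff hout).mp ?_
  convert h z using 2 with k
  have : NeZero N := ⟨hN⟩
  simp only [comp_apply, PowerSeries.coeff_expand_mul]
  rw [pow_mul, qq_pow_self]

omit [NeZero N] in
theorem coeffIn_expand (hN : N ≠ 0) {c : PowerSeries ℂ} (h : CoeffIn A c) :
    CoeffIn A (c.expand N hN) := fun n => by
  rw [PowerSeries.coeff_expand]
  split_ifs
  · exact h _
  · exact A.zero_mem

theorem ser_expand (m : ℕ) (c : PowerSeries ℂ) :
    ser (N * m) (c.expand N (NeZero.ne N)) = ModularCurve.qExpand ℂ N (ser m c) := by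
  have hN : N ≠ 0 := NeZero.ne N
  ext k
  rw [coeff_ser]
  by_cases hk : (N : ℤ) ∣ k
  · obtain ⟨k', rfl⟩ := hk
    rw [ModularCurve.qExpand_coeff_mul, coeff_ser]
    have e : (N : ℤ) * k' + ((N * m : ℕ) : ℤ) = (N : ℤ) * (k' + m) := by push_cast; ring
    rw [e]
    have hNpos : (0 : ℤ) < N := by exact_mod_cast Nat.pos_of_ne_zero hN
    by_cases h0 : 0 ≤ k' + (m : ℤ)
    · rw [if_pos h0, if_pos (mul_nonneg hNpos.le h0)]
      obtain ⟨n, hn⟩ := Int.eq_ofNat_of_zero_le h0
      rw [hn]
      have : ((N : ℤ) * (n : ℤ)).toNat = N * n := by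
        rw [← Nat.cast_mul, Int.toNat_natCast]
      rw [this, PowerSeries.coeff_expand_mul, Int.toNat_natCast]
    · rw [if_neg h0, if_neg]
      rw [not_le] at h0 ⊢
      exact mul_neg_of_pos_of_neg hNpos h0
  · rw [ModularCurve.qExpand_coeff_of_not_dvd N _ hk]
    split_ifs with h0
    · obtain ⟨n, hn⟩ := Int.eq_ofNat_of_zero_le h0
      rw [hn, Int.toNat_natCast]
      refine PowerSeries.coeff_expand_of_not_dvd N hN c ?_
      intro hdvd
      apply hk
      have h1 : (N : ℤ) ∣ (n : ℤ) := by exact_mod_cast hdvd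
      have h2 : (N : ℤ) ∣ ((N * m : ℕ) : ℤ) := ⟨m, by push_cast; ring⟩
      have h3 : k = (n : ℤ) - ((N * m : ℕ) : ℤ) := by rw [← hn]; ring
      rw [h3]
      exact dvd_sub h1 h2
    · rfl

/-- a function with a rational `q`-expansion has a rational `q_N`-expansion -/
theorem hasRatExp_of_level_one {h : ℍ → ℂ} (hh : HasRatExp 1 A h) : HasRatExp N A h := by
  obtain ⟨m, p, hp, hr⟩ := hh
  refine ⟨N * m, p.expand N (NeZero.ne N), coeffIn_expand (NeZero.ne N) hp, ?_⟩
  refine (rep_expand (NeZero.ne N) hr).congr fun z => ?_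
  rw [pow_mul, qq_pow_self]

/-- the expansion of a level-one function -/
theorem fexp_of_level_one (h : RatFun N A) {m : ℕ} {p : PowerSeries ℂ}
    (hr : Rep 1 p (fun z => (h : ℍ → ℂ) z * qq 1 z ^ m)) :
    fexp N A h = ModularCurve.qExpand ℂ N (ser m p) := by
  rw [← ser_expand]
  refine fexp_eq_of_rep h ((rep_expand (NeZero.ne N) hr).congr fun z => ?_)
  rw [pow_mul, qq_pow_self]

/-! ### The `j`-function -/

open Fermat.Agent.S24 in
/-- the `q`-expansion of `j` -/
theorem rep_jFun : Rep 1 JExp.jNumC (fun z => jFun z * qq 1 z ^ 1) := fun z => by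
  have h := JExp.hasSum_jFun z
  simp only [← JExp.coeff_jNumC] at h
  show HasSum (fun n => PowerSeries.coeff n JExp.jNumC * qq 1 z ^ n) (jFun z * qq 1 z ^ 1)
  simp only [qq_one]
  rw [pow_one, mul_comm]
  exact h

open Fermat.Agent.S24 in
theorem coeffIn_jNumC : CoeffIn A JExp.jNumC := fun n => by
  rw [JExp.jNumC, PowerSeries.coeff_map]
  exact intCast_mem A _

open Fermat.Agent.S24 in
theorem hasRatExp_jFun : HasRatExp N A jFun :=
  hasRatExp_of_level_one ⟨1, JExp.jNumC, coeffIn_jNumC, rep_jFun⟩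

variable (N A)

open Fermat.Agent.S24 in
/-- `j` as an element of `RatFun N A` -/
def jRat : RatFun N A := ⟨jFun, hasRatExp_jFun⟩

variable {N A}

open Fermat.Agent.S24 in
@[simp] theorem coe_jRat : ((jRat N A : RatFun N A) : ℍ → ℂ) = jFun := rfl

open Fermat.Agent.S24 in
theorem ser_one_jNumC : ser 1 JExp.jNumC = ModularCurve.jqModC ℂ := by
  rw [ser, ModularCurve.jqModC, JExp.jNumC, Nat.cast_one]

/-- **The formal expansion of `j` is `J = j(t^N)`**, the Prelude series. -/
theorem fexp_jRat : fexp N A (jRat N A) = ModularCurve.qExpand ℂ N (ModularCurve.jqModC ℂ) := by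
  rw [fexp_of_level_one (jRat N A) (m := 1) rep_jFun, ser_one_jNumC]

theorem fexp_jRat' : fexp N A (jRat N A) = ModularCurve.jqNModC ℂ N := fexp_jRat

/-- constants -/
def constRat (c : ↥A) : RatFun N A := ⟨fun _ => (c : ℂ), HasRatExp.const c.2⟩

theorem fexp_constRat (c : ↥A) : fexp N A (constRat c) = HahnSeries.C (c : ℂ) := by
  rw [fexp_eq_of_rep (constRat c) (m := 0) (p := PowerSeries.C (c : ℂ) * 1)
    ((Rep.one.const_mul (c : ℂ)).congr fun z => by simp [constRat])]
  simp [ser]

/-! ### Holomorphic functions with rational expansion -/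

/-- the ring of holomorphic functions on `ℍ` -/
def MDRing : Subring (ℍ → ℂ) where
  carrier := {f | MDiff f}
  mul_mem' ha hb := ha.mul hb
  one_mem' := mdifferentiable_const
  add_mem' ha hb := ha.add hb
  zero_mem' := mdifferentiable_const
  neg_mem' ha := ha.neg

variable (N A)

/-- holomorphic functions with a rational `q_N`-expansion over `A` -/
def NiceFun : Subring (ℍ → ℂ) := RatFun N A ⊓ MDRing

/-- the inclusion `NiceFun → RatFun` -/
def toRat : NiceFun N A →+* RatFun N A := Subring.inclusion inf_le_left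

/-- constants, as a ring hom -/
def constHom : ↥A →+* RatFun N A where
  toFun := constRat
  map_one' := rfl
  map_mul' _ _ := rfl
  map_zero' := rfl
  map_add' _ _ := rfl

/-- evaluation of a polynomial over `A` at `j`, inside `RatFun N A` -/
def evJ : Polynomial ↥A →+* RatFun N A := Polynomial.eval₂RingHom (constHom N A) (jRat N A)

variable {N A}

theorem mem_niceFun {f : ℍ → ℂ} : f ∈ NiceFun N A ↔ HasRatExp N A f ∧ MDiff f := Iff.rfl

@[simp] theorem coe_toRat (f : NiceFun N A) : ((toRat N A f : RatFun N A) : ℍ → ℂ) = f := rfl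

open Fermat.Agent.S24 in
theorem evJ_apply (P : Polynomial ↥A) (z : ℍ) :
    ((evJ N A P : RatFun N A) : ℍ → ℂ) z = (P.map A.subtype).eval (jFun z) := by
  have h := Polynomial.hom_eval₂ P (constHom N A)
    ((Pi.evalRingHom (fun _ : ℍ => ℂ) z).comp (RatFun N A).subtype) (jRat N A)
  rw [Polynomial.eval_map]
  exact h

theorem fexpA_constHom (c : ↥A) : fexpA N A (constHom N A c) = HahnSeries.C c :=
  coeffMap_subtype_injective (by
    rw [coeffMap_fexpA]
    show fexp N A (constRat c) = _
    rw [fexp_constRat]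
    show HahnSeries.single (0 : ℤ) (c : ℂ) = _
    rw [show (HahnSeries.C c : LaurentSeries ↥A) = HahnSeries.single 0 c from rfl,
      ModularCurve.coeffMap_single]
    rfl)

/-- the formal expansion of a polynomial in `j` -/
theorem fexpA_evJ (P : Polynomial ↥A) :
    fexpA N A (evJ N A P) =
      Polynomial.eval₂ (HahnSeries.C : ↥A →+* LaurentSeries ↥A) (fexpA N A (jRat N A)) P := by
  have h := Polynomial.hom_eval₂ P (constHom N A) (fexpA N A) (jRat N A)
  have hc : (fexpA N A).comp (constHom N A) = (HahnSeries.C : ↥A →+* LaurentSeries ↥A) :=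
    RingHom.ext fexpA_constHom
  rw [hc] at h
  exact h

open Fermat.Agent.S24 in
/-- **(S1)** an `SL(2,ℤ)`-invariant holomorphic function with rational expansion over `A` is a
polynomial in `j` with coefficients in `A`. -/
theorem exists_poly_of_invariant (f : NiceFun N A)
    (hinv : ∀ (γ : SL(2, ℤ)) (z : ℍ), (f : ℍ → ℂ) (γ • z) = (f : ℍ → ℂ) z) :
    ∃ P : Polynomial ↥A, toRat N A f = evJ N A P := by
  obtain ⟨hrat, hmd⟩ := mem_niceFun.mp f.2
  have hJ : Rep 1 JExp.jNumC (fun z => jFun z * qq 1 z) :=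
    rep_jFun.congr fun z => by rw [pow_one]
  obtain ⟨P, hcoef, heval⟩ :=
    exists_poly_jFun_of_hasRatExp A (coeffIn_jNumC (A := A)) hJ hmd hinv hrat
  have hlift : P ∈ Polynomial.lifts A.subtype := by
    rw [Polynomial.lifts_iff_coeff_lifts]
    intro n
    exact ⟨⟨P.coeff n, hcoef n⟩, rfl⟩
  obtain ⟨Q, hQ, -⟩ := Polynomial.exists_natDegree_eq_of_mem_lifts hlift
  refine ⟨Q, Subtype.ext (funext fun z => ?_)⟩
  rw [evJ_apply, hQ, coe_toRat]
  exact heval z

/-! ### (S2) Symmetric expressions in a family permuted by `SL(2,ℤ)` -/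

variable (N A)

/-- evaluation at a point of `ℍ`, as a ring hom on `NiceFun` -/
def evPt (z : ℍ) : NiceFun N A →+* ℂ :=
  (Pi.evalRingHom (fun _ : ℍ => ℂ) z).comp (NiceFun N A).subtype

/-- the formal `J = j(t^N)` over `A` -/
def JA : LaurentSeries ↥A := fexpA N A (jRat N A)

/-- evaluation of polynomials over `A` at the formal `J` -/
def evJA : Polynomial ↥A →+* LaurentSeries ↥A :=
  Polynomial.eval₂RingHom (HahnSeries.C : ↥A →+* LaurentSeries ↥A) (JA N A)

/-- the formal expansion on `NiceFun` -/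
def fexpN : NiceFun N A →+* LaurentSeries ↥A := (fexpA N A).comp (toRat N A)

variable {N A}

@[simp] theorem evPt_apply (z : ℍ) (f : NiceFun N A) : evPt N A z f = (f : ℍ → ℂ) z := rfl

theorem coeffMap_JA : ModularCurve.coeffMap A.subtype (JA N A) = ModularCurve.jqNModC ℂ N := by
  rw [JA, coeffMap_fexpA, fexp_jRat']

theorem fexpA_comp_evJ : (fexpA N A).comp (evJ N A) = evJA N A :=
  RingHom.ext fun P => fexpA_evJ P

theorem fexpN_injective : Function.Injective (fexpN N A) := fun _ _ h =>
  Subtype.ext (congrArg Subtype.val (fexpA_injective h) : _)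

/-- **General lifting lemma.** A polynomial over `NiceFun N A` whose pointwise specialisations are
`SL(2,ℤ)`-invariant comes from `A[J][X]`. -/
theorem exists_lift_of_invariant (G : Polynomial (NiceFun N A))
    (hinv : ∀ (γ : SL(2, ℤ)) (z : ℍ), G.map (evPt N A (γ • z)) = G.map (evPt N A z)) :
    ∃ Φ : Polynomial (Polynomial ↥A), Φ.map (evJ N A) = G.map (toRat N A) ∧
      Φ.natDegree = G.natDegree ∧ (G.Monic → Φ.Monic) := by
  have hinj : Function.Injective (toRat N A) := Subring.inclusion_injective _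
  have hlift : G.map (toRat N A) ∈ Polynomial.lifts (evJ N A) := by
    rw [Polynomial.lifts_iff_coeff_lifts]
    intro k
    rw [Polynomial.coeff_map]
    obtain ⟨P, hP⟩ := exists_poly_of_invariant (G.coeff k) (fun γ z => by
      have := congrArg (fun Q : Polynomial ℂ => Q.coeff k) (hinv γ z)
      simpa only [Polynomial.coeff_map, evPt_apply] using this)
    exact ⟨P, hP.symm⟩
  have hdeg : (G.map (toRat N A)).natDegree = G.natDegree :=
    Polynomial.natDegree_map_eq_of_injective hinj G
  by_cases hm : G.Monic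
  · obtain ⟨Φ, hΦ, hΦd, hΦm⟩ :=
      Polynomial.lifts_and_natDegree_eq_and_monic hlift (hm.map _)
    exact ⟨Φ, hΦ, hΦd.trans hdeg, fun _ => hΦm⟩
  · obtain ⟨Φ, hΦ, hΦd⟩ := Polynomial.exists_natDegree_eq_of_mem_lifts hlift
    exact ⟨Φ, hΦ, hΦd.trans hdeg, fun h => absurd h hm⟩

/-- formal consequence of `Φ.map evJ = G.map toRat` -/
theorem map_evJA_of_map_evJ {G : Polynomial (NiceFun N A)} {Φ : Polynomial (Polynomial ↥A)}
    (h : Φ.map (evJ N A) = G.map (toRat N A)) : Φ.map (evJA N A) = G.map (fexpN N A) := by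
  have := congrArg (Polynomial.map (fexpA N A)) h
  rwa [Polynomial.map_map, Polynomial.map_map, fexpA_comp_evJ] at this

open Fermat.Agent.S24 in
/-- pointwise consequence of `Φ.map evJ = G.map toRat` -/
theorem map_eval_of_map_evJ {G : Polynomial (NiceFun N A)} {Φ : Polynomial (Polynomial ↥A)}
    (h : Φ.map (evJ N A) = G.map (toRat N A)) (z : ℍ) :
    Φ.map ((Polynomial.evalRingHom (jFun z)).comp (Polynomial.mapRingHom A.subtype)) =
      G.map (evPt N A z) := by
  have h2 := congrArg (Polynomial.map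
    ((Pi.evalRingHom (fun _ : ℍ => ℂ) z).comp (RatFun N A).subtype)) h
  rw [Polynomial.map_map, Polynomial.map_map] at h2
  have e1 : ((Pi.evalRingHom (fun _ : ℍ => ℂ) z).comp (RatFun N A).subtype).comp (evJ N A) =
      (Polynomial.evalRingHom (jFun z)).comp (Polynomial.mapRingHom A.subtype) :=
    RingHom.ext fun P => by
      simp only [RingHom.comp_apply, Polynomial.coe_evalRingHom, Polynomial.coe_mapRingHom]
      exact evJ_apply P z
  have e2 : ((Pi.evalRingHom (fun _ : ℍ => ℂ) z).comp (RatFun N A).subtype).comp (toRat N A) =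
      evPt N A z := rfl
  rwa [e1, e2] at h2

section Families

variable {T : Type*} [Fintype T]

/-- the polynomial `∏ c, (X - F c)` -/
def prodPoly (F : T → NiceFun N A) : Polynomial (NiceFun N A) :=
  ∏ c, (Polynomial.X - Polynomial.C (F c))

/-- the Lagrange numerator `∑ c, U c * ∏ c' ≠ c, (X - F c')` -/
def lagPoly [DecidableEq T] (F U : T → NiceFun N A) : Polynomial (NiceFun N A) :=
  ∑ c, Polynomial.C (U c) * ∏ c' ∈ Finset.univ.erase c, (Polynomial.X - Polynomial.C (F c'))

theorem map_prodPoly {S : Type*} [CommRing S] (φ : NiceFun N A →+* S) (F : T → NiceFun N A) :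
    (prodPoly F).map φ = ∏ c, (Polynomial.X - Polynomial.C (φ (F c))) := by
  simp only [prodPoly, Polynomial.map_prod, Polynomial.map_sub, Polynomial.map_X,
    Polynomial.map_C]

theorem map_lagPoly [DecidableEq T] {S : Type*} [CommRing S] (φ : NiceFun N A →+* S) (F U : T → NiceFun N A) :
    (lagPoly F U).map φ = ∑ c, Polynomial.C (φ (U c)) *
      ∏ c' ∈ Finset.univ.erase c, (Polynomial.X - Polynomial.C (φ (F c'))) := by
  simp only [lagPoly, Polynomial.map_sum, Polynomial.map_mul, Polynomial.map_prod,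
    Polynomial.map_sub, Polynomial.map_X, Polynomial.map_C]

theorem prodPoly_monic (F : T → NiceFun N A) : (prodPoly F).Monic :=
  Polynomial.monic_prod_of_monic _ _ fun c _ => Polynomial.monic_X_sub_C (F c)

theorem natDegree_prodPoly (F : T → NiceFun N A) : (prodPoly F).natDegree = Fintype.card T := by
  rw [prodPoly, Polynomial.natDegree_prod_of_monic _ _ fun c _ => Polynomial.monic_X_sub_C (F c)]
  simp

theorem prodPoly_invariant (F : T → NiceFun N A)
    (hperm : ∀ γ : SL(2, ℤ), ∃ σ : Equiv.Perm T, ∀ (c : T) (z : ℍ),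
      (F c : ℍ → ℂ) (γ • z) = (F (σ c) : ℍ → ℂ) z) (γ : SL(2, ℤ)) (z : ℍ) :
    (prodPoly F).map (evPt N A (γ • z)) = (prodPoly F).map (evPt N A z) := by
  obtain ⟨σ, hσ⟩ := hperm γ
  rw [map_prodPoly, map_prodPoly]
  simp only [evPt_apply, hσ]
  exact Equiv.prod_comp σ fun c => (Polynomial.X - Polynomial.C ((F c : ℍ → ℂ) z))

theorem lagPoly_invariant [DecidableEq T] (F U : T → NiceFun N A)
    (hperm : ∀ γ : SL(2, ℤ), ∃ σ : Equiv.Perm T, ∀ (c : T) (z : ℍ),
      (F c : ℍ → ℂ) (γ • z) = (F (σ c) : ℍ → ℂ) z ∧ (U c : ℍ → ℂ) (γ • z) = (U (σ c) : ℍ → ℂ) z)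
    (γ : SL(2, ℤ)) (z : ℍ) :
    (lagPoly F U).map (evPt N A (γ • z)) = (lagPoly F U).map (evPt N A z) := by
  obtain ⟨σ, hσ⟩ := hperm γ
  rw [map_lagPoly, map_lagPoly]
  simp only [evPt_apply, (hσ _ _).1, (hσ _ _).2]
  rw [← Equiv.sum_comp σ fun c => Polynomial.C ((U c : ℍ → ℂ) z) *
    ∏ c' ∈ Finset.univ.erase c, (Polynomial.X - Polynomial.C ((F c' : ℍ → ℂ) z))]
  refine Finset.sum_congr rfl fun c _ => ?_
  congr 1
  refine Finset.prod_equiv σ (fun i => ?_) (fun i _ => rfl)
  simp only [Finset.mem_erase, Finset.mem_univ, and_true, ne_eq, EmbeddingLike.apply_eq_iff_eq]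

/-- **(S2a)** `∏ c, (X - F c)` has coefficients in `A[J]`. -/
theorem exists_prodPoly_lift (F : T → NiceFun N A)
    (hperm : ∀ γ : SL(2, ℤ), ∃ σ : Equiv.Perm T, ∀ (c : T) (z : ℍ),
      (F c : ℍ → ℂ) (γ • z) = (F (σ c) : ℍ → ℂ) z) :
    ∃ Φ : Polynomial (Polynomial ↥A), Φ.Monic ∧ Φ.natDegree = Fintype.card T ∧
      Φ.map (evJ N A) = (prodPoly F).map (toRat N A) ∧
      Φ.map (evJA N A) = ∏ c, (Polynomial.X - Polynomial.C (fexpN N A (F c))) := by
  obtain ⟨Φ, hΦ, hd, hm⟩ := exists_lift_of_invariant (prodPoly F) (prodPoly_invariant F hperm)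
  refine ⟨Φ, hm (prodPoly_monic F), hd.trans (natDegree_prodPoly F), hΦ, ?_⟩
  rw [map_evJA_of_map_evJ hΦ, map_prodPoly]

/-- **(S2b)** the Lagrange numerator has coefficients in `A[J]`. -/
theorem exists_lagPoly_lift [DecidableEq T] (F U : T → NiceFun N A)
    (hperm : ∀ γ : SL(2, ℤ), ∃ σ : Equiv.Perm T, ∀ (c : T) (z : ℍ),
      (F c : ℍ → ℂ) (γ • z) = (F (σ c) : ℍ → ℂ) z ∧ (U c : ℍ → ℂ) (γ • z) = (U (σ c) : ℍ → ℂ) z) :
    ∃ L : Polynomial (Polynomial ↥A),
      L.map (evJ N A) = (lagPoly F U).map (toRat N A) ∧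
      L.map (evJA N A) = ∑ c, Polynomial.C (fexpN N A (U c)) *
        ∏ c' ∈ Finset.univ.erase c, (Polynomial.X - Polynomial.C (fexpN N A (F c'))) := by
  obtain ⟨L, hL, -, -⟩ := exists_lift_of_invariant (lagPoly F U) (lagPoly_invariant F U hperm)
  refine ⟨L, hL, ?_⟩
  rw [map_evJA_of_map_evJ hL, map_lagPoly]

end Families

end

end Fermat.Agent.S28.SymmRat
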