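import Mathlib
import Fermat.Agent.S28.ConjJ
import Fermat.Agent.S28.SymmRat
import Fermat.Agent.S28.Defs

set_option autoImplicit false

/-!
# S28 (A4a+): the conjugates of `j_N` inside the dictionary `RatFun / NiceFun → A((t))`

Thin layer on top of `ConjJ` (formal side) and `SymmRat` (analytic → formal dictionary): the
conjugates `conjFn jFun N c` as elements `FQ c` of `RatFun N A` / `FN c` of `NiceFun N A`, their
formal expansions `fexpA (FQ c) = fexpN (FN c) = ConjJ.xA c`, and the five `Defs.ConjSystem` facts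
`hx0`, `hx_low`, `hx_lc`, `hlc`, `hinj` for `x c := fexpN (FN c)`.  Also `JA N A = Defs.jt A N`, i.e.
`SymmRat.evJA N A = Defs.evalJt A N`.
-/

namespace Fermat.Agent.S28.ConjJFexp

open HahnSeries ModularCurve
open Fermat.Agent.S20 Fermat.Agent.S24 Fermat.Agent.S24.JConj Fermat.Agent.S28.HermiteGcd
  Fermat.Agent.S28.TauConj Fermat.Agent.S28.ConjJ Fermat.Agent.S28.SymmRat
open Fermat.Agent.S24.JPoly (qq CoeffIn HasRatExp Rep)
open scoped MatrixGroups Manifold

noncomputable section

variable (N : ℕ) [NeZero N] (A : Subring ℂ) (hroots : ∀ ζ : ℂ, ζ ^ N = 1 → ζ ∈ A)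

/-- `SymmRat.ser` and `ConjJ.laurentOf` are the same thing -/
theorem ser_eq_laurentOf (m : ℕ) (p : PowerSeries ℂ) : ser m p = laurentOf m p := rfl

/-- the conjugate `conjFn jFun N c` as an element of `RatFun N A` -/
def FQ (c : Q N) : RatFun N A := ⟨conjFn jFun N c, TauConj.hasRatExp_conjFn A N hroots c⟩

@[simp] theorem FQ_val (c : Q N) : ((FQ N A hroots c : RatFun N A) : UpperHalfPlane → ℂ) =
    conjFn jFun N c := rfl

theorem mdiff_FQ (c : Q N) : MDiff ((FQ N A hroots c : RatFun N A) : UpperHalfPlane → ℂ) :=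
  mdiff_conjFn N c

theorem FQ_smul (γ : SL(2, ℤ)) (c : Q N) (z : UpperHalfPlane) :
    ((FQ N A hroots c : RatFun N A) : UpperHalfPlane → ℂ) (γ • z) =
      ((FQ N A hroots (γ⁻¹ • c) : RatFun N A) : UpperHalfPlane → ℂ) z :=
  conjFn_smul_perm N γ c z

/-- the conjugate `conjFn jFun N c` as an element of `NiceFun N A` -/
def FN (c : Q N) : NiceFun N A :=
  ⟨conjFn jFun N c, mem_niceFun.mpr ⟨TauConj.hasRatExp_conjFn A N hroots c, mdiff_conjFn N c⟩⟩

@[simp] theorem FN_val (c : Q N) : ((FN N A hroots c : NiceFun N A) : UpperHalfPlane → ℂ) =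
    conjFn jFun N c := rfl

@[simp] theorem toRat_FN (c : Q N) : toRat N A (FN N A hroots c) = FQ N A hroots c := rfl

theorem FN_smul (γ : SL(2, ℤ)) (c : Q N) (z : UpperHalfPlane) :
    ((FN N A hroots c : NiceFun N A) : UpperHalfPlane → ℂ) (γ • z) =
      ((FN N A hroots (γ⁻¹ • c) : NiceFun N A) : UpperHalfPlane → ℂ) z :=
  conjFn_smul_perm N γ c z

theorem FN_smul_perm (γ : SL(2, ℤ)) (c : Q N) (z : UpperHalfPlane) :
    ((FN N A hroots c : NiceFun N A) : UpperHalfPlane → ℂ) (γ • z) =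
      ((FN N A hroots (permOf N γ c) : NiceFun N A) : UpperHalfPlane → ℂ) z :=
  conjFn_smul_perm N γ c z

/-- the hypothesis `hperm` of `SymmRat.exists_prodPoly_lift` for the family `FN` -/
theorem FN_hperm : ∀ γ : SL(2, ℤ), ∃ σ : Equiv.Perm (Q N), ∀ (c : Q N) (z : UpperHalfPlane),
    ((FN N A hroots c : NiceFun N A) : UpperHalfPlane → ℂ) (γ • z) =
      ((FN N A hroots (σ c) : NiceFun N A) : UpperHalfPlane → ℂ) z :=
  fun γ => ⟨permOf N γ, fun c z => FN_smul_perm N A hroots γ c z⟩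

/-! ### the formal expansions -/

theorem fexp_FQ (c : Q N) : fexp N A (FQ N A hroots c) = xC N c :=
  fexp_eq_of_rep (FQ N A hroots c) (rep_xC N c)

/-- **the formal expansion of the conjugate is the explicit series of `ConjJ`** -/
theorem fexpA_FQ (c : Q N) : fexpA N A (FQ N A hroots c) = xA N A hroots c := by
  apply ConjJ.coeffMap_subtype_injective A
  rw [coeffMap_fexpA, coeffMap_xA, fexp_FQ]

theorem fexpN_FN (c : Q N) : fexpN N A (FN N A hroots c) = xA N A hroots c :=
  fexpA_FQ N A hroots c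

/-! ### `J = j(t^N)` -/

theorem JA_eq_jt : JA N A = Defs.jt ↥A N := by
  apply ConjJ.coeffMap_subtype_injective A
  rw [coeffMap_JA, Defs.jt, coeffMap_qExpand, coeffMap_jqModC]
  rfl

theorem evJA_eq_evalJt : evJA N A = Defs.evalJt ↥A N := by
  apply Polynomial.ringHom_ext
  · intro a
    simp only [evJA, Defs.evalJt, Polynomial.coe_eval₂RingHom, Polynomial.eval₂_C,
      AlgHom.toRingHom_eq_coe, RingHom.coe_coe, Polynomial.aeval_C]
    rw [HahnSeries.algebraMap_apply', PowerSeries.algebraMap_apply, Algebra.algebraMap_self,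
      RingHom.id_apply, HahnSeries.ofPowerSeries_C]
  · simp [evJA, Defs.evalJt, JA_eq_jt]

/-! ### the five `ConjSystem` facts for `x c := fexpN (FN c)` -/

theorem hx0 : fexpN N A (FN N A hroots (QuotientGroup.mk 1 : Q N)) = Defs.jNt ↥A N := by
  rw [fexpN_FN, xA_one]
  rfl

theorem hx_low (c : Q N) (k : ℤ) (hk : k < -(ordQ N c : ℤ)) :
    (fexpN N A (FN N A hroots c)).coeff k = 0 := by
  rw [fexpN_FN]
  exact xA_coeff_of_lt N A hroots c hk

theorem hx_lc (c : Q N) :
    (fexpN N A (FN N A hroots c)).coeff (-(ordQ N c : ℤ)) = lcA N A hroots c := by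
  rw [fexpN_FN]
  exact xA_coeff_lc N A hroots c

theorem hlc (c : Q N) : lcA N A hroots c ^ N = 1 := lcA_pow N A hroots c

theorem hinj (c c' : Q N) (hm : ordQ N c = ordQ N c')
    (h : lcA N A hroots c = lcA N A hroots c') : c = c' :=
  xA_leading_injective N A hroots hm h

end

end Fermat.Agent.S28.ConjJFexp
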