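/-
S28 package AR (CoeffRing): the coefficient ring `AInt ℓ ⊆ ℂ` of `ℓ`-integral algebraic numbers,
a maximal ideal over `ℓ`, its residue field `kRes ℓ` (characteristic `ℓ`) and the reduction map.
Mathlib + Prelude `GaloisRep.ratLocalizedAt` only.
-/
import Mathlib
import Fermat.Prelude.Def_GaloisRep_Flat

set_option autoImplicit false

noncomputable section

namespace Fermat.Agent.S28.CoeffRing

/-- `ℓ`-integral algebraic numbers: `x` such that `n x` is an algebraic integer for some `n`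
prime to `ℓ`. -/
def AInt (ℓ : ℕ) : Subring ℂ where
  carrier := {x | ∃ n : ℕ, n ≠ 0 ∧ n.Coprime ℓ ∧ IsIntegral ℤ ((n : ℂ) * x)}
  mul_mem' := by
    rintro x y ⟨n, hn0, hn, hx⟩ ⟨m, hm0, hm, hy⟩
    refine ⟨n * m, Nat.mul_ne_zero hn0 hm0, Nat.Coprime.mul_left hn hm, ?_⟩
    have : ((n * m : ℕ) : ℂ) * (x * y) = ((n : ℂ) * x) * ((m : ℂ) * y) := by push_cast; ring
    rw [this]; exact hx.mul hy
  one_mem' := ⟨1, one_ne_zero, Nat.coprime_one_left _, by simpa using isIntegral_one⟩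
  add_mem' := by
    rintro x y ⟨n, hn0, hn, hx⟩ ⟨m, hm0, hm, hy⟩
    refine ⟨n * m, Nat.mul_ne_zero hn0 hm0, Nat.Coprime.mul_left hn hm, ?_⟩
    have : ((n * m : ℕ) : ℂ) * (x + y) = (m : ℂ) * ((n : ℂ) * x) + (n : ℂ) * ((m : ℂ) * y) := by
      push_cast; ring
    rw [this]
    have hm' : IsIntegral ℤ (m : ℂ) := by
      simpa using (isIntegral_algebraMap (R := ℤ) (A := ℂ) (x := (m : ℤ)))
    have hn' : IsIntegral ℤ (n : ℂ) := by
      simpa using (isIntegral_algebraMap (R := ℤ) (A := ℂ) (x := (n : ℤ)))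
    exact (hm'.mul hx).add (hn'.mul hy)
  zero_mem' := ⟨1, one_ne_zero, Nat.coprime_one_left _, by simpa using isIntegral_zero⟩
  neg_mem' := by
    rintro x ⟨n, hn0, hn, hx⟩
    refine ⟨n, hn0, hn, ?_⟩
    rw [mul_neg]; exact hx.neg

variable {ℓ : ℕ}

theorem mem_AInt {x : ℂ} :
    x ∈ AInt ℓ ↔ ∃ n : ℕ, n ≠ 0 ∧ n.Coprime ℓ ∧ IsIntegral ℤ ((n : ℂ) * x) := Iff.rfl

/-- algebraic integers are `ℓ`-integral. -/
theorem isIntegral_mem {x : ℂ} (hx : IsIntegral ℤ x) : x ∈ AInt ℓ :=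
  ⟨1, one_ne_zero, Nat.coprime_one_left _, by simpa using hx⟩

theorem intCast_mem (k : ℤ) : (k : ℂ) ∈ AInt ℓ := _root_.intCast_mem (AInt ℓ) k

/-- every root of unity lies in `AInt ℓ`. -/
theorem rootOfUnity_mem {N : ℕ} (hN : N ≠ 0) {ζ : ℂ} (hζ : ζ ^ N = 1) : ζ ∈ AInt ℓ :=
  isIntegral_mem (IsIntegral.of_pow (Nat.pos_of_ne_zero hN) (by rw [hζ]; exact isIntegral_one))

/-- `1/n ∈ AInt ℓ` for `n` prime to `ℓ`. -/
theorem natCast_inv_mem_of_coprime {n : ℕ} (hn0 : n ≠ 0) (hn : n.Coprime ℓ) :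
    ((n : ℂ))⁻¹ ∈ AInt ℓ :=
  ⟨n, hn0, hn, by rw [mul_inv_cancel₀ (Nat.cast_ne_zero.mpr hn0)]; exact isIntegral_one⟩

theorem natCast_inv_mem [Fact ℓ.Prime] {n : ℕ} (hn : ¬ ℓ ∣ n) : ((n : ℂ))⁻¹ ∈ AInt ℓ :=
  natCast_inv_mem_of_coprime (fun h => hn (h ▸ dvd_zero _))
    ((Nat.Prime.coprime_iff_not_dvd Fact.out).mpr hn).symm

/-- a rational number in `AInt ℓ` has denominator prime to `ℓ`. -/
theorem den_coprime_of_mem {r : ℚ} (h : (r : ℂ) ∈ AInt ℓ) : r.den.Coprime ℓ := by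
  obtain ⟨n, hn0, hn, hint⟩ := h
  have h1 : IsIntegral ℤ (((n : ℚ) * r : ℚ) : ℂ) := by push_cast; exact hint
  have h2 : IsIntegral ℤ ((n : ℚ) * r) :=
    (isIntegral_algebraMap_iff (algebraMap ℚ ℂ).injective).mp h1
  obtain ⟨k, hk⟩ := IsIntegrallyClosed.isIntegral_iff.mp h2
  have hk' : (k : ℚ) = (n : ℚ) * r := hk
  have hn0' : (n : ℚ) ≠ 0 := Nat.cast_ne_zero.mpr hn0
  have hr : r = (k : ℚ) / (n : ℚ) := by rw [hk']; field_simp
  have hdvd : r.den ∣ n := by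
    have := Rat.den_dvd k (n : ℤ)
    rw [hr]
    have h3 : ((k : ℚ) / (n : ℚ)) = Rat.divInt k (n : ℤ) := by
      rw [Rat.divInt_eq_div]; simp
    rw [h3]
    exact_mod_cast this
  exact Nat.Coprime.coprime_dvd_left hdvd hn

theorem rat_mem_iff (r : ℚ) : (r : ℂ) ∈ AInt ℓ ↔ r ∈ GaloisRep.ratLocalizedAt ℓ := by
  constructor
  · exact fun h => den_coprime_of_mem h
  · intro h
    have hc : r.den.Coprime ℓ := h
    refine ⟨r.den, r.den_ne_zero, hc, ?_⟩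
    have : ((r.den : ℂ)) * (r : ℂ) = ((r.num : ℤ) : ℂ) := by
      have := Rat.den_mul_eq_num r
      exact_mod_cast congrArg (fun q : ℚ => (q : ℂ)) this
    rw [this]
    simpa using (isIntegral_algebraMap (R := ℤ) (A := ℂ) (x := r.num))

/-! ### `ℓ` is not a unit; the maximal ideal and the residue field -/

section Residue

variable (ℓ) [hℓ : Fact ℓ.Prime]

theorem not_isUnit_l : ¬ IsUnit ((ℓ : ℕ) : AInt ℓ) := by
  rintro ⟨u, hu⟩
  have h1 : ((ℓ : ℕ) : AInt ℓ) * (↑u⁻¹ : AInt ℓ) = 1 := by rw [← hu]; exact u.mul_inv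
  have h2 : ((ℓ : ℂ)) * ((↑u⁻¹ : AInt ℓ) : ℂ) = 1 := by
    have := congrArg (fun x : AInt ℓ => (x : ℂ)) h1
    simpa using this
  have hℓ0 : (ℓ : ℂ) ≠ 0 := Nat.cast_ne_zero.mpr hℓ.out.ne_zero
  have h3 : ((↑u⁻¹ : AInt ℓ) : ℂ) = (((ℓ : ℚ)⁻¹ : ℚ) : ℂ) := by
    push_cast
    field_simp
    rw [mul_comm]; exact h2
  have hmem : ((((ℓ : ℚ)⁻¹ : ℚ)) : ℂ) ∈ AInt ℓ := by rw [← h3]; exact (↑u⁻¹ : AInt ℓ).2
  have hden := den_coprime_of_mem hmem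
  have hden' : ((ℓ : ℚ)⁻¹).den = ℓ := by
    rw [Rat.inv_natCast_den]; simp [hℓ.out.ne_zero]
  rw [hden', Nat.coprime_self] at hden
  exact hℓ.out.one_lt.ne' hden

/-- a maximal ideal of `AInt ℓ` containing `ℓ`. -/
def mMax : Ideal (AInt ℓ) :=
  Classical.choose (Ideal.exists_le_maximal (Ideal.span {((ℓ : ℕ) : AInt ℓ)})
    (by rw [Ne, Ideal.span_singleton_eq_top]; exact not_isUnit_l ℓ))

instance mMax_isMaximal : (mMax ℓ).IsMaximal :=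
  (Classical.choose_spec (Ideal.exists_le_maximal (Ideal.span {((ℓ : ℕ) : AInt ℓ)})
    (by rw [Ne, Ideal.span_singleton_eq_top]; exact not_isUnit_l ℓ))).1

theorem l_mem_mMax : ((ℓ : ℕ) : AInt ℓ) ∈ mMax ℓ :=
  (Classical.choose_spec (Ideal.exists_le_maximal (Ideal.span {((ℓ : ℕ) : AInt ℓ)})
    (by rw [Ne, Ideal.span_singleton_eq_top]; exact not_isUnit_l ℓ))).2
    (Ideal.mem_span_singleton_self _)

/-- the residue field. -/
abbrev kRes : Type := AInt ℓ ⧸ mMax ℓ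

instance kRes_field : Field (kRes ℓ) := Ideal.Quotient.field (mMax ℓ)

/-- the reduction map. -/
def red : AInt ℓ →+* kRes ℓ := Ideal.Quotient.mk (mMax ℓ)

theorem red_surjective : Function.Surjective (red ℓ) := Ideal.Quotient.mk_surjective

theorem red_eq_zero_iff (x : AInt ℓ) : red ℓ x = 0 ↔ x ∈ mMax ℓ :=
  Ideal.Quotient.eq_zero_iff_mem

theorem natCast_l_eq_zero : ((ℓ : ℕ) : kRes ℓ) = 0 := by
  have := (red_eq_zero_iff ℓ _).mpr (l_mem_mMax ℓ)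
  simpa using this

instance kRes_charP : CharP (kRes ℓ) ℓ := by
  obtain ⟨p, hp⟩ := CharP.exists (kRes ℓ)
  have hdvd : p ∣ ℓ := (CharP.cast_eq_zero_iff (kRes ℓ) p ℓ).mp (natCast_l_eq_zero ℓ)
  have hp1 : p ≠ 1 := CharP.char_ne_one (kRes ℓ) p
  rcases (Nat.dvd_prime hℓ.out).mp hdvd with h | h
  · exact absurd h hp1
  · exact h ▸ hp

theorem natCast_ne_zero {N : ℕ} (hN : ¬ ℓ ∣ N) : ((N : ℕ) : kRes ℓ) ≠ 0 := fun h =>
  hN ((CharP.cast_eq_zero_iff (kRes ℓ) ℓ N).mp h)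

theorem red_natCast (n : ℕ) : red ℓ (n : AInt ℓ) = (n : kRes ℓ) := map_natCast _ n

/-- units of `AInt ℓ` have nonzero reduction. -/
theorem red_unit_ne_zero {u : AInt ℓ} (hu : IsUnit u) : red ℓ u ≠ 0 :=
  (hu.map (red ℓ)).ne_zero

/-- the reduction is injective on `N`-th roots of unity when `ℓ ∤ N`. -/
theorem red_injOn_roots {N : ℕ} (hN : ¬ ℓ ∣ N) {ζ ζ' : AInt ℓ} (hζ : ζ ^ N = 1) (hζ' : ζ' ^ N = 1)
    (h : red ℓ ζ = red ℓ ζ') : ζ = ζ' := by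
  have hN0 : N ≠ 0 := fun h0 => hN (h0 ▸ dvd_zero _)
  -- `ξ = ζ' ζ^(N-1)` is an `N`-th root of unity reducing to `1`
  set ξ : AInt ℓ := ζ' * ζ ^ (N - 1) with hξ
  have hζinv : ζ * ζ ^ (N - 1) = 1 := by
    rw [← pow_succ', Nat.sub_add_cancel (Nat.pos_of_ne_zero hN0), hζ]
  have hξN : ξ ^ N = 1 := by
    rw [hξ, mul_pow, hζ', one_mul, ← pow_mul, mul_comm, pow_mul, hζ, one_pow]
  have hredξ : red ℓ ξ = 1 := by
    rw [hξ, map_mul, ← h, ← map_mul, hζinv, map_one]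
  by_contra hne
  have hξ1 : ξ ≠ 1 := by
    intro h1
    apply hne
    have : ζ' = ζ' * (ζ * ζ ^ (N - 1)) := by rw [hζinv, mul_one]
    calc ζ = ζ * 1 := (mul_one ζ).symm
      _ = ζ * ξ := by rw [h1]
      _ = ζ' * (ζ * ζ ^ (N - 1)) := by rw [hξ]; ring
      _ = ζ' := by rw [hζinv, mul_one]
  have hsum : ∑ i ∈ Finset.range N, ξ ^ i = 0 := by
    have hgeom : (∑ i ∈ Finset.range N, ξ ^ i) * (ξ - 1) = ξ ^ N - 1 := geom_sum_mul ξ N
    rw [hξN, sub_self] at hgeom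
    rcases mul_eq_zero.mp hgeom with h0 | h0
    · exact h0
    · exact absurd (sub_eq_zero.mp h0) hξ1
  have hred := congrArg (red ℓ) hsum
  rw [map_sum, map_zero] at hred
  simp only [map_pow, hredξ, one_pow, Finset.sum_const, Finset.card_range, nsmul_eq_mul,
    mul_one] at hred
  exact natCast_ne_zero ℓ hN hred

/-- `n` prime to `ℓ` is a unit of `AInt ℓ`. -/
theorem natCast_isUnit {n : ℕ} (hn : ¬ ℓ ∣ n) : IsUnit ((n : ℕ) : AInt ℓ) := by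
  have hn0 : n ≠ 0 := fun h => hn (h ▸ dvd_zero _)
  refine IsUnit.of_mul_eq_one ⟨((n : ℂ))⁻¹, natCast_inv_mem hn⟩ (Subtype.ext ?_)
  push_cast
  exact mul_inv_cancel₀ (Nat.cast_ne_zero.mpr hn0)

theorem natCast_inv_mem_of_dvd {N a : ℕ} (hN : ¬ ℓ ∣ N) (ha : a ∣ N) : ((a : ℂ))⁻¹ ∈ AInt ℓ :=
  natCast_inv_mem fun h => hN (h.trans ha)

/-- `ℤ_(ℓ) → AInt ℓ`. -/
def ofZl : ↥(GaloisRep.ratLocalizedAt ℓ) →+* AInt ℓ where
  toFun r := ⟨((r : ℚ) : ℂ), (rat_mem_iff (r : ℚ)).mpr r.2⟩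
  map_one' := Subtype.ext (by simp)
  map_mul' x y := Subtype.ext (by simp)
  map_zero' := Subtype.ext (by simp)
  map_add' x y := Subtype.ext (by simp)

omit hℓ in
@[simp] theorem coe_ofZl (r : ↥(GaloisRep.ratLocalizedAt ℓ)) : ((ofZl ℓ r : AInt ℓ) : ℂ) = ((r : ℚ) : ℂ) :=
  rfl

omit hℓ in
theorem ofZl_injective : Function.Injective (ofZl ℓ) := by
  intro x y h
  have := congrArg (fun z : AInt ℓ => (z : ℂ)) h
  simp only [coe_ofZl] at this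
  exact Subtype.ext (by exact_mod_cast this)

omit hℓ in
/-- a rational element of `AInt ℓ` comes from `ℤ_(ℓ)`. -/
theorem exists_ofZl_eq {x : AInt ℓ} {r : ℚ} (h : (x : ℂ) = (r : ℂ)) :
    ∃ y : ↥(GaloisRep.ratLocalizedAt ℓ), ofZl ℓ y = x ∧ (y : ℚ) = r := by
  have hr : r ∈ GaloisRep.ratLocalizedAt ℓ := (rat_mem_iff r).mp (h ▸ x.2)
  exact ⟨⟨r, hr⟩, Subtype.ext (by simp [h]), rfl⟩

end Residue

end Fermat.Agent.S28.CoeffRing
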