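import Mathlib
import Fermat.Agent.S28.TauConj

set_option autoImplicit false

/-!
# S28 / A2 continued: the inverses of the conjugate units

`(unitQ d N q)⁻¹ = a⁻¹² Δ(z) / Δ((a z + b)/e)`; `(unitQ d N q)⁻¹ · q_N^m` (`m = unitOrd d N q`) is the
power series `(a¹² ζ)⁻¹ X^N · E(X^N) · E(ζ X^m)⁻¹` over any subring `A` containing the `N`-th roots
of unity and `a⁻¹`: order `N`, leading coefficient `(a¹² ζ)⁻¹`.
-/

namespace Fermat.Agent.S28.DeltaConjInv

open UpperHalfPlane CongruenceSubgroup Matrix.SpecialLinearGroup Filter Topology Complex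
open Fermat.Agent.S20 Fermat.Agent.S20.Rank Fermat.Agent.S24 Fermat.Agent.S24.JConj
open Fermat.Agent.S28.HermiteGcd Fermat.Agent.S28.DeltaConj Fermat.Agent.S28.TauConj
open Fermat.Agent.S24.EtaBridge (etaFun etaFun_ne_zero toC rep_dedekindEtaUnit
  rep_dedekindEtaUnitInv)
open Fermat.Agent.S24.CuspExp (substMulPow coeff_substMulPow rep_substMulPow rep_const rep_X_pow
  qParam_one_affH exp_ratio_pow_eq_one norm_exp_two_pi_I_mul_ratio)
open Fermat.Agent.S24.JPoly (qq CoeffIn qq_ne_zero qq_pow_self qq_one norm_qq_lt_one)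
open scoped MatrixGroups ModularForm Manifold Real

noncomputable section

local notation "Δ" => ModularForm.discriminant
local notation "𝕢" => Function.Periodic.qParam

/-- the power series `c X^N · E(X^N) · E(ζ X^m)⁻¹`, `E = ∏ (1 - Xⁿ)²⁴` -/
def unitInvSeries (c ζ : ℂ) (m N : ℕ) : PowerSeries ℂ :=
  PowerSeries.X ^ N * (PowerSeries.C c *
    (substMulPow (toC ModularCurve.dedekindEtaUnit) 1 N *
      substMulPow (toC ModularCurve.dedekindEtaUnitInv) ζ m))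

theorem coeff_unitInvSeries_of_lt (c ζ : ℂ) (m N : ℕ) {k : ℕ} (hk : k < N) :
    PowerSeries.coeff k (unitInvSeries c ζ m N) = 0 := by
  unfold unitInvSeries
  rw [PowerSeries.coeff_X_pow_mul', if_neg (not_le.mpr hk)]

theorem coeff_unitInvSeries_self (c ζ : ℂ) (m N : ℕ) :
    PowerSeries.coeff N (unitInvSeries c ζ m N) = c := by
  unfold unitInvSeries
  rw [PowerSeries.coeff_X_pow_mul', if_pos le_rfl, Nat.sub_self, PowerSeries.coeff_C_mul,
    PowerSeries.coeff_zero_eq_constantCoeff, map_mul, ← PowerSeries.coeff_zero_eq_constantCoeff,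
    coeff_zero_substMulPow, coeff_zero_substMulPow,
    coeff_zero_toC_dedekindEtaUnit, coeff_zero_toC_dedekindEtaUnitInv]
  ring

theorem coeffIn_unitInvSeries (A : Subring ℂ) {c ζ : ℂ} (hc : c ∈ A) (hζ : ζ ∈ A) (m N : ℕ) :
    CoeffIn A (unitInvSeries c ζ m N) := by
  unfold unitInvSeries
  refine (CoeffIn.X.pow N).mul (CoeffIn.C_mul hc ?_)
  exact (coeffIn_substMulPow_toC A _ A.one_mem N).mul (coeffIn_substMulPow_toC A _ hζ m)

theorem rep_unitInvSeries (c : ℂ) {ζ : ℂ} (hζ : ‖ζ‖ ≤ 1) {m N : ℕ} (hm : 0 < m) (hN : 0 < N) :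
    Fermat.Agent.S24.EtaBridge.Rep (unitInvSeries c ζ m N)
      (fun q => q ^ N * (c * (etaFun (1 * q ^ N) ^ 24 * (etaFun (ζ * q ^ m) ^ 24)⁻¹))) := by
  unfold unitInvSeries
  exact (rep_X_pow N).mul ((rep_const c).mul
    ((rep_substMulPow rep_dedekindEtaUnit (by simp) hN).mul
      (rep_substMulPow rep_dedekindEtaUnitInv hζ hm)))

/-- **Exact expansion of `(a¹² Δ((az+b)/e)/Δ(z))⁻¹`**, `e t = N`, `m = a t`. -/
theorem rep_unit_inv_affH {N : ℕ} [NeZero N] (a b e : ℤ) (ha : 0 < a) (he : 0 < e) {t : ℤ}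
    (ht : (N : ℤ) = e * t) :
    Fermat.Agent.S24.JPoly.Rep N
      (unitInvSeries (((a : ℂ) ^ 12 * cexp (2 * π * Complex.I * ((b : ℂ) / e)))⁻¹)
        (cexp (2 * π * Complex.I * ((b : ℂ) / e))) (a * t).toNat N)
      (fun z : ℍ =>
        ((a : ℂ) ^ 12 * Δ (affH a b e (intCast_pos' ha) (intCast_pos' he) z) / Δ z)⁻¹ *
          qq N z ^ (a * t).toNat) := by
  have hN : 0 < N := Nat.pos_of_ne_zero (NeZero.ne N)
  have htpos : 0 < t := by
    have h1 : (0 : ℤ) < e * t := by rw [← ht]; exact_mod_cast hN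
    exact (mul_pos_iff_of_pos_left he).mp h1
  set m : ℕ := (a * t).toNat with hm
  have hmpos : 0 < m := Int.pos_iff_toNat_pos.mp (mul_pos ha htpos)
  set ζ : ℂ := cexp (2 * π * Complex.I * ((b : ℂ) / e)) with hζ
  have hζnorm : ‖ζ‖ ≤ 1 := (norm_exp_two_pi_I_mul_ratio b e).le
  have hζnorm1 : ‖ζ‖ = 1 := norm_exp_two_pi_I_mul_ratio b e
  have hrep := rep_unitInvSeries (((a : ℂ) ^ 12 * ζ)⁻¹) hζnorm hmpos hN
  intro z
  have hq : ‖qq N z‖ < 1 := norm_qq_lt_one N z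
  have h := hrep (qq N z) hq
  set w := affH a b e (intCast_pos' ha) (intCast_pos' he) z with hw
  have hqw : 𝕢 1 (w : ℂ) = ζ * qq N z ^ m := by
    rw [hw, qParam_one_affH a b e ha he hN ht z, Fermat.Agent.S24.JPoly.qq_def]
  have hqz : 𝕢 1 (z : ℂ) = qq N z ^ N := by
    rw [qq_pow_self, qq_one]
  have hq0 : qq N z ≠ 0 := qq_ne_zero N z
  have hζ0 : ζ ≠ 0 := Complex.exp_ne_zero _
  have haC : (a : ℂ) ≠ 0 := by exact_mod_cast ha.ne'
  have hqN : ‖qq N z ^ N‖ < 1 := by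
    rw [norm_pow]; exact pow_lt_one₀ (norm_nonneg _) hq hN.ne'
  have hqm : ‖ζ * qq N z ^ m‖ < 1 := by
    rw [norm_mul, norm_pow, hζnorm1, one_mul]
    exact pow_lt_one₀ (norm_nonneg _) hq hmpos.ne'
  have he1 : etaFun (qq N z ^ N) ^ 24 ≠ 0 := pow_ne_zero _ (etaFun_ne_zero hqN)
  have he2 : etaFun (ζ * qq N z ^ m) ^ 24 ≠ 0 := pow_ne_zero _ (etaFun_ne_zero hqm)
  have hval : ((a : ℂ) ^ 12 * Δ w / Δ z)⁻¹ * qq N z ^ m =
      qq N z ^ N * (((a : ℂ) ^ 12 * ζ)⁻¹ * (etaFun (1 * qq N z ^ N) ^ 24 *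
        (etaFun (ζ * qq N z ^ m) ^ 24)⁻¹)) := by
    rw [delta_eq_q_mul_eta w, delta_eq_q_mul_eta z, hqw, hqz, one_mul]
    field_simp
  show HasSum _ (((a : ℂ) ^ 12 * Δ w / Δ z)⁻¹ * qq N z ^ m)
  rw [hval]
  exact h

/-- **Per-coset expansion of the inverse units.** `A` must contain the `N`-th roots of unity and
the inverses of the divisors of `N`. -/
theorem exists_unitQ_inv_expansion (A : Subring ℂ) {N : ℕ} [NeZero N]
    (hroots : ∀ ζ : ℂ, ζ ^ N = 1 → ζ ∈ A) (hinvA : ∀ n : ℕ, n ∣ N → ((n : ℂ))⁻¹ ∈ A)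
    {d : ℕ} [NeZero d] (hdN : d ∣ N) (q : Q N) :
    ∃ (p : PowerSeries ℂ) (ζ : ℂ), ζ ^ N = 1 ∧ CoeffIn A p ∧
      Fermat.Agent.S24.JPoly.Rep N p
        (fun z : ℍ => (unitQ d N q z)⁻¹ * qq N z ^ unitOrd d N q) ∧
      (∀ k < N, PowerSeries.coeff k p = 0) ∧
      PowerSeries.coeff N p = (((Nat.gcd d (kappaQ N q) : ℕ) : ℂ) ^ 12 * ζ)⁻¹ := by
  obtain ⟨a, b, e, ha, he, hae, hgcd, -, -, -, -, hU⟩ :=
    exists_hermite_joint (J := jFun) jFun_smul hdN q.out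
  have heN : e ∣ (N : ℤ) := by
    have h1 : e ∣ (d : ℤ) := Dvd.intro_left a hae
    exact h1.trans (by exact_mod_cast hdN)
  obtain ⟨t, ht⟩ := heN
  have hN : 0 < N := Nat.pos_of_ne_zero (NeZero.ne N)
  have htpos : 0 < t := by
    have h1 : (0 : ℤ) < e * t := by rw [← ht]; exact_mod_cast hN
    exact (mul_pos_iff_of_pos_left he).mp h1
  have hmZ : (((a * t).toNat : ℕ) : ℤ) = a * t := Int.toNat_of_nonneg (mul_pos ha htpos).le
  set ζ : ℂ := cexp (2 * π * Complex.I * ((b : ℂ) / e)) with hζ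
  have hζN : ζ ^ N = 1 := exp_ratio_pow_eq_one b e he ht
  have hgcdQ : a = ((Nat.gcd d (kappaQ N q) : ℕ) : ℤ) := by rw [hgcd, kappaQ_eq_kappa_out]
  -- the order
  have hm : (a * t).toNat = unitOrd d N q := by
    unfold unitOrd
    have hd0 : (0 : ℤ) < d := by exact_mod_cast Nat.pos_of_ne_zero (NeZero.ne d)
    obtain ⟨c, hc⟩ := hdN
    have hc' : N / d = c := by
      rw [hc]; exact Nat.mul_div_cancel_left c (Nat.pos_of_ne_zero (NeZero.ne d))
    rw [hc']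
    have hNc : (N : ℤ) = (d : ℤ) * c := by exact_mod_cast hc
    have he0 : e ≠ 0 := he.ne'
    -- e t = N = d c = a e c  ⇒  t = a c
    have htc : t = a * c := by
      have : e * t = e * (a * c) := by rw [← ht, hNc, ← hae]; ring
      exact mul_left_cancel₀ he0 this
    have h1 : (((a * t).toNat : ℕ) : ℤ) = ((c * (Nat.gcd d (kappaQ N q)) ^ 2 : ℕ) : ℤ) := by
      rw [hmZ, htc, hgcdQ]; push_cast; ring
    exact_mod_cast h1
  -- the gcd divides N
  have hgdvd : Nat.gcd d (kappaQ N q) ∣ N := (Nat.gcd_dvd_left _ _).trans hdN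
  have haC : (a : ℂ) = ((Nat.gcd d (kappaQ N q) : ℕ) : ℂ) := by
    exact_mod_cast congrArg (fun x : ℤ => (x : ℂ)) hgcdQ
  have hcA : (((a : ℂ) ^ 12 * ζ)⁻¹) ∈ A := by
    rw [mul_inv, ← inv_pow]
    refine A.mul_mem (A.pow_mem ?_ 12) (hroots _ (by rw [inv_pow, hζN, inv_one]))
    rw [haC]
    exact hinvA _ hgdvd
  refine ⟨unitInvSeries (((a : ℂ) ^ 12 * ζ)⁻¹) ζ (a * t).toNat N, ζ, hζN,
    coeffIn_unitInvSeries A hcA (hroots ζ hζN) _ _, ?_, ?_, ?_⟩
  · have hrep := rep_unit_inv_affH (N := N) a b e ha he ht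
    have hfun : (fun z : ℍ =>
        ((a : ℂ) ^ 12 * Δ (affH a b e (intCast_pos' ha) (intCast_pos' he) z) / Δ z)⁻¹ *
          qq N z ^ (a * t).toNat) =
        (fun z : ℍ => (unitQ d N q z)⁻¹ * qq N z ^ unitOrd d N q) := by
      funext z
      have h1 : unitQ d N q z = unitG d q.out z := rfl
      rw [h1, hU z, hm]
    rw [hfun] at hrep
    exact hrep
  · intro k hk
    exact coeff_unitInvSeries_of_lt _ _ _ _ hk
  · rw [coeff_unitInvSeries_self, haC]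

/-- the inverse units have `A`-rational finite-pole `q_N`-expansions -/
theorem hasRatExp_unitQ_inv (A : Subring ℂ) {N : ℕ} [NeZero N]
    (hroots : ∀ ζ : ℂ, ζ ^ N = 1 → ζ ∈ A) (hinvA : ∀ n : ℕ, n ∣ N → ((n : ℂ))⁻¹ ∈ A)
    {d : ℕ} [NeZero d] (hdN : d ∣ N) (q : Q N) :
    Fermat.Agent.S24.JPoly.HasRatExp N A (fun z => (unitQ d N q z)⁻¹) := by
  obtain ⟨p, ζ, -, hp, hrep, -, -⟩ := exists_unitQ_inv_expansion A hroots hinvA hdN q
  exact ⟨unitOrd d N q, p, hp, hrep⟩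

theorem mdiff_unitQ_inv (d N : ℕ) [NeZero d] (q : Q N) : MDiff (fun z => (unitQ d N q z)⁻¹) := by
  have h1 : MDiff (fun _ : ℍ => (1 : ℂ)) := mdifferentiable_const
  have h2 := h1.div (mdiff_unitQ d N q) (unitQ_ne_zero d N q)
  have h3 : ((fun _ : ℍ => (1 : ℂ)) / unitQ d N q) = (fun z => (unitQ d N q z)⁻¹) := by
    funext z
    simp [Pi.div_apply]
  rw [h3] at h2
  exact h2

end

end Fermat.Agent.S28.DeltaConjInv
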