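import Mathlib
import Fermat.Agent.S28.Defs
import Fermat.Agent.S28.TauConj
import Fermat.Agent.S28.DeltaConjInv

set_option autoImplicit false

/-!
# S28 / A4b-data: the conjugate units and their inverses as formal series over `A`

Abstract over the analytic → formal dictionary (`Dict A N`: a subring `RF` of functions with
`A`-rational `q_N`-expansions and a ring hom `fexpA : RF →+* A((t))` which is given by
`single (-m) 1 * ofPowerSeries p` on every function `h` with `h · q_N^m` represented by `p`).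
For every such dictionary, `d ∣ N`, `c : Q N`:

* `UQ c, VQ c : RF` are `unitQ d N c` and its inverse, with the joint `SL(2,ℤ)` law;
* `fexpA (UQ c) * fexpA (VQ c) = 1`;
* the coefficients of `fexpA (UQ c)` vanish below `ordU N d (κ_N c)` and the coefficient at
  `ordU N d (κ_N c)` is a unit of `A`.
-/

namespace Fermat.Agent.S28.ConjUData

open UpperHalfPlane CongruenceSubgroup Matrix.SpecialLinearGroup
open Fermat.Agent.S20 Fermat.Agent.S24 Fermat.Agent.S24.JConj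
open Fermat.Agent.S28.HermiteGcd Fermat.Agent.S28.DeltaConj Fermat.Agent.S28.TauConj
open Fermat.Agent.S28.DeltaConjInv Fermat.Agent.S28.Defs
open Fermat.Agent.S24.JPoly (qq CoeffIn)
open scoped MatrixGroups Manifold

noncomputable section

/-- the analytic → formal dictionary (instantiated by `SymmRat`) -/
structure Dict (A : Subring ℂ) (N : ℕ) where
  /-- functions with an `A`-rational finite-pole `q_N`-expansion -/
  RF : Subring (ℍ → ℂ)
  mem_RF : ∀ f : ℍ → ℂ, f ∈ RF ↔ Fermat.Agent.S24.JPoly.HasRatExp N A f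
  /-- the formal expansion in `t = q_N` -/
  fexpA : RF →+* LaurentSeries ↥A
  fexpA_eq : ∀ (h : RF) (m : ℕ) (p : PowerSeries ℂ), CoeffIn A p →
    Fermat.Agent.S24.JPoly.Rep N p (fun z => (h : ℍ → ℂ) z * qq N z ^ m) →
    ModularCurve.coeffMap A.subtype (fexpA h) =
      HahnSeries.single (-(m : ℤ)) (1 : ℂ) * HahnSeries.ofPowerSeries ℤ ℂ p

/-- coefficients of `single (-m) 1 * ofPowerSeries p` -/
theorem coeff_single_mul_ofPowerSeries (m : ℕ) (p : PowerSeries ℂ) (k : ℤ) :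
    (HahnSeries.single (-(m : ℤ)) (1 : ℂ) * HahnSeries.ofPowerSeries ℤ ℂ p).coeff k =
      if 0 ≤ k + m then PowerSeries.coeff (k + m).toNat p else 0 := by
  rw [HahnSeries.coeff_single_mul, one_mul, sub_neg_eq_add]
  split_ifs with h
  · obtain ⟨n, hn⟩ := Int.eq_ofNat_of_zero_le h
    rw [hn, HahnSeries.ofPowerSeries_apply_coeff, Int.toNat_natCast]
  · exact ModularCurve.ofPowerSeries_coeff_of_neg _ (not_le.mp h)

variable {A : Subring ℂ} {N : ℕ}

/-- coefficient extraction from the dictionary -/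
theorem Dict.coeff_fexpA (D : Dict A N) (h : D.RF) (m : ℕ) (p : PowerSeries ℂ) (hp : CoeffIn A p)
    (hrep : Fermat.Agent.S24.JPoly.Rep N p (fun z => (h : ℍ → ℂ) z * qq N z ^ m)) (k : ℤ) :
    (((D.fexpA h).coeff k : ↥A) : ℂ) =
      if 0 ≤ k + m then PowerSeries.coeff (k + m).toNat p else 0 := by
  have h1 := congrArg (fun x : LaurentSeries ℂ => x.coeff k) (D.fexpA_eq h m p hp hrep)
  simp only [ModularCurve.coeffMap_coeff] at h1
  rw [coeff_single_mul_ofPowerSeries] at h1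
  exact h1

variable [NeZero N]

section Units

variable (D : Dict A N) (hroots : ∀ ζ : ℂ, ζ ^ N = 1 → ζ ∈ A)
  (hinvA : ∀ n : ℕ, n ∣ N → ((n : ℂ))⁻¹ ∈ A) {d : ℕ} [NeZero d] (hdN : d ∣ N)

/-- the conjugate unit as an element of the dictionary's function ring -/
def UQ (c : Q N) : D.RF :=
  ⟨unitQ d N c, (D.mem_RF _).2 (hasRatExp_unitQ A hroots hdN c)⟩

/-- the inverse conjugate unit as an element of the dictionary's function ring -/
def VQ (c : Q N) : D.RF :=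
  ⟨fun z => (unitQ d N c z)⁻¹, (D.mem_RF _).2 (hasRatExp_unitQ_inv A hroots hinvA hdN c)⟩

@[simp] theorem UQ_val (c : Q N) : ((UQ D hroots hdN c : D.RF) : ℍ → ℂ) = unitQ d N c := rfl

@[simp] theorem VQ_val (c : Q N) :
    ((VQ D hroots hinvA hdN c : D.RF) : ℍ → ℂ) = fun z => (unitQ d N c z)⁻¹ := rfl

theorem mdiff_UQ (c : Q N) : MDiff ((UQ D hroots hdN c : D.RF) : ℍ → ℂ) := mdiff_unitQ d N c

theorem mdiff_VQ (c : Q N) : MDiff ((VQ D hroots hinvA hdN c : D.RF) : ℍ → ℂ) :=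
  mdiff_unitQ_inv d N c

theorem UQ_smul (γ : SL(2, ℤ)) (c : Q N) (z : ℍ) :
    ((UQ D hroots hdN c : D.RF) : ℍ → ℂ) (γ • z) =
      ((UQ D hroots hdN (γ⁻¹ • c) : D.RF) : ℍ → ℂ) z :=
  unitQ_smul hdN c γ z

theorem VQ_smul (γ : SL(2, ℤ)) (c : Q N) (z : ℍ) :
    ((VQ D hroots hinvA hdN c : D.RF) : ℍ → ℂ) (γ • z) =
      ((VQ D hroots hinvA hdN (γ⁻¹ • c) : D.RF) : ℍ → ℂ) z := by
  show (unitQ d N c (γ • z))⁻¹ = (unitQ d N (γ⁻¹ • c) z)⁻¹
  rw [unitQ_smul hdN]

theorem UQ_mul_VQ (c : Q N) : UQ D hroots hdN c * VQ D hroots hinvA hdN c = 1 := by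
  apply Subtype.ext
  funext z
  show unitQ d N c z * (unitQ d N c z)⁻¹ = 1
  exact mul_inv_cancel₀ (unitQ_ne_zero d N c z)

theorem fexpA_UQ_mul_VQ (c : Q N) :
    D.fexpA (UQ D hroots hdN c) * D.fexpA (VQ D hroots hinvA hdN c) = 1 := by
  rw [← map_mul, UQ_mul_VQ, map_one]

omit [NeZero N] [NeZero d] in
theorem ordU_eq (c : Q N) : ordU N d (kappaQ N c) = (unitOrd d N c : ℤ) - N := by
  unfold ordU unitOrd
  push_cast
  ring

/-- the coefficients of `u_{d,c}` vanish below `ordU N d (κ_N c)` -/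
theorem coeff_fexpA_UQ_of_lt (c : Q N) {k : ℤ} (hk : k < ordU N d (kappaQ N c)) :
    (D.fexpA (UQ D hroots hdN c)).coeff k = 0 := by
  obtain ⟨p, ζ, -, hp, hrep, hlow, -⟩ := exists_unitQ_expansion A hroots hdN c
  have h := D.coeff_fexpA (UQ D hroots hdN c) N p hp hrep k
  rw [ordU_eq] at hk
  apply Subtype.ext
  rw [h]
  split_ifs with h0
  · apply hlow
    have : (((k + N).toNat : ℕ) : ℤ) = k + N := Int.toNat_of_nonneg h0
    have h2 : (((k + N).toNat : ℕ) : ℤ) < (unitOrd d N c : ℤ) := by rw [this]; linarith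
    exact_mod_cast h2
  · rfl

/-- the value of the leading coefficient of `u_{d,c}` -/
theorem coeff_fexpA_UQ_ordU (c : Q N) :
    ∃ ζ : ℂ, ζ ^ N = 1 ∧
      (((D.fexpA (UQ D hroots hdN c)).coeff (ordU N d (kappaQ N c)) : ↥A) : ℂ) =
        ((Nat.gcd d (kappaQ N c) : ℕ) : ℂ) ^ 12 * ζ := by
  obtain ⟨p, ζ, hζ, hp, hrep, -, hlead⟩ := exists_unitQ_expansion A hroots hdN c
  refine ⟨ζ, hζ, ?_⟩
  have h := D.coeff_fexpA (UQ D hroots hdN c) N p hp hrep (ordU N d (kappaQ N c))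
  rw [h, ordU_eq]
  have h0 : (0 : ℤ) ≤ (unitOrd d N c : ℤ) - N + N := by simp
  rw [if_pos h0]
  have : ((unitOrd d N c : ℤ) - N + N).toNat = unitOrd d N c := by simp
  rw [this, hlead]

include hinvA in
/-- **the leading coefficient of `u_{d,c}` is a unit of `A`** -/
theorem isUnit_coeff_fexpA_UQ (c : Q N) :
    IsUnit ((D.fexpA (UQ D hroots hdN c)).coeff (ordU N d (kappaQ N c))) := by
  obtain ⟨ζ, hζ, hval⟩ := coeff_fexpA_UQ_ordU D hroots hdN c
  have hN0 : N ≠ 0 := NeZero.ne N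
  have hζ0 : ζ ≠ 0 := by
    rintro rfl
    rw [zero_pow hN0] at hζ
    exact zero_ne_one hζ
  have hg : Nat.gcd d (kappaQ N c) ∣ N := (Nat.gcd_dvd_left _ _).trans hdN
  have hg0 : ((Nat.gcd d (kappaQ N c) : ℕ) : ℂ) ≠ 0 := by
    have : Nat.gcd d (kappaQ N c) ≠ 0 := Nat.gcd_ne_zero_left (NeZero.ne d)
    exact_mod_cast this
  have hinvmem : (((Nat.gcd d (kappaQ N c) : ℕ) : ℂ) ^ 12 * ζ)⁻¹ ∈ A := by
    rw [mul_inv, ← inv_pow]
    exact A.mul_mem (A.pow_mem (hinvA _ hg) 12) (hroots _ (by rw [inv_pow, hζ, inv_one]))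
  rw [isUnit_iff_exists_inv]
  refine ⟨⟨_, hinvmem⟩, Subtype.ext ?_⟩
  show (((D.fexpA (UQ D hroots hdN c)).coeff (ordU N d (kappaQ N c)) : ↥A) : ℂ) *
    (((Nat.gcd d (kappaQ N c) : ℕ) : ℂ) ^ 12 * ζ)⁻¹ = 1
  rw [hval]
  exact mul_inv_cancel₀ (mul_ne_zero (pow_ne_zero _ hg0) hζ0)

end Units

end

end Fermat.Agent.S28.ConjUData
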