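import Mathlib
import Fermat.Agent.S28.Defs
import Fermat.Prelude.Def_ModularCurve_X0ModL

/-!
# S28: base change of a `ConjSystem` along a ring homomorphism of the coefficient rings

`ConjSystem.map` : a ring homomorphism `red : R →+* k` which is injective on the `N`-th roots of
unity turns a `ConjSystem R N I` into a `ConjSystem k N I` (coefficientwise reduction).
-/

set_option autoImplicit false

namespace Fermat.Agent.S28.MapSys

open Polynomial ModularCurve Fermat.Agent.S28.Defs

noncomputable section

variable {R k : Type} [CommRing R] [CommRing k] (red : R →+* k) (N : ℕ) [NeZero N]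

theorem coeffMap_jt : coeffMap red (jt R N) = jt k N := by
  rw [jt, jt, coeffMap_qExpand, coeffMap_jqModC]

theorem coeffMap_jNt : coeffMap red (jNt R N) = jNt k N := by
  rw [jNt, jNt, coeffMap_qExpand, coeffMap_jqModC]

theorem coeffMap_algebraMap' (a : R) :
    coeffMap red (algebraMap R (LaurentSeries R) a) = algebraMap k (LaurentSeries k) (red a) := by
  have h1 : ∀ (S : Type) [CommRing S] (b : S),
      algebraMap S (LaurentSeries S) b = HahnSeries.single 0 b := by
    intro S _ b
    rw [HahnSeries.algebraMap_apply']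
    simp
  rw [h1, h1, coeffMap_single]

/-- the basic compatibility: reducing after evaluating at `j(t^N)` is evaluating the reduced
polynomial at `j(t^N)`. -/
theorem coeffMap_comp_evalJt :
    (coeffMap red).comp (evalJt R N) = (evalJt k N).comp (Polynomial.mapRingHom red) := by
  refine Polynomial.ringHom_ext (fun a => ?_) ?_
  · simp only [RingHom.comp_apply, evalJt, AlgHom.toRingHom_eq_coe, RingHom.coe_coe, aeval_C,
      Polynomial.coe_mapRingHom, Polynomial.map_C]
    exact coeffMap_algebraMap' red a
  · simp only [RingHom.comp_apply, evalJt, AlgHom.toRingHom_eq_coe, RingHom.coe_coe, aeval_X,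
      Polynomial.coe_mapRingHom, Polynomial.map_X]
    exact coeffMap_jt red N

theorem map_map_evalJt (P : R[X][X]) :
    (P.map (evalJt R N)).map (coeffMap red) =
      (P.map (Polynomial.mapRingHom red)).map (evalJt k N) := by
  rw [Polynomial.map_map, Polynomial.map_map, coeffMap_comp_evalJt]

variable {N} {I : Type} [Fintype I] [DecidableEq I]

/-- Base change of a `ConjSystem`. -/
def map (S : ConjSystem R N I)
    (hred : ∀ ζ ζ' : R, ζ ^ N = 1 → ζ' ^ N = 1 → red ζ = red ζ' → ζ = ζ') :
    ConjSystem k N I where
  x s := coeffMap red (S.x s)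
  s0 := S.s0
  hx0 := by rw [S.hx0, coeffMap_jNt]
  m := S.m
  lc s := red (S.lc s)
  hx_low s i hi := by rw [coeffMap_coeff, S.hx_low s i hi, map_zero]
  hx_lc s := by rw [coeffMap_coeff, S.hx_lc]
  hlc s := by rw [← map_pow, S.hlc, map_one]
  hinj s s' hm hl := S.hinj s s' hm (hred _ _ (S.hlc s) (S.hlc s') hl)
  Φ := S.Φ.map (Polynomial.mapRingHom red)
  hΦ_monic := S.hΦ_monic.map _
  hΦ := by
    rw [← map_map_evalJt, S.hΦ, Polynomial.map_prod]
    refine Finset.prod_congr rfl fun s _ => ?_
    rw [Polynomial.map_sub, Polynomial.map_X, Polynomial.map_C]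
  κ := S.κ
  hκ := S.hκ
  hκ0 := S.hκ0
  u d s := coeffMap red (S.u d s)
  v d s := coeffMap red (S.v d s)
  huv d hd s := by rw [← map_mul, S.huv d hd s, map_one]
  hu_low d hd s i hi := by rw [coeffMap_coeff, S.hu_low d hd s i hi, map_zero]
  hu_lc d hd s := by
    rw [coeffMap_coeff]
    exact (S.hu_lc d hd s).map red
  L d := (S.L d).map (Polynomial.mapRingHom red)
  L' d := (S.L' d).map (Polynomial.mapRingHom red)
  hL d hd := by
    rw [← map_map_evalJt, S.hL d hd, Polynomial.map_sum]
    refine Finset.sum_congr rfl fun s _ => ?_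
    rw [Polynomial.map_mul, Polynomial.map_C, Polynomial.map_prod]
    congr 1
    refine Finset.prod_congr rfl fun s' _ => ?_
    rw [Polynomial.map_sub, Polynomial.map_X, Polynomial.map_C]
  hL' d hd := by
    rw [← map_map_evalJt, S.hL' d hd, Polynomial.map_sum]
    refine Finset.sum_congr rfl fun s _ => ?_
    rw [Polynomial.map_mul, Polynomial.map_C, Polynomial.map_prod]
    congr 1
    refine Finset.prod_congr rfl fun s' _ => ?_
    rw [Polynomial.map_sub, Polynomial.map_X, Polynomial.map_C]
  W d := (S.W d).map (Polynomial.mapRingHom red)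
  W' d := (S.W' d).map (Polynomial.mapRingHom red)
  hW_monic d hd := (S.hW_monic d hd).map _
  hW'_monic d hd := (S.hW'_monic d hd).map _
  hW d hd s := by
    rw [← map_map_evalJt, Polynomial.eval_map, Polynomial.eval₂_at_apply, S.hW d hd s, map_zero]
  hW' d hd s := by
    rw [← map_map_evalJt, Polynomial.eval_map, Polynomial.eval₂_at_apply, S.hW' d hd s, map_zero]

end

end Fermat.Agent.S28.MapSys
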