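import Mathlib
import Fermat.Agent.S28.Defs
import Fermat.Agent.S28.MapSys
import Fermat.Agent.S28.CoeffRing
import Fermat.Agent.S28.SymmRat
import Fermat.Agent.S28.ConjJ
import Fermat.Agent.S28.ConjUData

set_option autoImplicit false

/-!
# S28 / A4b: the `ConjSystem` over `AInt ℓ`

Assembly of `Defs.ConjSystem ↥(AInt ℓ) N (Q N)` (for `ℓ ∤ N`) from

* the conjugates of `j_N` as formal series (`ConjJ`, helper28),
* the conjugate units and their inverses (`DeltaConj`/`TauConj`/`DeltaConjInv`/`ConjUData`, helper6),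
* the analytic → formal dictionary and the symmetric-function theorem (`SymmRat`, helper7),
* the coefficient ring `AInt ℓ` (`CoeffRing`, helper17).
-/

namespace Fermat.Agent.S28.ConjU

open UpperHalfPlane Polynomial
open Fermat.Agent.S20 Fermat.Agent.S24 Fermat.Agent.S24.JPoly Fermat.Agent.S24.JConj
open Fermat.Agent.S28.HermiteGcd Fermat.Agent.S28.DeltaConj Fermat.Agent.S28.TauConj
open Fermat.Agent.S28.DeltaConjInv Fermat.Agent.S28.CoeffRing Fermat.Agent.S28.SymmRat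
open Fermat.Agent.S28.ConjJ
open scoped MatrixGroups Manifold

noncomputable section

/-! ### The formal `J` and the evaluation homomorphism -/

section General

variable (N : ℕ) [NeZero N] (A : Subring ℂ)

theorem JA_eq_jt : JA N A = Defs.jt ↥A N := by
  apply ConjJ.coeffMap_subtype_injective A
  rw [coeffMap_JA, MapSys.coeffMap_jt]
  rfl

/-- the evaluation hom of `SymmRat` is `Defs.evalJt`. -/
theorem evJA_eq_evalJt : evJA N A = Defs.evalJt ↥A N := by
  refine Polynomial.ringHom_ext (fun a => ?_) ?_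
  · simp only [evJA, Defs.evalJt, Polynomial.coe_eval₂RingHom, Polynomial.eval₂_C,
      AlgHom.toRingHom_eq_coe, RingHom.coe_coe, Polynomial.aeval_C]
    rw [HahnSeries.algebraMap_apply']
    simp
  · simp only [evJA, Defs.evalJt, Polynomial.coe_eval₂RingHom, Polynomial.eval₂_X,
      AlgHom.toRingHom_eq_coe, RingHom.coe_coe, Polynomial.aeval_X]
    exact JA_eq_jt N A

/-- `SymmRat` instantiates the dictionary of `ConjUData`. -/
def dict : ConjUData.Dict A N where
  RF := RatFun N A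
  mem_RF := fun _ => Iff.rfl
  fexpA := fexpA N A
  fexpA_eq := fun h m p _ hrep => by
    rw [coeffMap_fexpA, fexp_eq_of_rep h hrep]
    rfl

end General

variable (N : ℕ) [NeZero N] (l : ℕ) [Fact l.Prime] (hlN : ¬ l ∣ N)

set_option quotPrecheck false in
local notation "𝔸" => ↥(AInt l)

omit [Fact l.Prime] in
theorem hroots : ∀ ζ : ℂ, ζ ^ N = 1 → ζ ∈ AInt l :=
  fun _ h => rootOfUnity_mem (NeZero.ne N) h

omit [NeZero N] in
include hlN in
theorem hinvA : ∀ n : ℕ, n ∣ N → ((n : ℂ))⁻¹ ∈ AInt l :=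
  fun _ hn => natCast_inv_mem_of_dvd l hlN hn

/-! ### The three families in `NiceFun` -/

/-- the conjugates of `j_N` -/
def FN (c : Q N) : NiceFun N (AInt l) :=
  ⟨conjFn jFun N c, mem_niceFun.mpr ⟨hasRatExp_conjFn (AInt l) N (hroots N l) c, mdiff_conjFn N c⟩⟩

variable {N}

/-- the conjugate units -/
def UN {d : ℕ} [NeZero d] (hdN : d ∣ N) (c : Q N) : NiceFun N (AInt l) :=
  ⟨unitQ d N c, mem_niceFun.mpr ⟨hasRatExp_unitQ (AInt l) (hroots N l) hdN c, mdiff_unitQ d N c⟩⟩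

/-- the inverses of the conjugate units -/
def VN {d : ℕ} [NeZero d] (hdN : d ∣ N) (c : Q N) : NiceFun N (AInt l) :=
  ⟨fun z => (unitQ d N c z)⁻¹, mem_niceFun.mpr
    ⟨hasRatExp_unitQ_inv (AInt l) (hroots N l) (hinvA N l hlN) hdN c, mdiff_unitQ_inv d N c⟩⟩

variable (N)

omit [Fact l.Prime] in
theorem FN_smul (γ : SL(2, ℤ)) (c : Q N) (z : ℍ) :
    (FN N l c : ℍ → ℂ) (γ • z) = (FN N l (permOf N γ c) : ℍ → ℂ) z :=
  conjFn_smul_perm N γ c z

variable {N}

omit [Fact l.Prime] in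
theorem UN_smul {d : ℕ} [NeZero d] (hdN : d ∣ N) (γ : SL(2, ℤ)) (c : Q N) (z : ℍ) :
    (UN l hdN c : ℍ → ℂ) (γ • z) = (UN l hdN (permOf N γ c) : ℍ → ℂ) z :=
  unitQ_smul hdN c γ z

theorem VN_smul {d : ℕ} [NeZero d] (hdN : d ∣ N) (γ : SL(2, ℤ)) (c : Q N) (z : ℍ) :
    (VN l hlN hdN c : ℍ → ℂ) (γ • z) = (VN l hlN hdN (permOf N γ c) : ℍ → ℂ) z := by
  show (unitQ d N c (γ • z))⁻¹ = (unitQ d N (γ⁻¹ • c) z)⁻¹
  rw [unitQ_smul hdN]

/-! ### The formal series -/

variable (N)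

/-- the conjugates of `j_N` as formal series -/
def xS (c : Q N) : LaurentSeries 𝔸 := fexpN N (AInt l) (FN N l c)

omit [Fact l.Prime] in
theorem xS_eq_xA (c : Q N) : xS N l c = xA N (AInt l) (hroots N l) c := by
  apply ConjJ.coeffMap_subtype_injective (AInt l)
  rw [coeffMap_xA, xS, fexpN, RingHom.comp_apply, coeffMap_fexpA,
    fexp_eq_of_rep (toRat N (AInt l) (FN N l c)) (rep_xC N c)]
  rfl

theorem neZero_of_mem_divisors {d : ℕ} (hd : d ∈ N.divisors) : NeZero d :=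
  ⟨fun h => by
    subst h
    have := Nat.dvd_of_mem_divisors hd
    exact NeZero.ne N (Nat.eq_zero_of_zero_dvd this)⟩

/-- the conjugate units as formal series (junk value `1` for `d ∤ N`) -/
def uS (d : ℕ) (c : Q N) : LaurentSeries 𝔸 :=
  if hd : d ∈ N.divisors then
    haveI := neZero_of_mem_divisors N hd
    fexpN N (AInt l) (UN l (Nat.dvd_of_mem_divisors hd) c)
  else 1

/-- the inverses of the conjugate units as formal series -/
def vS (d : ℕ) (c : Q N) : LaurentSeries 𝔸 :=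
  if hd : d ∈ N.divisors then
    haveI := neZero_of_mem_divisors N hd
    fexpN N (AInt l) (VN l hlN (Nat.dvd_of_mem_divisors hd) c)
  else 1

variable {N}

omit [Fact l.Prime] in
theorem uS_eq {d : ℕ} (hd : d ∈ N.divisors) (c : Q N) :
    uS N l d c =
      haveI := neZero_of_mem_divisors N hd
      fexpN N (AInt l) (UN l (Nat.dvd_of_mem_divisors hd) c) := by
  unfold uS
  rw [dif_pos hd]

theorem vS_eq {d : ℕ} (hd : d ∈ N.divisors) (c : Q N) :
    vS N l hlN d c =
      haveI := neZero_of_mem_divisors N hd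
      fexpN N (AInt l) (VN l hlN (Nat.dvd_of_mem_divisors hd) c) := by
  unfold vS
  rw [dif_pos hd]

omit [Fact l.Prime] in
/-- link with `ConjUData` -/
theorem fexpN_UN {d : ℕ} [NeZero d] (hdN : d ∣ N) (c : Q N) :
    fexpN N (AInt l) (UN l hdN c) =
      (dict N (AInt l)).fexpA (ConjUData.UQ (dict N (AInt l)) (hroots N l) hdN c) := rfl

theorem fexpN_VN {d : ℕ} [NeZero d] (hdN : d ∣ N) (c : Q N) :
    fexpN N (AInt l) (VN l hlN hdN c) =
      (dict N (AInt l)).fexpA
        (ConjUData.VQ (dict N (AInt l)) (hroots N l) (hinvA N l hlN) hdN c) := rfl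

/-! ### The polynomials -/

/-- the modular polynomial over `AInt ℓ` -/
theorem exists_Phi :
    ∃ Φ : 𝔸[X][X], Φ.Monic ∧ Φ.natDegree = Fintype.card (Q N) ∧
      Φ.map (Defs.evalJt 𝔸 N) = ∏ c : Q N, (X - C (xS N l c)) := by
  obtain ⟨Φ, hmon, hdeg, -, hΦ⟩ :=
    exists_prodPoly_lift (FN N l) (fun γ => ⟨permOf N γ, fun c z => FN_smul N l γ c z⟩)
  rw [evJA_eq_evalJt] at hΦ
  exact ⟨Φ, hmon, hdeg, hΦ⟩

/-- Lagrange numerators and integrality equations for one `d ∣ N`. -/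
theorem exists_LW {d : ℕ} (hd : d ∈ N.divisors) :
    ∃ L L' W W' : 𝔸[X][X],
      (L.map (Defs.evalJt 𝔸 N) = ∑ s : Q N, C (uS N l d s) *
        ∏ s' ∈ Finset.univ.erase s, (X - C (xS N l s'))) ∧
      (L'.map (Defs.evalJt 𝔸 N) = ∑ s : Q N, C (vS N l hlN d s) *
        ∏ s' ∈ Finset.univ.erase s, (X - C (xS N l s'))) ∧
      W.Monic ∧ W'.Monic ∧
      (∀ s : Q N, (W.map (Defs.evalJt 𝔸 N)).eval (uS N l d s) = 0) ∧
      (∀ s : Q N, (W'.map (Defs.evalJt 𝔸 N)).eval (vS N l hlN d s) = 0) := by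
  haveI := neZero_of_mem_divisors N hd
  have hdN : d ∣ N := Nat.dvd_of_mem_divisors hd
  obtain ⟨L, -, hL⟩ := exists_lagPoly_lift (FN N l) (UN l hdN)
    (fun γ => ⟨permOf N γ, fun c z => ⟨FN_smul N l γ c z, UN_smul l hdN γ c z⟩⟩)
  obtain ⟨L', -, hL'⟩ := exists_lagPoly_lift (FN N l) (VN l hlN hdN)
    (fun γ => ⟨permOf N γ, fun c z => ⟨FN_smul N l γ c z, VN_smul l hlN hdN γ c z⟩⟩)
  obtain ⟨W, hWmon, -, -, hW⟩ := exists_prodPoly_lift (UN l hdN)
    (fun γ => ⟨permOf N γ, fun c z => UN_smul l hdN γ c z⟩)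
  obtain ⟨W', hW'mon, -, -, hW'⟩ := exists_prodPoly_lift (VN l hlN hdN)
    (fun γ => ⟨permOf N γ, fun c z => VN_smul l hlN hdN γ c z⟩)
  rw [evJA_eq_evalJt] at hL hL' hW hW'
  refine ⟨L, L', W, W', ?_, ?_, hWmon, hW'mon, ?_, ?_⟩
  · rw [hL]
    refine Finset.sum_congr rfl fun s _ => ?_
    rw [uS_eq l hd]
    rfl
  · rw [hL']
    refine Finset.sum_congr rfl fun s _ => ?_
    rw [vS_eq l hlN hd]
    rfl
  · intro s
    rw [hW, uS_eq l hd, Polynomial.eval_prod]
    exact Finset.prod_eq_zero (Finset.mem_univ s) (by simp)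
  · intro s
    rw [hW', vS_eq l hlN hd, Polynomial.eval_prod]
    exact Finset.prod_eq_zero (Finset.mem_univ s) (by simp)

/-- the four families of polynomials, as functions of `d`. -/
theorem exists_LW_fun :
    ∃ L L' W W' : ℕ → 𝔸[X][X],
      (∀ d ∈ N.divisors, (L d).map (Defs.evalJt 𝔸 N) = ∑ s : Q N, C (uS N l d s) *
        ∏ s' ∈ Finset.univ.erase s, (X - C (xS N l s'))) ∧
      (∀ d ∈ N.divisors, (L' d).map (Defs.evalJt 𝔸 N) = ∑ s : Q N, C (vS N l hlN d s) *
        ∏ s' ∈ Finset.univ.erase s, (X - C (xS N l s'))) ∧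
      (∀ d ∈ N.divisors, (W d).Monic) ∧ (∀ d ∈ N.divisors, (W' d).Monic) ∧
      (∀ d ∈ N.divisors, ∀ s : Q N, ((W d).map (Defs.evalJt 𝔸 N)).eval (uS N l d s) = 0) ∧
      (∀ d ∈ N.divisors, ∀ s : Q N, ((W' d).map (Defs.evalJt 𝔸 N)).eval (vS N l hlN d s) = 0) := by
  have hLW := fun d (hd : d ∈ N.divisors) => exists_LW (N := N) l hlN hd
  choose! L L' W W' hL hL' hWm hW'm hW hW' using hLW
  exact ⟨L, L', W, W', hL, hL', hWm, hW'm, hW, hW'⟩

variable (N)

/-- the modular polynomial of level `N` over `AInt ℓ` (in `AInt ℓ [X][Y]`). -/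
def PhiA : 𝔸[X][X] := (exists_Phi (N := N) l).choose

theorem PhiA_monic : (PhiA N l).Monic := (exists_Phi (N := N) l).choose_spec.1

theorem PhiA_natDegree : (PhiA N l).natDegree = Fintype.card (Q N) :=
  (exists_Phi (N := N) l).choose_spec.2.1

theorem PhiA_map : (PhiA N l).map (Defs.evalJt 𝔸 N) = ∏ c : Q N, (X - C (xS N l c)) :=
  (exists_Phi (N := N) l).choose_spec.2.2

/-- **The `ConjSystem` over `AInt ℓ`.** -/
def conjSystem : Defs.ConjSystem 𝔸 N (Q N) where
  x := xS N l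
  s0 := QuotientGroup.mk 1
  hx0 := by
    rw [xS_eq_xA, xA_one]
    rfl
  m := ordQ N
  lc := lcA N (AInt l) (hroots N l)
  hx_low := fun s k hk => by
    rw [xS_eq_xA]
    exact xA_coeff_of_lt N (AInt l) (hroots N l) s hk
  hx_lc := fun s => by
    rw [xS_eq_xA]
    exact xA_coeff_lc N (AInt l) (hroots N l) s
  hlc := lcA_pow N (AInt l) (hroots N l)
  hinj := fun s s' hm hlc => xA_leading_injective N (AInt l) (hroots N l) hm hlc
  Φ := PhiA N l
  hΦ_monic := PhiA_monic N l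
  hΦ := PhiA_map N l
  κ := kappaQ N
  hκ := kappaQ_dvd N
  hκ0 := kappaQ_eq_iff N
  u := uS N l
  v := vS N l hlN
  huv := fun d hd s => by
    haveI := neZero_of_mem_divisors N hd
    rw [uS_eq l hd, vS_eq l hlN hd, fexpN_UN, fexpN_VN]
    exact ConjUData.fexpA_UQ_mul_VQ (dict N (AInt l)) (hroots N l) (hinvA N l hlN) _ s
  hu_low := fun d hd s k hk => by
    haveI := neZero_of_mem_divisors N hd
    rw [uS_eq l hd, fexpN_UN]
    exact ConjUData.coeff_fexpA_UQ_of_lt (dict N (AInt l)) (hroots N l) _ s hk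
  hu_lc := fun d hd s => by
    haveI := neZero_of_mem_divisors N hd
    rw [uS_eq l hd, fexpN_UN]
    exact ConjUData.isUnit_coeff_fexpA_UQ (dict N (AInt l)) (hroots N l) (hinvA N l hlN) _ s
  L := (exists_LW_fun (N := N) l hlN).choose
  L' := (exists_LW_fun (N := N) l hlN).choose_spec.choose
  W := (exists_LW_fun (N := N) l hlN).choose_spec.choose_spec.choose
  W' := (exists_LW_fun (N := N) l hlN).choose_spec.choose_spec.choose_spec.choose
  hL := (exists_LW_fun (N := N) l hlN).choose_spec.choose_spec.choose_spec.choose_spec.1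
  hL' := (exists_LW_fun (N := N) l hlN).choose_spec.choose_spec.choose_spec.choose_spec.2.1
  hW_monic := (exists_LW_fun (N := N) l hlN).choose_spec.choose_spec.choose_spec.choose_spec.2.2.1
  hW'_monic :=
    (exists_LW_fun (N := N) l hlN).choose_spec.choose_spec.choose_spec.choose_spec.2.2.2.1
  hW := (exists_LW_fun (N := N) l hlN).choose_spec.choose_spec.choose_spec.choose_spec.2.2.2.2.1
  hW' := (exists_LW_fun (N := N) l hlN).choose_spec.choose_spec.choose_spec.choose_spec.2.2.2.2.2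

@[simp] theorem conjSystem_Φ : (conjSystem N l hlN).Φ = PhiA N l := rfl

@[simp] theorem conjSystem_x : (conjSystem N l hlN).x = xS N l := rfl

@[simp] theorem conjSystem_s0 : (conjSystem N l hlN).s0 = QuotientGroup.mk 1 := rfl

@[simp] theorem conjSystem_κ : (conjSystem N l hlN).κ = kappaQ N := rfl

theorem conjSystem_natDegree_Φ :
    (conjSystem N l hlN).Φ.natDegree = Fintype.card (Q N) := PhiA_natDegree N l

/-- `j_N` (in the variable `t`) is a root of the modular polynomial over `AInt ℓ`. -/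
theorem PhiA_eval₂ : (PhiA N l).eval₂ (Defs.evalJt 𝔸 N) (Defs.jNt 𝔸 N) = 0 := by
  rw [Polynomial.eval₂_eq_eval_map, PhiA_map, Polynomial.eval_prod]
  refine Finset.prod_eq_zero (Finset.mem_univ (QuotientGroup.mk 1 : Q N)) ?_
  rw [xS_eq_xA, xA_one]
  simp [Defs.jNt]

end

end Fermat.Agent.S28.ConjU
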