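/-
S28 (Igusa), package G4 "CuspMatrix" (helper6).

Pure arithmetic: the matrix `(gcd(a,δ)^2)_{a,δ ∣ N}` is nonsingular, hence the linear system
`∑_{a ∣ N} x_a (gcd(a,δ)^2/δ - 1) = 0  (δ ∣ N)` has a solution space of dimension at most one.

Proof without determinants: `n^2 = ∑_{e ∣ n} J e` with `J = μ * n^2 > 0` (Jordan totient), so the matrix is
`E D Eᵀ` with `E` the divisibility matrix; `E` and `Eᵀ` are injective by strong induction.
-/
import Mathlib

set_option autoImplicit false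

namespace Fermat.Agent.S28.CuspMatrix

open Finset ArithmeticFunction
open scoped ArithmeticFunction.Moebius ArithmeticFunction.zeta

/-- Jordan's totient `J₂ = μ * n²`, integer valued. -/
noncomputable def J2 : ArithmeticFunction ℤ := (μ : ArithmeticFunction ℤ) * ((pow 2 : ArithmeticFunction ℕ) : ArithmeticFunction ℤ)

theorem zeta_mul_J2 : ((ζ : ArithmeticFunction ℕ) : ArithmeticFunction ℤ) * J2 = ((pow 2 : ArithmeticFunction ℕ) : ArithmeticFunction ℤ) := by
  unfold J2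
  rw [← mul_assoc, coe_zeta_mul_moebius, one_mul]

theorem sum_divisors_J2 (n : ℕ) (hn : n ≠ 0) : ∑ e ∈ n.divisors, J2 e = (n : ℤ) ^ 2 := by
  have h := congrArg (fun f : ArithmeticFunction ℤ => f n) zeta_mul_J2
  simp only [coe_zeta_mul_apply] at h
  rw [h]
  simp [pow_apply, hn]

theorem J2_isMultiplicative : IsMultiplicative J2 := by
  unfold J2
  exact isMultiplicative_moebius.mul isMultiplicative_pow.natCast

theorem J2_prime_pow_pos {p k : ℕ} (hp : p.Prime) (hk : k ≠ 0) : 0 < J2 (p ^ k) := by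
  obtain ⟨k, rfl⟩ := Nat.exists_eq_succ_of_ne_zero hk
  have h1 := sum_divisors_J2 (p ^ (k + 1)) (pow_ne_zero _ hp.ne_zero)
  have h0 := sum_divisors_J2 (p ^ k) (pow_ne_zero _ hp.ne_zero)
  rw [Nat.divisors_prime_pow hp, sum_map] at h1 h0
  rw [Finset.sum_range_succ] at h1
  simp only [Function.Embedding.coeFn_mk] at h1 h0
  rw [h0] at h1
  have h2 : J2 (p ^ (k + 1)) = ((p ^ (k + 1) : ℕ) : ℤ) ^ 2 - ((p ^ k : ℕ) : ℤ) ^ 2 := by linarith
  rw [h2]
  have hp1 : (1 : ℤ) < p := by exact_mod_cast hp.one_lt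
  have hpk : (0 : ℤ) < (p : ℤ) ^ k := by positivity
  push_cast
  have : ((p : ℤ) ^ (k + 1)) ^ 2 - ((p : ℤ) ^ k) ^ 2 = ((p : ℤ) ^ k) ^ 2 * ((p : ℤ) ^ 2 - 1) := by ring
  rw [this]
  have : (0 : ℤ) < (p : ℤ) ^ 2 - 1 := by nlinarith
  positivity

theorem J2_pos (n : ℕ) (hn : n ≠ 0) : 0 < J2 n := by
  rw [J2_isMultiplicative.multiplicative_factorization J2 hn]
  apply Finset.prod_pos
  intro p hp
  have hpp : p.Prime := Nat.prime_of_mem_primeFactors (by simpa using hp)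
  apply J2_prime_pow_pos hpp
  exact Finsupp.mem_support_iff.mp hp

/-- `E` is injective: if all "divisor sums" of `y` vanish then `y` vanishes on divisors. -/
theorem eq_zero_of_weighted_divisor_sums (N : ℕ) (w y : ℕ → ℚ) (hw : ∀ e ∈ N.divisors, w e ≠ 0)
    (h : ∀ δ ∈ N.divisors, ∑ e ∈ δ.divisors, w e * y e = 0) : ∀ δ ∈ N.divisors, y δ = 0 := by
  intro δ
  induction δ using Nat.strong_induction_on with
  | _ δ ih =>
    intro hδ
    have hδ0 : δ ≠ 0 := (Nat.pos_of_mem_divisors hδ).ne'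
    have h1 := h δ hδ
    rw [← Nat.cons_self_properDivisors hδ0, Finset.sum_cons] at h1
    have h2 : ∑ e ∈ δ.properDivisors, w e * y e = 0 := by
      apply Finset.sum_eq_zero
      intro e he
      rw [Nat.mem_properDivisors] at he
      have heN : e ∈ N.divisors :=
        Nat.mem_divisors.mpr ⟨he.1.trans (Nat.dvd_of_mem_divisors hδ), (Nat.mem_divisors.mp hδ).2⟩
      rw [ih e he.2 heN, mul_zero]
    rw [h2, add_zero] at h1
    exact (mul_eq_zero.mp h1).resolve_left (hw δ hδ)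

/-- `Eᵀ` is injective: if all "multiple sums" of `x` vanish then `x` vanishes on divisors. -/
theorem eq_zero_of_multiple_sums (N : ℕ) (x : ℕ → ℚ)
    (h : ∀ e ∈ N.divisors, ∑ a ∈ N.divisors with e ∣ a, x a = 0) : ∀ a ∈ N.divisors, x a = 0 := by
  have key : ∀ k : ℕ, ∀ a ∈ N.divisors, N - a = k → x a = 0 := by
    intro k
    induction k using Nat.strong_induction_on with
    | _ k ih =>
      intro a ha hk
      have h1 := h a ha
      have hmem : a ∈ N.divisors.filter (fun b => a ∣ b) := by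
        rw [Finset.mem_filter]; exact ⟨ha, dvd_rfl⟩
      rw [← Finset.add_sum_erase _ _ hmem] at h1
      have h2 : ∑ b ∈ (N.divisors.filter (fun b => a ∣ b)).erase a, x b = 0 := by
        apply Finset.sum_eq_zero
        intro b hb
        rw [Finset.mem_erase, Finset.mem_filter] at hb
        obtain ⟨hba, hbN, hab⟩ := hb
        have hb0 : 0 < b := Nat.pos_of_mem_divisors hbN
        have hlt : a < b := lt_of_le_of_ne (Nat.le_of_dvd hb0 hab) (Ne.symm hba)
        have hbN' : b ≤ N := Nat.le_of_dvd (Nat.pos_of_ne_zero (Nat.mem_divisors.mp hbN).2)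
          (Nat.dvd_of_mem_divisors hbN)
        exact ih (N - b) (by omega) b hbN rfl
      rw [h2, add_zero] at h1
      exact h1
  intro a ha
  exact key (N - a) a ha rfl

theorem gcd_sq_eq_sum (N a δ : ℕ) (ha : a ∈ N.divisors) (hδ : δ ∈ N.divisors) :
    ((Nat.gcd a δ : ℚ)) ^ 2 = ∑ e ∈ δ.divisors, if e ∣ a then (J2 e : ℚ) else 0 := by
  have ha0 : a ≠ 0 := (Nat.pos_of_mem_divisors ha).ne'
  have hδ0 : δ ≠ 0 := (Nat.pos_of_mem_divisors hδ).ne'
  have hg0 : Nat.gcd a δ ≠ 0 := Nat.gcd_ne_zero_left ha0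
  have h1 := sum_divisors_J2 (Nat.gcd a δ) hg0
  have h2 : (((Nat.gcd a δ : ℕ) : ℤ) : ℚ) ^ 2 = ∑ e ∈ (Nat.gcd a δ).divisors, (J2 e : ℚ) := by
    rw [← Int.cast_pow, ← h1]; push_cast; rfl
  rw [Int.cast_natCast] at h2
  rw [h2, ← Finset.sum_filter]
  apply Finset.sum_congr _ (fun _ _ => rfl)
  ext e
  simp only [Nat.mem_divisors, Finset.mem_filter, Nat.dvd_gcd_iff]
  constructor
  · rintro ⟨⟨h1, h2⟩, -⟩; exact ⟨⟨h2, hδ0⟩, h1⟩
  · rintro ⟨⟨h2, -⟩, h1⟩; exact ⟨⟨h1, h2⟩, hg0⟩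

/-- **Nonsingularity of the gcd-square matrix on the divisors of `N`.** -/
theorem gcd_sq_matrix_injective (N : ℕ) (x : ℕ → ℚ)
    (h : ∀ δ ∈ N.divisors, ∑ a ∈ N.divisors, x a * (Nat.gcd a δ : ℚ) ^ 2 = 0) :
    ∀ a ∈ N.divisors, x a = 0 := by
  apply eq_zero_of_multiple_sums
  -- y e := ∑_{a ∣ N, e ∣ a} x a
  apply eq_zero_of_weighted_divisor_sums N (fun e => (J2 e : ℚ))
  · intro e he
    have := J2_pos e (Nat.pos_of_mem_divisors he).ne'
    exact_mod_cast this.ne'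
  · intro δ hδ
    have h1 := h δ hδ
    rw [← h1]
    have : ∀ a ∈ N.divisors, x a * (Nat.gcd a δ : ℚ) ^ 2
        = ∑ e ∈ δ.divisors, if e ∣ a then (J2 e : ℚ) * x a else 0 := by
      intro a ha
      rw [gcd_sq_eq_sum N a δ ha hδ, Finset.mul_sum]
      apply Finset.sum_congr rfl
      intro e _
      split_ifs <;> ring
    rw [Finset.sum_congr rfl this, Finset.sum_comm]
    apply Finset.sum_congr rfl
    intro e _
    rw [Finset.mul_sum, Finset.sum_filter]

/-- The cusp-order system: `x` is a solution if for every `δ ∣ N`,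
`∑_{a ∣ N} x a * (gcd(a,δ)^2/δ - 1) = 0`. -/
def IsSolution (N : ℕ) (x : ℕ → ℚ) : Prop :=
  ∀ δ ∈ N.divisors, ∑ a ∈ N.divisors, x a * ((Nat.gcd a δ : ℚ) ^ 2 / δ - 1) = 0

theorem IsSolution.sum_gcd_sq {N : ℕ} {x : ℕ → ℚ} (hx : IsSolution N x) (δ : ℕ) (hδ : δ ∈ N.divisors) :
    ∑ a ∈ N.divisors, x a * (Nat.gcd a δ : ℚ) ^ 2 = δ * ∑ a ∈ N.divisors, x a := by
  have hδ0 : (δ : ℚ) ≠ 0 := by exact_mod_cast (Nat.pos_of_mem_divisors hδ).ne'
  have h := hx δ hδ
  have h2 : ∑ a ∈ N.divisors, x a * ((Nat.gcd a δ : ℚ) ^ 2 / δ - 1)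
      = (∑ a ∈ N.divisors, x a * (Nat.gcd a δ : ℚ) ^ 2) / δ - ∑ a ∈ N.divisors, x a := by
    rw [Finset.sum_div, ← Finset.sum_sub_distrib]
    apply Finset.sum_congr rfl
    intro a _
    ring
  rw [h2] at h
  field_simp at h
  linarith

/-- The solution space of the cusp-order system is at most a line. -/
theorem IsSolution.proportional {N : ℕ} {m M : ℕ → ℚ} (hm : IsSolution N m) (hM : IsSolution N M) :
    ∀ a ∈ N.divisors,
      (∑ b ∈ N.divisors, M b) * m a = (∑ b ∈ N.divisors, m b) * M a := by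
  set sM := ∑ b ∈ N.divisors, M b
  set sm := ∑ b ∈ N.divisors, m b
  have := gcd_sq_matrix_injective N (fun a => sM * m a - sm * M a) (by
    intro δ hδ
    have h1 := hm.sum_gcd_sq δ hδ
    have h2 := hM.sum_gcd_sq δ hδ
    have : ∑ a ∈ N.divisors, (sM * m a - sm * M a) * (Nat.gcd a δ : ℚ) ^ 2
        = sM * ∑ a ∈ N.divisors, m a * (Nat.gcd a δ : ℚ) ^ 2
          - sm * ∑ a ∈ N.divisors, M a * (Nat.gcd a δ : ℚ) ^ 2 := by
      rw [Finset.mul_sum, Finset.mul_sum, ← Finset.sum_sub_distrib]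
      apply Finset.sum_congr rfl
      intro a _
      ring
    rw [this, h1, h2]
    ring)
  intro a ha
  have := this a ha
  linarith

/-- **Line argument.** Two solutions of the cusp-order system, one of them positive, which agree at the top
level `a = N`, agree everywhere. -/
theorem cusp_line (N : ℕ) (hN : N ≠ 0) (m M : ℕ → ℚ) (hm : IsSolution N m) (hM : IsSolution N M)
    (hMpos : ∀ a ∈ N.divisors, 0 < M a) (hN' : m N = M N) : ∀ a ∈ N.divisors, m a = M a := by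
  have hNN : N ∈ N.divisors := Nat.mem_divisors_self N hN
  have hprop := IsSolution.proportional hm hM
  have hsM : 0 < ∑ b ∈ N.divisors, M b := Finset.sum_pos hMpos ⟨N, hNN⟩
  have h1 := hprop N hNN
  rw [hN'] at h1
  have hs : ∑ b ∈ N.divisors, M b = ∑ b ∈ N.divisors, m b :=
    mul_right_cancel₀ (hMpos N hNN).ne' h1
  intro a ha
  have h2 := hprop a ha
  rw [← hs] at h2
  exact mul_left_cancel₀ hsM.ne' h2

/-- Integer form with orders measured in `t = q^(1/N)`: `(N/δ) * gcd(a,δ)^2 - N`. -/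
theorem isSolution_of_int (N : ℕ) (x : ℕ → ℤ)
    (h : ∀ δ ∈ N.divisors, ∑ a ∈ N.divisors, x a * (((N / δ : ℕ) : ℤ) * (Nat.gcd a δ : ℤ) ^ 2 - N) = 0) :
    IsSolution N (fun a => (x a : ℚ)) := by
  intro δ hδ
  have hN0 : N ≠ 0 := (Nat.mem_divisors.mp hδ).2
  have hδN : δ ∣ N := Nat.dvd_of_mem_divisors hδ
  have hδ0 : (δ : ℚ) ≠ 0 := by exact_mod_cast (Nat.pos_of_mem_divisors hδ).ne'
  have hNq : (N : ℚ) ≠ 0 := by exact_mod_cast hN0
  have h1 := h δ hδ
  have h2 : ((∑ a ∈ N.divisors, x a * (((N / δ : ℕ) : ℤ) * (Nat.gcd a δ : ℤ) ^ 2 - N) : ℤ) : ℚ) = 0 := by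
    rw [h1]; simp
  have hcast : (((N / δ : ℕ) : ℤ) : ℚ) = (N : ℚ) / δ := by
    rw [Int.cast_natCast, Nat.cast_div hδN hδ0]
  simp only [Int.cast_sum, Int.cast_mul, Int.cast_sub, Int.cast_pow, hcast, Int.cast_natCast] at h2
  have h3 : ∑ a ∈ N.divisors, (x a : ℚ) * ((Nat.gcd a δ : ℚ) ^ 2 / δ - 1)
      = (∑ a ∈ N.divisors, (x a : ℚ) * ((N : ℚ) / δ * (Nat.gcd a δ : ℚ) ^ 2 - N)) / N := by
    rw [Finset.sum_div]
    apply Finset.sum_congr rfl
    intro a _
    field_simp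
  rw [h3, h2, zero_div]

/-- Natural-number counts version of the line argument (the shape used for `m_a = #{s ∈ S of level a}`). -/
theorem cusp_line_nat (N : ℕ) (hN : N ≠ 0) (m M : ℕ → ℕ)
    (hm : ∀ δ ∈ N.divisors,
      ∑ a ∈ N.divisors, (m a : ℤ) * (((N / δ : ℕ) : ℤ) * (Nat.gcd a δ : ℤ) ^ 2 - N) = 0)
    (hM : ∀ δ ∈ N.divisors,
      ∑ a ∈ N.divisors, (M a : ℤ) * (((N / δ : ℕ) : ℤ) * (Nat.gcd a δ : ℤ) ^ 2 - N) = 0)
    (hMpos : ∀ a ∈ N.divisors, 0 < M a) (hN' : m N = M N) : ∀ a ∈ N.divisors, m a = M a := by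
  have h1 := isSolution_of_int N (fun a => (m a : ℤ)) hm
  have h2 := isSolution_of_int N (fun a => (M a : ℤ)) hM
  have := cusp_line N hN _ _ h1 h2 (fun a ha => by exact_mod_cast hMpos a ha) (by simp [hN'])
  intro a ha
  have h3 := this a ha
  simp only [Int.cast_natCast] at h3
  exact_mod_cast h3

end Fermat.Agent.S28.CuspMatrix
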