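/-
S28 (Igusa), package A6/G4 continued (helper6): the counting step in the shape used by the blueprint.

`T` = finite set of cosets, `κ : T → ℕ` the level (`κ c ∣ N`, and `κ c = N` only for the trivial coset `c0`),
`R ⊆ T` a subset containing `c0`.  If for every `d ∣ N`
  `∑_{c ∈ R} gcd(d, κ c)^2 = d * #R`   and   `∑_{c ∈ T} gcd(d, κ c)^2 = d * #T`
then `R = T`.
-/
import Fermat.Agent.S28.CuspMatrix

set_option autoImplicit false

namespace Fermat.Agent.S28.CuspMatrix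

open Finset

/-- Line argument with the weaker positivity hypothesis `0 ≤ M a`, `0 < M N`. -/
theorem cusp_line' (N : ℕ) (hN : N ≠ 0) (m M : ℕ → ℚ) (hm : IsSolution N m) (hM : IsSolution N M)
    (hM0 : ∀ a ∈ N.divisors, 0 ≤ M a) (hMN : 0 < M N) (hN' : m N = M N) :
    ∀ a ∈ N.divisors, m a = M a := by
  have hNN : N ∈ N.divisors := Nat.mem_divisors_self N hN
  have hprop := IsSolution.proportional hm hM
  have hsM : 0 < ∑ b ∈ N.divisors, M b :=
    lt_of_lt_of_le hMN (Finset.single_le_sum (f := M) (fun a ha => hM0 a ha) hNN)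
  have h1 := hprop N hNN
  rw [hN'] at h1
  have hs : ∑ b ∈ N.divisors, M b = ∑ b ∈ N.divisors, m b := mul_right_cancel₀ hMN.ne' h1
  intro a ha
  have h2 := hprop a ha
  rw [← hs] at h2
  exact mul_left_cancel₀ hsM.ne' h2

section Card

variable {T : Type*}

/-- number of elements of `R` of level `a`. -/
def levelCount (κ : T → ℕ) (R : Finset T) (a : ℕ) : ℕ := (R.filter (fun c => κ c = a)).card

theorem sum_levelCount (N : ℕ) (κ : T → ℕ) (hκ : ∀ c, κ c ∈ N.divisors) (R : Finset T) :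
    ∑ a ∈ N.divisors, levelCount κ R a = R.card := by
  unfold levelCount
  rw [← Finset.card_eq_sum_card_fiberwise (f := κ) (s := R) (t := N.divisors)]
  intro c _
  exact hκ c

theorem sum_levelCount_mul (N : ℕ) (κ : T → ℕ) (hκ : ∀ c, κ c ∈ N.divisors) (R : Finset T)
    (f : ℕ → ℚ) :
    ∑ a ∈ N.divisors, (levelCount κ R a : ℚ) * f a = ∑ c ∈ R, f (κ c) := by
  unfold levelCount
  rw [← Finset.sum_fiberwise_of_maps_to (g := κ) (s := R) (t := N.divisors) (fun c _ => hκ c)]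
  apply Finset.sum_congr rfl
  intro a _
  rw [Finset.card_eq_sum_ones, Nat.cast_sum, Finset.sum_mul]
  apply Finset.sum_congr rfl
  intro c hc
  rw [(Finset.mem_filter.mp hc).2]
  simp

theorem isSolution_levelCount (N : ℕ) (κ : T → ℕ) (hκ : ∀ c, κ c ∈ N.divisors) (R : Finset T)
    (hR : ∀ d ∈ N.divisors, ∑ c ∈ R, (Nat.gcd d (κ c)) ^ 2 = d * R.card) :
    IsSolution N (fun a => (levelCount κ R a : ℚ)) := by
  intro δ hδ
  have hδ0 : (δ : ℚ) ≠ 0 := by exact_mod_cast (Nat.pos_of_mem_divisors hδ).ne'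
  rw [sum_levelCount_mul N κ hκ R (fun a => (Nat.gcd a δ : ℚ) ^ 2 / δ - 1)]
  rw [Finset.sum_sub_distrib, ← Finset.sum_div]
  have h1 : (∑ c ∈ R, ((κ c).gcd δ : ℚ) ^ 2) = ((∑ c ∈ R, (Nat.gcd δ (κ c)) ^ 2 : ℕ) : ℚ) := by
    push_cast
    apply Finset.sum_congr rfl
    intro c _
    rw [Nat.gcd_comm]
  rw [h1, hR δ hδ]
  push_cast
  simp only [Finset.sum_const, nsmul_eq_mul, mul_one]
  field_simp
  ring

/-- **Counting step of S28 (shape (\*) of the blueprint).** -/
theorem eq_univ_of_level_sums [Fintype T] (N : ℕ) (hN : N ≠ 0) (κ : T → ℕ) (hκ : ∀ c, κ c ∣ N)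
    (R : Finset T) (c0 : T) (hc0 : c0 ∈ R) (hκ0 : ∀ c, κ c = N ↔ c = c0)
    (hR : ∀ d ∈ N.divisors, ∑ c ∈ R, (Nat.gcd d (κ c)) ^ 2 = d * R.card)
    (hT : ∀ d ∈ N.divisors, ∑ c : T, (Nat.gcd d (κ c)) ^ 2 = d * Fintype.card T) :
    R = Finset.univ := by
  have hκ' : ∀ c, κ c ∈ N.divisors := fun c => Nat.mem_divisors.mpr ⟨hκ c, hN⟩
  have hsolR := isSolution_levelCount N κ hκ' R hR
  have hsolT := isSolution_levelCount N κ hκ' Finset.univ (by simpa using hT)
  have hfil : ∀ S : Finset T, c0 ∈ S → S.filter (fun c => κ c = N) = {c0} := by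
    intro S hS
    ext c
    simp only [Finset.mem_filter, Finset.mem_singleton, hκ0]
    constructor
    · exact fun h => h.2
    · rintro rfl; exact ⟨hS, rfl⟩
  have hmN : levelCount κ R N = 1 := by
    unfold levelCount; rw [hfil R hc0]; simp
  have hMN : levelCount κ (Finset.univ : Finset T) N = 1 := by
    unfold levelCount; rw [hfil _ (Finset.mem_univ c0)]; simp
  have hline := cusp_line' N hN _ _ hsolR hsolT (fun a _ => by positivity)
    (by simp [hMN]) (by simp [hmN, hMN])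
  have hcard : R.card = (Finset.univ : Finset T).card := by
    rw [← sum_levelCount N κ hκ' R, ← sum_levelCount N κ hκ' Finset.univ]
    apply Finset.sum_congr rfl
    intro a ha
    have := hline a ha
    exact_mod_cast this
  exact Finset.eq_univ_of_card R (by rw [hcard, Finset.card_univ])

/-- Same with the hypotheses expressed through `t`-orders `ord_t u_{d,c} = (N/d) gcd(d, κ c)^2 - N`
(`t = q^(1/N)`): the sum of the orders over `R`, and over `T`, vanishes for every `d ∣ N`. -/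
theorem eq_univ_of_order_sums [Fintype T] (N : ℕ) (hN : N ≠ 0) (κ : T → ℕ) (hκ : ∀ c, κ c ∣ N)
    (R : Finset T) (c0 : T) (hc0 : c0 ∈ R) (hκ0 : ∀ c, κ c = N ↔ c = c0)
    (hR : ∀ d ∈ N.divisors,
      ∑ c ∈ R, ((((N / d : ℕ) : ℤ)) * ((Nat.gcd d (κ c) : ℕ) : ℤ) ^ 2 - (N : ℤ)) = 0)
    (hT : ∀ d ∈ N.divisors,
      ∑ c : T, ((((N / d : ℕ) : ℤ)) * ((Nat.gcd d (κ c) : ℕ) : ℤ) ^ 2 - (N : ℤ)) = 0) :
    R = Finset.univ := by
  have conv : ∀ S : Finset T, ∀ d ∈ N.divisors,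
      ∑ c ∈ S, ((((N / d : ℕ) : ℤ)) * ((Nat.gcd d (κ c) : ℕ) : ℤ) ^ 2 - (N : ℤ)) = 0 →
      ∑ c ∈ S, (Nat.gcd d (κ c)) ^ 2 = d * S.card := by
    intro S d hd h
    have hdN : d ∣ N := Nat.dvd_of_mem_divisors hd
    have hd0 : 0 < d := Nat.pos_of_mem_divisors hd
    obtain ⟨e, rfl⟩ := hdN
    have he0 : e ≠ 0 := by rintro rfl; exact hN (by simp)
    rw [Nat.mul_div_cancel_left e hd0] at h
    rw [Finset.sum_sub_distrib, ← Finset.mul_sum] at h
    simp only [Finset.sum_const, nsmul_eq_mul] at h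
    have h2 : (e : ℤ) * ∑ c ∈ S, ((Nat.gcd d (κ c) : ℕ) : ℤ) ^ 2 = (e : ℤ) * ((d : ℤ) * S.card) := by
      push_cast at h ⊢
      linarith
    have h3 := mul_left_cancel₀ (by exact_mod_cast he0 : (e : ℤ) ≠ 0) h2
    exact_mod_cast h3
  apply eq_univ_of_level_sums N hN κ hκ R c0 hc0 hκ0
  · intro d hd; exact conv R d hd (hR d hd)
  · intro d hd
    have := conv Finset.univ d hd (hT d hd)
    simpa using this

end Card

end Fermat.Agent.S28.CuspMatrix
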