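import Mathlib

/-!
# S28 (A5): the norm of a Lagrange unit over the root set of a factor

Pure field theory.  `E ⊆ Ω` fields, `R ⊆ E` a subring which is integrally closed in `E`,
`Φ ∈ E[X]` a polynomial which splits in `Ω` with pairwise distinct roots `ρ s`, `s ∈ I`.
For a monic factor `g ∣ Φ` with root set `S = {s | g(ρ s) = 0}` and a family `u s ∈ Ω` given by
ONE polynomial `Rbar ∈ E[X]` (`u s = Rbar(ρ s)`, Lagrange), such that all `u s` and `(u s)⁻¹` are
integral over `R`: the product `∏_{s ∈ S} u s` is (the image of) a unit of `R`.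

Consequently `∑_{s ∈ S} ord (u s) = 0` for every "order function" vanishing on the units of `R`.
-/

set_option autoImplicit false

namespace Fermat.Agent.S28.NormUnit

open Polynomial

variable {E Ω : Type*} [Field E] [Field Ω] [Algebra E Ω]
variable {I : Type*} [Fintype I]

open Classical in
/-- the set of indices `s` such that `ρ s` is a root of `g` -/
noncomputable def rootIdx (ρ : I → Ω) (g : Polynomial E) : Finset I :=
  Finset.univ.filter (fun s => aeval (ρ s) g = 0)

theorem mem_rootIdx {ρ : I → Ω} {g : Polynomial E} {s : I} :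
    s ∈ rootIdx ρ g ↔ aeval (ρ s) g = 0 := by
  simp [rootIdx]

/-- a monic divisor of a product of distinct linear factors is the product over its roots -/
theorem map_eq_prod_of_dvd (ρ : I → Ω) (hρ : Function.Injective ρ) (Φ g : Polynomial E)
    (hΦ : Φ.map (algebraMap E Ω) = ∏ s : I, (X - C (ρ s))) (hg : g.Monic) (hdvd : g ∣ Φ) :
    g.map (algebraMap E Ω) = ∏ s ∈ rootIdx ρ g, (X - C (ρ s)) := by
  classical
  set G := g.map (algebraMap E Ω) with hG
  have hGm : G.Monic := hg.map _
  have hprod_ne : (∏ s : I, (X - C (ρ s))) ≠ (0 : Polynomial Ω) :=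
    Finset.prod_ne_zero_iff.mpr fun s _ => X_sub_C_ne_zero _
  have hGdvd : G ∣ ∏ s : I, (X - C (ρ s)) := by
    rw [← hΦ]; exact Polynomial.map_dvd _ hdvd
  have hsplit : (∏ s : I, (X - C (ρ s)) : Polynomial Ω).Splits :=
    Splits.prod fun s _ => Splits.X_sub_C _
  have hGs : G.Splits := hsplit.of_dvd hprod_ne hGdvd
  -- the roots of the big product
  have hroots_all : (∏ s : I, (X - C (ρ s)) : Polynomial Ω).roots
      = (Finset.univ : Finset I).val.map ρ := by
    have h1 : (∏ s : I, (X - C (ρ s)) : Polynomial Ω)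
        = (((Finset.univ : Finset I).val.map ρ).map fun a => X - C a).prod := by
      rw [Multiset.map_map]; rfl
    rw [h1, roots_multiset_prod_X_sub_C]
  have hnodup_all : ((Finset.univ : Finset I).val.map ρ).Nodup :=
    Multiset.Nodup.map hρ Finset.univ.nodup
  have hle : G.roots ≤ (Finset.univ : Finset I).val.map ρ := by
    rw [← hroots_all]; exact roots.le_of_dvd hprod_ne hGdvd
  have hnodup : G.roots.Nodup := Multiset.nodup_of_le hle hnodup_all
  have hroots : G.roots = (rootIdx ρ g).val.map ρ := by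
    refine (Multiset.Nodup.ext hnodup (Multiset.Nodup.map hρ (rootIdx ρ g).nodup)).mpr fun a => ?_
    rw [mem_roots hGm.ne_zero, Multiset.mem_map]
    constructor
    · intro ha
      have ha' : a ∈ (Finset.univ : Finset I).val.map ρ := by
        apply Multiset.mem_of_le hle
        rwa [mem_roots hGm.ne_zero]
      obtain ⟨s, -, rfl⟩ := Multiset.mem_map.mp ha'
      refine ⟨s, ?_, rfl⟩
      rw [Finset.mem_val, mem_rootIdx]
      rwa [IsRoot.def, hG, eval_map_algebraMap] at ha
    · rintro ⟨s, hs, rfl⟩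
      rw [Finset.mem_val, mem_rootIdx] at hs
      rwa [IsRoot.def, hG, eval_map_algebraMap]
  rw [hGs.eq_prod_roots_of_monic hGm, hroots, Multiset.map_map]
  rfl

/-- **The norm over the root set is in `E`.**  -/
theorem prod_eq_algebraMap (ρ : I → Ω) (hρ : Function.Injective ρ) (Φ g : Polynomial E)
    (hΦ : Φ.map (algebraMap E Ω) = ∏ s : I, (X - C (ρ s))) (hg : g.Monic) (hdvd : g ∣ Φ)
    (Rbar : Polynomial E) :
    ∏ s ∈ rootIdx ρ g, aeval (ρ s) Rbar
      = algebraMap E Ω (resultant g Rbar g.natDegree Rbar.natDegree) := by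
  classical
  set G := g.map (algebraMap E Ω) with hG
  have hGeq := map_eq_prod_of_dvd ρ hρ Φ g hΦ hg hdvd
  have hGm : G.Monic := hg.map _
  have hGs : G.Splits := by
    rw [hG, hGeq]; exact Splits.prod fun s _ => Splits.X_sub_C _
  have hroots : G.roots = (rootIdx ρ g).val.map ρ := by
    rw [hG, hGeq]
    have h1 : (∏ s ∈ rootIdx ρ g, (X - C (ρ s)) : Polynomial Ω)
        = (((rootIdx ρ g).val.map ρ).map fun a => X - C a).prod := by
      rw [Multiset.map_map]; rfl
    rw [h1, roots_multiset_prod_X_sub_C]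
  have hres := resultant_eq_prod_eval G (Rbar.map (algebraMap E Ω)) Rbar.natDegree
    natDegree_map_le hGs
  rw [hGm.leadingCoeff, one_pow, one_mul, hroots, Multiset.map_map] at hres
  have hdeg : G.natDegree = g.natDegree := natDegree_map _
  rw [hdeg, hG, resultant_map_map] at hres
  rw [hres]
  simp only [Function.comp_apply, eval_map_algebraMap]
  rfl

/-- a finite product of integral elements is integral -/
theorem isIntegralElem_prod {A B : Type*} [CommRing A] [CommRing B] (f : A →+* B) {ι : Type*}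
    (T : Finset ι) (x : ι → B) (h : ∀ s ∈ T, f.IsIntegralElem (x s)) :
    f.IsIntegralElem (∏ s ∈ T, x s) := by
  classical
  induction T using Finset.induction_on with
  | empty => simpa using f.isIntegralElem_one
  | insert a T ha ih =>
    rw [Finset.prod_insert ha]
    exact RingHom.IsIntegralElem.mul f (h a (Finset.mem_insert_self a T))
      (ih fun s hs => h s (Finset.mem_insert_of_mem hs))

/-- integrality descends along an injective ring homomorphism -/
theorem isIntegral_of_map {R : Subring E} {c : E}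
    (h : ((algebraMap E Ω).comp R.subtype).IsIntegralElem (algebraMap E Ω c)) :
    IsIntegral R c := by
  obtain ⟨p, hp, hpe⟩ := h
  refine ⟨p, hp, ?_⟩
  have : algebraMap E Ω (eval₂ R.subtype c p) = 0 := by
    rw [← hpe, ← Polynomial.hom_eval₂]
  exact (map_eq_zero_iff _ (algebraMap E Ω).injective).mp this

/-- **Main theorem (A5).** -/
theorem exists_unit_prod_eq (R : Subring E) (hR : ∀ x : E, IsIntegral R x → x ∈ R)
    (ρ : I → Ω) (hρ : Function.Injective ρ) (Φ g : Polynomial E)
    (hΦ : Φ.map (algebraMap E Ω) = ∏ s : I, (X - C (ρ s))) (hg : g.Monic) (hdvd : g ∣ Φ)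
    (u : I → Ω) (hu0 : ∀ s, u s ≠ 0) (Rbar : Polynomial E) (hLag : ∀ s, u s = aeval (ρ s) Rbar)
    (hint : ∀ s, ((algebraMap E Ω).comp R.subtype).IsIntegralElem (u s))
    (hint' : ∀ s, ((algebraMap E Ω).comp R.subtype).IsIntegralElem (u s)⁻¹) :
    ∃ c : E, c ∈ R ∧ c⁻¹ ∈ R ∧ c ≠ 0 ∧ ∏ s ∈ rootIdx ρ g, u s = algebraMap E Ω c := by
  classical
  set c := resultant g Rbar g.natDegree Rbar.natDegree with hc
  have hP : ∏ s ∈ rootIdx ρ g, u s = algebraMap E Ω c := by
    rw [hc, ← prod_eq_algebraMap ρ hρ Φ g hΦ hg hdvd Rbar]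
    exact Finset.prod_congr rfl fun s _ => hLag s
  have hPne : ∏ s ∈ rootIdx ρ g, u s ≠ 0 := Finset.prod_ne_zero_iff.mpr fun s _ => hu0 s
  have hc0 : c ≠ 0 := by
    intro h0
    rw [h0, map_zero] at hP
    exact hPne hP
  set φ := (algebraMap E Ω).comp R.subtype with hφ
  have h1 : φ.IsIntegralElem (algebraMap E Ω c) := by
    rw [← hP]
    exact isIntegralElem_prod φ _ _ fun s _ => hint s
  have h2 : φ.IsIntegralElem (algebraMap E Ω c⁻¹) := by
    rw [map_inv₀, ← hP, ← Finset.prod_inv_distrib]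
    exact isIntegralElem_prod φ _ _ fun s _ => hint' s
  exact ⟨c, hR c (isIntegral_of_map h1), hR _ (isIntegral_of_map h2), hc0, hP⟩

/-- **Corollary: the orders sum to zero.** -/
theorem sum_ord_eq_zero (R : Subring E) (hR : ∀ x : E, IsIntegral R x → x ∈ R)
    (ρ : I → Ω) (hρ : Function.Injective ρ) (Φ g : Polynomial E)
    (hΦ : Φ.map (algebraMap E Ω) = ∏ s : I, (X - C (ρ s))) (hg : g.Monic) (hdvd : g ∣ Φ)
    (u : I → Ω) (hu0 : ∀ s, u s ≠ 0) (Rbar : Polynomial E) (hLag : ∀ s, u s = aeval (ρ s) Rbar)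
    (hint : ∀ s, ((algebraMap E Ω).comp R.subtype).IsIntegralElem (u s))
    (hint' : ∀ s, ((algebraMap E Ω).comp R.subtype).IsIntegralElem (u s)⁻¹)
    (ord : Ω → ℤ) (hone : ord 1 = 0)
    (hmul : ∀ x y : Ω, x ≠ 0 → y ≠ 0 → ord (x * y) = ord x + ord y)
    (hunit : ∀ c : E, c ∈ R → c⁻¹ ∈ R → c ≠ 0 → ord (algebraMap E Ω c) = 0) :
    ∑ s ∈ rootIdx ρ g, ord (u s) = 0 := by
  classical
  obtain ⟨c, hcR, hcR', hc0, hP⟩ :=
    exists_unit_prod_eq R hR ρ hρ Φ g hΦ hg hdvd u hu0 Rbar hLag hint hint'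
  have hprod : ∀ T : Finset I, ord (∏ s ∈ T, u s) = ∑ s ∈ T, ord (u s) := by
    intro T
    induction T using Finset.induction_on with
    | empty => simpa using hone
    | insert a T ha ih =>
      rw [Finset.prod_insert ha, Finset.sum_insert ha,
        hmul _ _ (hu0 a) (Finset.prod_ne_zero_iff.mpr fun s _ => hu0 s), ih]
  rw [← hprod, hP]
  exact hunit c hcR hcR' hc0

/-! ### The minimal polynomial of a root -/

/-- the root set of the minimal polynomial of `ρ s0` contains `s0` -/
theorem mem_rootIdx_minpoly (ρ : I → Ω) (s0 : I) : s0 ∈ rootIdx ρ (minpoly E (ρ s0)) :=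
  mem_rootIdx.mpr (minpoly.aeval E (ρ s0))

theorem isIntegral_root (ρ : I → Ω) (Φ : Polynomial E)
    (hΦ : Φ.map (algebraMap E Ω) = ∏ s : I, (X - C (ρ s))) (s0 : I) : IsIntegral E (ρ s0) := by
  classical
  have hm : (Φ.map (algebraMap E Ω)).Monic := by
    rw [hΦ]; exact monic_prod_of_monic _ _ fun s _ => monic_X_sub_C _
  have hΦm : Φ.Monic := by
    have hinj := (algebraMap E Ω).injective
    rw [Monic, leadingCoeff_map_of_injective hinj] at hm
    rw [Monic]
    apply hinj
    rw [hm, map_one]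
  refine ⟨Φ, hΦm, ?_⟩
  rw [← eval_map, hΦ, eval_prod]
  exact Finset.prod_eq_zero (Finset.mem_univ s0) (by simp)

theorem minpoly_dvd (ρ : I → Ω) (Φ : Polynomial E)
    (hΦ : Φ.map (algebraMap E Ω) = ∏ s : I, (X - C (ρ s))) (s0 : I) :
    minpoly E (ρ s0) ∣ Φ := by
  classical
  apply minpoly.dvd
  rw [aeval_def, ← eval_map, hΦ, eval_prod]
  exact Finset.prod_eq_zero (Finset.mem_univ s0) (by simp)

/-- if the root set of the minimal polynomial of `ρ s0` is everything, `Φ` is irreducible -/
theorem irreducible_of_rootIdx_eq_univ (ρ : I → Ω) (hρ : Function.Injective ρ)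
    (Φ : Polynomial E) (hΦ : Φ.map (algebraMap E Ω) = ∏ s : I, (X - C (ρ s))) (s0 : I)
    (h : rootIdx ρ (minpoly E (ρ s0)) = Finset.univ) :
    Φ = minpoly E (ρ s0) ∧ Irreducible Φ := by
  classical
  have hint := isIntegral_root ρ Φ hΦ s0
  have hdvd := minpoly_dvd ρ Φ hΦ s0
  have hmon := minpoly.monic hint
  have hmap := map_eq_prod_of_dvd ρ hρ Φ _ hΦ hmon hdvd
  rw [h, ← hΦ] at hmap
  have heq : minpoly E (ρ s0) = Φ := map_injective _ (algebraMap E Ω).injective hmap
  exact ⟨heq.symm, heq ▸ minpoly.irreducible hint⟩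

end Fermat.Agent.S28.NormUnit
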