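import Mathlib
import Fermat.Agent.S28.NormUnit
import Fermat.Agent.S28.CuspMatrixCard

/-!
# S28 (C1): abstract irreducibility from the unit norms and the level count

`E ⊆ Ω` fields, `R ⊆ E` integrally closed in `E`.  `Φ ∈ E[X]` splits in `Ω` with distinct roots
`ρ c`, `c ∈ T`.  Every `c` has a level `κ c ∣ N`, and exactly one `c0` has level `N`.  For every
`d ∣ N` there is a family of units `u d c ∈ Ω` given by a Lagrange polynomial, integral over `R`
together with their inverses, with `ord (u d c) = (N / d) gcd(d, κ c)² - N`.  Then `Φ` is the minimal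
polynomial of `ρ c0` over `E`; in particular it is irreducible.
-/

set_option autoImplicit false

namespace Fermat.Agent.S28.IrredAbs

open Polynomial Fermat.Agent.S28.NormUnit Fermat.Agent.S28.CuspMatrix

variable {E Ω : Type*} [Field E] [Field Ω] [Algebra E Ω]
variable {T : Type*} [Fintype T]

theorem irreducible_of_units (N : ℕ) (hN : N ≠ 0)
    (κ : T → ℕ) (hκ : ∀ c, κ c ∣ N) (c0 : T) (hκ0 : ∀ c, κ c = N ↔ c = c0)
    (R : Subring E) (hR : ∀ x : E, IsIntegral R x → x ∈ R)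
    (ρ : T → Ω) (hρ : Function.Injective ρ) (Φ : Polynomial E)
    (hΦ : Φ.map (algebraMap E Ω) = ∏ c : T, (X - C (ρ c)))
    (u : ℕ → T → Ω) (hu0 : ∀ d ∈ N.divisors, ∀ c, u d c ≠ 0)
    (Rbar : ℕ → Polynomial E) (hLag : ∀ d ∈ N.divisors, ∀ c, u d c = aeval (ρ c) (Rbar d))
    (hint : ∀ d ∈ N.divisors, ∀ c, ((algebraMap E Ω).comp R.subtype).IsIntegralElem (u d c))
    (hint' : ∀ d ∈ N.divisors, ∀ c, ((algebraMap E Ω).comp R.subtype).IsIntegralElem (u d c)⁻¹)
    (ord : Ω → ℤ) (hone : ord 1 = 0)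
    (hmul : ∀ x y : Ω, x ≠ 0 → y ≠ 0 → ord (x * y) = ord x + ord y)
    (hunit : ∀ c : E, c ∈ R → c⁻¹ ∈ R → c ≠ 0 → ord (algebraMap E Ω c) = 0)
    (hord : ∀ d ∈ N.divisors, ∀ c,
      ord (u d c) = ((N / d : ℕ) : ℤ) * ((Nat.gcd d (κ c) : ℕ) : ℤ) ^ 2 - (N : ℤ)) :
    Φ = minpoly E (ρ c0) ∧ Irreducible Φ := by
  classical
  have hint0 := isIntegral_root ρ Φ hΦ c0
  have hdvd := minpoly_dvd ρ Φ hΦ c0
  have hmon := minpoly.monic hint0
  have hΦm : Φ.Monic := by
    have hm : (Φ.map (algebraMap E Ω)).Monic := by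
      rw [hΦ]; exact monic_prod_of_monic _ _ fun s _ => monic_X_sub_C _
    have hinj := (algebraMap E Ω).injective
    rw [Monic, leadingCoeff_map_of_injective hinj] at hm
    rw [Monic]
    apply hinj
    rw [hm, map_one]
  apply irreducible_of_rootIdx_eq_univ ρ hρ Φ hΦ c0
  apply eq_univ_of_order_sums N hN κ hκ _ c0 (mem_rootIdx_minpoly ρ c0) hκ0
  · intro d hd
    have h := sum_ord_eq_zero R hR ρ hρ Φ (minpoly E (ρ c0)) hΦ hmon hdvd (u d) (hu0 d hd)
      (Rbar d) (hLag d hd) (hint d hd) (hint' d hd) ord hone hmul hunit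
    rw [← h]
    exact Finset.sum_congr rfl fun c _ => (hord d hd c).symm
  · intro d hd
    have h := sum_ord_eq_zero R hR ρ hρ Φ Φ hΦ hΦm dvd_rfl (u d) (hu0 d hd)
      (Rbar d) (hLag d hd) (hint d hd) (hint' d hd) ord hone hmul hunit
    have huniv : rootIdx ρ Φ = Finset.univ := by
      ext c
      simp only [mem_rootIdx, Finset.mem_univ, iff_true]
      rw [aeval_def, ← eval_map, hΦ, eval_prod]
      exact Finset.prod_eq_zero (Finset.mem_univ c) (by simp)
    rw [huniv] at h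
    rw [← h]
    exact Finset.sum_congr rfl fun c _ => (hord d hd c).symm

end Fermat.Agent.S28.IrredAbs
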