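import Mathlib
import Fermat.Agent.S28.IrredAbs

/-!
# S28 (C1b): irreducibility of the reduced modular polynomial over `k(J)`, concrete shell

`Ω = k((t))`, `Jb ∈ Ω` with a pole (so `Jb` is transcendental over `k`), `E = RatFunc k` mapped to `Ω`
by `X ↦ Jb`, `R = k[X] ⊆ E`.  We instantiate `IrredAbs.irreducible_of_units`.
-/

set_option autoImplicit false

namespace Fermat.Agent.S28.IrredSeries

open Polynomial

variable {k : Type*} [Field k]

/-! ### A Laurent series with a pole is transcendental over the coefficient field -/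

theorem order_nonneg_of_monic_root {x : LaurentSeries k} (p : k[X]) (hpm : p.Monic)
    (hp : eval₂ (HahnSeries.C : k →+* LaurentSeries k) x p = 0) : 0 ≤ x.order := by
  have h1 : IsIntegral (PowerSeries k) x := by
    refine ⟨p.map (PowerSeries.C : k →+* PowerSeries k), hpm.map _, ?_⟩
    rw [eval₂_map]
    have hcomp : (algebraMap (PowerSeries k) (LaurentSeries k)).comp
        (PowerSeries.C : k →+* PowerSeries k) = (HahnSeries.C : k →+* LaurentSeries k) := by
      refine RingHom.ext fun r => ?_
      rw [RingHom.comp_apply]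
      show ((PowerSeries.C r : PowerSeries k) : LaurentSeries k) = _
      rw [HahnSeries.ofPowerSeries_C]
    rw [hcomp]
    exact hp
  obtain ⟨y, hy⟩ := IsIntegrallyClosed.isIntegral_iff.mp h1
  by_contra hneg
  push Not at hneg
  have hx0 : x ≠ 0 := by
    rintro rfl
    simp at hneg
  apply hx0
  rw [← HahnSeries.coeff_order_eq_zero, ← hy]
  show ((y : PowerSeries k) : LaurentSeries k).coeff _ = 0
  rw [PowerSeries.coeff_coe, if_pos (by rw [hy]; exact hneg)]

/-- evaluation of polynomials over `k` at a Laurent series (instance-free spelling) -/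
noncomputable def evalJ (Jb : LaurentSeries k) : k[X] →+* LaurentSeries k :=
  eval₂RingHom (HahnSeries.C : k →+* LaurentSeries k) Jb

theorem evalJ_apply (Jb : LaurentSeries k) (p : k[X]) :
    evalJ Jb p = eval₂ (HahnSeries.C : k →+* LaurentSeries k) Jb p := rfl

theorem evalJ_C (Jb : LaurentSeries k) (a : k) : evalJ Jb (C a) = HahnSeries.C a := by
  rw [evalJ_apply, eval₂_C]

theorem evalJ_X (Jb : LaurentSeries k) : evalJ Jb X = Jb := by
  rw [evalJ_apply, eval₂_X]

theorem evalJ_injective {Jb : LaurentSeries k} (hJ : Jb.order < 0) :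
    Function.Injective (evalJ Jb) := by
  rw [injective_iff_map_eq_zero]
  intro p hp
  by_contra hp0
  have hm : (p * C p.leadingCoeff⁻¹).Monic := monic_mul_leadingCoeff_inv hp0
  have h0 : eval₂ (HahnSeries.C : k →+* LaurentSeries k) Jb (p * C p.leadingCoeff⁻¹) = 0 := by
    rw [eval₂_mul, ← evalJ_apply, hp, zero_mul]
  have := order_nonneg_of_monic_root _ hm h0
  omega

/-! ### The instantiation -/

section Main

variable {T : Type*} [Fintype T]

/-- **Irreducibility of the reduced modular polynomial over `k(J)`**, from the formal facts. -/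
theorem irreducible_of_units_series (N : ℕ) (hN : N ≠ 0)
    (κ : T → ℕ) (hκ : ∀ c, κ c ∣ N) (c0 : T) (hκ0 : ∀ c, κ c = N ↔ c = c0)
    (Jb : LaurentSeries k) (hJ : Jb.order < 0)
    (ρ : T → LaurentSeries k) (hρ : Function.Injective ρ)
    (Φ : k[X][X]) (hΦ : Φ.map (evalJ Jb) = ∏ c : T, (X - C (ρ c)))
    (u : ℕ → T → LaurentSeries k) (hu0 : ∀ d ∈ N.divisors, ∀ c, u d c ≠ 0)
    (L : ℕ → k[X][X])
    (hLag : ∀ d ∈ N.divisors, ∀ c,
      u d c * (derivative Φ).eval₂ (evalJ Jb) (ρ c) = (L d).eval₂ (evalJ Jb) (ρ c))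
    (W W' : ℕ → k[X][X]) (hWm : ∀ d ∈ N.divisors, (W d).Monic)
    (hW'm : ∀ d ∈ N.divisors, (W' d).Monic)
    (hW : ∀ d ∈ N.divisors, ∀ c, (W d).eval₂ (evalJ Jb) (u d c) = 0)
    (hW' : ∀ d ∈ N.divisors, ∀ c, (W' d).eval₂ (evalJ Jb) (u d c)⁻¹ = 0)
    (hord : ∀ d ∈ N.divisors, ∀ c,
      (u d c).order = ((N / d : ℕ) : ℤ) * ((Nat.gcd d (κ c) : ℕ) : ℤ) ^ 2 - (N : ℤ)) :
    Irreducible (Φ.map (algebraMap k[X] (RatFunc k))) := by
  classical
  set φ := evalJ Jb with hφdef
  have hφ : Function.Injective φ := evalJ_injective hJ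
  -- the field `E = k(X)` mapped to `Ω` by `X ↦ Jb`
  let ψ : RatFunc k →+* LaurentSeries k := IsFractionRing.lift hφ
  have hψ : ∀ a : k[X], ψ (algebraMap k[X] (RatFunc k) a) = φ a :=
    fun a => IsFractionRing.lift_algebraMap hφ a
  have hψcomp : ψ.comp (algebraMap k[X] (RatFunc k)) = φ := RingHom.ext hψ
  let _ : Algebra (RatFunc k) (LaurentSeries k) := ψ.toAlgebra
  have halg : algebraMap (RatFunc k) (LaurentSeries k) = ψ := rfl
  -- the subring `R = k[X]`
  let R : Subring (RatFunc k) := (algebraMap k[X] (RatFunc k)).range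
  let g : k[X] →+* R := (algebraMap k[X] (RatFunc k)).rangeRestrict
  have hg : ∀ a, ((g a : R) : RatFunc k) = algebraMap k[X] (RatFunc k) a := fun a => rfl
  have hgsurj : Function.Surjective g := RingHom.rangeRestrict_surjective _
  have hfg : ((algebraMap (RatFunc k) (LaurentSeries k)).comp R.subtype).comp g = φ := by
    refine RingHom.ext fun a => ?_
    simp only [RingHom.comp_apply, Subring.subtype_apply, hg, halg, hψ]
  -- `R` is integrally closed in `E`
  have hR : ∀ x : RatFunc k, IsIntegral R x → x ∈ R := by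
    intro x hx
    obtain ⟨p, hpm, hp⟩ := hx
    have hlifts : p ∈ lifts g := by
      rw [lifts_iff_coeff_lifts]
      intro n
      exact hgsurj _
    obtain ⟨q, hq, -, hqm⟩ := lifts_and_natDegree_eq_and_monic hlifts hpm
    have hint : IsIntegral k[X] x := by
      refine ⟨q, hqm, ?_⟩
      have : eval₂ (algebraMap k[X] (RatFunc k)) x q = eval₂ (algebraMap R (RatFunc k)) x p := by
        rw [← hq, eval₂_map]
        rfl
      rw [this, hp]
    obtain ⟨y, hy⟩ := IsIntegrallyClosed.isIntegral_iff.mp hint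
    exact ⟨y, hy⟩
  -- the polynomial over `E`
  set ΦE : (RatFunc k)[X] := Φ.map (algebraMap k[X] (RatFunc k)) with hΦE
  have hΦE' : ΦE.map (algebraMap (RatFunc k) (LaurentSeries k)) = ∏ c : T, (X - C (ρ c)) := by
    rw [hΦE, Polynomial.map_map, halg, hψcomp, hΦ]
  -- separability and the Lagrange polynomial
  have hsep : ΦE.Separable := by
    rw [← separable_map (algebraMap (RatFunc k) (LaurentSeries k)), hΦE',
      separable_prod_X_sub_C_iff]
    exact hρ
  obtain ⟨a, b, hab⟩ := hsep
  have evalE : ∀ (P : k[X][X]) (x : LaurentSeries k),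
      aeval x (P.map (algebraMap k[X] (RatFunc k))) = P.eval₂ φ x := by
    intro P x
    rw [aeval_def, eval₂_map, halg, hψcomp]
  have hroot : ∀ c, aeval (ρ c) ΦE = 0 := by
    intro c
    rw [aeval_def, ← eval_map, hΦE', eval_prod]
    exact Finset.prod_eq_zero (Finset.mem_univ c) (by simp)
  have hb : ∀ c, aeval (ρ c) b * (derivative Φ).eval₂ φ (ρ c) = 1 := by
    intro c
    have h1 := congrArg (aeval (ρ c)) hab
    rw [map_add, map_mul, map_mul, hroot c, mul_zero, zero_add, map_one, hΦE, derivative_map,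
      evalE] at h1
    exact h1
  refine (IrredAbs.irreducible_of_units N hN κ hκ c0 hκ0 R hR ρ hρ ΦE hΦE' u hu0
    (fun d => (L d).map (algebraMap k[X] (RatFunc k)) * b) ?_ ?_ ?_
    HahnSeries.order HahnSeries.order_one (fun x y hx hy => HahnSeries.order_mul hx hy) ?_
    hord).2
  · -- Lagrange
    intro d hd c
    rw [map_mul, evalE, ← hLag d hd c, mul_assoc, mul_comm _ (aeval (ρ c) b), hb c, mul_one]
  · -- integrality of `u d c`
    intro d hd c
    refine ⟨(W d).map g, (hWm d hd).map g, ?_⟩
    rw [eval₂_map, hfg]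
    exact hW d hd c
  · intro d hd c
    refine ⟨(W' d).map g, (hW'm d hd).map g, ?_⟩
    rw [eval₂_map, hfg]
    exact hW' d hd c
  · -- units of `R` have order `0`
    intro c hc hc' hc0
    obtain ⟨p, rfl⟩ := hc
    obtain ⟨q, hq⟩ := hc'
    have hpq : p * q = 1 := by
      apply IsFractionRing.injective k[X] (RatFunc k)
      rw [map_mul, hq, map_one]
      exact mul_inv_cancel₀ hc0
    have hpu : IsUnit p := IsUnit.of_mul_eq_one q hpq
    obtain ⟨r, hr, rfl⟩ := Polynomial.isUnit_iff.mp hpu
    rw [halg, hψ, hφdef, evalJ_C]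
    exact HahnSeries.order_C

end Main

/-! ### Descent of irreducibility along a field extension of the constants -/

theorem irreducible_of_map_ratFunc {F K : Type*} [Field F] [Field K] (ι : F →+* K)
    (Φ₀ : F[X][X]) (hm : Φ₀.Monic)
    (h : Irreducible ((Φ₀.map (mapRingHom ι)).map (algebraMap K[X] (RatFunc K)))) :
    Irreducible (Φ₀.map (algebraMap F[X] (RatFunc F))) := by
  have hinj : Function.Injective ((algebraMap K[X] (RatFunc K)).comp (mapRingHom ι)) :=
    (IsFractionRing.injective K[X] (RatFunc K)).comp (map_injective ι ι.injective)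
  let θ : RatFunc F →+* RatFunc K := IsFractionRing.lift hinj
  have hθ : θ.comp (algebraMap F[X] (RatFunc F)) =
      (algebraMap K[X] (RatFunc K)).comp (mapRingHom ι) :=
    RingHom.ext fun a => IsFractionRing.lift_algebraMap hinj a
  apply Monic.irreducible_of_irreducible_map θ _ (hm.map _)
  rw [Polynomial.map_map, hθ, ← Polynomial.map_map]
  exact h

end Fermat.Agent.S28.IrredSeries
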