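import Mathlib
import Fermat.Prelude.Thm_ModularCurve_coeff_jqModC_neg_one
import Fermat.Prelude.Def_ModularCurve_LaurentCoeff
import Fermat.Agent.S28.Defs
import Fermat.Agent.S28.IrredSeries

/-!
# S28: a `ConjSystem` over a field gives the irreducibility of its modular polynomial

Bridge between the interface `Defs.ConjSystem` and `IrredSeries.irreducible_of_units_series`.
-/

set_option autoImplicit false

namespace Fermat.Agent.S28.CoreField

open Polynomial Fermat.Agent.S28.Defs Fermat.Agent.S28.IrredSeries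

variable {k : Type} [Field k] {N : ℕ} [NeZero N]

theorem coeff_jt_neg (k : Type) [Field k] (N : ℕ) [NeZero N] : (jt k N).coeff (-(N : ℤ)) = 1 := by
  have h := ModularCurve.qExpand_coeff_mul (R := k) N (ModularCurve.jqModC k) (-1)
  rw [ModularCurve.coeff_jqModC_neg_one] at h
  rw [← h, jt]
  congr 1
  ring

theorem order_jt_neg (k : Type) [Field k] (N : ℕ) [NeZero N] : (jt k N).order < 0 := by
  have h1 : (jt k N).order ≤ -(N : ℤ) :=
    HahnSeries.order_le_of_coeff_ne_zero (by rw [coeff_jt_neg]; exact one_ne_zero)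
  have hN : (0 : ℤ) < N := by exact_mod_cast Nat.pos_of_ne_zero (NeZero.ne N)
  omega

theorem evalJt_eq_evalJ (k : Type) [Field k] (N : ℕ) [NeZero N] :
    evalJt k N = evalJ (jt k N) := by
  apply Polynomial.ringHom_ext
  · intro a
    rw [evalJ_C]
    show (Polynomial.aeval (jt k N)) (C a) = _
    rw [aeval_C, ModularCurve.algebraMap_laurentSeries_eq_single]
    rfl
  · rw [evalJ_X]
    show (Polynomial.aeval (jt k N)) X = _
    rw [aeval_X]

/-- order of a nonzero series from its vanishing low coefficients and a nonzero coefficient -/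
theorem order_eq_of_coeff {x : LaurentSeries k} {n : ℤ} (hlow : ∀ i < n, x.coeff i = 0)
    (hn : x.coeff n ≠ 0) : x.order = n := by
  apply le_antisymm (HahnSeries.order_le_of_coeff_ne_zero hn)
  by_contra hlt
  push Not at hlt
  have hx0 : x ≠ 0 := by
    rintro rfl
    simp at hn
  exact (HahnSeries.coeff_order_eq_zero.not.mpr hx0) (hlow _ hlt)

section Bridge

variable {I : Type} [Fintype I] [DecidableEq I] (S : ConjSystem k N I)

theorem lc_ne_zero (s : I) : S.lc s ≠ 0 := by
  intro h
  have := S.hlc s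
  rw [h, zero_pow (NeZero.ne N)] at this
  exact zero_ne_one this

theorem x_injective : Function.Injective S.x := by
  have key : ∀ s s' : I, S.x s = S.x s' → S.m s ≤ S.m s' := by
    intro s s' h
    by_contra hlt
    push Not at hlt
    have h1 : (S.x s').coeff (-(S.m s : ℤ)) = 0 := S.hx_low s' _ (by omega)
    rw [← h, S.hx_lc] at h1
    exact lc_ne_zero S s h1
  intro s s' h
  have hm : S.m s = S.m s' := le_antisymm (key s s' h) (key s' s h.symm)
  apply S.hinj s s' hm
  rw [← S.hx_lc s, ← S.hx_lc s', h, hm]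

theorem u_ne_zero {d : ℕ} (hd : d ∈ N.divisors) (s : I) : S.u d s ≠ 0 := by
  intro h
  have := S.huv d hd s
  rw [h, zero_mul] at this
  exact zero_ne_one this

theorem v_eq_inv {d : ℕ} (hd : d ∈ N.divisors) (s : I) : S.v d s = (S.u d s)⁻¹ :=
  eq_inv_of_mul_eq_one_right (S.huv d hd s)

theorem order_u {d : ℕ} (hd : d ∈ N.divisors) (s : I) :
    (S.u d s).order = ordU N d (S.κ s) :=
  order_eq_of_coeff (S.hu_low d hd s) (S.hu_lc d hd s).ne_zero

/-- evaluation of the Lagrange numerator at a root -/
theorem eval_lagrange (y : I → LaurentSeries k) (c : I) :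
    (∑ s : I, C (y s) * ∏ s' ∈ Finset.univ.erase s, (X - C (S.x s'))).eval (S.x c) =
      y c * ∏ s' ∈ Finset.univ.erase c, (S.x c - S.x s') := by
  rw [eval_finsetSum, Finset.sum_eq_single c]
  · rw [eval_mul, eval_C, eval_prod]
    congr 1
    exact Finset.prod_congr rfl fun s' _ => by rw [eval_sub, eval_X, eval_C]
  · intro s _ hsc
    rw [eval_mul, eval_prod]
    have hc : c ∈ Finset.univ.erase s := Finset.mem_erase.mpr ⟨Ne.symm hsc, Finset.mem_univ c⟩
    rw [Finset.prod_eq_zero hc (by rw [eval_sub, eval_X, eval_C, sub_self]), mul_zero]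
  · intro h
    exact absurd (Finset.mem_univ c) h

/-- the derivative of the split polynomial at a root -/
theorem eval_derivative_prod (c : I) :
    (derivative (∏ s : I, (X - C (S.x s)))).eval (S.x c) =
      ∏ s' ∈ Finset.univ.erase c, (S.x c - S.x s') := by
  rw [derivative_prod_finset]
  have h := eval_lagrange S (fun _ => 1) c
  simp only [map_one, one_mul] at h
  simp only [derivative_sub, derivative_X, derivative_C, sub_zero, mul_one]
  exact h

/-- **The modular polynomial of a `ConjSystem` over a field is irreducible over `k(J)`.** -/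
theorem irreducible_of_conjSystem :
    Irreducible (S.Φ.map (algebraMap k[X] (RatFunc k))) := by
  have hev := evalJt_eq_evalJ k N
  have hΦ : S.Φ.map (evalJ (jt k N)) = ∏ c : I, (X - C (S.x c)) := by rw [← hev]; exact S.hΦ
  refine irreducible_of_units_series N (NeZero.ne N) S.κ S.hκ S.s0 S.hκ0 (jt k N) (order_jt_neg k N)
    S.x (x_injective S) S.Φ hΦ S.u (fun d hd c => u_ne_zero S hd c) S.L ?_ S.W S.W'
    S.hW_monic S.hW'_monic ?_ ?_ (fun d hd c => order_u S hd c)
  · intro d hd c
    rw [← eval_map, ← eval_map, ← derivative_map, hΦ, eval_derivative_prod, ← hev, S.hL d hd,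
      eval_lagrange]
  · intro d hd c
    rw [← eval_map, ← hev]
    exact S.hW d hd c
  · intro d hd c
    rw [← eval_map, ← hev, ← v_eq_inv S hd c]
    exact S.hW' d hd c

/-- **Linear independence of `1, j_N, …, j_N^{deg Φ - 1}` over `k[J]`** (in the variable `t`). -/
theorem eq_zero_of_eval₂_jNt (h : k[X][X]) (hdeg : h.natDegree < S.Φ.natDegree)
    (h0 : h.eval₂ (evalJt k N) (jNt k N) = 0) : h = 0 := by
  have hirr := irreducible_of_conjSystem S
  have hΦ : S.Φ.map (evalJ (jt k N)) = ∏ c : I, (X - C (S.x c)) := by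
    rw [← evalJt_eq_evalJ]; exact S.hΦ
  rw [evalJt_eq_evalJ] at h0
  set φ := evalJ (jt k N) with hφdef
  have hφ : Function.Injective φ := evalJ_injective (order_jt_neg k N)
  obtain ⟨ψ, hψ⟩ : ∃ ψ : RatFunc k →+* LaurentSeries k,
      ∀ a, ψ (algebraMap k[X] (RatFunc k) a) = φ a :=
    ⟨IsFractionRing.lift hφ, IsFractionRing.lift_algebraMap hφ⟩
  have hψcomp : ψ.comp (algebraMap k[X] (RatFunc k)) = φ := RingHom.ext hψ
  have hroot : ∀ P : k[X][X], (P.map (algebraMap k[X] (RatFunc k))).eval₂ ψ (jNt k N) =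
      P.eval₂ φ (jNt k N) := by
    intro P
    rw [eval₂_map, hψcomp]
  have hΦroot : S.Φ.eval₂ φ (jNt k N) = 0 := by
    rw [← eval_map, hΦ, eval_prod, ← S.hx0]
    exact Finset.prod_eq_zero (Finset.mem_univ S.s0) (by rw [eval_sub, eval_X, eval_C, sub_self])
  have hinj : Function.Injective (algebraMap k[X] (RatFunc k)) :=
    IsFractionRing.injective k[X] (RatFunc k)
  rcases hirr.isCoprime_or_dvd (h.map (algebraMap k[X] (RatFunc k))) with hcop | hdvd
  · exfalso
    obtain ⟨a, b, hab⟩ := hcop
    have h3 : (a * S.Φ.map (algebraMap k[X] (RatFunc k)) +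
        b * h.map (algebraMap k[X] (RatFunc k))).eval₂ ψ (jNt k N) = 0 := by
      rw [eval₂_add, eval₂_mul, eval₂_mul, hroot, hroot, hΦroot, h0, mul_zero, mul_zero, add_zero]
    rw [hab, eval₂_one] at h3
    exact one_ne_zero h3
  · by_contra hne
    have hne' : h.map (algebraMap k[X] (RatFunc k)) ≠ 0 := by
      rwa [Ne, Polynomial.map_eq_zero_iff hinj]
    have h1 := natDegree_le_of_dvd hdvd hne'
    rw [S.hΦ_monic.natDegree_map] at h1
    have h2 : (h.map (algebraMap k[X] (RatFunc k))).natDegree ≤ h.natDegree := natDegree_map_le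
    omega

end Bridge

end Fermat.Agent.S28.CoreField
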