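import Mathlib
import Fermat.Agent.S28.Defs
import Fermat.Agent.S28.MapSys
import Fermat.Agent.S28.CoeffRing
import Fermat.Agent.S28.CoreField
import Fermat.Agent.S20.Psi
import Fermat.Agent.S20.Basis

/-!
# S28 (Core): from a `ConjSystem` over `AInt ℓ` to the two facts `Export` consumes

* `exists_PhiA` (C2): the modular polynomial over `AInt ℓ`, monic of degree `ψ(N)`, killing
  `(j(t^N), j(t^{N²}))`;
* `core_indep_t` (C1): over the residue field `kRes ℓ`, the powers `1, j_N, …, j_N^{ψ(N)-1}` are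
  linearly independent over `k[j]` inside `k((t))`.
-/

set_option autoImplicit false

namespace Fermat.Agent.S28.Core

open Polynomial ModularCurve Fermat.Agent.S28.Defs Fermat.Agent.S28.CoeffRing Fermat.Agent.S20
open scoped MatrixGroups

noncomputable section

section general

variable {R : Type} [CommRing R] [Nontrivial R] {N : ℕ} [NeZero N] {I : Type} [Fintype I]
  [DecidableEq I]

theorem natDegree_Φ (S : ConjSystem R N I) : S.Φ.natDegree = Fintype.card I := by
  have h1 : (S.Φ.map (evalJt R N)).natDegree = S.Φ.natDegree :=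
    S.hΦ_monic.natDegree_map _
  rw [← h1, S.hΦ, natDegree_prod_of_monic _ _ (fun s _ => monic_X_sub_C _)]
  simp

theorem eval₂_Φ (S : ConjSystem R N I) : S.Φ.eval₂ (evalJt R N) (jNt R N) = 0 := by
  rw [← Polynomial.eval_map, S.hΦ, ← S.hx0, Polynomial.eval_prod]
  exact Finset.prod_eq_zero (Finset.mem_univ S.s0) (by simp)

end general

theorem card_Q (N : ℕ) [NeZero N] : Fintype.card (Q N) = dedekindPsi N := by
  rw [← Nat.card_eq_fintype_card]
  exact card_quotient_Gamma0 N

variable (N : ℕ) [NeZero N] (ℓ : ℕ) [Fact ℓ.Prime]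

/-- **(C2)** the modular polynomial over `A`. -/
theorem exists_PhiA (S : ConjSystem ↥(AInt ℓ) N (Q N)) :
    ∃ Φ : (↥(AInt ℓ))[X][X], Φ.Monic ∧ Φ.natDegree = dedekindPsi N ∧
      Φ.eval₂ (evalJt ↥(AInt ℓ) N) (jNt ↥(AInt ℓ) N) = 0 :=
  ⟨S.Φ, S.hΦ_monic, (natDegree_Φ S).trans (card_Q N), eval₂_Φ S⟩

/-- **(C1)** independence of the powers of `j_N` over `k[j]` in `k((t))`, `k` the residue field. -/
theorem core_indep_t (hℓN : ¬ ℓ ∣ N) (S : ConjSystem ↥(AInt ℓ) N (Q N)) :
    ∀ g : (kRes ℓ)[X][X], g.natDegree < dedekindPsi N →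
      g.eval₂ (evalJt (kRes ℓ) N) (jNt (kRes ℓ) N) = 0 → g = 0 := by
  intro g hg h0
  have S' : ConjSystem (kRes ℓ) N (Q N) :=
    MapSys.map (red ℓ) S (fun ζ ζ' hζ hζ' h => red_injOn_roots ℓ hℓN hζ hζ' h)
  refine CoreField.eq_zero_of_eval₂_jNt S' g ?_ h0
  rw [natDegree_Φ S', card_Q]
  exact hg

end

end Fermat.Agent.S28.Core
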