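/-
S28, hedge of the (E2)-part of Export: the independence statement over `k[X]` in the variable
`t = q^{1/N}` (output (C1) of Core) descends to the independence statement over `𝔽_ℓ[X]` in the
variable `q` (input (E2) of ChartRedInst), through the injective ring hom
`𝔽_ℓ((q)) → k((t))`, `q ↦ t^N`, coefficients through `𝔽_ℓ → k`.
Mathlib + Prelude + S28/Defs + S28/CoeffRing only.
-/
import Mathlib
import Fermat.Prelude.Def_ModularCurve_X0ModL
import Fermat.Agent.S28.Defs
import Fermat.Agent.S28.CoeffRing

set_option autoImplicit false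

open Polynomial ModularCurve

noncomputable section

namespace Fermat.Agent.S28.ExportE2

open Fermat.Agent.S28.Defs

variable {k₀ k : Type} [Field k₀] [Field k] (ι : k₀ →+* k) (N : ℕ) [NeZero N]

/-- the transfer map `k₀((q)) → k((t))`, `q ↦ t^N`. -/
def transfer : LaurentSeries k₀ →+* LaurentSeries k :=
  (qExpand k N).comp (coeffMap ι)

theorem transfer_injective : Function.Injective (transfer ι N) := by
  intro x y h
  have h1 : coeffMap ι x = coeffMap ι y := qExpand_injective N h
  ext n
  have := congrArg (fun z : LaurentSeries k => z.coeff n) h1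
  simp only [coeffMap_coeff] at this
  exact ι.injective this

theorem transfer_jq : transfer ι N (jqModC k₀) = jt k N := by
  show qExpand k N (coeffMap ι (jqModC k₀)) = qExpand k N (jqModC k)
  rw [coeffMap_jqModC]

theorem transfer_jqN : transfer ι N (jqNModC k₀ N) = jNt k N := by
  show qExpand k N (coeffMap ι (jqNModC k₀ N)) = qExpand k (N * N) (jqModC k)
  rw [coeffMap_jqNModC, jqNModC, qExpand_qExpand]

theorem transfer_aeval (p : k₀[X]) :
    transfer ι N (aeval (jqModC k₀) p) = evalJt k N (p.map ι) := by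
  induction p using Polynomial.induction_on' with
  | add p q hp hq => simp only [map_add, Polynomial.map_add, hp, hq]
  | monomial n c =>
    have h1 : aeval (jqModC k₀) (monomial n c) =
        algebraMap k₀ (LaurentSeries k₀) c * (jqModC k₀) ^ n := by
      rw [aeval_monomial]
    have h2 : evalJt k N ((monomial n c).map ι) =
        algebraMap k (LaurentSeries k) (ι c) * (jt k N) ^ n := by
      rw [Polynomial.map_monomial, evalJt]
      show aeval (jt k N) (monomial n (ι c)) = _
      rw [aeval_monomial]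
    rw [h1, h2, map_mul, map_pow, transfer_jq]
    congr 1
    show qExpand k N (coeffMap ι (algebraMap k₀ (LaurentSeries k₀) c)) = _
    rw [algebraMap_laurentSeries_eq_single, coeffMap_single, qExpand_single, mul_zero,
      algebraMap_laurentSeries_eq_single]

include ι in
/-- **(C1) ⟹ (E2)**, general form. -/
theorem indep_q_of_indep_t (n : ℕ)
    (hC1 : ∀ g : k[X][X], g.natDegree < n →
      g.eval₂ (evalJt k N) (jNt k N) = 0 → g = 0)
    (a : Fin n → k₀[X])
    (ha : ∑ i, aeval (jqModC k₀) (a i) * (jqNModC k₀ N) ^ (i : ℕ) = 0) :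
    ∀ i, a i = 0 := by
  classical
  intro i
  have hpos : 0 < n := lt_of_le_of_lt (Nat.zero_le _) i.2
  set g : k[X][X] := ∑ i : Fin n, C ((a i).map ι) * X ^ (i : ℕ) with hg
  have hdeg : g.natDegree < n := by
    refine lt_of_le_of_lt
      (Polynomial.natDegree_sum_le_of_forall_le (n := n - 1) _ _ ?_) (by omega)
    intro j _
    refine (Polynomial.natDegree_C_mul_X_pow_le _ _).trans ?_
    have := j.2
    omega
  have heval : g.eval₂ (evalJt k N) (jNt k N) = 0 := by
    have h := congrArg (transfer ι N) ha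
    rw [map_sum, map_zero] at h
    rw [hg, Polynomial.eval₂_finsetSum, ← h]
    refine Finset.sum_congr rfl fun i _ => ?_
    rw [Polynomial.eval₂_mul, Polynomial.eval₂_C, Polynomial.eval₂_pow, Polynomial.eval₂_X, map_mul,
      map_pow, transfer_aeval, transfer_jqN]
  have hg0 := hC1 g hdeg heval
  have hcoeff : g.coeff (i : ℕ) = (a i).map ι := by
    rw [hg, Polynomial.finsetSum_coeff]
    rw [Finset.sum_eq_single i]
    · rw [Polynomial.coeff_C_mul, Polynomial.coeff_X_pow, if_pos rfl, mul_one]
    · intro j _ hji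
      rw [Polynomial.coeff_C_mul, Polynomial.coeff_X_pow, if_neg, mul_zero]
      exact fun h => hji (Fin.ext h.symm)
    · intro h; exact absurd (Finset.mem_univ i) h
  rw [hg0, Polynomial.coeff_zero] at hcoeff
  exact (Polynomial.map_eq_zero_iff ι.injective).mp hcoeff.symm

include ι in
/-- polynomial form: a polynomial `h ∈ k₀[X][Y]` of `Y`-degree `< n` vanishing at `(j, j_N)` is `0`. -/
theorem poly_indep_q_of_indep_t (n : ℕ)
    (hC1 : ∀ g : k[X][X], g.natDegree < n →
      g.eval₂ (evalJt k N) (jNt k N) = 0 → g = 0)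
    (h : k₀[X][X]) (hdeg : h.natDegree < n)
    (hroot : h.eval₂ (aeval (jqModC k₀) : k₀[X] →ₐ[k₀] LaurentSeries k₀).toRingHom
      (jqNModC k₀ N) = 0) : h = 0 := by
  have h1 : (h.map (Polynomial.mapRingHom ι)).eval₂ (evalJt k N) (jNt k N) = 0 := by
    rw [Polynomial.eval₂_map]
    have h2 := congrArg (transfer ι N) hroot
    rw [map_zero, Polynomial.hom_eval₂] at h2
    rw [← h2, transfer_jqN]
    congr 1
    ext p
    · simp only [RingHom.coe_comp, Function.comp_apply, Polynomial.coe_mapRingHom]
      exact (transfer_aeval ι N (C p)).symm ▸ rfl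
    · simp only [RingHom.coe_comp, Function.comp_apply, Polynomial.coe_mapRingHom]
      exact (transfer_aeval ι N X).symm ▸ rfl
  have h3 : (h.map (Polynomial.mapRingHom ι)).natDegree < n :=
    lt_of_le_of_lt (Polynomial.natDegree_map_le) hdeg
  have h4 := hC1 _ h3 h1
  exact (Polynomial.map_eq_zero_iff
    (Polynomial.map_injective ι ι.injective)).mp h4

/-! ### Specialisation to `k = kRes ℓ`, `k₀ = 𝔽_ℓ` -/

open Fermat.Agent.S28.CoeffRing

/-- **(E2)** in the shape consumed by ChartRedInst, from **(C1)** of Core. -/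
theorem E2_of_C1 (ℓ : ℕ) [Fact ℓ.Prime] (n : ℕ)
    (hC1 : ∀ g : (kRes ℓ)[X][X], g.natDegree < n →
      g.eval₂ (evalJt (kRes ℓ) N) (jNt (kRes ℓ) N) = 0 → g = 0) :
    ∀ a : Fin n → (ZMod ℓ)[X],
      ∑ i, aeval (jqModC (ZMod ℓ)) (a i) * (jqNModC (ZMod ℓ) N) ^ (i : ℕ) = 0 → ∀ i, a i = 0 :=
  fun a ha => indep_q_of_indep_t (ZMod.castHom (dvd_refl ℓ) (kRes ℓ)) N n hC1 a ha

end Fermat.Agent.S28.ExportE2
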