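import Mathlib
import Fermat.Agent.S28.Core
import Fermat.Agent.S28.ConjU
import Fermat.Agent.S28.ExportE2

/-!
# S28: the char-`ℓ` core, unconditionally

For `ℓ ∤ N`:
* `C1` : `1, j_N, …, j_N^{ψ(N)-1}` are independent over `k[j]` in `k((t))`, `k = kRes ℓ`;
* `C2` : the modular polynomial over `AInt ℓ`;
* `E2` : `1, j̄_N, …, j̄_N^{ψ(N)-1}` are independent over `𝔽_ℓ[j̄]` in `𝔽_ℓ((q))`
  (Prelude names `jqModC`, `jqNModC`) — i.e. `Φ_N mod ℓ` is irreducible over `𝔽_ℓ(j)`.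
-/

set_option autoImplicit false

namespace Fermat.Agent.S28.CoreFinal

open Polynomial ModularCurve Fermat.Agent.S28.Defs Fermat.Agent.S28.CoeffRing

variable (N : ℕ) [NeZero N] (ℓ : ℕ) [Fact ℓ.Prime]

theorem C1 (hℓN : ¬ ℓ ∣ N) :
    ∀ g : (kRes ℓ)[X][X], g.natDegree < dedekindPsi N →
      g.eval₂ (evalJt (kRes ℓ) N) (jNt (kRes ℓ) N) = 0 → g = 0 :=
  Core.core_indep_t N ℓ hℓN (ConjU.conjSystem N ℓ hℓN)

theorem C2 (hℓN : ¬ ℓ ∣ N) :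
    ∃ Φ : (↥(AInt ℓ))[X][X], Φ.Monic ∧ Φ.natDegree = dedekindPsi N ∧
      Φ.eval₂ (evalJt ↥(AInt ℓ) N) (jNt ↥(AInt ℓ) N) = 0 :=
  Core.exists_PhiA N ℓ (ConjU.conjSystem N ℓ hℓN)

theorem E2 (hℓN : ¬ ℓ ∣ N) :
    ∀ a : Fin (dedekindPsi N) → (ZMod ℓ)[X],
      ∑ i, aeval (jqModC (ZMod ℓ)) (a i) * (jqNModC (ZMod ℓ) N) ^ (i : ℕ) = 0 → ∀ i, a i = 0 :=
  ExportE2.E2_of_C1 N ℓ (dedekindPsi N) (C1 N ℓ hℓN)

end Fermat.Agent.S28.CoreFinal
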