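import Mathlib
import Fermat.Prelude.Def_ModularCurve_X0
import Fermat.Prelude.Def_ModularCurve_JqCoeff
import Fermat.Prelude.Def_ModularCurve_LaurentCoeff
import Fermat.Prelude.Def_ModularCurve_X0ModL
import Fermat.Agent.S28.Defs
import Fermat.Agent.S28.CoeffRing
import Fermat.Agent.S28.ZlBasics

/-!
# S28 (A7/C3): export of the modular polynomial

* `indep_transfer`: linear independence of the powers of `j(q^N)` over polynomials in `j(q)`
  transfers from the `t`-variable (`t = q^(1/N)`) over a big field to the `q`-variable over a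
  subfield.
* `exists_rat_poly`: a monic polynomial relation between `j(q)` and `j(q^N)` over a field of
  characteristic zero has rational coefficients, as soon as the powers of `j(q^N)` are
  independent modulo a prime `l`.
* `export_of_core`: the interface core (C1), (C2) -> chart reduction (E1), (E2).
-/

set_option autoImplicit false

namespace Fermat.Agent.S28.Export

open ModularCurve Polynomial

noncomputable section

/-! ### evaluation of two-variable polynomials at `(j(q), j(q^N))` -/

section Ev2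

variable (R : Type*) [CommRing R] (N : ℕ) [NeZero N]

/-- evaluation `R[X] → R((q))`, `X ↦ j(q)` -/
def ev1 : Polynomial R →+* LaurentSeries R :=
  Polynomial.eval₂RingHom (HahnSeries.C : R →+* LaurentSeries R) (jqModC R)

/-- evaluation `R[X][Y] → R((q))`, `X ↦ j(q)`, `Y ↦ j(q^N)` -/
def ev2 : Polynomial (Polynomial R) →+* LaurentSeries R :=
  Polynomial.eval₂RingHom (ev1 R) (jqNModC R N)

@[simp] lemma ev1_C (r : R) : ev1 R (C r) = HahnSeries.C r := by simp [ev1]

@[simp] lemma ev1_X : ev1 R X = jqModC R := by simp [ev1]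

@[simp] lemma ev2_C (p : Polynomial R) : ev2 R N (C p) = ev1 R p := by simp [ev2]

@[simp] lemma ev2_X : ev2 R N X = jqNModC R N := by simp [ev2]

lemma algebraMap_eq_C (r : R) : algebraMap R (LaurentSeries R) r = HahnSeries.C r := by
  have h1 : algebraMap R (PowerSeries R) r = PowerSeries.C r := by simp
  rw [HahnSeries.algebraMap_apply', h1, HahnSeries.ofPowerSeries_C]

lemma ev1_eq_aeval (p : Polynomial R) : ev1 R p = Polynomial.aeval (jqModC R) p := by
  rw [ev1, Polynomial.coe_eval₂RingHom, Polynomial.aeval_def]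
  congr 1
  ext r : 1
  exact (algebraMap_eq_C R r).symm

lemma ev2_apply (G : Polynomial (Polynomial R)) :
    ev2 R N G = G.eval₂ (ev1 R) (jqNModC R N) := rfl

variable {R}

/-- naturality of `ev1` -/
lemma coeffMap_ev1 {S : Type*} [CommRing S] (f : R →+* S) (p : Polynomial R) :
    coeffMap f (ev1 R p) = ev1 S (p.map f) := by
  have h : (coeffMap f).comp (ev1 R) = (ev1 S).comp (Polynomial.mapRingHom f) := by
    refine Polynomial.ringHom_ext (fun r => ?_) ?_
    · simp [HahnSeries.C_apply]
    · simp [coeffMap_jqModC]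
  exact congrFun (congrArg DFunLike.coe h) p

/-- naturality of `ev2` -/
lemma coeffMap_ev2 {S : Type*} [CommRing S] (f : R →+* S) (G : Polynomial (Polynomial R)) :
    coeffMap f (ev2 R N G) = ev2 S N (G.map (Polynomial.mapRingHom f)) := by
  have h : (coeffMap f).comp (ev2 R N) =
      (ev2 S N).comp (Polynomial.mapRingHom (Polynomial.mapRingHom f)) := by
    refine Polynomial.ringHom_ext (fun p => ?_) ?_
    · simp [coeffMap_ev1]
    · simp [coeffMap_jqNModC]
  exact congrFun (congrArg DFunLike.coe h) G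

end Ev2

/-! ### transfer of independence from the `t`-variable to the `q`-variable -/

section Transfer

variable {k K : Type*} [Field k] [Field K] (f : k →+* K) (N : ℕ) [NeZero N]

lemma coeffMap_injective {R S : Type*} [CommRing R] [CommRing S] (g : R →+* S)
    (hg : Function.Injective g) : Function.Injective (coeffMap g) := by
  intro x y h
  ext m
  have := congrArg (fun s => s.coeff m) h
  simp only [coeffMap_coeff] at this
  exact hg this

/-- the substitution `k((q)) → K((t))`, `q ↦ t ^ N` -/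
def subst : LaurentSeries k →+* LaurentSeries K := (qExpand K N).comp (coeffMap f)

lemma subst_injective : Function.Injective (subst f N) :=
  (qExpand_injective N).comp (coeffMap_injective f f.injective)

lemma subst_jqNModC : subst f N (jqNModC k N) = qExpand K (N * N) (jqModC K) := by
  rw [subst, RingHom.comp_apply, coeffMap_jqNModC, jqNModC, qExpand_qExpand]

include f in
/-- **Transfer.** If `1, θ, …, θ^(n-1)` (`θ = j(t^(N²))`) are independent over `K[j(t^N)]` inside
`K((t))`, then `1, j(q^N), …` are independent over `k[j(q)]` inside `k((q))`. The evaluation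
`e : K[X] → K((t))`, `X ↦ j(t^N)`, is given abstractly. -/
theorem indep_transfer (n : ℕ) (e : Polynomial K →+* LaurentSeries K)
    (heC : ∀ r, e (C r) = HahnSeries.C r) (heX : e X = qExpand K N (jqModC K))
    (h : ∀ a : Fin n → Polynomial K,
      (∑ i, e (a i) * (qExpand K (N * N) (jqModC K)) ^ (i : ℕ) = 0) → ∀ i, a i = 0) :
    ∀ a : Fin n → Polynomial k,
      (∑ i, ev1 k (a i) * (jqNModC k N) ^ (i : ℕ) = 0) → ∀ i, a i = 0 := by
  intro a ha i
  have hcomp : (subst f N).comp (ev1 k) = e.comp (Polynomial.mapRingHom f) := by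
    refine Polynomial.ringHom_ext (fun r => ?_) ?_
    · simp [subst, heC, HahnSeries.C_apply]
    · simp [subst, heX, coeffMap_jqModC]
  have h1 : ∀ p : Polynomial k, subst f N (ev1 k p) = e (p.map f) := fun p =>
    congrFun (congrArg DFunLike.coe hcomp) p
  have h2 := congrArg (subst f N) ha
  rw [map_sum, map_zero] at h2
  simp only [map_mul, map_pow, h1, subst_jqNModC] at h2
  have h3 := h (fun i => (a i).map f) h2 i
  exact Polynomial.map_injective f f.injective (by simpa using h3)

end Transfer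

/-! ### applying an additive map to the coefficients of a polynomial -/

section MapAdd

variable {A B : Type*} [Semiring A] [Semiring B]

/-- apply an additive map to all coefficients -/
def mapAdd (φ : A →+ B) : Polynomial A →+ Polynomial B where
  toFun p := ∑ a ∈ p.support, monomial a (φ (p.coeff a))
  map_zero' := by simp
  map_add' p q := by
    have key : ∀ r : Polynomial A, ∀ a,
        (∑ a' ∈ r.support, monomial a' (φ (r.coeff a'))).coeff a = φ (r.coeff a) := by
      intro r a
      rw [finsetSum_coeff]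
      simp only [coeff_monomial]
      rw [Finset.sum_ite_eq']
      split_ifs with h
      · rfl
      · rw [Polynomial.notMem_support_iff.mp h, map_zero]
    ext a
    rw [coeff_add, key, key, key, coeff_add, map_add]

lemma coeff_mapAdd (φ : A →+ B) (p : Polynomial A) (a : ℕ) :
    (mapAdd φ p).coeff a = φ (p.coeff a) := by
  show (∑ a' ∈ p.support, monomial a' (φ (p.coeff a'))).coeff a = φ (p.coeff a)
  rw [finsetSum_coeff]
  simp only [coeff_monomial]
  rw [Finset.sum_ite_eq']
  split_ifs with h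
  · rfl
  · rw [Polynomial.notMem_support_iff.mp h, map_zero]

lemma mapAdd_monomial (φ : A →+ B) (a : ℕ) (c : A) :
    mapAdd φ (monomial a c) = monomial a (φ c) := by
  ext b
  rw [coeff_mapAdd, coeff_monomial, coeff_monomial]
  split_ifs <;> simp

lemma mapAdd_one (φ : A →+ B) (h1 : φ 1 = 1) : mapAdd φ 1 = 1 := by
  have : (1 : Polynomial A) = monomial 0 1 := by simp
  rw [this, mapAdd_monomial, h1]; simp

end MapAdd

/-! ### independence modulo `l` and its consequences over `ℤ` and `ℚ` -/

section Indep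

variable (N : ℕ) [NeZero N] (l : ℕ) [Fact l.Prime] (n : ℕ)

/-- the powers `1, θ, …, θ^(n-1)` of `θ = j(q^N)` are independent over `𝔽_l[j(q)]` -/
def IndepMod : Prop :=
  ∀ a : Fin n → Polynomial (ZMod l),
    (∑ i, ev1 (ZMod l) (a i) * (jqNModC (ZMod l) N) ^ (i : ℕ) = 0) → ∀ i, a i = 0

variable {N l n}

lemma ev2_eq_sum {R : Type*} [CommRing R] {G : Polynomial (Polynomial R)}
    (hdeg : ∀ i, n ≤ i → G.coeff i = 0) :
    ev2 R N G = ∑ i : Fin n, ev1 R (G.coeff i) * (jqNModC R N) ^ (i : ℕ) := by
  by_cases hG : G = 0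
  · simp [hG]
  have hlt : G.natDegree < n := by
    by_contra h
    rw [not_lt] at h
    have := hdeg _ h
    rw [Polynomial.coeff_natDegree, Polynomial.leadingCoeff_eq_zero] at this
    exact hG this
  rw [ev2_apply, Polynomial.eval₂_eq_sum_range' _ hlt, Finset.sum_range]

/-- mod `l`: a relation of `Y`-degree `< n` vanishes -/
lemma eq_zero_of_indepMod (h : IndepMod N l n) {G : Polynomial (Polynomial (ZMod l))}
    (hdeg : ∀ i, n ≤ i → G.coeff i = 0) (hG : ev2 (ZMod l) N G = 0) : G = 0 := by
  rw [ev2_eq_sum hdeg] at hG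
  have h1 := h (fun i => G.coeff i) hG
  ext1 i
  by_cases hi : i < n
  · simpa using h1 ⟨i, hi⟩
  · simpa using hdeg i (not_lt.mp hi)

/-- over `ℤ`: a relation of `Y`-degree `< n` vanishes -/
lemma eq_zero_int (h : IndepMod N l n) {H : Polynomial (Polynomial ℤ)}
    (hdeg : ∀ i, n ≤ i → H.coeff i = 0) (hH : ev2 ℤ N H = 0) : H = 0 := by
  by_contra hne
  obtain ⟨i, hi⟩ : ∃ i, H.coeff i ≠ 0 := by
    by_contra hall
    rw [not_exists] at hall
    exact hne (Polynomial.ext fun i => by simpa using not_not.mp (hall i))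
  obtain ⟨a, ha⟩ : ∃ a, (H.coeff i).coeff a ≠ 0 := by
    by_contra hall
    rw [not_exists] at hall
    exact hi (Polynomial.ext fun a => by simpa using not_not.mp (hall a))
  have hl : (l : ℤ) ≠ 0 := by exact_mod_cast (Fact.out : l.Prime).ne_zero
  have hl2 : 2 ≤ l := (Fact.out : l.Prime).two_le
  -- strong induction on the absolute value of the chosen coefficient
  suffices key : ∀ m : ℕ, ∀ H : Polynomial (Polynomial ℤ), (∀ i, n ≤ i → H.coeff i = 0) →
      ev2 ℤ N H = 0 → ((H.coeff i).coeff a).natAbs = m → m ≠ 0 → False from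
    key _ H hdeg hH rfl (Int.natAbs_ne_zero.mpr ha)
  intro m
  induction m using Nat.strong_induction_on with
  | _ m ih =>
    intro H hdeg hH hm hm0
    set f : ℤ →+* ZMod l := Int.castRingHom (ZMod l) with hf
    have hbar : H.map (Polynomial.mapRingHom f) = 0 := by
      apply eq_zero_of_indepMod h
      · intro j hj
        rw [Polynomial.coeff_map, hdeg j hj, map_zero]
      · rw [← coeffMap_ev2, hH, map_zero]
    have hdvd : ∀ j b, (l : ℤ) ∣ (H.coeff j).coeff b := by
      intro j b
      have h1 := congrArg (fun G => (G.coeff j).coeff b) hbar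
      simp only [Polynomial.coeff_map, Polynomial.coe_mapRingHom, Polynomial.coeff_zero] at h1
      exact (ZMod.intCast_zmod_eq_zero_iff_dvd _ l).mp h1
    have hCC : C (C (l : ℤ)) ∣ H := by
      rw [Polynomial.C_dvd_iff_dvd_coeff]
      intro j
      rw [Polynomial.C_dvd_iff_dvd_coeff]
      exact hdvd j
    obtain ⟨H1, rfl⟩ := hCC
    have hc : ((C (C (l : ℤ)) * H1).coeff i).coeff a = l * (H1.coeff i).coeff a := by
      rw [Polynomial.coeff_C_mul, Polynomial.coeff_C_mul]
    rw [hc, Int.natAbs_mul, Int.natAbs_natCast] at hm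
    have h10 : ((H1.coeff i).coeff a).natAbs ≠ 0 := by
      intro h0
      rw [h0, mul_zero] at hm
      exact hm0 hm.symm
    refine ih _ ?_ H1 ?_ ?_ rfl h10
    · rw [← hm]
      calc ((H1.coeff i).coeff a).natAbs = 1 * ((H1.coeff i).coeff a).natAbs := (one_mul _).symm
        _ < l * ((H1.coeff i).coeff a).natAbs :=
          Nat.mul_lt_mul_of_pos_right (by omega) (Nat.pos_of_ne_zero h10)
    · intro j hj
      have := hdeg j hj
      rw [Polynomial.coeff_C_mul] at this
      exact (mul_eq_zero.mp this).resolve_left (by simpa using hl)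
    · rw [map_mul, ev2_C, ev1_C] at hH
      refine (mul_eq_zero.mp hH).resolve_left ?_
      intro h0
      have : (HahnSeries.C (l : ℤ) : LaurentSeries ℤ) = HahnSeries.C 0 := by rw [h0, map_zero]
      exact hl (HahnSeries.C_injective this)


/-- clearing denominators, one variable -/
lemma exists_int_mul_eq (p : Polynomial ℚ) :
    ∃ m : ℤ, m ≠ 0 ∧ ∃ h : Polynomial ℤ, h.map (Int.castRingHom ℚ) = C (m : ℚ) * p := by
  induction p using Polynomial.induction_on' with
  | add p q hp hq =>
    obtain ⟨m1, hm1, h1, e1⟩ := hp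
    obtain ⟨m2, hm2, h2, e2⟩ := hq
    refine ⟨m1 * m2, mul_ne_zero hm1 hm2, C m2 * h1 + C m1 * h2, ?_⟩
    have e : ∀ k : ℤ, (Int.castRingHom ℚ) k = (k : ℚ) := fun k => rfl
    rw [Polynomial.map_add, Polynomial.map_mul, Polynomial.map_mul, Polynomial.map_C,
      Polynomial.map_C, e1, e2, e, e, Int.cast_mul, C_mul]
    ring
  | monomial a r =>
    refine ⟨r.den, by exact_mod_cast r.den_ne_zero, monomial a r.num, ?_⟩
    rw [Polynomial.map_monomial, Polynomial.C_mul_monomial]
    congr 1
    simp [Rat.den_mul_eq_num]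

/-- clearing denominators, two variables -/
lemma exists_int_mul_eq₂ (G : Polynomial (Polynomial ℚ)) :
    ∃ m : ℤ, m ≠ 0 ∧ ∃ H : Polynomial (Polynomial ℤ),
      H.map (Polynomial.mapRingHom (Int.castRingHom ℚ)) = C (C (m : ℚ)) * G := by
  induction G using Polynomial.induction_on' with
  | add p q hp hq =>
    obtain ⟨m1, hm1, h1, e1⟩ := hp
    obtain ⟨m2, hm2, h2, e2⟩ := hq
    refine ⟨m1 * m2, mul_ne_zero hm1 hm2, C (C m2) * h1 + C (C m1) * h2, ?_⟩
    have e : ∀ k : ℤ, (Int.castRingHom ℚ) k = (k : ℚ) := fun k => rfl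
    rw [Polynomial.map_add, Polynomial.map_mul, Polynomial.map_mul, Polynomial.map_C,
      Polynomial.map_C, e1, e2, Polynomial.coe_mapRingHom, Polynomial.map_C, Polynomial.map_C,
      e, e, Int.cast_mul, C_mul, C_mul]
    ring
  | monomial b p =>
    obtain ⟨m, hm, h, e⟩ := exists_int_mul_eq p
    refine ⟨m, hm, monomial b h, ?_⟩
    rw [Polynomial.map_monomial, Polynomial.C_mul_monomial, Polynomial.coe_mapRingHom, e]

/-- over `ℚ`: a relation of `Y`-degree `< n` vanishes -/
lemma eq_zero_rat (h : IndepMod N l n) {G : Polynomial (Polynomial ℚ)}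
    (hdeg : ∀ i, n ≤ i → G.coeff i = 0) (hG : ev2 ℚ N G = 0) : G = 0 := by
  obtain ⟨m, hm, H, hH⟩ := exists_int_mul_eq₂ G
  have hmQ : (m : ℚ) ≠ 0 := by exact_mod_cast hm
  have hinj : Function.Injective (Int.castRingHom ℚ) := Int.cast_injective
  have hH0 : H = 0 := by
    apply eq_zero_int h
    · intro i hi
      have h1 := congrArg (fun P => P.coeff i) hH
      simp only [Polynomial.coeff_map, Polynomial.coeff_C_mul, hdeg i hi, mul_zero,
        Polynomial.coe_mapRingHom] at h1
      exact Polynomial.map_injective _ hinj (by simpa using h1)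
    · apply coeffMap_injective _ hinj
      rw [coeffMap_ev2, hH, map_mul, hG, mul_zero, map_zero]
  rw [hH0, Polynomial.map_zero] at hH
  refine (mul_eq_zero.mp hH.symm).resolve_left ?_
  rw [Polynomial.C_eq_zero, Polynomial.C_eq_zero]
  exact hmQ

end Indep

/-! ### rational functionals on a field of characteristic zero -/

section Functional

variable {L : Type*} [Field L] [CharZero L]

lemma exists_functional {c : L} (hc : c ≠ 0) : ∃ π : L →ₗ[ℚ] ℚ, π c = 1 := by
  have hker : LinearMap.ker (LinearMap.toSpanSingleton ℚ L c) = ⊥ :=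
    LinearMap.ker_toSpanSingleton ℚ hc
  obtain ⟨g, hg⟩ := LinearMap.exists_leftInverse_of_injective _ hker
  refine ⟨g, ?_⟩
  have := congrArg (fun φ => φ 1) hg
  simpa using this

/-- apply a rational functional to all coefficients of a two-variable polynomial -/
def pi2 (π : L →ₗ[ℚ] ℚ) : Polynomial (Polynomial L) →+ Polynomial (Polynomial ℚ) :=
  mapAdd (mapAdd π.toAddMonoidHom)

lemma coeff_pi2 (π : L →ₗ[ℚ] ℚ) (G : Polynomial (Polynomial L)) (i a : ℕ) :
    ((pi2 π G).coeff i).coeff a = π ((G.coeff i).coeff a) := by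
  simp [pi2, coeff_mapAdd]

lemma coeff_pi2' (π : L →ₗ[ℚ] ℚ) (G : Polynomial (Polynomial L)) (i : ℕ) :
    (pi2 π G).coeff i = mapAdd π.toAddMonoidHom (G.coeff i) := by
  simp [pi2, coeff_mapAdd]

lemma pi2_monomial (π : L →ₗ[ℚ] ℚ) (a b : ℕ) (g : L) :
    pi2 π (monomial b (monomial a g)) = monomial b (monomial a (π g)) := by
  simp [pi2, mapAdd_monomial]

variable (N : ℕ) [NeZero N]

/-- the key identity: functionals commute with evaluation at `(j, j_N)`, coefficientwise -/
lemma coeff_ev2_pi2 (π : L →ₗ[ℚ] ℚ) (G : Polynomial (Polynomial L)) (k : ℤ) :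
    (ev2 ℚ N (pi2 π G)).coeff k = π ((ev2 L N G).coeff k) := by
  induction G using Polynomial.induction_on' with
  | add p q hp hq =>
    rw [map_add, map_add, map_add, HahnSeries.coeff_add, HahnSeries.coeff_add, map_add, hp, hq]
  | monomial b p =>
    induction p using Polynomial.induction_on' with
    | add p q hp hq =>
      rw [map_add, map_add, map_add, map_add, HahnSeries.coeff_add, HahnSeries.coeff_add,
        map_add, hp, hq]
    | monomial a g =>
      rw [pi2_monomial]
      set s : LaurentSeries ℚ := (jqModC ℚ) ^ a * (jqNModC ℚ N) ^ b with hs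
      have h1 : ev2 ℚ N (monomial b (monomial a (π g))) = HahnSeries.C (π g) * s := by
        rw [ev2_apply, Polynomial.eval₂_monomial, ev1, Polynomial.coe_eval₂RingHom,
          Polynomial.eval₂_monomial, hs, mul_assoc]
      have h2 : ev2 L N (monomial b (monomial a g)) =
          HahnSeries.C g * coeffMap (algebraMap ℚ L) s := by
        rw [ev2_apply, Polynomial.eval₂_monomial, ev1, Polynomial.coe_eval₂RingHom,
          Polynomial.eval₂_monomial, hs, map_mul, map_pow, map_pow, coeffMap_jqModC,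
          coeffMap_jqNModC, mul_assoc]
      rw [h1, h2, HahnSeries.C_mul_eq_smul, HahnSeries.C_mul_eq_smul, HahnSeries.coeff_smul,
        HahnSeries.coeff_smul, coeffMap_coeff, smul_eq_mul, smul_eq_mul]
      have h3 : g * algebraMap ℚ L (s.coeff k) = (s.coeff k) • g := by
        rw [Algebra.smul_def, mul_comm]
      rw [h3, map_smul, smul_eq_mul, mul_comm]

end Functional

section Indep2

variable {N : ℕ} [NeZero N] {l : ℕ} [Fact l.Prime] {n : ℕ}


/-- over a field of characteristic zero: a relation of `Y`-degree `< n` vanishes -/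
lemma eq_zero_field {L : Type*} [Field L] [CharZero L] (h : IndepMod N l n)
    {G : Polynomial (Polynomial L)} (hdeg : ∀ i, n ≤ i → G.coeff i = 0)
    (hG : ev2 L N G = 0) : G = 0 := by
  by_contra hne
  obtain ⟨i, hi⟩ : ∃ i, G.coeff i ≠ 0 := by
    by_contra hall
    rw [not_exists] at hall
    exact hne (Polynomial.ext fun i => by simpa using not_not.mp (hall i))
  obtain ⟨a, ha⟩ : ∃ a, (G.coeff i).coeff a ≠ 0 := by
    by_contra hall
    rw [not_exists] at hall
    exact hi (Polynomial.ext fun a => by simpa using not_not.mp (hall a))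
  obtain ⟨π, hπ⟩ := exists_functional ha
  have h0 : pi2 π G = 0 := by
    apply eq_zero_rat h
    · intro j hj
      rw [coeff_pi2', hdeg j hj, map_zero]
    · ext k
      rw [coeff_ev2_pi2, hG, HahnSeries.coeff_zero, map_zero, HahnSeries.coeff_zero]
  have h1 := coeff_pi2 π G i a
  rw [h0, hπ] at h1
  simp at h1

/-- **Rationality.** A monic relation of `Y`-degree `n` between `j(q)` and `j(q^N)` over a field
of characteristic zero has rational coefficients. -/
theorem exists_rat_poly {L : Type*} [Field L] [CharZero L] (h : IndepMod N l n)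
    {Φ : Polynomial (Polynomial L)} (hmon : Φ.Monic) (hn : Φ.natDegree = n)
    (hΦ : ev2 L N Φ = 0) :
    ∃ Ψ : Polynomial (Polynomial ℚ),
      Ψ.map (Polynomial.mapRingHom (algebraMap ℚ L)) = Φ ∧ ev2 ℚ N Ψ = 0 := by
  obtain ⟨π, hπ⟩ := exists_functional (one_ne_zero : (1 : L) ≠ 0)
  have hΨ0 : ev2 ℚ N (pi2 π Φ) = 0 := by
    ext k
    rw [coeff_ev2_pi2, hΦ, HahnSeries.coeff_zero, map_zero, HahnSeries.coeff_zero]
  refine ⟨pi2 π Φ, ?_, hΨ0⟩
  have hG : Φ - (pi2 π Φ).map (Polynomial.mapRingHom (algebraMap ℚ L)) = 0 := by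
    apply eq_zero_field h
    · intro j hj
      rw [Polynomial.coeff_sub, Polynomial.coeff_map, coeff_pi2']
      rcases hj.lt_or_eq with hlt | rfl
      · rw [Polynomial.coeff_eq_zero_of_natDegree_lt (hn ▸ hlt), map_zero, map_zero, sub_zero]
      · have h1 : Φ.coeff Φ.natDegree = 1 := hmon
        rw [hn] at h1
        rw [h1, mapAdd_one _ (by simpa using hπ), map_one, sub_self]
    · rw [map_sub, hΦ, ← coeffMap_ev2, hΨ0, map_zero, sub_zero]
  exact (sub_eq_zero.mp hG).symm

end Indep2

/-! ### polynomial form versus family form of independence -/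

section Forms

variable {R T : Type*} [CommRing R] [CommRing T] (e : Polynomial R →+* T) (θ : T) (n : ℕ)

lemma family_of_poly
    (h : ∀ g : Polynomial (Polynomial R), g.natDegree < n → g.eval₂ e θ = 0 → g = 0) :
    ∀ a : Fin n → Polynomial R, (∑ i, e (a i) * θ ^ (i : ℕ) = 0) → ∀ i, a i = 0 := by
  intro a ha i
  set g : Polynomial (Polynomial R) := ∑ i : Fin n, C (a i) * X ^ (i : ℕ) with hg
  have hdeg : g.natDegree < n := by
    by_cases h0 : g = 0
    · rw [h0, Polynomial.natDegree_zero]; exact i.pos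
    · exact (Polynomial.natDegree_lt_iff_degree_lt h0).mpr (Polynomial.degree_sum_fin_lt a)
  have hev : g.eval₂ e θ = 0 := by
    rw [hg, Polynomial.eval₂_finsetSum, ← ha]
    refine Finset.sum_congr rfl fun i _ => ?_
    rw [Polynomial.eval₂_mul, Polynomial.eval₂_C, Polynomial.eval₂_pow, Polynomial.eval₂_X]
  have h0 := h g hdeg hev
  have hc : g.coeff i = a i := by
    rw [hg, Polynomial.finsetSum_coeff]
    simp only [Polynomial.coeff_C_mul, Polynomial.coeff_X_pow]
    rw [Finset.sum_eq_single i]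
    · simp
    · intro j _ hji
      rw [if_neg (fun h => hji (Fin.ext h.symm)), mul_zero]
    · intro h; exact absurd (Finset.mem_univ i) h
  rw [← hc, h0, Polynomial.coeff_zero]

end Forms

/-! ### the export -/

section Final

open Fermat.Agent.S28.Defs Fermat.Agent.S28.CoeffRing Fermat.Agent.S28.ZlBasics

variable (N : ℕ) [NeZero N]

lemma evalJt_C {R : Type} [CommRing R] (r : R) : evalJt R N (C r) = HahnSeries.C r := by
  simp [evalJt, algebraMap_eq_C]

lemma evalJt_X {R : Type} [CommRing R] : evalJt R N X = qExpand R N (jqModC R) := by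
  simp [evalJt, jt]

/-- passage between the `t`-variable and the `q`-variable -/
lemma qExpand_ev2 {R S : Type} [CommRing R] [CommRing S] (f : R →+* S)
    (G : Polynomial (Polynomial R)) :
    qExpand S N (ev2 S N (G.map (Polynomial.mapRingHom f))) =
      coeffMap f (G.eval₂ (evalJt R N) (jNt R N)) := by
  have h' : ((qExpand S N).comp (ev1 S)).comp (Polynomial.mapRingHom f) =
      (coeffMap f).comp (evalJt R N) := by
    refine Polynomial.ringHom_ext (fun r => ?_) ?_
    · simp [evalJt_C, HahnSeries.C_apply]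
    · simp [evalJt_X, coeffMap_qExpand, coeffMap_jqModC]
  have h : ((qExpand S N).comp (ev2 S N)).comp
        (Polynomial.mapRingHom (Polynomial.mapRingHom f)) =
      (coeffMap f).comp (Polynomial.eval₂RingHom (evalJt R N) (jNt R N)) := by
    refine Polynomial.ringHom_ext (fun p => ?_) ?_
    · simpa using congrFun (congrArg DFunLike.coe h') p
    · simp [jNt, jqNModC, qExpand_qExpand, coeffMap_qExpand, coeffMap_jqModC]
  exact congrFun (congrArg DFunLike.coe h) G

variable (l : ℕ) [Fact l.Prime] (n : ℕ)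

/-- **(E2) from (C1).** -/
theorem indepMod_of_core
    (hC1 : ∀ g : Polynomial (Polynomial (kRes l)), g.natDegree < n →
      g.eval₂ (evalJt (kRes l) N) (jNt (kRes l) N) = 0 → g = 0) : IndepMod N l n :=
  indep_transfer (ZMod.castHom (dvd_refl l) (kRes l)) N n (evalJt (kRes l) N)
    (evalJt_C N) (evalJt_X N) (family_of_poly _ _ n hC1)

variable {N l n}

/-- **Descent.** A monic relation over `AInt l` (in the `t`-variable) descends to `ℤ_(l)`. -/
theorem exists_Zl_poly (hInd : IndepMod N l n) {Φ : Polynomial (Polynomial ↥(AInt l))}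
    (hmon : Φ.Monic) (hn : Φ.natDegree = n)
    (hΦ : Φ.eval₂ (evalJt ↥(AInt l) N) (jNt ↥(AInt l) N) = 0) :
    ∃ Ψ : Polynomial (Polynomial (Zl l)), Ψ.Monic ∧ Ψ.natDegree = n ∧
      ev2 ℚ N (Ψ.map (Polynomial.mapRingHom (GaloisRep.ratLocalizedAt l).subtype)) = 0 ∧
      Ψ.map (Polynomial.mapRingHom (ofZl l)) = Φ := by
  set ιA : ↥(AInt l) →+* ℂ := (AInt l).subtype with hιA
  set Φc : Polynomial (Polynomial ℂ) := Φ.map (Polynomial.mapRingHom ιA) with hΦc
  have hΦc0 : ev2 ℂ N Φc = 0 := by
    apply qExpand_injective N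
    rw [hΦc, qExpand_ev2, hΦ, map_zero, map_zero]
  have hΦcmon : Φc.Monic := hmon.map _
  have hΦcdeg : Φc.natDegree = n := by rw [hΦc, hmon.natDegree_map, hn]
  obtain ⟨Ψq, hΨ, hΨ0⟩ := exists_rat_poly hInd hΦcmon hΦcdeg hΦc0
  have hinjQ : Function.Injective (Polynomial.mapRingHom (algebraMap ℚ ℂ)) :=
    Polynomial.map_injective _ (algebraMap ℚ ℂ).injective
  have hΨmon : Ψq.Monic := Polynomial.monic_of_injective hinjQ (hΨ ▸ hΦcmon)
  have hΨdeg : Ψq.natDegree = n := by
    rw [← Polynomial.natDegree_map_eq_of_injective hinjQ, hΨ, hΦcdeg]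
  -- the coefficients are rational and in `AInt l`, hence in `ℤ_(l)`
  have hcoef : ∀ i a, (((Ψq.coeff i).coeff a : ℚ) : ℂ) = (((Φ.coeff i).coeff a : ↥(AInt l)) : ℂ) := by
    intro i a
    have h1 := congrArg (fun P => (P.coeff i).coeff a) hΨ
    simp only [hΦc, Polynomial.coeff_map, Polynomial.coe_mapRingHom] at h1
    rw [eq_ratCast] at h1
    exact h1
  have hmem : ∀ i a, (Ψq.coeff i).coeff a ∈ GaloisRep.ratLocalizedAt l := by
    intro i a
    rw [← rat_mem_iff, hcoef]
    exact ((Φ.coeff i).coeff a).2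
  have hlift : Ψq ∈ Polynomial.lifts
      (Polynomial.mapRingHom (GaloisRep.ratLocalizedAt l).subtype) := by
    rw [Polynomial.lifts_iff_coeff_lifts]
    intro i
    have h2 : Ψq.coeff i ∈ Polynomial.lifts (GaloisRep.ratLocalizedAt l).subtype := by
      rw [Polynomial.lifts_iff_coeff_lifts]
      intro a
      exact ⟨⟨_, hmem i a⟩, rfl⟩
    obtain ⟨q, hq⟩ := (Polynomial.mem_lifts _).mp h2
    exact ⟨q, hq⟩
  obtain ⟨Ψ, hmap, hdeg, hmonic⟩ := Polynomial.lifts_and_natDegree_eq_and_monic hlift hΨmon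
  refine ⟨Ψ, hmonic, hdeg.trans hΨdeg, by rw [hmap, hΨ0], ?_⟩
  have hinjA : Function.Injective (Polynomial.mapRingHom ιA) :=
    Polynomial.map_injective _ (AInt l).subtype_injective
  apply Polynomial.map_injective _ hinjA
  have hcomp : ((AInt l).subtype).comp (ofZl l) =
      (algebraMap ℚ ℂ).comp (GaloisRep.ratLocalizedAt l).subtype := by
    ext r
    simp
  show (Ψ.map (Polynomial.mapRingHom (ofZl l))).map (Polynomial.mapRingHom ιA) = Φc
  have hcomp2 : (Polynomial.mapRingHom ιA).comp (Polynomial.mapRingHom (ofZl l)) =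
      (Polynomial.mapRingHom (algebraMap ℚ ℂ)).comp
        (Polynomial.mapRingHom (GaloisRep.ratLocalizedAt l).subtype) := by
    rw [Polynomial.mapRingHom_comp, Polynomial.mapRingHom_comp, hιA, hcomp]
  rw [Polynomial.map_map, hcomp2, ← Polynomial.map_map, hmap, hΨ]

omit [Fact (Nat.Prime l)] in
lemma algebraMap_Zl (r : Zl l) :
    algebraMap (Zl l) (LaurentSeries ℚ) r = HahnSeries.C (r : ℚ) := by
  rw [HahnSeries.algebraMap_apply']
  have h1 : algebraMap (Zl l) (PowerSeries ℚ) r = PowerSeries.C (r : ℚ) := by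
    rw [PowerSeries.algebraMap_apply]
    rfl
  rw [h1, HahnSeries.ofPowerSeries_C]

/-- the evaluation `ℤ_(l)[X] → ℚ((q))`, `X ↦ j(q)`, in basic form -/
def evZl (l : ℕ) : Polynomial (Zl l) →+* LaurentSeries ℚ :=
  Polynomial.eval₂RingHom
    ((HahnSeries.C : ℚ →+* LaurentSeries ℚ).comp (GaloisRep.ratLocalizedAt l).subtype) jq

omit [Fact (Nat.Prime l)] in
lemma evZl_eq_aeval :
    evZl l = (Polynomial.aeval ModularCurve.jq : (Zl l)[X] →ₐ[Zl l] LaurentSeries ℚ).toRingHom := by
  refine Polynomial.ringHom_ext (fun r => ?_) ?_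
  · simp [evZl, algebraMap_Zl]
  · simp [evZl]

omit [Fact (Nat.Prime l)] in
lemma evZl_eq_ev1 (p : Polynomial (Zl l)) :
    evZl l p = ev1 ℚ (p.map (GaloisRep.ratLocalizedAt l).subtype) := by
  have h : evZl l = (ev1 ℚ).comp (Polynomial.mapRingHom (GaloisRep.ratLocalizedAt l).subtype) := by
    refine Polynomial.ringHom_ext (fun r => ?_) ?_
    · simp [evZl]
    · simp [evZl]; rfl
  rw [h]; rfl

omit [Fact (Nat.Prime l)] in
lemma eval₂_evZl (Ψ : Polynomial (Polynomial (Zl l))) :
    Ψ.eval₂ (evZl l) (jqN N) =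
      ev2 ℚ N (Ψ.map (Polynomial.mapRingHom (GaloisRep.ratLocalizedAt l).subtype)) := by
  have h : Polynomial.eval₂RingHom (evZl l) (jqN N) =
      (ev2 ℚ N).comp
        (Polynomial.mapRingHom (Polynomial.mapRingHom (GaloisRep.ratLocalizedAt l).subtype)) := by
    refine Polynomial.ringHom_ext (fun p => ?_) ?_
    · simp [evZl_eq_ev1]
    · simp; rfl
  exact congrFun (congrArg DFunLike.coe h) Ψ

variable (N l)

/-- **(E2).** Independence over `𝔽_l` in the `q`-variable, from (C1). -/
theorem export_E2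
    (hC1 : ∀ g : Polynomial (Polynomial (kRes l)), g.natDegree < dedekindPsi N →
      g.eval₂ (evalJt (kRes l) N) (jNt (kRes l) N) = 0 → g = 0) :
    ∀ a : Fin (dedekindPsi N) → Polynomial (ZMod l),
      (∑ i, Polynomial.aeval (jqModC (ZMod l)) (a i) * (jqNModC (ZMod l) N) ^ (i : ℕ) = 0) →
        ∀ i, a i = 0 := by
  intro a ha
  apply indepMod_of_core N l _ hC1 a
  simpa only [ev1_eq_aeval] using ha

/-- **(E1).** A monic relation over `ℤ_(l)` in the `q`-variable, from (C1) and (C2). -/
theorem export_E1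
    (hC1 : ∀ g : Polynomial (Polynomial (kRes l)), g.natDegree < dedekindPsi N →
      g.eval₂ (evalJt (kRes l) N) (jNt (kRes l) N) = 0 → g = 0)
    (hC2 : ∃ Φ : Polynomial (Polynomial ↥(AInt l)), Φ.Monic ∧ Φ.natDegree = dedekindPsi N ∧
      Φ.eval₂ (evalJt ↥(AInt l) N) (jNt ↥(AInt l) N) = 0) :
    ∃ Φ : Polynomial (Polynomial (Zl l)), Φ.Monic ∧ Φ.natDegree = dedekindPsi N ∧
      Φ.eval₂ (Polynomial.aeval ModularCurve.jq :
        (Zl l)[X] →ₐ[Zl l] LaurentSeries ℚ).toRingHom (ModularCurve.jqN N) = 0 := by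
  have hInd : IndepMod N l (dedekindPsi N) := indepMod_of_core N l _ hC1
  obtain ⟨Φ, hmon, hn, hΦ⟩ := hC2
  obtain ⟨Ψ, hΨmon, hΨn, hΨ0, -⟩ := exists_Zl_poly hInd hmon hn hΦ
  exact ⟨Ψ, hΨmon, hΨn, by rw [← evZl_eq_aeval, eval₂_evZl, hΨ0]⟩

/-- **Export.** From the two outputs of the core, (C1) independence over the residue field in the
`t`-variable and (C2) a monic relation over `AInt l`, get (E1) a monic relation over `ℤ_(l)` in the
`q`-variable and (E2) independence over `𝔽_l` in the `q`-variable. -/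
theorem export_of_core
    (hC1 : ∀ g : Polynomial (Polynomial (kRes l)), g.natDegree < dedekindPsi N →
      g.eval₂ (evalJt (kRes l) N) (jNt (kRes l) N) = 0 → g = 0)
    (hC2 : ∃ Φ : Polynomial (Polynomial ↥(AInt l)), Φ.Monic ∧ Φ.natDegree = dedekindPsi N ∧
      Φ.eval₂ (evalJt ↥(AInt l) N) (jNt ↥(AInt l) N) = 0) :
    (∃ Φ : Polynomial (Polynomial (Zl l)), Φ.Monic ∧ Φ.natDegree = dedekindPsi N ∧
      Φ.eval₂ (Polynomial.aeval ModularCurve.jq :
        (Zl l)[X] →ₐ[Zl l] LaurentSeries ℚ).toRingHom (ModularCurve.jqN N) = 0) ∧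
    ∀ a : Fin (dedekindPsi N) → Polynomial (ZMod l),
      (∑ i, Polynomial.aeval (jqModC (ZMod l)) (a i) * (jqNModC (ZMod l) N) ^ (i : ℕ) = 0) →
        ∀ i, a i = 0 :=
  ⟨export_E1 N l hC1 hC2, export_E2 N l hC1⟩

end Final

end

end Fermat.Agent.S28.Export
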