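import Mathlib
import Fermat.Agent.S28.CoreFinal
import Fermat.Agent.S28.Export

/-!
# S28: the two inputs of the chart reduction, unconditionally

For `ℓ ∤ N`:
* `E1` : a monic relation of degree `ψ(N)` over `ℤ_(ℓ)[j]` satisfied by `j_N = j(q^N)` in `ℚ((q))`;
* `E2` : `1, j̄_N, …, j̄_N^{ψ(N)-1}` are independent over `𝔽_ℓ[j̄]` in `𝔽_ℓ((q))`
  (restated from `CoreFinal.E2`).
-/

set_option autoImplicit false

namespace Fermat.Agent.S28.ExportFinal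

open Polynomial ModularCurve Fermat.Agent.S28.ZlBasics

variable (N : ℕ) [NeZero N] (ℓ : ℕ) [Fact ℓ.Prime]

/-- **(E1)** the modular polynomial over `ℤ_(ℓ)`. -/
theorem E1 (hℓN : ¬ ℓ ∣ N) :
    ∃ Φ : (Zl ℓ)[X][X], Φ.Monic ∧ Φ.natDegree = dedekindPsi N ∧
      Φ.eval₂ (Polynomial.aeval ModularCurve.jq :
        (Zl ℓ)[X] →ₐ[Zl ℓ] LaurentSeries ℚ).toRingHom (ModularCurve.jqN N) = 0 :=
  Export.export_E1 N ℓ (CoreFinal.C1 N ℓ hℓN) (CoreFinal.C2 N ℓ hℓN)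

/-- **(E1)**, instance-free spelling: the coefficient evaluation is
`Export.evZl ℓ = eval₂RingHom (HahnSeries.C.comp subtype) jq`. -/
theorem E1' (hℓN : ¬ ℓ ∣ N) :
    ∃ Φ : (Zl ℓ)[X][X], Φ.Monic ∧ Φ.natDegree = dedekindPsi N ∧
      Φ.eval₂ (Export.evZl ℓ) (ModularCurve.jqN N) = 0 := by
  obtain ⟨Φ, h1, h2, h3⟩ := E1 N ℓ hℓN
  exact ⟨Φ, h1, h2, by rw [Export.evZl_eq_aeval]; exact h3⟩

/-- **(E2)** independence modulo `ℓ`. -/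
theorem E2 (hℓN : ¬ ℓ ∣ N) :
    ∀ a : Fin (dedekindPsi N) → (ZMod ℓ)[X],
      ∑ i, aeval (jqModC (ZMod ℓ)) (a i) * (jqNModC (ZMod ℓ) N) ^ (i : ℕ) = 0 → ∀ i, a i = 0 :=
  CoreFinal.E2 N ℓ hℓN

/-- a by-product: relations of `Y`-degree `< ψ(N)` over `ℚ[j]` vanish. -/
theorem eq_zero_rat (hℓN : ¬ ℓ ∣ N) {G : Polynomial (Polynomial ℚ)}
    (hdeg : ∀ i, dedekindPsi N ≤ i → G.coeff i = 0) (hG : Export.ev2 ℚ N G = 0) : G = 0 :=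
  Export.eq_zero_rat (Export.indepMod_of_core N ℓ _ (CoreFinal.C1 N ℓ hℓN)) hdeg hG

end Fermat.Agent.S28.ExportFinal
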