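import Mathlib

/-!
# S28 / ChartRed: abstract chart reduction

`P` a Noetherian domain with a prime element `ϖ`, `φ : P →+* F` (`F` a field, `φ ϖ ≠ 0`),
`θ : F` a root of a monic `Φ : P[X]`, and a "reduction" `φ' : P →+* D`, `θ' : D` (`D` a field,
`φ' ϖ = 0`) such that
* `ker`   : `eval₂ φ θ g = 0 → eval₂ φ' θ' g = 0`,
* `indep` : `natDegree g < natDegree Φ → eval₂ φ' θ' g = 0 → C ϖ ∣ g`,
* `span`  : every `x : F` has a denominator `b ≠ 0` with `φ b * x ∈ P[θ]`.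

Then there is a subring `CC` of `F` containing every `φ`-integral element, a ring hom
`ρ : CC →+* D` extending the reduction on `P[θ]`, and for `φ`-integral `x` with `ρ x = 0` the element
`x / ϖ` is again `φ`-integral.
-/

set_option autoImplicit false
set_option linter.unusedSectionVars false

namespace Fermat.Agent.S28.ChartRed

open Polynomial

/-- The abstract set-up. -/
structure Setup (P F D : Type*) [CommRing P] [IsDomain P] [IsNoetherianRing P] [Field F]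
    [Field D] where
  ϖ : P
  prime : Prime ϖ
  φ : P →+* F
  φϖ : φ ϖ ≠ 0
  θ : F
  Φ : P[X]
  monic : Φ.Monic
  root : eval₂ φ θ Φ = 0
  φ' : P →+* D
  φ'ϖ : φ' ϖ = 0
  θ' : D
  ker : ∀ g : P[X], eval₂ φ θ g = 0 → eval₂ φ' θ' g = 0
  indep : ∀ g : P[X], g.natDegree < Φ.natDegree → eval₂ φ' θ' g = 0 → C ϖ ∣ g
  span : ∀ x : F, ∃ b : P, b ≠ 0 ∧ ∃ g : P[X], φ b * x = eval₂ φ θ g

namespace Setup

variable {P F D : Type*} [CommRing P] [IsDomain P] [IsNoetherianRing P] [Field F] [Field D]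
  (S : Setup P F D)

/-- evaluation at `θ` -/
noncomputable abbrev ε (g : P[X]) : F := eval₂ S.φ S.θ g

/-- evaluation at `θ'` -/
noncomputable abbrev ε' (g : P[X]) : D := eval₂ S.φ' S.θ' g

theorem ϖ_ne_zero : S.ϖ ≠ 0 := S.prime.ne_zero

theorem natDegree_pos : 0 < S.Φ.natDegree := by
  rcases Nat.eq_zero_or_pos S.Φ.natDegree with h | h
  · exfalso
    have h1 := eq_one_of_monic_natDegree_zero S.monic h
    have h2 := S.root
    rw [h1, eval₂_one] at h2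
    exact one_ne_zero h2
  · exact h

theorem Φ_ne_one : S.Φ ≠ 1 := by
  intro h
  have := S.natDegree_pos
  rw [h, natDegree_one] at this
  exact lt_irrefl _ this

/-- reduce the degree below `natDegree Φ`. -/
theorem exists_lt (g : P[X]) : ∃ g₁ : P[X], g₁.natDegree < S.Φ.natDegree ∧ S.ε g₁ = S.ε g := by
  refine ⟨g %ₘ S.Φ, natDegree_modByMonic_lt g S.monic S.Φ_ne_one, ?_⟩
  have h := modByMonic_add_div g S.Φ
  have h2 : S.ε g = S.ε (g %ₘ S.Φ + S.Φ * (g /ₘ S.Φ)) := by rw [h]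
  rw [h2]
  show eval₂ S.φ S.θ (g %ₘ S.Φ) = eval₂ S.φ S.θ (g %ₘ S.Φ + S.Φ * (g /ₘ S.Φ))
  rw [eval₂_add, eval₂_mul, S.root, zero_mul, add_zero]

theorem φ'_ne_zero {b : P} (hb : ¬ S.ϖ ∣ b) : S.φ' b ≠ 0 := by
  intro h
  have h1 : S.ε' (C b) = 0 := by
    show eval₂ S.φ' S.θ' (C b) = 0
    rw [eval₂_C, h]
  have h2 := S.indep (C b) (by rw [natDegree_C]; exact S.natDegree_pos) h1
  rw [C_dvd_iff_dvd_coeff] at h2
  have := h2 0
  rw [coeff_C_zero] at this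
  exact hb this

theorem φ_ne_zero {b : P} (hb : ¬ S.ϖ ∣ b) : S.φ b ≠ 0 := by
  intro h
  have h1 : S.ε (C b) = 0 := by
    show eval₂ S.φ S.θ (C b) = 0
    rw [eval₂_C, h]
  have h2 := S.ker _ h1
  rw [eval₂_C] at h2
  exact S.φ'_ne_zero hb h2

theorem prime_C : Prime (C S.ϖ : P[X]) := Polynomial.prime_C_iff.mpr S.prime

theorem natDegree_C_pow_mul (m : ℕ) (g : P[X]) : (C S.ϖ ^ m * g).natDegree = g.natDegree := by
  rw [← C_pow]
  exact natDegree_C_mul (pow_ne_zero _ S.ϖ_ne_zero)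

/-- injectivity of `ε` in degrees `< natDegree Φ`. -/
theorem inj_lt {g : P[X]} (hg : g.natDegree < S.Φ.natDegree) (h : S.ε g = 0) : g = 0 := by
  by_contra hne
  obtain ⟨m, g', hnd, hgg'⟩ := WfDvdMonoid.max_power_factor' hne S.prime_C.not_isUnit
  have hdeg : g'.natDegree < S.Φ.natDegree := by
    rw [hgg', S.natDegree_C_pow_mul] at hg
    exact hg
  have h1 : S.φ S.ϖ ^ m * S.ε g' = 0 := by
    have : S.ε g = S.φ S.ϖ ^ m * S.ε g' := by
      show eval₂ S.φ S.θ g = _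
      rw [hgg', eval₂_mul, eval₂_pow, eval₂_C]
    rw [← this]; exact h
  have h2 : S.ε g' = 0 := by
    rcases mul_eq_zero.mp h1 with h | h
    · exact absurd h (pow_ne_zero m S.φϖ)
    · exact h
  exact hnd (S.indep g' hdeg (S.ker g' h2))

/-- well-definedness of the reduction of a fraction. -/
theorem wd {x : F} {b b₁ : P} {g g₁ : P[X]} (h : S.φ b * x = S.ε g) (h₁ : S.φ b₁ * x = S.ε g₁) :
    S.ε' g * S.φ' b₁ = S.ε' g₁ * S.φ' b := by
  have h0 : S.ε (g * C b₁ - g₁ * C b) = 0 := by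
    show eval₂ S.φ S.θ (g * C b₁ - g₁ * C b) = 0
    rw [eval₂_sub, eval₂_mul, eval₂_mul, eval₂_C, eval₂_C]
    show S.ε g * S.φ b₁ - S.ε g₁ * S.φ b = 0
    rw [← h, ← h₁]; ring
  have h1 := S.ker _ h0
  rw [eval₂_sub, eval₂_mul, eval₂_mul, eval₂_C, eval₂_C, sub_eq_zero] at h1
  exact h1

/-- The ring of fractions `y / b`, `y ∈ P[θ]`, `ϖ ∤ b`. -/
def CC : Subring F where
  carrier := {x | ∃ b : P, ¬ S.ϖ ∣ b ∧ ∃ g : P[X], S.φ b * x = S.ε g}
  zero_mem' := ⟨1, S.prime.not_dvd_one, 0, by simp⟩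
  one_mem' := ⟨1, S.prime.not_dvd_one, 1, by simp⟩
  add_mem' := by
    rintro x y ⟨b, hb, g, hg⟩ ⟨b₁, hb₁, g₁, hg₁⟩
    refine ⟨b * b₁, fun h => (S.prime.dvd_or_dvd h).elim hb hb₁, C b₁ * g + C b * g₁, ?_⟩
    show _ = eval₂ S.φ S.θ (C b₁ * g + C b * g₁)
    rw [eval₂_add, eval₂_mul, eval₂_mul, eval₂_C, eval₂_C, map_mul]
    show _ = S.φ b₁ * S.ε g + S.φ b * S.ε g₁
    rw [← hg, ← hg₁]; ring
  neg_mem' := by
    rintro x ⟨b, hb, g, hg⟩
    refine ⟨b, hb, -g, ?_⟩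
    show _ = eval₂ S.φ S.θ (-g)
    rw [eval₂_neg]
    show _ = - S.ε g
    rw [← hg]; ring
  mul_mem' := by
    rintro x y ⟨b, hb, g, hg⟩ ⟨b₁, hb₁, g₁, hg₁⟩
    refine ⟨b * b₁, fun h => (S.prime.dvd_or_dvd h).elim hb hb₁, g * g₁, ?_⟩
    show _ = eval₂ S.φ S.θ (g * g₁)
    rw [eval₂_mul, map_mul]
    show _ = S.ε g * S.ε g₁
    rw [← hg, ← hg₁]; ring

theorem mem_CC {x : F} : x ∈ S.CC ↔ ∃ b : P, ¬ S.ϖ ∣ b ∧ ∃ g : P[X], S.φ b * x = S.ε g := Iff.rfl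

/-- the underlying function of `ρ`. -/
noncomputable def ρfun (x : S.CC) : D :=
  S.ε' x.2.choose_spec.2.choose / S.φ' x.2.choose

theorem ρfun_eq (x : S.CC) {b : P} (hb : ¬ S.ϖ ∣ b) {g : P[X]} (h : S.φ b * (x : F) = S.ε g) :
    S.ρfun x = S.ε' g / S.φ' b := by
  unfold ρfun
  have h1 := x.2.choose_spec.1
  have h2 := x.2.choose_spec.2.choose_spec
  rw [div_eq_div_iff (S.φ'_ne_zero h1) (S.φ'_ne_zero hb)]
  exact S.wd h2 h

/-- the reduction map on `CC`. -/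
noncomputable def ρ : S.CC →+* D where
  toFun := S.ρfun
  map_one' := by
    rw [S.ρfun_eq 1 (b := 1) S.prime.not_dvd_one (g := 1) (by simp)]
    simp
  map_zero' := by
    rw [S.ρfun_eq 0 (b := 1) S.prime.not_dvd_one (g := 0) (by simp)]
    simp
  map_mul' := by
    rintro ⟨x, b, hb, g, hg⟩ ⟨y, b₁, hb₁, g₁, hg₁⟩
    have hx := S.ρfun_eq ⟨x, b, hb, g, hg⟩ hb hg
    have hy := S.ρfun_eq ⟨y, b₁, hb₁, g₁, hg₁⟩ hb₁ hg₁
    have hxy : S.φ (b * b₁) * ((⟨x, b, hb, g, hg⟩ * ⟨y, b₁, hb₁, g₁, hg₁⟩ : S.CC) : F) =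
        S.ε (g * g₁) := by
      show S.φ (b * b₁) * (x * y) = eval₂ S.φ S.θ (g * g₁)
      rw [eval₂_mul, map_mul]
      show _ = S.ε g * S.ε g₁
      rw [← hg, ← hg₁]; ring
    rw [S.ρfun_eq _ (fun h => (S.prime.dvd_or_dvd h).elim hb hb₁) hxy, hx, hy]
    show eval₂ S.φ' S.θ' (g * g₁) / _ = _
    rw [eval₂_mul, map_mul, mul_div_mul_comm]
  map_add' := by
    rintro ⟨x, b, hb, g, hg⟩ ⟨y, b₁, hb₁, g₁, hg₁⟩
    have hx := S.ρfun_eq ⟨x, b, hb, g, hg⟩ hb hg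
    have hy := S.ρfun_eq ⟨y, b₁, hb₁, g₁, hg₁⟩ hb₁ hg₁
    have hxy : S.φ (b * b₁) * ((⟨x, b, hb, g, hg⟩ + ⟨y, b₁, hb₁, g₁, hg₁⟩ : S.CC) : F) =
        S.ε (C b₁ * g + C b * g₁) := by
      show S.φ (b * b₁) * (x + y) = eval₂ S.φ S.θ (C b₁ * g + C b * g₁)
      rw [eval₂_add, eval₂_mul, eval₂_mul, eval₂_C, eval₂_C, map_mul]
      show _ = S.φ b₁ * S.ε g + S.φ b * S.ε g₁
      rw [← hg, ← hg₁]; ring
    rw [S.ρfun_eq _ (fun h => (S.prime.dvd_or_dvd h).elim hb hb₁) hxy, hx, hy]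
    show eval₂ S.φ' S.θ' (C b₁ * g + C b * g₁) / _ = _
    rw [eval₂_add, eval₂_mul, eval₂_mul, eval₂_C, eval₂_C, map_mul]
    have h1 := S.φ'_ne_zero hb
    have h2 := S.φ'_ne_zero hb₁
    field_simp

theorem ρ_eq (x : S.CC) {b : P} (hb : ¬ S.ϖ ∣ b) {g : P[X]} (h : S.φ b * (x : F) = S.ε g) :
    S.ρ x = S.ε' g / S.φ' b := S.ρfun_eq x hb h

theorem ε_mem_CC (g : P[X]) : S.ε g ∈ S.CC := ⟨1, S.prime.not_dvd_one, g, by simp⟩

theorem φ_mem_CC (b : P) : S.φ b ∈ S.CC :=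
  ⟨1, S.prime.not_dvd_one, C b, by show _ = eval₂ S.φ S.θ (C b); rw [eval₂_C]; simp⟩

theorem ρ_ε (g : P[X]) : S.ρ ⟨S.ε g, S.ε_mem_CC g⟩ = S.ε' g := by
  rw [S.ρ_eq _ (b := 1) S.prime.not_dvd_one (g := g) (by simp)]
  simp

/-- kernel of `ρ` on `CC`. -/
theorem ker_ρ (x : S.CC) (hx : S.ρ x = 0) : ∃ x₁ : S.CC, (x : F) = S.φ S.ϖ * (x₁ : F) := by
  obtain ⟨b, hb, g, hg⟩ := x.2
  obtain ⟨g₁, hdeg, hg₁⟩ := S.exists_lt g
  have hg' : S.φ b * (x : F) = S.ε g₁ := by rw [hg, hg₁]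
  have h1 := S.ρ_eq x hb hg'
  rw [hx] at h1
  have h2 : S.ε' g₁ = 0 := by
    have := h1.symm
    rw [div_eq_zero_iff] at this
    exact this.resolve_right (S.φ'_ne_zero hb)
  obtain ⟨g₂, hg₂⟩ := S.indep g₁ hdeg h2
  have hb0 := S.φ_ne_zero hb
  refine ⟨⟨S.ε g₂ / S.φ b, b, hb, g₂, by field_simp⟩, ?_⟩
  show (x : F) = S.φ S.ϖ * (S.ε g₂ / S.φ b)
  have h3 : S.ε g₁ = S.φ S.ϖ * S.ε g₂ := by
    show eval₂ S.φ S.θ g₁ = _
    rw [hg₂, eval₂_mul, eval₂_C]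
  rw [h3] at hg'
  field_simp
  rw [← hg']; ring

/-- Key lemma: if `x` is `φ`-integral, `φ b * x = ε g` with `deg g < deg Φ` and `ϖ ∣ b`,
then `ϖ ∣ g`. -/
theorem dvd_of_integral {x : F} (hx : S.φ.IsIntegralElem x) {b : P} {g : P[X]}
    (h : S.φ b * x = S.ε g) (hdeg : g.natDegree < S.Φ.natDegree) (hb : S.ϖ ∣ b) :
    C S.ϖ ∣ g := by
  obtain ⟨p, hp, hpx⟩ := hx
  have hq : eval₂ S.φ (S.φ b * x) (p.scaleRoots b) = 0 := scaleRoots_eval₂_eq_zero S.φ hpx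
  rw [h] at hq
  have h1 : S.ε ((p.scaleRoots b).comp g) = 0 := by
    show eval₂ S.φ S.θ ((p.scaleRoots b).comp g) = 0
    rw [eval₂_comp]; exact hq
  have h2 := S.ker _ h1
  rw [eval₂_comp] at h2
  have hmap : (p.scaleRoots b).map S.φ' = X ^ p.natDegree := by
    ext i
    rw [coeff_map, coeff_scaleRoots, coeff_X_pow]
    by_cases hi : i = p.natDegree
    · subst hi
      rw [if_pos rfl, tsub_self, pow_zero, mul_one, hp.coeff_natDegree, map_one]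
    · rw [if_neg hi]
      rcases lt_or_gt_of_ne hi with hlt | hgt
      · have : S.φ' (b ^ (p.natDegree - i)) = 0 := by
          obtain ⟨c, rfl⟩ := hb
          rw [map_pow, map_mul, S.φ'ϖ, zero_mul, zero_pow (by omega)]
        rw [map_mul, this, mul_zero]
      · rw [coeff_eq_zero_of_natDegree_lt hgt, zero_mul, map_zero]
  rw [← eval_map, hmap, eval_pow, eval_X] at h2
  have h3 : S.ε' g = 0 := by
    by_contra hne
    exact pow_ne_zero _ hne h2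
  exact S.indep g hdeg h3

theorem mem_CC_of_integral_aux {x : F} (hx : S.φ.IsIntegralElem x) {b' : P} (hb' : ¬ S.ϖ ∣ b') :
    ∀ (e : ℕ) (g : P[X]), g.natDegree < S.Φ.natDegree → S.φ (S.ϖ ^ e * b') * x = S.ε g →
      x ∈ S.CC := by
  intro e
  induction e with
  | zero =>
    intro g _ h
    exact ⟨b', hb', g, by simpa using h⟩
  | succ e ih =>
    intro g hdeg h
    have hdvd : S.ϖ ∣ S.ϖ ^ (e + 1) * b' := dvd_mul_of_dvd_left (dvd_pow_self _ (by omega)) _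
    obtain ⟨g₁, hg₁⟩ := S.dvd_of_integral hx h hdeg hdvd
    have hdeg₁ : g₁.natDegree < S.Φ.natDegree := by
      rw [hg₁, natDegree_C_mul S.ϖ_ne_zero] at hdeg; exact hdeg
    apply ih g₁ hdeg₁
    have e1 : S.ε g = S.φ S.ϖ * S.ε g₁ := by
      show eval₂ S.φ S.θ g = _
      rw [hg₁, eval₂_mul, eval₂_C]
    have : S.φ S.ϖ * (S.φ (S.ϖ ^ e * b') * x) = S.φ S.ϖ * S.ε g₁ := by
      rw [← e1, ← h, pow_succ]; simp only [map_mul, map_pow]; ring
    exact mul_left_cancel₀ S.φϖ this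

/-- Every `φ`-integral element lies in `CC`. -/
theorem mem_CC_of_integral {x : F} (hx : S.φ.IsIntegralElem x) : x ∈ S.CC := by
  obtain ⟨b, hb0, g, hg⟩ := S.span x
  obtain ⟨g₁, hdeg, hg₁⟩ := S.exists_lt g
  obtain ⟨e, b', hb', rfl⟩ := WfDvdMonoid.max_power_factor' hb0 S.prime.not_isUnit
  exact S.mem_CC_of_integral_aux hx hb' e g₁ hdeg (by rw [hg, hg₁])

/-- uniform denominators for finitely many elements. -/
theorem exists_denom (T : Finset F) : ∃ d : P, d ≠ 0 ∧ ∀ c : F → P,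
    ∃ g : P[X], S.φ d * (∑ y ∈ T, S.φ (c y) * y) = S.ε g := by
  classical
  induction T using Finset.induction_on with
  | empty => exact ⟨1, one_ne_zero, fun _ => ⟨0, by simp⟩⟩
  | insert y₀ T hy₀ ih =>
    obtain ⟨d', hd', ih⟩ := ih
    obtain ⟨d₀, hd₀, g₀, hg₀⟩ := S.span y₀
    refine ⟨d₀ * d', mul_ne_zero hd₀ hd', fun c => ?_⟩
    obtain ⟨g', hg'⟩ := ih c
    refine ⟨C (d' * c y₀) * g₀ + C d₀ * g', ?_⟩
    rw [Finset.sum_insert hy₀]
    show _ = eval₂ S.φ S.θ (C (d' * c y₀) * g₀ + C d₀ * g')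
    rw [eval₂_add, eval₂_mul, eval₂_mul, eval₂_C, eval₂_C]
    show _ = S.φ (d' * c y₀) * S.ε g₀ + S.φ d₀ * S.ε g'
    have hg₀' : S.φ d₀ * y₀ = S.ε g₀ := hg₀
    rw [← hg₀', ← hg']
    simp only [map_mul]; ring

theorem φ_injective : Function.Injective S.φ := by
  rw [injective_iff_map_eq_zero]
  intro d hd
  have h1 : S.ε (C d) = 0 := by
    show eval₂ S.φ S.θ (C d) = 0
    rw [eval₂_C, hd]
  have h2 := S.inj_lt (by rw [natDegree_C]; exact S.natDegree_pos) h1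
  exact C_eq_zero.mp h2

theorem eval₂_mem_CC {x₁ : F} (hx₁ : x₁ ∈ S.CC) (c : P[X]) : eval₂ S.φ x₁ c ∈ S.CC := by
  rw [eval₂_eq_sum_range]
  exact Subring.sum_mem _ fun i _ => Subring.mul_mem _ (S.φ_mem_CC _) (Subring.pow_mem _ hx₁ i)

/-- Step 4: if `x` is `φ`-integral and reduces to `0`, then `x / ϖ` is `φ`-integral. -/
theorem integral_div {x : F} (hx : S.φ.IsIntegralElem x) (hxC : x ∈ S.CC)
    (hρ : S.ρ ⟨x, hxC⟩ = 0) : ∃ x₁ : F, x = S.φ S.ϖ * x₁ ∧ S.φ.IsIntegralElem x₁ := by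
  classical
  obtain ⟨⟨x₁, hx₁C⟩, hx₁⟩ := S.ker_ρ ⟨x, hxC⟩ hρ
  replace hx₁ : x = S.φ S.ϖ * x₁ := hx₁
  refine ⟨x₁, hx₁, ?_⟩
  let _ : Algebra P F := S.φ.toAlgebra
  have hsmul : ∀ (a : P) (y : F), a • y = S.φ a * y := fun a y => by
    rw [Algebra.smul_def]; rfl
  have haeval : ∀ (y : F) (c : P[X]), aeval y c = eval₂ S.φ y c := fun y c => rfl
  have hxi : IsIntegral P x := hx
  obtain ⟨T, hT⟩ := hxi.fg_adjoin_singleton
  obtain ⟨d, hd0, hd⟩ := S.exists_denom T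
  have hφd : S.φ d ≠ 0 := fun h => hd0 (S.φ_injective (by rw [h, map_zero]))
  have hden : ∀ y ∈ Algebra.adjoin P {x}, ∃ g : P[X], S.φ d * y = S.ε g := by
    intro y hy
    have hy' : y ∈ Submodule.span P (T : Set F) := by rw [hT]; exact hy
    obtain ⟨c, -, hc⟩ := Submodule.mem_span_finset.mp hy'
    obtain ⟨g, hg⟩ := hd c
    refine ⟨g, ?_⟩
    rw [← hg, ← hc]
    simp only [hsmul]
  let ψ : (degreeLT P S.Φ.natDegree) →ₗ[P] F :=
    (LinearMap.mulLeft P ((S.φ d)⁻¹)) ∘ₗ (aeval S.θ).toLinearMap ∘ₗ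
      (degreeLT P S.Φ.natDegree).subtype
  have hψ : ∀ g : degreeLT P S.Φ.natDegree, ψ g = (S.φ d)⁻¹ * S.ε (g : P[X]) := fun g => rfl
  have hNfg : (LinearMap.range ψ).FG := by
    rw [LinearMap.range_eq_map]
    exact Submodule.FG.map _ Module.Finite.fg_top
  have hle : Subalgebra.toSubmodule (Algebra.adjoin P {x₁}) ≤ LinearMap.range ψ := by
    intro z hz
    rw [Subalgebra.mem_toSubmodule, Algebra.adjoin_singleton_eq_range_aeval] at hz
    obtain ⟨c, rfl⟩ := hz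
    show aeval x₁ c ∈ LinearMap.range ψ
    rw [haeval]
    set z := eval₂ S.φ x₁ c with hz
    set t := c.natDegree with ht
    have h1 : eval₂ S.φ x (c.scaleRoots S.ϖ) = S.φ S.ϖ ^ t * z := by
      rw [hx₁]; exact scaleRoots_eval₂_mul S.φ x₁ S.ϖ
    have h2 : eval₂ S.φ x (c.scaleRoots S.ϖ) ∈ Algebra.adjoin P {x} := by
      rw [← haeval]; exact aeval_mem_adjoin_singleton P x
    obtain ⟨g, hg⟩ := hden _ h2
    obtain ⟨g₁, hdeg₁, hg₁⟩ := S.exists_lt g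
    obtain ⟨b, hb, g'', hg''⟩ := S.eval₂_mem_CC hx₁C c
    obtain ⟨g₂, hdeg₂, hg₂⟩ := S.exists_lt g''
    have hcmp : S.ε (C b * g₁ - C (d * S.ϖ ^ t) * g₂) = 0 := by
      show eval₂ S.φ S.θ (C b * g₁ - C (d * S.ϖ ^ t) * g₂) = 0
      rw [eval₂_sub, eval₂_mul, eval₂_mul, eval₂_C, eval₂_C]
      show S.φ b * S.ε g₁ - S.φ (d * S.ϖ ^ t) * S.ε g₂ = 0
      rw [hg₁, hg₂, ← hg, ← hg'', h1]
      simp only [map_mul, map_pow]; ring
    have hdeg : (C b * g₁ - C (d * S.ϖ ^ t) * g₂).natDegree < S.Φ.natDegree := by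
      refine lt_of_le_of_lt (natDegree_sub_le _ _) (max_lt ?_ ?_)
      · exact lt_of_le_of_lt (natDegree_C_mul_le _ _) hdeg₁
      · exact lt_of_le_of_lt (natDegree_C_mul_le _ _) hdeg₂
    have heq : C b * g₁ = C (d * S.ϖ ^ t) * g₂ := sub_eq_zero.mp (S.inj_lt hdeg hcmp)
    have hdiv : C (S.ϖ ^ t) ∣ g₁ := by
      rw [C_dvd_iff_dvd_coeff]
      intro i
      have h3 := congrArg (fun q => q.coeff i) heq
      simp only [coeff_C_mul] at h3
      apply S.prime.pow_dvd_of_dvd_mul_left t hb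
      rw [h3]
      exact ⟨d * g₂.coeff i, by ring⟩
    obtain ⟨g₃, hg₃⟩ := hdiv
    have hpow : S.φ S.ϖ ^ t ≠ 0 := pow_ne_zero _ S.φϖ
    have hfin : S.φ d * z = S.ε g₃ := by
      have h4 : S.ε g₁ = S.φ S.ϖ ^ t * S.ε g₃ := by
        show eval₂ S.φ S.θ g₁ = _
        rw [hg₃, eval₂_mul, eval₂_C, map_pow]
      have h5 : S.φ S.ϖ ^ t * (S.φ d * z) = S.φ S.ϖ ^ t * S.ε g₃ := by
        rw [← h4, hg₁, ← hg, h1]; ring
      exact mul_left_cancel₀ hpow h5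
    have hdeg₃ : g₃.natDegree < S.Φ.natDegree := by
      rw [hg₃, natDegree_C_mul (pow_ne_zero _ S.ϖ_ne_zero)] at hdeg₁; exact hdeg₁
    have hmem : g₃ ∈ degreeLT P S.Φ.natDegree := by
      rw [mem_degreeLT]
      exact lt_of_le_of_lt degree_le_natDegree (by exact_mod_cast hdeg₃)
    refine ⟨⟨g₃, hmem⟩, ?_⟩
    rw [hψ]
    show (S.φ d)⁻¹ * S.ε g₃ = z
    rw [← hfin]
    field_simp
  have hfg := Submodule.FG.of_le hNfg hle
  exact IsIntegral.of_mem_of_fg _ hfg _ (Algebra.subset_adjoin rfl)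

/-- Saturation of the lattice `P[θ]_{< n}` inside `CC`. -/
theorem sat {g : P[X]} (hdeg : g.natDegree < S.Φ.natDegree) (t : ℕ) {y : F} (hy : y ∈ S.CC)
    (h : S.φ S.ϖ ^ t * y = S.ε g) : C (S.ϖ ^ t) ∣ g := by
  obtain ⟨b, hb, g'', hg''⟩ := hy
  obtain ⟨g₂, hdeg₂, hg₂⟩ := S.exists_lt g''
  have hcmp : S.ε (C b * g - C (S.ϖ ^ t) * g₂) = 0 := by
    show eval₂ S.φ S.θ (C b * g - C (S.ϖ ^ t) * g₂) = 0
    rw [eval₂_sub, eval₂_mul, eval₂_mul, eval₂_C, eval₂_C]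
    show S.φ b * S.ε g - S.φ (S.ϖ ^ t) * S.ε g₂ = 0
    rw [hg₂, ← hg'', ← h]
    simp only [map_pow]; ring
  have hdeg' : (C b * g - C (S.ϖ ^ t) * g₂).natDegree < S.Φ.natDegree := by
    refine lt_of_le_of_lt (natDegree_sub_le _ _) (max_lt ?_ ?_)
    · exact lt_of_le_of_lt (natDegree_C_mul_le _ _) hdeg
    · exact lt_of_le_of_lt (natDegree_C_mul_le _ _) hdeg₂
  have heq : C b * g = C (S.ϖ ^ t) * g₂ := sub_eq_zero.mp (S.inj_lt hdeg' hcmp)
  rw [C_dvd_iff_dvd_coeff]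
  intro i
  have h3 := congrArg (fun q => q.coeff i) heq
  simp only [coeff_C_mul] at h3
  apply S.prime.pow_dvd_of_dvd_mul_left t hb
  rw [h3]
  exact ⟨g₂.coeff i, rfl⟩

/-- Key lemma for integral closedness of `CC`. -/
theorem dvd_of_integral_CC {x : F} (hx : IsIntegral S.CC x) {b : P} {g : P[X]}
    (h : S.φ b * x = S.ε g) (hdeg : g.natDegree < S.Φ.natDegree) (hb : S.ϖ ∣ b) :
    C S.ϖ ∣ g := by
  obtain ⟨p, hp, hpx⟩ := hx
  have hpx' : eval₂ S.CC.subtype x p = 0 := hpx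
  set β : S.CC := ⟨S.φ b, S.φ_mem_CC b⟩ with hβ
  set y : S.CC := ⟨S.ε g, S.ε_mem_CC g⟩ with hy
  have hq : eval₂ S.CC.subtype (S.CC.subtype β * x) (p.scaleRoots β) = 0 :=
    scaleRoots_eval₂_eq_zero S.CC.subtype hpx'
  have hq' : eval₂ S.CC.subtype (S.CC.subtype y) (p.scaleRoots β) = 0 := by
    have : S.CC.subtype β * x = S.CC.subtype y := h
    rw [← this]; exact hq
  have hq'' : (p.scaleRoots β).eval y = 0 := by
    apply Subtype.val_injective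
    have := hom_eval₂ (p.scaleRoots β) (RingHom.id S.CC) S.CC.subtype y
    rw [RingHom.comp_id] at this
    rw [← eval₂_id] 
    exact this.trans hq'
  have h2 : ((p.scaleRoots β).map S.ρ).eval (S.ρ y) = 0 := by
    have h5 := hom_eval₂ (p.scaleRoots β) (RingHom.id S.CC) S.ρ y
    rw [RingHom.comp_id, eval₂_id, hq'', map_zero] at h5
    rw [eval_map]; exact h5.symm
  have hρβ : S.ρ β = 0 := by
    rw [S.ρ_eq β (b := 1) S.prime.not_dvd_one (g := C b)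
      (by show S.φ 1 * S.φ b = eval₂ S.φ S.θ (C b); rw [eval₂_C, map_one, one_mul])]
    show eval₂ S.φ' S.θ' (C b) / _ = 0
    rw [eval₂_C]
    obtain ⟨c, rfl⟩ := hb
    rw [map_mul, S.φ'ϖ, zero_mul, zero_div]
  have hmap : (p.scaleRoots β).map S.ρ = X ^ p.natDegree := by
    ext i
    rw [coeff_map, coeff_scaleRoots, coeff_X_pow]
    by_cases hi : i = p.natDegree
    · subst hi
      rw [if_pos rfl, tsub_self, pow_zero, mul_one, hp.coeff_natDegree, map_one]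
    · rw [if_neg hi]
      rcases lt_or_gt_of_ne hi with hlt | hgt
      · rw [map_mul, map_pow, hρβ, zero_pow (by omega), mul_zero]
      · rw [coeff_eq_zero_of_natDegree_lt hgt, zero_mul, map_zero]
  rw [hmap, eval_pow, eval_X] at h2
  have h3 : S.ε' g = 0 := by
    have h4 : S.ρ y = 0 := by
      by_contra hne
      exact pow_ne_zero _ hne h2
    rw [← S.ρ_ε g]; exact h4
  exact S.indep g hdeg h3

theorem mem_CC_of_integral_CC_aux {x : F} (hx : IsIntegral S.CC x) {b' : P} (hb' : ¬ S.ϖ ∣ b') :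
    ∀ (e : ℕ) (g : P[X]), g.natDegree < S.Φ.natDegree → S.φ (S.ϖ ^ e * b') * x = S.ε g →
      x ∈ S.CC := by
  intro e
  induction e with
  | zero =>
    intro g _ h
    exact ⟨b', hb', g, by simpa using h⟩
  | succ e ih =>
    intro g hdeg h
    have hdvd : S.ϖ ∣ S.ϖ ^ (e + 1) * b' := dvd_mul_of_dvd_left (dvd_pow_self _ (by omega)) _
    obtain ⟨g₁, hg₁⟩ := S.dvd_of_integral_CC hx h hdeg hdvd
    have hdeg₁ : g₁.natDegree < S.Φ.natDegree := by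
      rw [hg₁, natDegree_C_mul S.ϖ_ne_zero] at hdeg; exact hdeg
    apply ih g₁ hdeg₁
    have e1 : S.ε g = S.φ S.ϖ * S.ε g₁ := by
      show eval₂ S.φ S.θ g = _
      rw [hg₁, eval₂_mul, eval₂_C]
    have : S.φ S.ϖ * (S.φ (S.ϖ ^ e * b') * x) = S.φ S.ϖ * S.ε g₁ := by
      rw [← e1, ← h, pow_succ]; simp only [map_mul, map_pow]; ring
    exact mul_left_cancel₀ S.φϖ this

/-- `CC` is integrally closed in `F`. -/
theorem mem_CC_of_integral_CC {x : F} (hx : IsIntegral S.CC x) : x ∈ S.CC := by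
  obtain ⟨b, hb0, g, hg⟩ := S.span x
  obtain ⟨g₁, hdeg, hg₁⟩ := S.exists_lt g
  obtain ⟨e, b', hb', rfl⟩ := WfDvdMonoid.max_power_factor' hb0 S.prime.not_isUnit
  exact S.mem_CC_of_integral_CC_aux hx hb' e g₁ hdeg (by rw [hg, hg₁])

/-- uniform denominators, general lattice version. -/
theorem exists_denom_gen (ψ : P →+* F) {ι : Type*} [Fintype ι] (e : ι → F)
    (hspan : ∀ x : F, ∃ d : P, ψ d ≠ 0 ∧ ∃ r : ι → P, ψ d * x = ∑ k, ψ (r k) * e k)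
    (T : Finset F) : ∃ d : P, ψ d ≠ 0 ∧ ∀ c : F → P,
      ∃ r : ι → P, ψ d * (∑ y ∈ T, ψ (c y) * y) = ∑ k, ψ (r k) * e k := by
  classical
  induction T using Finset.induction_on with
  | empty =>
    refine ⟨1, by rw [map_one]; exact one_ne_zero, fun _ => ⟨fun _ => 0, ?_⟩⟩
    simp
  | insert y₀ T hy₀ ih =>
    obtain ⟨d', hd', ih⟩ := ih
    obtain ⟨d₀, hd₀, r₀, hr₀⟩ := hspan y₀
    refine ⟨d₀ * d', by rw [map_mul]; exact mul_ne_zero hd₀ hd', fun c => ?_⟩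
    obtain ⟨r', hr'⟩ := ih c
    refine ⟨fun k => d' * c y₀ * r₀ k + d₀ * r' k, ?_⟩
    rw [Finset.sum_insert hy₀]
    have h1 : ψ (d₀ * d') * (ψ (c y₀) * y₀ + ∑ y ∈ T, ψ (c y) * y) =
        ψ (d' * c y₀) * (ψ d₀ * y₀) + ψ d₀ * (ψ d' * ∑ y ∈ T, ψ (c y) * y) := by
      simp only [map_mul]; ring
    rw [h1, hr₀, hr', Finset.mul_sum, Finset.mul_sum, ← Finset.sum_add_distrib]
    refine Finset.sum_congr rfl fun k _ => ?_
    simp only [map_mul, map_add]; ring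

/-- General Step 4: a second coefficient map `ψ : P →+* F` with values in `CC`, and a finite
family `e` spanning a `ψ(P)`-lattice which is saturated in `CC`.  If `x` is `ψ`-integral and
reduces to `0`, then `x / ϖ` is `ψ`-integral. -/
theorem integral_div_gen (ψ : P →+* F) (hψϖ : ψ S.ϖ = S.φ S.ϖ) (hψC : ∀ a, ψ a ∈ S.CC)
    {ι : Type*} [Fintype ι] (e : ι → F)
    (hsat : ∀ (t : ℕ) (r : ι → P) (y : F), y ∈ S.CC →
      S.φ S.ϖ ^ t * y = ∑ k, ψ (r k) * e k → ∀ k, S.ϖ ^ t ∣ r k)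
    (hspan : ∀ x : F, ∃ d : P, ψ d ≠ 0 ∧ ∃ r : ι → P, ψ d * x = ∑ k, ψ (r k) * e k)
    {x : F} (hx : ψ.IsIntegralElem x) (hxC : x ∈ S.CC) (hρ : S.ρ ⟨x, hxC⟩ = 0) :
    ∃ x₁ : F, x = S.φ S.ϖ * x₁ ∧ ψ.IsIntegralElem x₁ := by
  classical
  obtain ⟨⟨x₁, hx₁C⟩, hx₁⟩ := S.ker_ρ ⟨x, hxC⟩ hρ
  replace hx₁ : x = S.φ S.ϖ * x₁ := hx₁
  refine ⟨x₁, hx₁, ?_⟩
  let _ : Algebra P F := ψ.toAlgebra
  have hsmul : ∀ (a : P) (y : F), a • y = ψ a * y := fun a y => by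
    rw [Algebra.smul_def]; rfl
  have haeval : ∀ (y : F) (c : P[X]), aeval y c = eval₂ ψ y c := fun y c => rfl
  have hxi : IsIntegral P x := hx
  obtain ⟨T, hT⟩ := hxi.fg_adjoin_singleton
  obtain ⟨d, hd0, hd⟩ := exists_denom_gen ψ e hspan T
  have hden : ∀ y ∈ Algebra.adjoin P {x}, ∃ r : ι → P, ψ d * y = ∑ k, ψ (r k) * e k := by
    intro y hy
    have hy' : y ∈ Submodule.span P (T : Set F) := by rw [hT]; exact hy
    obtain ⟨c, -, hc⟩ := Submodule.mem_span_finset.mp hy'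
    obtain ⟨r, hr⟩ := hd c
    refine ⟨r, ?_⟩
    rw [← hr, ← hc]
    simp only [hsmul]
  let ψ' : (ι → P) →ₗ[P] F :=
    (LinearMap.mulLeft P ((ψ d)⁻¹)) ∘ₗ (Fintype.linearCombination P e)
  have hψ' : ∀ r : ι → P, ψ' r = (ψ d)⁻¹ * ∑ k, ψ (r k) * e k := fun r => by
    show (ψ d)⁻¹ * (Fintype.linearCombination P e r) = _
    rw [Fintype.linearCombination_apply]
    simp only [hsmul]
  have hNfg : (LinearMap.range ψ').FG := by
    rw [LinearMap.range_eq_map]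
    exact Submodule.FG.map _ Module.Finite.fg_top
  have hle : Subalgebra.toSubmodule (Algebra.adjoin P {x₁}) ≤ LinearMap.range ψ' := by
    intro z hz
    rw [Subalgebra.mem_toSubmodule, Algebra.adjoin_singleton_eq_range_aeval] at hz
    obtain ⟨c, rfl⟩ := hz
    show aeval x₁ c ∈ LinearMap.range ψ'
    rw [haeval]
    set z := eval₂ ψ x₁ c with hz
    set t := c.natDegree with ht
    have h1 : eval₂ ψ x (c.scaleRoots S.ϖ) = S.φ S.ϖ ^ t * z := by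
      rw [hx₁, ← hψϖ]; exact scaleRoots_eval₂_mul ψ x₁ S.ϖ
    have h2 : eval₂ ψ x (c.scaleRoots S.ϖ) ∈ Algebra.adjoin P {x} := by
      rw [← haeval]; exact aeval_mem_adjoin_singleton P x
    obtain ⟨r, hr⟩ := hden _ h2
    have hzC : z ∈ S.CC := by
      rw [hz, eval₂_eq_sum_range]
      exact Subring.sum_mem _ fun i _ => Subring.mul_mem _ (hψC _) (Subring.pow_mem _ hx₁C i)
    have hyC : ψ d * z ∈ S.CC := Subring.mul_mem _ (hψC d) hzC
    have hy_eq : S.φ S.ϖ ^ t * (ψ d * z) = ∑ k, ψ (r k) * e k := by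
      rw [← hr, h1]; ring
    have hdiv := hsat t r _ hyC hy_eq
    choose r' hr' using hdiv
    have hpow : S.φ S.ϖ ^ t ≠ 0 := pow_ne_zero _ S.φϖ
    have hy_eq' : ψ d * z = ∑ k, ψ (r' k) * e k := by
      apply mul_left_cancel₀ hpow
      rw [hy_eq, Finset.mul_sum]
      refine Finset.sum_congr rfl fun k _ => ?_
      rw [hr' k, map_mul, map_pow, hψϖ]; ring
    refine ⟨r', ?_⟩
    rw [hψ', ← hy_eq']
    field_simp
  have hfg := Submodule.FG.of_le hNfg hle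
  exact IsIntegral.of_mem_of_fg _ hfg _ (Algebra.subset_adjoin rfl)

end Setup

end Fermat.Agent.S28.ChartRed
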