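import Mathlib
import Fermat.Prelude.Def_GaloisRep_Flat

/-!
# S28 / ChartRed: the base ring `ℤ_(ℓ) = GaloisRep.ratLocalizedAt ℓ`

Small library: `ℤ_(ℓ)` is the localisation of `ℤ` at the integers prime to `ℓ`, it is Noetherian,
there is a reduction map `red0 : ℤ_(ℓ) →+* ZMod ℓ` with kernel `(ℓ)`, and `ℓ` is a prime element.
-/

set_option autoImplicit false

namespace Fermat.Agent.S28.ChartRed

open Polynomial

set_option linter.unusedSectionVars false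

variable (ℓ : ℕ) [hℓ : Fact ℓ.Prime]

/-- The integers prime to `ℓ`. -/
def primeTo : Submonoid ℤ where
  carrier := {m | ¬ (ℓ : ℤ) ∣ m}
  one_mem' := by
    intro h
    have := Int.eq_one_of_dvd_one (by positivity) h
    have h2 := hℓ.out.one_lt
    omega
  mul_mem' := by
    intro a b ha hb h
    rcases (Nat.prime_iff_prime_int.mp hℓ.out).dvd_or_dvd h with h | h
    · exact ha h
    · exact hb h

theorem mem_primeTo {m : ℤ} : m ∈ primeTo ℓ ↔ ¬ (ℓ : ℤ) ∣ m := Iff.rfl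

theorem intCast_mem (m : ℤ) : (m : ℚ) ∈ GaloisRep.ratLocalizedAt ℓ := by
  show ((m : ℚ)).den.Coprime ℓ
  simp

theorem coe_intCast (m : ℤ) : (((m : ℤ) : ↥(GaloisRep.ratLocalizedAt ℓ)) : ℚ) = (m : ℚ) := by
  simp

theorem coe_natCast (m : ℕ) : (((m : ℕ) : ↥(GaloisRep.ratLocalizedAt ℓ)) : ℚ) = (m : ℚ) := by
  simp

theorem mem_iff {q : ℚ} : q ∈ GaloisRep.ratLocalizedAt ℓ ↔ q.den.Coprime ℓ := Iff.rfl

theorem inv_mem_of_primeTo {m : ℤ} (hm : m ∈ primeTo ℓ) :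
    ((m : ℚ))⁻¹ ∈ GaloisRep.ratLocalizedAt ℓ := by
  rw [mem_iff]
  have hm0 : m ≠ 0 := by
    rintro rfl
    exact hm (dvd_zero _)
  have hcop : Nat.Coprime m.natAbs ℓ := by
    rw [Nat.coprime_comm, Nat.Prime.coprime_iff_not_dvd hℓ.out]
    intro h
    exact hm (Int.natCast_dvd.mpr h)
  have hden : ((m : ℚ))⁻¹.den ∣ m.natAbs := by
    have h1 : ((m : ℚ))⁻¹ = Rat.divInt 1 m := by
      rw [Rat.divInt_eq_div]; simp
    rw [h1]
    have := Rat.den_dvd 1 m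
    exact Int.natCast_dvd.mp this
  exact Nat.Coprime.coprime_dvd_left hden hcop

theorem den_mem_primeTo (a : ↥(GaloisRep.ratLocalizedAt ℓ)) : ((a : ℚ).den : ℤ) ∈ primeTo ℓ := by
  rw [mem_primeTo]
  intro h
  have h1 : ℓ ∣ (a : ℚ).den := Int.natCast_dvd_natCast.mp h
  have h2 : (a : ℚ).den.Coprime ℓ := a.2
  have h3 := Nat.Coprime.eq_one_of_dvd h2.symm h1
  have := hℓ.out.one_lt
  omega

instance isLocalization : IsLocalization (primeTo ℓ) ↥(GaloisRep.ratLocalizedAt ℓ) where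
  map_units := by
    rintro ⟨m, hm⟩
    refine isUnit_iff_exists_inv.mpr ⟨⟨_, inv_mem_of_primeTo ℓ hm⟩, ?_⟩
    apply Subtype.ext
    have hm0 : (m : ℚ) ≠ 0 := by
      intro h
      have : m = 0 := by exact_mod_cast h
      subst this
      exact hm (dvd_zero _)
    simp [hm0]
  surj := by
    intro a
    refine ⟨⟨(a : ℚ).num, ⟨((a : ℚ).den : ℤ), den_mem_primeTo ℓ a⟩⟩, ?_⟩
    apply Subtype.ext
    simp [Rat.mul_den_eq_num]
  exists_of_eq := by
    intro x y h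
    refine ⟨1, ?_⟩
    have h1 := congrArg (Subtype.val) h
    simp only [algebraMap_int_eq, eq_intCast, coe_intCast] at h1
    have : x = y := by exact_mod_cast h1
    simp [this]

instance isNoetherianRing : IsNoetherianRing ↥(GaloisRep.ratLocalizedAt ℓ) :=
  IsLocalization.isNoetherianRing (primeTo ℓ) _ inferInstance

/-- Reduction `ℤ_(ℓ) → 𝔽_ℓ`. -/
noncomputable def red0 : ↥(GaloisRep.ratLocalizedAt ℓ) →+* ZMod ℓ :=
  IsLocalization.lift (M := primeTo ℓ) (g := Int.castRingHom (ZMod ℓ)) (by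
    rintro ⟨m, hm⟩
    rw [mem_primeTo] at hm
    have : ((m : ℤ) : ZMod ℓ) ≠ 0 := by
      intro h
      exact hm ((ZMod.intCast_zmod_eq_zero_iff_dvd m ℓ).mp h)
    exact isUnit_iff_ne_zero.mpr this)

theorem red0_intCast (m : ℤ) : red0 ℓ (m : ↥(GaloisRep.ratLocalizedAt ℓ)) = (m : ZMod ℓ) := by
  simp

theorem red0_eq_zero_iff (a : ↥(GaloisRep.ratLocalizedAt ℓ)) :
    red0 ℓ a = 0 ↔ (ℓ : ↥(GaloisRep.ratLocalizedAt ℓ)) ∣ a := by
  constructor
  · intro h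
    -- a * den = num
    have hmul : a * (((a : ℚ).den : ℤ) : ↥(GaloisRep.ratLocalizedAt ℓ)) =
        (((a : ℚ).num : ℤ) : ↥(GaloisRep.ratLocalizedAt ℓ)) := by
      apply Subtype.ext
      simp [Rat.mul_den_eq_num]
    have h2 : red0 ℓ ((((a : ℚ).num : ℤ) : ↥(GaloisRep.ratLocalizedAt ℓ))) = 0 := by
      rw [← hmul, map_mul, h, zero_mul]
    rw [red0_intCast] at h2
    obtain ⟨c, hc⟩ := (ZMod.intCast_zmod_eq_zero_iff_dvd _ ℓ).mp h2
    -- a = ℓ * (c / den)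
    have hden := den_mem_primeTo ℓ a
    refine ⟨(c : ↥(GaloisRep.ratLocalizedAt ℓ)) * ⟨_, inv_mem_of_primeTo ℓ hden⟩, ?_⟩
    apply Subtype.ext
    have hd0 : ((a : ℚ).den : ℚ) ≠ 0 := by exact_mod_cast (a : ℚ).den_nz
    have hnum : ((a : ℚ).num : ℚ) = (ℓ : ℚ) * (c : ℚ) := by exact_mod_cast hc
    have ha : (a : ℚ) = ((a : ℚ).num : ℚ) / ((a : ℚ).den : ℚ) := (Rat.num_div_den _).symm
    simp only [Subring.coe_mul, coe_natCast, coe_intCast, Int.cast_natCast]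
    calc (a : ℚ) = ((a : ℚ).num : ℚ) / ((a : ℚ).den : ℚ) := ha
      _ = ((ℓ : ℚ) * (c : ℚ)) / ((a : ℚ).den : ℚ) := by rw [hnum]
      _ = (ℓ : ℚ) * ((c : ℚ) * (((a : ℚ).den : ℚ))⁻¹) := by ring
  · rintro ⟨c, rfl⟩
    rw [map_mul, map_natCast, ZMod.natCast_self, zero_mul]

theorem natCast_ne_zero' : (ℓ : ↥(GaloisRep.ratLocalizedAt ℓ)) ≠ 0 := by
  intro h
  have := congrArg Subtype.val h
  simp only [coe_natCast, ZeroMemClass.coe_zero, Nat.cast_eq_zero] at this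
  exact hℓ.out.ne_zero this

theorem red0_surjective : Function.Surjective (red0 ℓ) := by
  intro x
  refine ⟨((ZMod.val x : ℕ) : ℤ), ?_⟩
  rw [red0_intCast]
  simp

theorem prime_l : Prime (ℓ : ↥(GaloisRep.ratLocalizedAt ℓ)) := by
  rw [← Ideal.span_singleton_prime (natCast_ne_zero' ℓ)]
  have hker : RingHom.ker (red0 ℓ) = Ideal.span {(ℓ : ↥(GaloisRep.ratLocalizedAt ℓ))} := by
    ext a
    rw [RingHom.mem_ker, red0_eq_zero_iff, Ideal.mem_span_singleton]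
  rw [← hker]
  exact RingHom.ker_isPrime _

end Fermat.Agent.S28.ChartRed
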