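import Mathlib
import Fermat.Prelude.Def_ModularCurve_IgusaScheme
import Fermat.Prelude.Def_ModularCurve_X0ModL
import Fermat.Agent.S28.ChartRedZl
import Fermat.Agent.S28.ChartRed

/-!
# S28 / ChartRedInst: the chart reduction on the Prelude charts

From a modular polynomial `Φ` over `ℤ_(ℓ)[X]`, independence of `1, θ̄, …, θ̄^(n-1)` over
`𝔽_ℓ[j̄]` and spanning over `ℚ(j)`, we construct ring homs
`ρFin : chartAlgFin N ℓ →+* 𝔽_ℓ((q))`, `ρInf : chartAlgInf N ℓ →+* 𝔽_ℓ((q))` with kernel `(ℓ)`.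
-/

set_option autoImplicit false
set_option linter.unusedSectionVars false

namespace Fermat.Agent.S28.ChartRed

open Polynomial ModularCurve ModularCurve.IgusaScheme

noncomputable section

variable (N : ℕ) [NeZero N] (ℓ : ℕ) [hℓ : Fact ℓ.Prime]

/-- ring homs out of `ℤ_(ℓ)` are unique -/
theorem ringHom_ext_Zl {R : Type*} [Semiring R] (f g : ↥(GaloisRep.ratLocalizedAt ℓ) →+* R) :
    f = g :=
  IsLocalization.ringHom_ext (primeTo ℓ) (RingHom.ext_int _ _)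

/-- coefficient embedding `ℤ_(ℓ)((q)) → ℚ((q))` -/
def ιI : LaurentSeries ↥(GaloisRep.ratLocalizedAt ℓ) →+* LaurentSeries ℚ :=
  coeffMap (GaloisRep.ratLocalizedAt ℓ).subtype

/-- coefficient reduction `ℤ_(ℓ)((q)) → 𝔽_ℓ((q))` -/
def rI : LaurentSeries ↥(GaloisRep.ratLocalizedAt ℓ) →+* LaurentSeries (ZMod ℓ) :=
  coeffMap (red0 ℓ)

theorem ιI_injective : Function.Injective (ιI ℓ) := by
  intro x y h
  ext k
  have := congrArg (fun z => z.coeff k) h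
  simp only [ιI, coeffMap_coeff] at this
  exact this

/-- `ℤ_(ℓ)[X] → ℤ_(ℓ)((q))`, `X ↦ j` -/
def φI : Polynomial ↥(GaloisRep.ratLocalizedAt ℓ) →+* LaurentSeries ↥(GaloisRep.ratLocalizedAt ℓ) :=
  eval₂RingHom (HahnSeries.C : ↥(GaloisRep.ratLocalizedAt ℓ) →+* _)
    (jqModC ↥(GaloisRep.ratLocalizedAt ℓ))

/-- `ℤ_(ℓ)[X] → ℚ((q))`, `X ↦ j` -/
def φL : Polynomial ↥(GaloisRep.ratLocalizedAt ℓ) →+* LaurentSeries ℚ := (ιI ℓ).comp (φI ℓ)

/-- `ℤ_(ℓ)[X] → 𝔽_ℓ((q))`, `X ↦ j̄` -/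
def φD : Polynomial ↥(GaloisRep.ratLocalizedAt ℓ) →+* LaurentSeries (ZMod ℓ) := (rI ℓ).comp (φI ℓ)

@[simp] theorem φI_X : φI ℓ X = jqModC ↥(GaloisRep.ratLocalizedAt ℓ) := by
  simp [φI]

@[simp] theorem φI_C (a : ↥(GaloisRep.ratLocalizedAt ℓ)) : φI ℓ (C a) = HahnSeries.C a := by
  simp [φI]

theorem φL_X : φL ℓ X = jq := by
  show ιI ℓ (φI ℓ X) = jq
  rw [φI_X, ιI, coeffMap_jqModC, jqModC_rat]

theorem φD_X : φD ℓ X = jqModC (ZMod ℓ) := by
  show rI ℓ (φI ℓ X) = _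
  rw [φI_X, rI, coeffMap_jqModC]

theorem φD_C (a : ↥(GaloisRep.ratLocalizedAt ℓ)) : φD ℓ (C a) = HahnSeries.C (red0 ℓ a) := by
  show rI ℓ (φI ℓ (C a)) = _
  rw [φI_C, rI, HahnSeries.C_apply, HahnSeries.C_apply, coeffMap_single]

theorem φD_Cl : φD ℓ (C (ℓ : ↥(GaloisRep.ratLocalizedAt ℓ))) = 0 := by
  rw [φD_C, map_natCast, ZMod.natCast_self, map_zero]

/-- `φD` is evaluation at `j̄` of the reduced polynomial. -/
theorem φD_eq (c : Polynomial ↥(GaloisRep.ratLocalizedAt ℓ)) :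
    φD ℓ c = aeval (jqModC (ZMod ℓ)) (c.map (red0 ℓ)) := by
  have h : φD ℓ = ((aeval (jqModC (ZMod ℓ)) : (ZMod ℓ)[X] →ₐ[ZMod ℓ] _).toRingHom).comp
      (mapRingHom (red0 ℓ)) := by
    refine Polynomial.ringHom_ext' (ringHom_ext_Zl ℓ _ _) ?_
    simp [φD_X]
  rw [h]; rfl

/-- the element `j_N` of the function field -/
def θF : ↥(modularFunctionFieldFull N) := ⟨jqN N, jqd_mem_full N dvd_rfl⟩

/-- `ℤ_(ℓ)[X] → F`, `X ↦ j` -/
def φF : Polynomial ↥(GaloisRep.ratLocalizedAt ℓ) →+* ↥(modularFunctionFieldFull N) :=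
  (aeval (jFull N) : Polynomial ↥(GaloisRep.ratLocalizedAt ℓ) →ₐ[_] _).toRingHom

theorem φF_X : φF N ℓ X = jFull N := by simp [φF]

theorem φF_C (a : ↥(GaloisRep.ratLocalizedAt ℓ)) :
    φF N ℓ (C a) = algebraMap _ ↥(modularFunctionFieldFull N) a := by simp [φF]

/-- the coercion `F → ℚ((q))` as a ring hom -/
def coeF : ↥(modularFunctionFieldFull N) →+* LaurentSeries ℚ where
  toFun := Subtype.val
  map_one' := rfl
  map_mul' _ _ := rfl
  map_zero' := rfl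
  map_add' _ _ := rfl

@[simp] theorem coeF_apply (x : ↥(modularFunctionFieldFull N)) : coeF N x = (x : LaurentSeries ℚ) :=
  rfl

theorem coeF_injective : Function.Injective (coeF N) := Subtype.val_injective

theorem coeF_comp_φF : (coeF N).comp (φF N ℓ) = φL ℓ := by
  refine Polynomial.ringHom_ext' (ringHom_ext_Zl ℓ _ _) ?_
  simp [φF_X, φL_X]

/-- compatibility of `φF` with `φL`. -/
theorem coe_φF (b : Polynomial ↥(GaloisRep.ratLocalizedAt ℓ)) :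
    ((φF N ℓ b : ↥(modularFunctionFieldFull N)) : LaurentSeries ℚ) = φL ℓ b :=
  congrArg (fun f => f b) (coeF_comp_φF N ℓ)

theorem coe_θF : ((θF N : ↥(modularFunctionFieldFull N)) : LaurentSeries ℚ) = jqN N := rfl

theorem ιI_θ : ιI ℓ (jqNModC ↥(GaloisRep.ratLocalizedAt ℓ) N) = jqN N := by
  rw [ιI, coeffMap_jqNModC, jqNModC_rat]

theorem rI_θ : rI ℓ (jqNModC ↥(GaloisRep.ratLocalizedAt ℓ) N) = jqNModC (ZMod ℓ) N := by
  rw [rI, coeffMap_jqNModC]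

/-- evaluation in `F` versus evaluation in `ℚ((q))`. -/
theorem coe_eval₂ (g : Polynomial (Polynomial ↥(GaloisRep.ratLocalizedAt ℓ))) :
    ((eval₂ (φF N ℓ) (θF N) g : ↥(modularFunctionFieldFull N)) : LaurentSeries ℚ) =
      eval₂ (φL ℓ) (jqN N) g := by
  have h := hom_eval₂ g (φF N ℓ) (coeF N) (θF N)
  rw [coeF_comp_φF] at h
  exact h

/-- evaluation in `ℚ((q))` comes from `ℤ_(ℓ)((q))`. -/
theorem eval₂_φL (g : Polynomial (Polynomial ↥(GaloisRep.ratLocalizedAt ℓ))) :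
    eval₂ (φL ℓ) (jqN N) g =
      ιI ℓ (eval₂ (φI ℓ) (jqNModC ↥(GaloisRep.ratLocalizedAt ℓ) N) g) := by
  rw [hom_eval₂, ιI_θ]; rfl

theorem eval₂_φD (g : Polynomial (Polynomial ↥(GaloisRep.ratLocalizedAt ℓ))) :
    eval₂ (φD ℓ) (jqNModC (ZMod ℓ) N) g =
      rI ℓ (eval₂ (φI ℓ) (jqNModC ↥(GaloisRep.ratLocalizedAt ℓ) N) g) := by
  rw [hom_eval₂, rI_θ]; rfl

/-- a relation in `ℚ((q))` reduces to a relation in `𝔽_ℓ((q))`. -/
theorem ker_aux (g : Polynomial (Polynomial ↥(GaloisRep.ratLocalizedAt ℓ)))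
    (hg : eval₂ (φL ℓ) (jqN N) g = 0) : eval₂ (φD ℓ) (jqNModC (ZMod ℓ) N) g = 0 := by
  rw [eval₂_φL] at hg
  have h2 := ιI_injective ℓ (hg.trans (map_zero _).symm)
  rw [eval₂_φD, h2, map_zero]

/-- independence mod `ℓ` in the divisibility form. -/
theorem indep_aux (n : ℕ)
    (hind : ∀ a : Fin n → Polynomial (ZMod ℓ),
      (∑ i, aeval (jqModC (ZMod ℓ)) (a i) * (jqNModC (ZMod ℓ) N) ^ (i : ℕ) = 0) → ∀ i, a i = 0)
    (g : Polynomial (Polynomial ↥(GaloisRep.ratLocalizedAt ℓ))) (hdeg : g.natDegree < n)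
    (hg : eval₂ (φD ℓ) (jqNModC (ZMod ℓ) N) g = 0) :
    C (C (ℓ : ↥(GaloisRep.ratLocalizedAt ℓ))) ∣ g := by
  have hsum : eval₂ (φD ℓ) (jqNModC (ZMod ℓ) N) g =
      ∑ i : Fin n, aeval (jqModC (ZMod ℓ)) ((g.coeff i).map (red0 ℓ)) *
        (jqNModC (ZMod ℓ) N) ^ (i : ℕ) := by
    rw [eval₂_eq_sum_range' _ hdeg, Finset.sum_range]
    refine Finset.sum_congr rfl fun i _ => ?_
    rw [φD_eq]
  rw [hsum] at hg
  have h0 := hind (fun i => (g.coeff i).map (red0 ℓ)) hg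
  rw [C_dvd_iff_dvd_coeff]
  intro i
  by_cases hi : i < n
  · rw [C_dvd_iff_dvd_coeff]
    intro k
    have h1 := congrArg (fun p => p.coeff k) (h0 ⟨i, hi⟩)
    simp only [coeff_map, coeff_zero] at h1
    exact (red0_eq_zero_iff ℓ _).mp h1
  · rw [coeff_eq_zero_of_natDegree_lt (lt_of_lt_of_le hdeg (not_lt.mp hi))]
    exact dvd_zero _

theorem φL_Cl : φL ℓ (C (ℓ : ↥(GaloisRep.ratLocalizedAt ℓ))) = ((ℓ : ℕ) : LaurentSeries ℚ) := by
  have h : (C (ℓ : ↥(GaloisRep.ratLocalizedAt ℓ)) : Polynomial ↥(GaloisRep.ratLocalizedAt ℓ)) =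
      ((ℓ : ℕ) : Polynomial ↥(GaloisRep.ratLocalizedAt ℓ)) := map_natCast C ℓ
  rw [h, map_natCast]

theorem natCast_LS_ne_zero : ((ℓ : ℕ) : LaurentSeries ℚ) ≠ 0 := by
  intro h3
  have h4 : (HahnSeries.C ((ℓ : ℕ) : ℚ) : LaurentSeries ℚ) = HahnSeries.C 0 := by
    rw [map_natCast, map_zero]; exact h3
  have h5 := HahnSeries.C_injective h4
  exact hℓ.out.ne_zero (Nat.cast_eq_zero.mp h5)

/-- independence in characteristic `0`, from independence mod `ℓ`. -/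
theorem indep0 (n : ℕ)
    (hind : ∀ a : Fin n → Polynomial (ZMod ℓ),
      (∑ i, aeval (jqModC (ZMod ℓ)) (a i) * (jqNModC (ZMod ℓ) N) ^ (i : ℕ) = 0) → ∀ i, a i = 0)
    (g : Polynomial (Polynomial ↥(GaloisRep.ratLocalizedAt ℓ))) (hdeg : g.natDegree < n)
    (hg : eval₂ (φL ℓ) (jqN N) g = 0) : g = 0 := by
  by_contra hne
  have hp : Prime (C (C (ℓ : ↥(GaloisRep.ratLocalizedAt ℓ))) :
      Polynomial (Polynomial ↥(GaloisRep.ratLocalizedAt ℓ))) :=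
    Polynomial.prime_C_iff.mpr (Polynomial.prime_C_iff.mpr (prime_l ℓ))
  obtain ⟨m, g', hnd, hgg'⟩ := WfDvdMonoid.max_power_factor' hne hp.not_isUnit
  have hdeg' : g'.natDegree < n := by
    rw [hgg', ← C_pow, natDegree_C_mul (pow_ne_zero _ (Polynomial.C_ne_zero.mpr
      (natCast_ne_zero' ℓ)))] at hdeg
    exact hdeg
  have h1 : ((ℓ : ℕ) : LaurentSeries ℚ) ^ m * eval₂ (φL ℓ) (jqN N) g' = 0 := by
    rw [← φL_Cl, ← hg, hgg', eval₂_mul, eval₂_pow, eval₂_C]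
  have h2 : eval₂ (φL ℓ) (jqN N) g' = 0 := by
    rcases mul_eq_zero.mp h1 with h | h
    · exact absurd h (pow_ne_zero m (natCast_LS_ne_zero (ℓ := ℓ)))
    · exact h
  exact hnd (indep_aux N ℓ n hind g' hdeg' (ker_aux N ℓ g' h2))

/-- The input of the chart reduction (from the core `A7` and from `B1`). -/
structure Input where
  Φ : Polynomial (Polynomial ↥(GaloisRep.ratLocalizedAt ℓ))
  monic : Φ.Monic
  root : eval₂ (φL ℓ) (jqN N) Φ = 0
  indep : ∀ a : Fin Φ.natDegree → Polynomial (ZMod ℓ),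
    (∑ i, aeval (jqModC (ZMod ℓ)) (a i) * (jqNModC (ZMod ℓ) N) ^ (i : ℕ) = 0) → ∀ i, a i = 0
  span : ∀ x ∈ modularFunctionFieldFull N, ∃ b : Polynomial ↥(GaloisRep.ratLocalizedAt ℓ),
    b ≠ 0 ∧ ∃ g : Polynomial (Polynomial ↥(GaloisRep.ratLocalizedAt ℓ)),
      φL ℓ b * x = eval₂ (φL ℓ) (jqN N) g

variable {N ℓ}

theorem natCast_FF_ne_zero : ((ℓ : ℕ) : ↥(modularFunctionFieldFull N)) ≠ 0 := by
  intro h
  have h2 : ((((ℓ : ℕ) : ↥(modularFunctionFieldFull N))) : LaurentSeries ℚ) = 0 := by rw [h]; rfl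
  have h3 : ((ℓ : ℕ) : LaurentSeries ℚ) = 0 := by
    rw [← h2]; simp
  have h4 : (HahnSeries.C ((ℓ : ℕ) : ℚ) : LaurentSeries ℚ) = HahnSeries.C 0 := by
    rw [map_natCast, map_zero]; exact h3
  have h5 := HahnSeries.C_injective h4
  exact hℓ.out.ne_zero (Nat.cast_eq_zero.mp h5)

theorem φF_Cl : φF N ℓ (C (ℓ : ↥(GaloisRep.ratLocalizedAt ℓ))) =
    ((ℓ : ℕ) : ↥(modularFunctionFieldFull N)) := by
  rw [φF_C, map_natCast]

/-- The abstract set-up attached to an input. -/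
def Input.setup (I : Input N ℓ) :
    Setup (Polynomial ↥(GaloisRep.ratLocalizedAt ℓ)) ↥(modularFunctionFieldFull N)
      (LaurentSeries (ZMod ℓ)) where
  ϖ := C (ℓ : ↥(GaloisRep.ratLocalizedAt ℓ))
  prime := Polynomial.prime_C_iff.mpr (prime_l ℓ)
  φ := φF N ℓ
  φϖ := by rw [φF_Cl]; exact natCast_FF_ne_zero
  θ := θF N
  Φ := I.Φ
  monic := I.monic
  root := by
    apply coeF_injective N
    rw [coeF_apply, coe_eval₂, I.root, map_zero]
  φ' := φD ℓ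
  φ'ϖ := φD_Cl ℓ
  θ' := jqNModC (ZMod ℓ) N
  ker := by
    intro g hg
    have h1 : eval₂ (φL ℓ) (jqN N) g = 0 := by
      rw [← coe_eval₂, hg]; rfl
    exact ker_aux N ℓ g h1
  indep := fun g hdeg hg => indep_aux N ℓ I.Φ.natDegree I.indep g hdeg hg
  span := by
    intro x
    obtain ⟨b, hb, g, hg⟩ := I.span x x.2
    refine ⟨b, hb, g, ?_⟩
    apply coeF_injective N
    rw [map_mul, coeF_apply, coeF_apply, coeF_apply, coe_φF, coe_eval₂, hg]

section Integrality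

variable (w : ↥(modularFunctionFieldFull N))

/-- the surjection `ℤ_(ℓ)[X] → ℤ_(ℓ)[w]` -/
def toAdjoin : Polynomial ↥(GaloisRep.ratLocalizedAt ℓ) →+*
    ↥(Algebra.adjoin ↥(GaloisRep.ratLocalizedAt ℓ) ({w} : Set ↥(modularFunctionFieldFull N))) :=
  ((aeval w : Polynomial ↥(GaloisRep.ratLocalizedAt ℓ) →ₐ[_] _).codRestrict
    (Algebra.adjoin ↥(GaloisRep.ratLocalizedAt ℓ) {w})
    (fun _ => aeval_mem_adjoin_singleton _ w)).toRingHom

theorem toAdjoin_surjective : Function.Surjective (toAdjoin (ℓ := ℓ) w) := by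
  rintro ⟨y, hy⟩
  rw [Algebra.adjoin_singleton_eq_range_aeval] at hy
  obtain ⟨c, rfl⟩ := hy
  exact ⟨c, rfl⟩

theorem algebraMap_comp_toAdjoin :
    (algebraMap ↥(Algebra.adjoin ↥(GaloisRep.ratLocalizedAt ℓ)
      ({w} : Set ↥(modularFunctionFieldFull N))) ↥(modularFunctionFieldFull N)).comp
        (toAdjoin (ℓ := ℓ) w) =
      (aeval w : Polynomial ↥(GaloisRep.ratLocalizedAt ℓ) →ₐ[_] _).toRingHom := by
  ext <;> rfl

theorem isIntegralElem_of_isIntegral {x : ↥(modularFunctionFieldFull N)}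
    (h : IsIntegral ↥(Algebra.adjoin ↥(GaloisRep.ratLocalizedAt ℓ)
      ({w} : Set ↥(modularFunctionFieldFull N))) x) :
    ((aeval w : Polynomial ↥(GaloisRep.ratLocalizedAt ℓ) →ₐ[_] _).toRingHom).IsIntegralElem x := by
  obtain ⟨p, hp, hpx⟩ := h
  have hl : p ∈ Polynomial.lifts (toAdjoin (ℓ := ℓ) w) := by
    rw [Polynomial.mem_lifts]
    exact Polynomial.map_surjective _ (toAdjoin_surjective w) p
  obtain ⟨q, hq, -, hqm⟩ := Polynomial.lifts_and_degree_eq_and_monic hl hp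
  refine ⟨q, hqm, ?_⟩
  rw [← algebraMap_comp_toAdjoin, ← eval₂_map, hq]
  exact hpx

theorem isIntegral_of_isIntegralElem {x : ↥(modularFunctionFieldFull N)}
    (h : ((aeval w : Polynomial ↥(GaloisRep.ratLocalizedAt ℓ) →ₐ[_] _).toRingHom).IsIntegralElem
      x) :
    IsIntegral ↥(Algebra.adjoin ↥(GaloisRep.ratLocalizedAt ℓ)
      ({w} : Set ↥(modularFunctionFieldFull N))) x := by
  obtain ⟨q, hqm, hq⟩ := h
  refine ⟨q.map (toAdjoin (ℓ := ℓ) w), hqm.map _, ?_⟩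
  rw [eval₂_map, algebraMap_comp_toAdjoin]
  exact hq

end Integrality

section FinChart

variable (I : Input N ℓ)

theorem setup_φ : I.setup.φ = φF N ℓ := rfl

theorem mem_CC_of_mem_chartAlgFin (x : chartAlgFin N ℓ) :
    (x : ↥(modularFunctionFieldFull N)) ∈ I.setup.CC := by
  apply I.setup.mem_CC_of_integral
  exact isIntegralElem_of_isIntegral (jFull N) ((mem_chartAlg_iff N ℓ).mp x.2)

/-- the reduction map on the finite chart -/
def ρFin : chartAlgFin N ℓ →+* LaurentSeries (ZMod ℓ) :=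
  I.setup.ρ.comp (((chartAlgFin N ℓ).val.toRingHom).codRestrict I.setup.CC
    (mem_CC_of_mem_chartAlgFin I))

theorem ρFin_apply (x : chartAlgFin N ℓ) :
    ρFin I x = I.setup.ρ ⟨(x : ↥(modularFunctionFieldFull N)), mem_CC_of_mem_chartAlgFin I x⟩ :=
  rfl

theorem ρFin_ker (x : chartAlgFin N ℓ) (hx : ρFin I x = 0) :
    ∃ y : chartAlgFin N ℓ, x = (ℓ : chartAlgFin N ℓ) * y := by
  rw [ρFin_apply] at hx
  have hint : I.setup.φ.IsIntegralElem (x : ↥(modularFunctionFieldFull N)) :=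
    isIntegralElem_of_isIntegral (jFull N) ((mem_chartAlg_iff N ℓ).mp x.2)
  obtain ⟨x₁, hx₁, hint₁⟩ := I.setup.integral_div hint (mem_CC_of_mem_chartAlgFin I x) hx
  have hmem : x₁ ∈ chartAlgFin N ℓ :=
    (mem_chartAlg_iff N ℓ).mpr (isIntegral_of_isIntegralElem (jFull N) hint₁)
  refine ⟨⟨x₁, hmem⟩, Subtype.ext ?_⟩
  rw [hx₁]
  show I.setup.φ I.setup.ϖ * x₁ = _
  have : I.setup.φ I.setup.ϖ = ((ℓ : ℕ) : ↥(modularFunctionFieldFull N)) := φF_Cl
  rw [this]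
  simp

theorem ρFin_j : ρFin I (jChartFin N ℓ) = jqModC (ZMod ℓ) := by
  rw [ρFin_apply]
  have h1 : (⟨((jChartFin N ℓ : chartAlgFin N ℓ) : ↥(modularFunctionFieldFull N)),
      mem_CC_of_mem_chartAlgFin I (jChartFin N ℓ)⟩ : I.setup.CC) =
      ⟨I.setup.ε (C X), I.setup.ε_mem_CC (C X)⟩ := by
    apply Subtype.ext
    show jFull N = eval₂ (φF N ℓ) (θF N) (C X)
    rw [eval₂_C, φF_X]
  rw [h1, I.setup.ρ_ε]
  show eval₂ (φD ℓ) _ (C X) = _
  rw [eval₂_C, φD_X]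

theorem ρFin_j_ne_zero : ρFin I (jChartFin N ℓ) ≠ 0 := by
  rw [ρFin_j]
  exact jqModC_ne_zero_of_nontrivial (ZMod ℓ)

end FinChart

section InfChart

variable (I : Input N ℓ)

theorem jFull_eq_φF_X : jFull N = φF N ℓ X := (φF_X N ℓ).symm

theorem not_Cl_dvd_X : ¬ (C (ℓ : ↥(GaloisRep.ratLocalizedAt ℓ)) ∣ (X : Polynomial _)) := by
  intro h
  rw [C_dvd_iff_dvd_coeff] at h
  have h1 := h 1
  rw [coeff_X_one] at h1
  exact (prime_l ℓ).not_isUnit (isUnit_of_dvd_one h1)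

theorem jFull_mem_CC : jFull N ∈ I.setup.CC := by
  rw [jFull_eq_φF_X (ℓ := ℓ)]
  exact I.setup.φ_mem_CC X

theorem jInv_mem_CC : (jFull N)⁻¹ ∈ I.setup.CC := by
  refine ⟨X, not_Cl_dvd_X, 1, ?_⟩
  show φF N ℓ X * (jFull N)⁻¹ = eval₂ (φF N ℓ) (θF N) 1
  rw [eval₂_one, φF_X, mul_inv_cancel₀ (jFull_ne_zero N)]

theorem adjoin_le_CC {y : ↥(modularFunctionFieldFull N)}
    (hy : y ∈ Algebra.adjoin ↥(GaloisRep.ratLocalizedAt ℓ)
      ({(jFull N)⁻¹} : Set ↥(modularFunctionFieldFull N))) : y ∈ I.setup.CC := by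
  induction hy using Algebra.adjoin_induction with
  | mem z hz =>
    rw [Set.mem_singleton_iff] at hz
    rw [hz]; exact jInv_mem_CC I
  | algebraMap a =>
    rw [← φF_C N ℓ a]
    exact I.setup.φ_mem_CC (C a)
  | add z z' _ _ hz hz' => exact Subring.add_mem _ hz hz'
  | mul z z' _ _ hz hz' => exact Subring.mul_mem _ hz hz'

/-- the inclusion `ℤ_(ℓ)[1/j] → CC` -/
def adjoinToCC : ↥(Algebra.adjoin ↥(GaloisRep.ratLocalizedAt ℓ)
    ({(jFull N)⁻¹} : Set ↥(modularFunctionFieldFull N))) →+* I.setup.CC :=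
  ((Algebra.adjoin ↥(GaloisRep.ratLocalizedAt ℓ)
    ({(jFull N)⁻¹} : Set ↥(modularFunctionFieldFull N))).val.toRingHom).codRestrict I.setup.CC
      (fun y => adjoin_le_CC I y.2)

theorem isIntegral_CC_of_isIntegral_adjoin {x : ↥(modularFunctionFieldFull N)}
    (h : IsIntegral ↥(Algebra.adjoin ↥(GaloisRep.ratLocalizedAt ℓ)
      ({(jFull N)⁻¹} : Set ↥(modularFunctionFieldFull N))) x) : IsIntegral I.setup.CC x := by
  obtain ⟨p, hp, hpx⟩ := h
  refine ⟨p.map (adjoinToCC I), hp.map _, ?_⟩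
  rw [eval₂_map]
  exact hpx

theorem mem_CC_of_mem_chartAlgInf (x : chartAlgInf N ℓ) :
    (x : ↥(modularFunctionFieldFull N)) ∈ I.setup.CC :=
  I.setup.mem_CC_of_integral_CC
    (isIntegral_CC_of_isIntegral_adjoin I ((mem_chartAlg_iff N ℓ).mp x.2))

/-- the reduction map on the chart at infinity -/
def ρInf : chartAlgInf N ℓ →+* LaurentSeries (ZMod ℓ) :=
  I.setup.ρ.comp (((chartAlgInf N ℓ).val.toRingHom).codRestrict I.setup.CC
    (mem_CC_of_mem_chartAlgInf I))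

theorem ρInf_apply (x : chartAlgInf N ℓ) :
    ρInf I x = I.setup.ρ ⟨(x : ↥(modularFunctionFieldFull N)), mem_CC_of_mem_chartAlgInf I x⟩ :=
  rfl

/-- reflecting a polynomial exchanges evaluation at `s` and at `s⁻¹`. -/
theorem aeval_reflect {s : ↥(modularFunctionFieldFull N)} (hs : s ≠ 0) (K : ℕ)
    (f : Polynomial ↥(GaloisRep.ratLocalizedAt ℓ)) (hf : f.natDegree ≤ K) :
    aeval s (reflect K f) = s ^ K * aeval s⁻¹ f := by
  letI : Invertible s⁻¹ := invertibleOfNonzero (inv_ne_zero hs)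
  have h := eval₂_reflect_mul_pow (algebraMap ↥(GaloisRep.ratLocalizedAt ℓ)
    ↥(modularFunctionFieldFull N)) s⁻¹ K f hf
  rw [invOf_eq_inv, inv_inv] at h
  rw [aeval_def, aeval_def, ← h, inv_pow]
  field_simp

theorem C_dvd_of_C_dvd_reflect {a : ↥(GaloisRep.ratLocalizedAt ℓ)} {K : ℕ}
    {f : Polynomial ↥(GaloisRep.ratLocalizedAt ℓ)} (h : C a ∣ reflect K f) : C a ∣ f := by
  rw [C_dvd_iff_dvd_coeff] at h ⊢
  intro m
  have := h (revAt K m)
  rwa [coeff_reflect, revAt_invol] at this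


theorem sum_fin_natDegree_lt {R : Type*} [Semiring R] {n : ℕ} (hn : 0 < n) (c : Fin n → R) :
    (∑ k : Fin n, C (c k) * X ^ (k : ℕ)).natDegree < n := by
  by_cases h : (∑ k : Fin n, C (c k) * X ^ (k : ℕ)) = 0
  · rw [h, natDegree_zero]; exact hn
  · exact (natDegree_lt_iff_degree_lt h).mpr (degree_sum_fin_lt c)

theorem sum_fin_coeff {R : Type*} [Semiring R] {n : ℕ} (c : Fin n → R) (k : Fin n) :
    (∑ i : Fin n, C (c i) * X ^ (i : ℕ)).coeff (k : ℕ) = c k := by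
  rw [finsetSum_coeff]
  simp only [coeff_C_mul_X_pow]
  rw [Finset.sum_eq_single k]
  · simp
  · intro i _ hik
    rw [if_neg]
    intro h
    exact hik (Fin.ext h.symm)
  · intro h; exact absurd (Finset.mem_univ k) h

theorem eval₂_sum_fin {R S : Type*} [Semiring R] [CommSemiring S] {n : ℕ} (f : R →+* S) (x : S)
    (c : Fin n → R) :
    eval₂ f x (∑ k : Fin n, C (c k) * X ^ (k : ℕ)) = ∑ k : Fin n, f (c k) * x ^ (k : ℕ) := by
  rw [eval₂_finsetSum]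
  refine Finset.sum_congr rfl fun k _ => ?_
  rw [eval₂_mul, eval₂_C, eval₂_pow, eval₂_X]

/-- the coefficient map of the chart at infinity: `ℤ_(ℓ)[X] → F`, `X ↦ j⁻¹` -/
def ψF : Polynomial ↥(GaloisRep.ratLocalizedAt ℓ) →+* ↥(modularFunctionFieldFull N) :=
  (aeval (jFull N)⁻¹ : Polynomial ↥(GaloisRep.ratLocalizedAt ℓ) →ₐ[_] _).toRingHom

theorem ψF_apply (f : Polynomial ↥(GaloisRep.ratLocalizedAt ℓ)) :
    ψF (N := N) (ℓ := ℓ) f = aeval (jFull N)⁻¹ f := rfl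

theorem φF_apply (f : Polynomial ↥(GaloisRep.ratLocalizedAt ℓ)) :
    φF N ℓ f = aeval (jFull N) f := rfl

/-- `φF (reflect K f) = j ^ K * ψF f` -/
theorem φF_reflect (K : ℕ) (f : Polynomial ↥(GaloisRep.ratLocalizedAt ℓ)) (hf : f.natDegree ≤ K) :
    φF N ℓ (reflect K f) = jFull N ^ K * ψF (N := N) (ℓ := ℓ) f := by
  rw [φF_apply, ψF_apply]
  exact aeval_reflect (jFull_ne_zero N) K f hf

/-- `ψF (reflect K f) = j⁻¹ ^ K * φF f` -/
theorem ψF_reflect (K : ℕ) (f : Polynomial ↥(GaloisRep.ratLocalizedAt ℓ)) (hf : f.natDegree ≤ K) :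
    ψF (N := N) (ℓ := ℓ) (reflect K f) = (jFull N)⁻¹ ^ K * φF N ℓ f := by
  rw [φF_apply, ψF_apply]
  have h := aeval_reflect (inv_ne_zero (jFull_ne_zero N)) K f hf
  rw [inv_inv] at h
  exact h

theorem ψF_ϖ : ψF (N := N) (ℓ := ℓ) I.setup.ϖ = I.setup.φ I.setup.ϖ := by
  show ψF (N := N) (ℓ := ℓ) (C (ℓ : ↥(GaloisRep.ratLocalizedAt ℓ))) =
    φF N ℓ (C (ℓ : ↥(GaloisRep.ratLocalizedAt ℓ)))
  rw [ψF_apply, φF_apply, aeval_C, aeval_C]

theorem ψF_mem_CC (a : Polynomial ↥(GaloisRep.ratLocalizedAt ℓ)) :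
    ψF (N := N) (ℓ := ℓ) a ∈ I.setup.CC :=
  adjoin_le_CC I (aeval_mem_adjoin_singleton _ _)

theorem setup_natDegree : I.setup.Φ.natDegree = I.Φ.natDegree := rfl

/-- saturation of the lattice `∑ ℤ_(ℓ)[1/j] θ^k` in `CC` -/
theorem hsat (t : ℕ) (r : Fin I.Φ.natDegree → Polynomial ↥(GaloisRep.ratLocalizedAt ℓ))
    (y : ↥(modularFunctionFieldFull N)) (hy : y ∈ I.setup.CC)
    (h : I.setup.φ I.setup.ϖ ^ t * y =
      ∑ k, ψF (N := N) (ℓ := ℓ) (r k) * θF N ^ (k : ℕ)) :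
    ∀ k, I.setup.ϖ ^ t ∣ r k := by
  classical
  set K : ℕ := Finset.univ.sup (fun k => (r k).natDegree) with hK
  have hle : ∀ k, (r k).natDegree ≤ K := fun k =>
    Finset.le_sup (f := fun k => (r k).natDegree) (Finset.mem_univ k)
  set G : Polynomial (Polynomial ↥(GaloisRep.ratLocalizedAt ℓ)) :=
    ∑ k : Fin I.Φ.natDegree, C (reflect K (r k)) * X ^ (k : ℕ) with hG
  have hdeg : G.natDegree < I.setup.Φ.natDegree :=
    sum_fin_natDegree_lt I.setup.natDegree_pos _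
  have hyK : jFull N ^ K * y ∈ I.setup.CC :=
    Subring.mul_mem _ (Subring.pow_mem _ (jFull_mem_CC I) K) hy
  have hε : I.setup.φ I.setup.ϖ ^ t * (jFull N ^ K * y) = I.setup.ε G := by
    show _ = eval₂ (φF N ℓ) (θF N) G
    rw [hG, eval₂_sum_fin, mul_left_comm, h, Finset.mul_sum]
    refine Finset.sum_congr rfl fun k _ => ?_
    rw [φF_reflect K (r k) (hle k), mul_assoc]
  have hdvd := I.setup.sat hdeg t hyK hε
  intro k
  rw [C_dvd_iff_dvd_coeff] at hdvd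
  have h1 := hdvd (k : ℕ)
  rw [hG, sum_fin_coeff] at h1
  have h2 : I.setup.ϖ ^ t = C ((ℓ : ↥(GaloisRep.ratLocalizedAt ℓ)) ^ t) := by
    show (C (ℓ : ↥(GaloisRep.ratLocalizedAt ℓ))) ^ t = _
    rw [C_pow]
  rw [h2] at h1 ⊢
  exact C_dvd_of_C_dvd_reflect h1

/-- spanning of `F` by the lattice `∑ ℤ_(ℓ)[1/j] θ^k` -/
theorem hspan (x : ↥(modularFunctionFieldFull N)) :
    ∃ d : Polynomial ↥(GaloisRep.ratLocalizedAt ℓ), ψF (N := N) (ℓ := ℓ) d ≠ 0 ∧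
      ∃ r : Fin I.Φ.natDegree → Polynomial ↥(GaloisRep.ratLocalizedAt ℓ),
        ψF (N := N) (ℓ := ℓ) d * x = ∑ k, ψF (N := N) (ℓ := ℓ) (r k) * θF N ^ (k : ℕ) := by
  classical
  obtain ⟨b, hb, g, hg⟩ := I.setup.span x
  obtain ⟨g₁, hdeg, hg₁⟩ := I.setup.exists_lt g
  have hdeg' : g₁.natDegree < I.Φ.natDegree := hdeg
  set K : ℕ := max b.natDegree
    ((Finset.univ : Finset (Fin I.Φ.natDegree)).sup (fun k => (g₁.coeff k).natDegree)) with hK
  have hbK : b.natDegree ≤ K := le_max_left _ _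
  have hle : ∀ k : Fin I.Φ.natDegree, (g₁.coeff k).natDegree ≤ K := fun k =>
    le_trans (Finset.le_sup (f := fun k : Fin I.Φ.natDegree => (g₁.coeff k).natDegree)
      (Finset.mem_univ k)) (le_max_right _ _)
  have hφb : φF N ℓ b ≠ 0 := fun h0 => hb (I.setup.φ_injective (h0.trans (map_zero _).symm))
  have hjK : (jFull N)⁻¹ ^ K ≠ 0 := pow_ne_zero _ (inv_ne_zero (jFull_ne_zero N))
  refine ⟨reflect K b, ?_, fun k => reflect K (g₁.coeff k), ?_⟩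
  · rw [ψF_reflect K b hbK]
    exact mul_ne_zero hjK hφb
  · rw [ψF_reflect K b hbK, mul_assoc]
    have h1 : φF N ℓ b * x = ∑ k : Fin I.Φ.natDegree, φF N ℓ (g₁.coeff k) * θF N ^ (k : ℕ) := by
      have : φF N ℓ b * x = eval₂ (φF N ℓ) (θF N) g₁ := hg.trans hg₁.symm
      rw [this, eval₂_eq_sum_range' _ hdeg', Finset.sum_range]
    rw [h1, Finset.mul_sum]
    refine Finset.sum_congr rfl fun k _ => ?_
    rw [ψF_reflect K _ (hle k), mul_assoc]

theorem ρInf_ker (x : chartAlgInf N ℓ) (hx : ρInf I x = 0) :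
    ∃ y : chartAlgInf N ℓ, x = (ℓ : chartAlgInf N ℓ) * y := by
  rw [ρInf_apply] at hx
  have hint : (ψF (N := N) (ℓ := ℓ)).IsIntegralElem (x : ↥(modularFunctionFieldFull N)) :=
    isIntegralElem_of_isIntegral (jFull N)⁻¹ ((mem_chartAlg_iff N ℓ).mp x.2)
  obtain ⟨x₁, hx₁, hint₁⟩ := I.setup.integral_div_gen (ψF (N := N) (ℓ := ℓ)) (ψF_ϖ I)
    (ψF_mem_CC I) (fun k : Fin I.Φ.natDegree => θF N ^ (k : ℕ)) (hsat I) (hspan I) hint
    (mem_CC_of_mem_chartAlgInf I x) hx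
  have hmem : x₁ ∈ chartAlgInf N ℓ :=
    (mem_chartAlg_iff N ℓ).mpr (isIntegral_of_isIntegralElem (jFull N)⁻¹ hint₁)
  refine ⟨⟨x₁, hmem⟩, Subtype.ext ?_⟩
  rw [hx₁]
  show I.setup.φ I.setup.ϖ * x₁ = _
  have : I.setup.φ I.setup.ϖ = ((ℓ : ℕ) : ↥(modularFunctionFieldFull N)) := φF_Cl
  rw [this]
  simp

end InfChart

section Final

variable (N ℓ)

/-- `aeval jq` on `ℤ[X]` factors through `φL`. -/
theorem aeval_jq_int (c : Polynomial ℤ) :
    aeval jq c = φL ℓ (c.map (Int.castRingHom ↥(GaloisRep.ratLocalizedAt ℓ))) := by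
  have h : ((aeval jq : Polynomial ℤ →ₐ[ℤ] LaurentSeries ℚ).toRingHom) =
      (φL ℓ).comp (mapRingHom (Int.castRingHom ↥(GaloisRep.ratLocalizedAt ℓ))) := by
    refine Polynomial.ringHom_ext' (RingHom.ext_int _ _) ?_
    simp [φL_X]
  exact congrArg (fun f => f c) h

theorem map_intCast_injective :
    Function.Injective (Polynomial.map (Int.castRingHom ↥(GaloisRep.ratLocalizedAt ℓ))) :=
  Polynomial.map_injective _ (RingHom.injective_int _)

/-- `aeval jq` on `ℤ_(ℓ)[X]` is `φL`. -/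
theorem aeval_jq_Zl :
    ((aeval jq : Polynomial ↥(GaloisRep.ratLocalizedAt ℓ) →ₐ[↥(GaloisRep.ratLocalizedAt ℓ)]
      LaurentSeries ℚ).toRingHom) = φL ℓ := by
  refine Polynomial.ringHom_ext' (ringHom_ext_Zl ℓ _ _) ?_
  simp [φL_X]

/-- spanning, from a dependence relation among `n + 1` elements and independence mod `ℓ`. -/
theorem span_of_dependent (n : ℕ)
    (hind : ∀ a : Fin n → Polynomial (ZMod ℓ),
      (∑ i, aeval (jqModC (ZMod ℓ)) (a i) * (jqNModC (ZMod ℓ) N) ^ (i : ℕ) = 0) → ∀ i, a i = 0)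
    (hdep : ∀ v : Fin (n + 1) → LaurentSeries ℚ, (∀ i, v i ∈ modularFunctionFieldFull N) →
      ∃ c : Fin (n + 1) → Polynomial ℤ, c ≠ 0 ∧ ∑ i, aeval jq (c i) * v i = 0)
    (x : LaurentSeries ℚ) (hx : x ∈ modularFunctionFieldFull N) :
    ∃ b : Polynomial ↥(GaloisRep.ratLocalizedAt ℓ), b ≠ 0 ∧
      ∃ g : Polynomial (Polynomial ↥(GaloisRep.ratLocalizedAt ℓ)),
        φL ℓ b * x = eval₂ (φL ℓ) (jqN N) g := by
  classical
  set v : Fin (n + 1) → LaurentSeries ℚ :=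
    fun i => if (i : ℕ) < n then jqN N ^ (i : ℕ) else x with hv
  have hvmem : ∀ i, v i ∈ modularFunctionFieldFull N := by
    intro i
    simp only [hv]
    split_ifs
    · exact pow_mem (jqd_mem_full N dvd_rfl) _
    · exact hx
  obtain ⟨c, hc, hsum⟩ := hdep v hvmem
  rw [Fin.sum_univ_castSucc] at hsum
  have hv1 : ∀ i : Fin n, v (Fin.castSucc i) = jqN N ^ (i : ℕ) := by
    intro i
    simp only [hv, Fin.val_castSucc, i.2, if_true]
  have hv2 : v (Fin.last n) = x := by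
    simp only [hv, Fin.val_last, lt_irrefl, if_false]
  rw [hv2] at hsum
  simp only [hv1] at hsum
  set c' : Fin n → Polynomial ↥(GaloisRep.ratLocalizedAt ℓ) :=
    fun i => (c (Fin.castSucc i)).map (Int.castRingHom ↥(GaloisRep.ratLocalizedAt ℓ)) with hc'
  set g : Polynomial (Polynomial ↥(GaloisRep.ratLocalizedAt ℓ)) :=
    ∑ i : Fin n, C (c' i) * X ^ (i : ℕ) with hgdef
  have hg : eval₂ (φL ℓ) (jqN N) g =
      ∑ i : Fin n, aeval jq (c (Fin.castSucc i)) * jqN N ^ (i : ℕ) := by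
    rw [hgdef, eval₂_sum_fin]
    refine Finset.sum_congr rfl fun i _ => ?_
    rw [aeval_jq_int ℓ]
  set b : Polynomial ↥(GaloisRep.ratLocalizedAt ℓ) :=
    (c (Fin.last n)).map (Int.castRingHom ↥(GaloisRep.ratLocalizedAt ℓ)) with hbdef
  have hb : φL ℓ b = aeval jq (c (Fin.last n)) := (aeval_jq_int ℓ _).symm
  refine ⟨b, ?_, -g, ?_⟩
  · intro hb0
    have hlast : c (Fin.last n) = 0 :=
      map_intCast_injective ℓ (hb0.trans (Polynomial.map_zero _).symm)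
    rw [hlast, map_zero, zero_mul, add_zero, ← hg] at hsum
    have hg0 : g = 0 := by
      rcases Nat.eq_zero_or_pos n with h0 | hpos
      · subst h0
        rw [hgdef]
        exact Finset.sum_empty
      · exact indep0 N ℓ n hind g (sum_fin_natDegree_lt hpos _) hsum
    apply hc
    funext i
    refine Fin.lastCases ?_ (fun i => ?_) i
    · exact hlast
    · have h1 := sum_fin_coeff c' i
      rw [← hgdef, hg0, coeff_zero] at h1
      exact map_intCast_injective ℓ (h1.symm.trans (Polynomial.map_zero _).symm)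
  · rw [eval₂_neg, hg, hb]
    exact eq_neg_of_add_eq_zero_right hsum

/-- the two chart reductions from an `Input`. -/
theorem chartRed_of_input (I : Input N ℓ) :
    ∃ (ρF : chartAlgFin N ℓ →+* LaurentSeries (ZMod ℓ))
      (ρI : chartAlgInf N ℓ →+* LaurentSeries (ZMod ℓ)),
      (∀ x : chartAlgFin N ℓ, ρF x = 0 → ∃ y : chartAlgFin N ℓ,
        x = (ℓ : chartAlgFin N ℓ) * y) ∧
      ρF (jChartFin N ℓ) ≠ 0 ∧
      (∀ x : chartAlgInf N ℓ, ρI x = 0 → ∃ y : chartAlgInf N ℓ,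
        x = (ℓ : chartAlgInf N ℓ) * y) :=
  ⟨ρFin I, ρInf I, ρFin_ker I, ρFin_j_ne_zero I, ρInf_ker I⟩

/-- **Chart reduction**, general degree `n`. -/
theorem chartRed_gen (n : ℕ)
    (E1 : ∃ Φ : Polynomial (Polynomial ↥(GaloisRep.ratLocalizedAt ℓ)), Φ.Monic ∧
      Φ.natDegree = n ∧
      Φ.eval₂ (aeval jq : Polynomial ↥(GaloisRep.ratLocalizedAt ℓ) →ₐ[↥(GaloisRep.ratLocalizedAt ℓ)]
        LaurentSeries ℚ).toRingHom (jqN N) = 0)
    (E2 : ∀ a : Fin n → Polynomial (ZMod ℓ),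
      (∑ i, aeval (jqModC (ZMod ℓ)) (a i) * (jqNModC (ZMod ℓ) N) ^ (i : ℕ) = 0) → ∀ i, a i = 0)
    (B1 : ∀ v : Fin (n + 1) → LaurentSeries ℚ, (∀ i, v i ∈ modularFunctionFieldFull N) →
      ∃ c : Fin (n + 1) → Polynomial ℤ, c ≠ 0 ∧ ∑ i, aeval jq (c i) * v i = 0) :
    ∃ (ρF : chartAlgFin N ℓ →+* LaurentSeries (ZMod ℓ))
      (ρI : chartAlgInf N ℓ →+* LaurentSeries (ZMod ℓ)),
      (∀ x : chartAlgFin N ℓ, ρF x = 0 → ∃ y : chartAlgFin N ℓ,
        x = (ℓ : chartAlgFin N ℓ) * y) ∧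
      ρF (jChartFin N ℓ) ≠ 0 ∧
      (∀ x : chartAlgInf N ℓ, ρI x = 0 → ∃ y : chartAlgInf N ℓ,
        x = (ℓ : chartAlgInf N ℓ) * y) := by
  obtain ⟨Φ, hm, hn, hroot⟩ := E1
  subst hn
  rw [aeval_jq_Zl ℓ] at hroot
  exact chartRed_of_input N ℓ
    { Φ := Φ
      monic := hm
      root := hroot
      indep := E2
      span := span_of_dependent N ℓ Φ.natDegree E2 B1 }

/-- **Chart reduction** (B2–B4): the consumer shape of `Assemble`. -/
theorem chartRed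
    (E1 : ∃ Φ : Polynomial (Polynomial ↥(GaloisRep.ratLocalizedAt ℓ)), Φ.Monic ∧
      Φ.natDegree = dedekindPsi N ∧
      Φ.eval₂ (aeval jq : Polynomial ↥(GaloisRep.ratLocalizedAt ℓ) →ₐ[↥(GaloisRep.ratLocalizedAt ℓ)]
        LaurentSeries ℚ).toRingHom (jqN N) = 0)
    (E2 : ∀ a : Fin (dedekindPsi N) → Polynomial (ZMod ℓ),
      (∑ i, aeval (jqModC (ZMod ℓ)) (a i) * (jqNModC (ZMod ℓ) N) ^ (i : ℕ) = 0) → ∀ i, a i = 0)
    (B1 : ∀ v : Fin (dedekindPsi N + 1) → LaurentSeries ℚ,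
      (∀ i, v i ∈ modularFunctionFieldFull N) →
      ∃ c : Fin (dedekindPsi N + 1) → Polynomial ℤ, c ≠ 0 ∧ ∑ i, aeval jq (c i) * v i = 0) :
    ∃ (ρF : chartAlgFin N ℓ →+* LaurentSeries (ZMod ℓ))
      (ρI : chartAlgInf N ℓ →+* LaurentSeries (ZMod ℓ)),
      (∀ x : chartAlgFin N ℓ, ρF x = 0 → ∃ y : chartAlgFin N ℓ,
        x = (ℓ : chartAlgFin N ℓ) * y) ∧
      ρF (jChartFin N ℓ) ≠ 0 ∧
      (∀ x : chartAlgInf N ℓ, ρI x = 0 → ∃ y : chartAlgInf N ℓ,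
        x = (ℓ : chartAlgInf N ℓ) * y) :=
  chartRed_gen N ℓ (dedekindPsi N) E1 E2 B1

end Final

end

end Fermat.Agent.S28.ChartRed
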