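import Mathlib
import Fermat.Agent.S24.FiniteFibres

set_option autoImplicit false

/-!
# S28 / B1: `[ℚ(j_d : d ∣ N) : ℚ(j)] ≤ ψ(N)` (regularity + S24 (T0))
-/

namespace Fermat.Agent.S28.RegDegree

open ModularCurve IntermediateField Polynomial
open Fermat.Agent.S24 Fermat.Agent.S24.BridgeInv

noncomputable section

/-! ### Claim A: base change of coefficients preserves linear independence -/

/-- a `ℚ`-linearly independent family of Laurent series stays linearly independent over `L`
after extending the coefficients to `L`. -/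
theorem linearIndependent_coeffEmb (L : Type*) [Field L] [Algebra ℚ L] {A : Type*}
    (x : A → LaurentSeries ℚ) (hx : LinearIndependent ℚ x) :
    LinearIndependent L (fun α => coeffEmb L (x α)) := by
  classical
  rw [linearIndependent_iff'] at hx ⊢
  intro s c hc α hα
  let B := Module.Free.chooseBasis ℚ L
  have key : ∀ k, B.coord k (c α) = 0 := by
    intro k
    have h0 : ∑ β ∈ s, (B.coord k (c β)) • x β = 0 := by
      ext n
      have hn := congrArg (fun y : LaurentSeries L => B.coord k (y.coeff n)) hc
      simp only [HahnSeries.coeff_zero, map_zero] at hn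
      rw [HahnSeries.coeff_sum] at hn
      rw [HahnSeries.coeff_sum, HahnSeries.coeff_zero]
      rw [map_sum] at hn
      rw [← hn]
      refine Finset.sum_congr rfl fun β _ => ?_
      rw [HahnSeries.coeff_smul, HahnSeries.coeff_smul, coeffEmb_coeff, smul_eq_mul, smul_eq_mul]
      have : c β * algebraMap ℚ L ((x β).coeff n) = ((x β).coeff n) • c β := by
        rw [Algebra.smul_def, mul_comm]
      rw [this, map_smul, smul_eq_mul, mul_comm]
    exact hx s _ h0 α hα
  exact (B.forall_coord_eq_zero_iff).mp key

/-- the two `L`-module structures on `L((q))` (coefficientwise, and through the algebra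
structure) give the same notion of linear independence. -/
theorem linearIndependent_toModule_iff (L : Type*) [Field L] {A : Type*}
    (x : A → LaurentSeries L) :
    @LinearIndependent A L (LaurentSeries L) x _ _ Algebra.toModule ↔ LinearIndependent L x := by
  rw [@linearIndependent_iff' A L (LaurentSeries L) _ _ Algebra.toModule x,
    linearIndependent_iff']
  simp only [Algebra.smul_def, algebraMap_laurentSeries_eq_single,
    HahnSeries.single_zero_mul_eq_smul]

/-- Claim A for the module structures coming from the algebra structures. -/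
theorem linearIndependent_coeffEmb' (L : Type*) [Field L] [Algebra ℚ L] {A : Type*}
    (x : A → LaurentSeries ℚ)
    (hx : @LinearIndependent A ℚ (LaurentSeries ℚ) x _ _ Algebra.toModule) :
    @LinearIndependent A L (LaurentSeries L) (fun α => coeffEmb L (x α)) _ _ Algebra.toModule :=
  (linearIndependent_toModule_iff L _).mpr
    (linearIndependent_coeffEmb L x ((linearIndependent_toModule_iff ℚ x).mp hx))

/-! ### Claim G: polynomial coefficients versus monomial families -/

section G

variable (R : Type*) [Field R] {M : Type*} [Field M] [Algebra R M] (y : M)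

/-- linear independence with polynomial coefficients in `y`. -/
def PolyIndep {ι : Type*} (v : ι → M) : Prop :=
  ∀ (t : Finset ι) (g : ι → R[X]), ∑ i ∈ t, aeval y (g i) * v i = 0 → ∀ i ∈ t, g i = 0

theorem linearIndependent_monomials_of_polyIndep {ι : Type*} (v : ι → M)
    (hv : PolyIndep R y v) :
    LinearIndependent R (fun p : ι × ℕ => y ^ p.2 * v p.1) := by
  classical
  rw [linearIndependent_iff']
  intro s g hg p hp
  let P : ι → R[X] := fun i => ∑ q ∈ s.filter (fun q => q.1 = i), monomial q.2 (g q)
  have hsum : ∑ i ∈ s.image Prod.fst, aeval y (P i) * v i = 0 := by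
    rw [← hg]
    have : ∀ i ∈ s.image Prod.fst, aeval y (P i) * v i
        = ∑ q ∈ s.filter (fun q => q.1 = i), g q • (y ^ q.2 * v q.1) := by
      intro i _
      rw [map_sum, Finset.sum_mul]
      refine Finset.sum_congr rfl fun q hq => ?_
      rw [Finset.mem_filter] at hq
      rw [aeval_monomial, hq.2, Algebra.smul_def, mul_assoc]
    rw [Finset.sum_congr rfl this]
    exact Finset.sum_fiberwise_of_maps_to (fun q hq => Finset.mem_image_of_mem _ hq) _
  have hP : P p.1 = 0 := hv (s.image Prod.fst) P hsum p.1 (Finset.mem_image_of_mem _ hp)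
  have hcoeff : (P p.1).coeff p.2 = g p := by
    simp only [P, finsetSum_coeff, coeff_monomial]
    rw [Finset.sum_eq_single p]
    · simp
    · intro q hq hqp
      rw [Finset.mem_filter] at hq
      rw [if_neg]
      intro h2
      exact hqp (Prod.ext hq.2 h2)
    · intro hnot
      exact absurd (show p ∈ s.filter (fun q => q.1 = p.1) from Finset.mem_filter.mpr ⟨hp, rfl⟩) hnot
  rw [← hcoeff, hP, coeff_zero]

theorem polyIndep_of_linearIndependent_monomials {ι : Type*} (v : ι → M)
    (hv : LinearIndependent R (fun p : ι × ℕ => y ^ p.2 * v p.1)) :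
    PolyIndep R y v := by
  classical
  rw [linearIndependent_iff'] at hv
  intro t g hg i hi
  let D : ℕ := (t.sup fun i => (g i).natDegree) + 1
  have hD : ∀ i ∈ t, (g i).natDegree < D := fun i hi =>
    Nat.lt_succ_of_le (Finset.le_sup (f := fun i => (g i).natDegree) hi)
  let c : ι × ℕ → R := fun p => (g p.1).coeff p.2
  have hsum : ∑ p ∈ t ×ˢ Finset.range D, c p • (y ^ p.2 * v p.1) = 0 := by
    rw [← hg, Finset.sum_product]
    refine Finset.sum_congr rfl fun i hi => ?_
    rw [aeval_eq_sum_range' (hD i hi), Finset.sum_mul]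
    refine Finset.sum_congr rfl fun n _ => ?_
    rw [Algebra.smul_def, Algebra.smul_def, mul_assoc]
  ext n
  rw [coeff_zero]
  by_cases hn : n < D
  · exact hv _ c hsum (i, n) (Finset.mem_product.mpr ⟨hi, Finset.mem_range.mpr hn⟩)
  · exact coeff_eq_zero_of_natDegree_lt (lt_of_lt_of_le (hD i hi) (not_lt.mp hn))

theorem polyIndep_iff_linearIndependent_polyOf {ι : Type*} (v : ι → M) :
    PolyIndep R y v ↔ LinearIndependent (PolyOf R y) v := by
  rw [linearIndependent_iff']
  constructor
  · intro h t g hg i hi
    refine h t (fun i => (g i : R[X])) ?_ i hi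
    rw [← hg]
    refine Finset.sum_congr rfl fun i _ => ?_
    rw [Algebra.smul_def]
    rfl
  · intro h t g hg i hi
    refine h t (fun i => PolyOf.ofPoly R y (g i)) ?_ i hi
    rw [← hg]
    refine Finset.sum_congr rfl fun i _ => ?_
    rw [Algebra.smul_def]
    rfl

/-- independence over `R(y)` from independence with polynomial coefficients. -/
theorem linearIndependent_adjoin_iff_polyIndep (hy : Transcendental R y) {ι : Type*} (v : ι → M) :
    LinearIndependent ↥R⟮y⟯ v ↔ PolyIndep R y v := by
  have : Fact (Transcendental R y) := ⟨hy⟩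
  rw [polyIndep_iff_linearIndependent_polyOf]
  exact (LinearIndependent.iff_fractionRing (PolyOf R y) ↥R⟮y⟯).symm

end G

/-! ### the main inequality -/

section Main

open Fermat.Agent.S24.PlaceAt

variable (N : ℕ) [NeZero N]

omit [NeZero N] in
theorem coe_J : ((J N : FF N) : LaurentSeries Kbar) = coeffEmb Kbar jq := by
  show coeffEmb Kbar (qExpand ℚ 1 jq) = _
  rw [qExpand_one_apply]

theorem coeffEmb_algebraMap (L : Type*) [Field L] [Algebra ℚ L] (r : ℚ) :
    coeffEmb L (algebraMap ℚ (LaurentSeries ℚ) r)
      = algebraMap L (LaurentSeries L) (algebraMap ℚ L r) := by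
  rw [algebraMap_laurentSeries_eq_single, algebraMap_laurentSeries_eq_single, coeffEmb,
    coeffMap_single]

theorem coeffEmb_aeval (L : Type*) [Field L] [Algebra ℚ L] (P : ℚ[X]) (x : LaurentSeries ℚ) :
    coeffEmb L (aeval x P) = aeval (coeffEmb L x) (P.map (algebraMap ℚ L)) := by
  rw [aeval_def, hom_eval₂, aeval_def, eval₂_map]
  congr 1
  exact RingHom.ext fun r => coeffEmb_algebraMap L r

theorem coeffEmb_injective (L : Type*) [Field L] [Algebra ℚ L] :
    Function.Injective (coeffEmb L) := (coeffEmb L).injective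

theorem transcendental_jq : Transcendental ℚ jq := by
  intro halg
  obtain ⟨P, hP0, hP⟩ := halg
  have hJ := FiniteFibres.transcendental_J 1
  apply hJ
  refine ⟨P.map (algebraMap ℚ Kbar), (Polynomial.map_ne_zero_iff (algebraMap ℚ Kbar).injective).mpr hP0, ?_⟩
  apply Subtype.ext
  have h1 : ((aeval (J 1) (P.map (algebraMap ℚ Kbar)) : FF 1) : LaurentSeries Kbar)
      = aeval ((J 1 : FF 1) : LaurentSeries Kbar) (P.map (algebraMap ℚ Kbar)) :=
    (aeval_algHom_apply (IntermediateField.val (modularFunctionFieldBar 1)) (J 1) _).symm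
  rw [h1, coe_J, ← coeffEmb_aeval, hP, map_zero]
  rfl

/-- the image in `F̄ = ℚ̄(j_d : d ∣ N)` of a family of `F = ℚ(j_d : d ∣ N)`. -/
def barFamily {ι : Type*} (b : ι → LaurentSeries ℚ)
    (hbF : ∀ i, b i ∈ modularFunctionFieldFull N) : ι → FF N :=
  fun i => ratEmb N ⟨b i, hbF i⟩

omit [NeZero N] in
theorem coe_barFamily {ι : Type*} (b : ι → LaurentSeries ℚ)
    (hbF : ∀ i, b i ∈ modularFunctionFieldFull N) (i : ι) :
    ((barFamily N b hbF i : FF N) : LaurentSeries Kbar) = coeffEmb Kbar (b i) := rfl

/-- **Regularity**: a `ℚ(j)`-linearly independent family of `F` stays `ℚ̄(J)`-linearly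
independent in `F̄`. -/
theorem linearIndependent_barFamily {ι : Type*} (b : ι → LaurentSeries ℚ)
    (hbF : ∀ i, b i ∈ modularFunctionFieldFull N) (hb : LinearIndependent ↥ℚ⟮jq⟯ b) :
    LinearIndependent ↥Kbar⟮J N⟯ (barFamily N b hbF) := by
  have hb1 : PolyIndep ℚ jq b :=
    (linearIndependent_adjoin_iff_polyIndep ℚ jq transcendental_jq b).mp hb
  have hb2 := linearIndependent_monomials_of_polyIndep ℚ jq b hb1
  have hb3 := linearIndependent_coeffEmb' Kbar _ hb2
  rw [linearIndependent_adjoin_iff_polyIndep Kbar (J N) (FiniteFibres.transcendental_J N)]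
  apply polyIndep_of_linearIndependent_monomials
  have hpt : ∀ p : ι × ℕ,
      (((J N) ^ p.2 * barFamily N b hbF p.1 : FF N) : LaurentSeries Kbar)
        = coeffEmb Kbar (jq ^ p.2 * b p.1) := by
    intro p
    rw [IntermediateField.coe_mul, IntermediateField.coe_pow, coe_J, coe_barFamily, map_mul,
      map_pow]
  have hb3' := (@linearIndependent_iff' _ Kbar (LaurentSeries Kbar) _ _ Algebra.toModule _).mp hb3
  rw [linearIndependent_iff']
  intro s g hg p hp
  refine hb3' s g ?_ p hp
  have h1 := congrArg (IntermediateField.val (modularFunctionFieldBar N)) hg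
  rw [map_sum, map_zero] at h1
  rw [← h1]
  refine Finset.sum_congr rfl fun p _ => ?_
  rw [Algebra.smul_def, Algebra.smul_def,
    map_mul (IntermediateField.val (modularFunctionFieldBar N)), AlgHom.commutes]
  congr 1
  exact (hpt p).symm

/-- **B1, family form**: a `ℚ(j)`-linearly independent family of elements of
`F = ℚ(j_d : d ∣ N)` has at most `ψ(N)` members. -/
theorem card_le_psi {ι : Type*} [Fintype ι] (b : ι → LaurentSeries ℚ)
    (hbF : ∀ i, b i ∈ modularFunctionFieldFull N) (hb : LinearIndependent ↥ℚ⟮jq⟯ b) :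
    Fintype.card ι ≤ dedekindPsi N := by
  have h := (linearIndependent_barFamily N b hbF hb).fintype_card_le_finrank
  rwa [FiniteFibres.T0 N] at h

/-- a `ℚ(j)`-linearly independent family of elements of `F` is finite. -/
theorem finite_of_linearIndependent {ι : Type*} (b : ι → LaurentSeries ℚ)
    (hbF : ∀ i, b i ∈ modularFunctionFieldFull N) (hb : LinearIndependent ↥ℚ⟮jq⟯ b) :
    Finite ι :=
  (linearIndependent_barFamily N b hbF hb).finite

/-- **B1, spanning form**: a `ℚ(j)`-linearly independent family of `ψ(N)` elements of `F`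
spans `F` over `ℚ(j)`. -/
theorem mem_span_of_card_eq_psi {ι : Type*} [Fintype ι] (b : ι → LaurentSeries ℚ)
    (hbF : ∀ i, b i ∈ modularFunctionFieldFull N) (hb : LinearIndependent ↥ℚ⟮jq⟯ b)
    (hcard : Fintype.card ι = dedekindPsi N) {x : LaurentSeries ℚ}
    (hx : x ∈ modularFunctionFieldFull N) :
    x ∈ Submodule.span ↥ℚ⟮jq⟯ (Set.range b) := by
  by_contra hxs
  have hopt : LinearIndependent ↥ℚ⟮jq⟯ (fun o : Option ι => Option.casesOn' o x b) :=
    (linearIndependent_option' (K := ↥ℚ⟮jq⟯) (v := b) (x := x)).mpr ⟨hb, hxs⟩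
  have hmem : ∀ o : Option ι, Option.casesOn' o x b ∈ modularFunctionFieldFull N := by
    intro o
    cases o with
    | none => exact hx
    | some i => exact hbF i
  have h := card_le_psi N _ hmem hopt
  rw [Fintype.card_option, hcard] at h
  exact Nat.not_succ_le_self _ h

/-- explicit form of `mem_span_of_card_eq_psi`: every element of `F` is a combination of the
`b i` with coefficients in `ℚ(j)`. -/
theorem exists_coeff_of_card_eq_psi {ι : Type*} [Fintype ι] (b : ι → LaurentSeries ℚ)
    (hbF : ∀ i, b i ∈ modularFunctionFieldFull N) (hb : LinearIndependent ↥ℚ⟮jq⟯ b)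
    (hcard : Fintype.card ι = dedekindPsi N) {x : LaurentSeries ℚ}
    (hx : x ∈ modularFunctionFieldFull N) :
    ∃ c : ι → LaurentSeries ℚ, (∀ i, c i ∈ ℚ⟮jq⟯) ∧ x = ∑ i, c i * b i := by
  have h := mem_span_of_card_eq_psi N b hbF hb hcard hx
  rw [Submodule.mem_span_range_iff_exists_fun] at h
  obtain ⟨c, hc⟩ := h
  refine ⟨fun i => (c i : LaurentSeries ℚ), fun i => (c i).2, ?_⟩
  rw [← hc]
  rfl

omit [NeZero N] in
theorem jq_mem_full' : jq ∈ modularFunctionFieldFull N := by
  have h := jqd_mem_full (d := 1) N (one_dvd N)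
  rwa [qExpand_one_apply] at h

omit [NeZero N] in
theorem adjoin_jq_le_full' : ℚ⟮jq⟯ ≤ modularFunctionFieldFull N := by
  rw [adjoin_simple_le_iff]
  exact jq_mem_full' N

/-- **B1, rank form**: `[F : ℚ(j)] ≤ ψ(N)` as cardinals. -/
theorem rank_le_psi :
    Module.rank ↥ℚ⟮jq⟯ ↥(extendScalars (adjoin_jq_le_full' N)) ≤ (dedekindPsi N : Cardinal) := by
  classical
  apply rank_le
  intro s hs
  have hlin : LinearIndependent ↥ℚ⟮jq⟯
      (fun i : s => (((i : ↥(extendScalars (adjoin_jq_le_full' N))) : LaurentSeries ℚ))) := by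
    have := hs.map' (extendScalars (adjoin_jq_le_full' N)).val.toLinearMap
      (LinearMap.ker_eq_bot.mpr (extendScalars (adjoin_jq_le_full' N)).val.injective)
    exact this
  have h := card_le_psi N
    (fun i : s => (((i : ↥(extendScalars (adjoin_jq_le_full' N))) : LaurentSeries ℚ)))
    (fun i => (i : ↥(extendScalars (adjoin_jq_le_full' N))).2) hlin
  rwa [Fintype.card_coe] at h

/-- **B1, degree form**: `[F : ℚ(j)] ≤ ψ(N)`. -/
theorem finrank_le_psi :
    Module.finrank ↥ℚ⟮jq⟯ ↥(extendScalars (adjoin_jq_le_full' N)) ≤ dedekindPsi N :=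
  Module.finrank_le_of_rank_le (rank_le_psi N)

/-- `F` is finite dimensional over `ℚ(j)`. -/
theorem finiteDimensional_full :
    FiniteDimensional ↥ℚ⟮jq⟯ ↥(extendScalars (adjoin_jq_le_full' N)) :=
  Module.rank_lt_aleph0_iff.mp
    (lt_of_le_of_lt (rank_le_psi N) (Cardinal.natCast_lt_aleph0))

end Main

end

end Fermat.Agent.S28.RegDegree
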