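import Mathlib
import Fermat.Agent.S28.RegDegree

set_option autoImplicit false

/-!
# S28 / B1, consumer shape: `ψ(N) + 1` elements of `F = ℚ(j_d : d ∣ N)` satisfy a nontrivial
relation with coefficients in `ℤ[j]`
-/

namespace Fermat.Agent.S28.RegDegree

open ModularCurve IntermediateField Polynomial

noncomputable section

/-- clearing the denominators of a finite family of rational polynomials. -/
theorem exists_int_multiple {ι : Type*} [Fintype ι] (c : ι → ℚ[X]) :
    ∃ (B : ℤ) (c' : ι → ℤ[X]), B ≠ 0 ∧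
      ∀ i, (c' i).map (Int.castRingHom ℚ) = C (B : ℚ) * c i := by
  classical
  have h : ∀ i, ∃ b : ℤ, b ≠ 0 ∧ ∃ n : ℤ[X], n.map (Int.castRingHom ℚ) = C (b : ℚ) * c i := by
    intro i
    obtain ⟨b, hb, hn⟩ :=
      IsLocalization.integerNormalization_spec (R := ℤ) (S := ℚ) (nonZeroDivisors ℤ) (c i)
    refine ⟨b, nonZeroDivisors.ne_zero hb,
      IsLocalization.integerNormalization (nonZeroDivisors ℤ) (c i), ?_⟩
    rw [show (Int.castRingHom ℚ) = algebraMap ℤ ℚ from rfl, hn, zsmul_eq_mul, map_intCast]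
  choose b hb n hn using h
  refine ⟨∏ j, b j, fun i => C ((∏ j, b j) / b i) * n i,
    Finset.prod_ne_zero_iff.mpr fun j _ => hb j, fun i => ?_⟩
  have hdvd : b i ∣ ∏ j, b j := Finset.dvd_prod_of_mem b (Finset.mem_univ i)
  obtain ⟨e, he⟩ := hdvd
  show ((C ((∏ j, b j) / b i) * n i).map (Int.castRingHom ℚ)) = _
  rw [he, Int.mul_ediv_cancel_left _ (hb i), Polynomial.map_mul, Polynomial.map_C, hn i,
    eq_intCast, ← mul_assoc, ← C_mul, Int.cast_mul, mul_comm (e : ℚ)]

variable (N : ℕ) [NeZero N]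

/-- **B1, general consumer shape over `ℚ[X]`**: more than `ψ(N)` elements of `F` are
`ℚ[j]`-dependent. -/
theorem dependent_of_lt_card_rat {ι : Type*} [Fintype ι] (hι : dedekindPsi N < Fintype.card ι)
    (v : ι → LaurentSeries ℚ) (hv : ∀ i, v i ∈ modularFunctionFieldFull N) :
    ∃ c : ι → ℚ[X], c ≠ 0 ∧ ∑ i, aeval jq (c i) * v i = 0 := by
  classical
  have hnot : ¬ PolyIndep ℚ jq v := by
    intro hind
    have hlin := (linearIndependent_adjoin_iff_polyIndep ℚ jq transcendental_jq v).mpr hind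
    exact absurd (card_le_psi N v hv hlin) (not_le.mpr hι)
  unfold PolyIndep at hnot
  push Not at hnot
  obtain ⟨t, g, hsum, i0, hi0, hg0⟩ := hnot
  refine ⟨fun i => if i ∈ t then g i else 0, ?_, ?_⟩
  · intro h0
    have := congrFun h0 i0
    simp only [if_pos hi0, Pi.zero_apply] at this
    exact hg0 this
  · rw [← hsum, ← Finset.sum_subset (Finset.subset_univ t)]
    · refine Finset.sum_congr rfl fun i hi => ?_
      simp only [if_pos hi]
    · intro i _ hi
      simp only [if_neg hi, map_zero, zero_mul]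

/-- **B1, general consumer shape**: more than `ψ(N)` elements of `F` satisfy a nontrivial
relation with coefficients in `ℤ[j]`. -/
theorem dependent_of_lt_card {ι : Type*} [Fintype ι] (hι : dedekindPsi N < Fintype.card ι)
    (v : ι → LaurentSeries ℚ) (hv : ∀ i, v i ∈ modularFunctionFieldFull N) :
    ∃ c : ι → ℤ[X], c ≠ 0 ∧ ∑ i, aeval jq (c i) * v i = 0 := by
  obtain ⟨c, hc0, hc⟩ := dependent_of_lt_card_rat N hι v hv
  obtain ⟨B, c', hB, hc'⟩ := exists_int_multiple c
  refine ⟨c', ?_, ?_⟩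
  · intro h0
    apply hc0
    funext i
    have h1 := hc' i
    rw [h0, Pi.zero_apply, Polynomial.map_zero] at h1
    have hBq : (B : ℚ) ≠ 0 := Int.cast_ne_zero.mpr hB
    rcases mul_eq_zero.mp h1.symm with h | h
    · exact absurd (C_eq_zero.mp h) hBq
    · exact h
  · have hmap : ∀ i, aeval jq (c' i)
        = algebraMap ℚ (LaurentSeries ℚ) (B : ℚ) * aeval jq (c i) := by
      intro i
      rw [← aeval_C (R := ℚ) jq (B : ℚ), ← map_mul, ← hc' i, aeval_def, aeval_def, eval₂_map]
      congr 1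
      exact RingHom.ext_int _ _
    simp only [hmap, mul_assoc]
    rw [← Finset.mul_sum, hc, mul_zero]

/-- **B1, consumer shape over `ℚ[X]`**: `ψ(N) + 1` elements of `F` are `ℚ[j]`-dependent. -/
theorem dependent_of_card_rat (v : Fin (dedekindPsi N + 1) → LaurentSeries ℚ)
    (hv : ∀ i, v i ∈ modularFunctionFieldFull N) :
    ∃ c : Fin (dedekindPsi N + 1) → ℚ[X], c ≠ 0 ∧ ∑ i, aeval jq (c i) * v i = 0 :=
  dependent_of_lt_card_rat N (by rw [Fintype.card_fin]; exact Nat.lt_succ_self _) v hv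

/-- **B1, consumer shape (helper21 #609)**: `ψ(N) + 1` elements of `F` satisfy a nontrivial
relation with coefficients in `ℤ[j]`. -/
theorem dependent_of_card (v : Fin (dedekindPsi N + 1) → LaurentSeries ℚ)
    (hv : ∀ i, v i ∈ modularFunctionFieldFull N) :
    ∃ c : Fin (dedekindPsi N + 1) → ℤ[X], c ≠ 0 ∧ ∑ i, aeval jq (c i) * v i = 0 :=
  dependent_of_lt_card N (by rw [Fintype.card_fin]; exact Nat.lt_succ_self _) v hv

end

end Fermat.Agent.S28.RegDegree
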