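/-
S28 package B6 / S2 (helper10): scheme plumbing.
If the three chart algebras tensored with `K` are domains (resp. nontrivial for the middle one),
the base change of the Igusa scheme to `K` is an integral scheme.
Mathlib + Prelude only.
-/
import Mathlib
import Fermat.Prelude.Def_ModularCurve_IgusaScheme

set_option autoImplicit false
open AlgebraicGeometry CategoryTheory CategoryTheory.Limits ModularCurve ModularCurve.IgusaScheme
open scoped TensorProduct

noncomputable section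

namespace Fermat.Agent.S28.SchemeGlue

/-! ### A topological lemma -/

/-- A space covered by two irreducible open subsets with a common point is irreducible. -/
theorem irreducibleSpace_of_two_opens {Y : Type*} [TopologicalSpace Y] {A B : Set Y}
    (hA : IsOpen A) (hB : IsOpen B) (hAi : IsIrreducible A) (hBi : IsIrreducible B)
    (hcov : A ∪ B = Set.univ) (hne : (A ∩ B).Nonempty) : IrreducibleSpace Y := by
  have hW : IsOpen (A ∩ B) := hA.inter hB
  -- every nonempty open meets `A ∩ B`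
  have key : ∀ U : Set Y, IsOpen U → U.Nonempty → (U ∩ (A ∩ B)).Nonempty := by
    intro U hU ⟨x, hx⟩
    have hxAB : x ∈ A ∪ B := by rw [hcov]; trivial
    rcases hxAB with hxA | hxB
    · obtain ⟨y, -, hy⟩ := hAi.2 U (A ∩ B) hU hW ⟨x, hxA, hx⟩
        (by obtain ⟨z, hz⟩ := hne; exact ⟨z, hz.1, hz⟩)
      exact ⟨y, hy⟩
    · obtain ⟨y, -, hy⟩ := hBi.2 U (A ∩ B) hU hW ⟨x, hxB, hx⟩
        (by obtain ⟨z, hz⟩ := hne; exact ⟨z, hz.2, hz⟩)
      exact ⟨y, hy⟩
  have : Nonempty Y := ⟨hne.some⟩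
  refine { toPreirreducibleSpace := ⟨?_⟩, toNonempty := inferInstance }
  rintro U V hU hV ⟨x, -, hxU⟩ ⟨y, -, hyV⟩
  obtain ⟨a, haU, haA, -⟩ := key U hU ⟨x, hxU⟩
  obtain ⟨b, hbV, hbA, -⟩ := key V hV ⟨y, hyV⟩
  obtain ⟨c, -, hc⟩ := hAi.2 U V hU hV ⟨a, haA, haU⟩ ⟨b, hbA, hbV⟩
  exact ⟨c, trivial, hc⟩

variable (N : ℕ) [NeZero N] (ℓ : ℕ) [Fact ℓ.Prime]

set_option quotPrecheck false in
local notation "ℤℓ" => ↥(GaloisRep.ratLocalizedAt ℓ)

/-- The two-chart open cover of the Igusa scheme. -/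
def igusaOpenCover : (ModularCurve.IgusaScheme N ℓ).OpenCover :=
  Scheme.Cover.mkOfCovers Bool
    (fun b => match b with
      | true => XFin N ℓ
      | false => XInf N ℓ)
    (fun b => match b with
      | true => ιFin N ℓ
      | false => ιInf N ℓ)
    (fun x => by
      rcases mem_range_ιFin_or_mem_range_ιInf N ℓ x with ⟨y, hy⟩ | ⟨y, hy⟩
      · exact ⟨true, y, hy⟩
      · exact ⟨false, y, hy⟩)
    (fun b => by
      cases b
      · exact isOpenImmersion_ιInf N ℓ
      · exact isOpenImmersion_ιFin N ℓ)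


variable (K : Type) [Field K] [Algebra ↥(GaloisRep.ratLocalizedAt ℓ) K]

/-- The base-change morphism `Spec K ⟶ Spec ℤ_(ℓ)`. -/
abbrev baseK : Spec (CommRingCat.of K) ⟶ Spec (CommRingCat.of ℤℓ) :=
  Spec.map (CommRingCat.ofHom (algebraMap ℤℓ K))

/-- The base change of the Igusa scheme. -/
abbrev YK : Scheme := pullback (igusaTo N ℓ) (baseK ℓ K)

/-- The finite piece of the base change. -/
abbrev VFin : Scheme := pullback (ιFin N ℓ ≫ igusaTo N ℓ) (baseK ℓ K)

/-- The infinite piece of the base change. -/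
abbrev VInf : Scheme := pullback (ιInf N ℓ ≫ igusaTo N ℓ) (baseK ℓ K)

/-- The open immersion of the finite piece. -/
def jFin : VFin N ℓ K ⟶ YK N ℓ K :=
  pullback.map (ιFin N ℓ ≫ igusaTo N ℓ) (baseK ℓ K) (igusaTo N ℓ) (baseK ℓ K)
    (ιFin N ℓ) (𝟙 _) (𝟙 _) (by simp) (by simp)

/-- The open immersion of the infinite piece. -/
def jInf : VInf N ℓ K ⟶ YK N ℓ K :=
  pullback.map (ιInf N ℓ ≫ igusaTo N ℓ) (baseK ℓ K) (igusaTo N ℓ) (baseK ℓ K)
    (ιInf N ℓ) (𝟙 _) (𝟙 _) (by simp) (by simp)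

instance : IsOpenImmersion (jFin N ℓ K) := by
  unfold jFin; infer_instance

instance : IsOpenImmersion (jInf N ℓ K) := by
  unfold jInf; infer_instance

/-- The induced open cover of the base change. -/
def pullbackCover : (YK N ℓ K).OpenCover :=
  Scheme.Pullback.openCoverOfLeft (igusaOpenCover N ℓ) (igusaTo N ℓ) (baseK ℓ K)

theorem mem_range_jFin_or_jInf (y : YK N ℓ K) :
    y ∈ Set.range (jFin N ℓ K).base ∨ y ∈ Set.range (jInf N ℓ K).base := by
  obtain ⟨i, x, hx⟩ := (pullbackCover N ℓ K).exists_eq y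
  cases i
  · exact Or.inr ⟨x, hx⟩
  · exact Or.inl ⟨x, hx⟩

/-- The finite chart of the base change is `Spec (B_fin ⊗ K)`. -/
def pieceFinIso : VFin N ℓ K ≅ Spec (CommRingCat.of ((chartAlgFin N ℓ) ⊗[ℤℓ] K)) :=
  pullback.congrHom (ιFin_igusaTo N ℓ) rfl ≪≫
    pullbackSpecIso ℤℓ (chartAlgFin N ℓ) K

/-- The infinite chart of the base change is `Spec (B_inf ⊗ K)`. -/
def pieceInfIso : VInf N ℓ K ≅ Spec (CommRingCat.of ((chartAlgInf N ℓ) ⊗[ℤℓ] K)) :=
  pullback.congrHom (ιInf_igusaTo N ℓ) rfl ≪≫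
    pullbackSpecIso ℤℓ (chartAlgInf N ℓ) K

theorem isIntegral_VFin [IsDomain ((chartAlgFin N ℓ) ⊗[ℤℓ] K)] :
    AlgebraicGeometry.IsIntegral (VFin N ℓ K) :=
  IsIntegral.of_isIso (pieceFinIso N ℓ K).inv

theorem isIntegral_VInf [IsDomain ((chartAlgInf N ℓ) ⊗[ℤℓ] K)] :
    AlgebraicGeometry.IsIntegral (VInf N ℓ K) :=
  IsIntegral.of_isIso (pieceInfIso N ℓ K).inv

/-- `B_mid ⊗ K` as a commutative ring object. -/
abbrev BmidK : CommRingCat := CommRingCat.of ((chartAlgMid N ℓ) ⊗[ℤℓ] K)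

/-- `B_mid → B_mid ⊗ K`. -/
def midLeft : CommRingCat.of (chartAlgMid N ℓ) ⟶ BmidK N ℓ K :=
  CommRingCat.ofHom Algebra.TensorProduct.includeLeftRingHom

/-- `K → B_mid ⊗ K`. -/
def midRight : CommRingCat.of K ⟶ BmidK N ℓ K :=
  CommRingCat.ofHom
    (Algebra.TensorProduct.includeRight : K →ₐ[ℤℓ] (chartAlgMid N ℓ) ⊗[ℤℓ] K).toRingHom

theorem midFin_comm :
    CommRingCat.ofHom (algebraMap ℤℓ (chartAlgFin N ℓ)) ≫
        CommRingCat.ofHom (inclFin N ℓ).toRingHom ≫ midLeft N ℓ K =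
      CommRingCat.ofHom (algebraMap ℤℓ K) ≫ midRight N ℓ K := by
  ext a
  simp [midLeft, midRight, Algebra.TensorProduct.algebraMap_apply]

theorem midInf_comm :
    CommRingCat.ofHom (algebraMap ℤℓ (chartAlgInf N ℓ)) ≫
        CommRingCat.ofHom (inclInf N ℓ).toRingHom ≫ midLeft N ℓ K =
      CommRingCat.ofHom (algebraMap ℤℓ K) ≫ midRight N ℓ K := by
  ext a
  simp [midLeft, midRight, Algebra.TensorProduct.algebraMap_apply]

theorem midFin_scheme_comm :
    (Spec.map (midLeft N ℓ K) ≫ fFin N ℓ) ≫ (ιFin N ℓ ≫ igusaTo N ℓ) =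
      Spec.map (midRight N ℓ K) ≫ baseK ℓ K := by
  rw [ιFin_igusaTo, Category.assoc, ← Spec.map_comp, ← Spec.map_comp, ← Spec.map_comp,
    Category.assoc, midFin_comm]

theorem midInf_scheme_comm :
    (Spec.map (midLeft N ℓ K) ≫ fInf N ℓ) ≫ (ιInf N ℓ ≫ igusaTo N ℓ) =
      Spec.map (midRight N ℓ K) ≫ baseK ℓ K := by
  rw [ιInf_igusaTo, Category.assoc, ← Spec.map_comp, ← Spec.map_comp, ← Spec.map_comp,
    Category.assoc, midInf_comm]

/-- The middle chart `Spec (B_mid ⊗ K)` maps to the finite piece. -/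
def midToFin : Spec (BmidK N ℓ K) ⟶ VFin N ℓ K :=
  pullback.lift (Spec.map (midLeft N ℓ K) ≫ fFin N ℓ) (Spec.map (midRight N ℓ K))
    (midFin_scheme_comm N ℓ K)

/-- The middle chart `Spec (B_mid ⊗ K)` maps to the infinite piece. -/
def midToInf : Spec (BmidK N ℓ K) ⟶ VInf N ℓ K :=
  pullback.lift (Spec.map (midLeft N ℓ K) ≫ fInf N ℓ) (Spec.map (midRight N ℓ K))
    (midInf_scheme_comm N ℓ K)

theorem midToFin_jFin_eq : midToFin N ℓ K ≫ jFin N ℓ K = midToInf N ℓ K ≫ jInf N ℓ K := by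
  apply pullback.hom_ext
  · simp only [midToFin, midToInf, jFin, jInf, pullback.map, Category.assoc, pullback.lift_fst,
      pullback.lift_fst_assoc, glue_condition]
  · simp only [midToFin, midToInf, jFin, jInf, pullback.map, Category.assoc, pullback.lift_snd,
      pullback.lift_snd_assoc]


/-- **Scheme glue.** If `B_fin ⊗ K` and `B_inf ⊗ K` are domains and `B_mid ⊗ K` is nontrivial,
the base change of the Igusa scheme to `K` is integral. -/
theorem isIntegral_YK
    [IsDomain ((chartAlgFin N ℓ) ⊗[ℤℓ] K)] [IsDomain ((chartAlgInf N ℓ) ⊗[ℤℓ] K)]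
    [Nontrivial ((chartAlgMid N ℓ) ⊗[ℤℓ] K)] :
    AlgebraicGeometry.IsIntegral (YK N ℓ K) := by
  have := isIntegral_VFin N ℓ K
  have := isIntegral_VInf N ℓ K
  -- reduced
  have : IsReduced (YK N ℓ K) := by
    refine @IsReduced.of_openCover _ (pullbackCover N ℓ K) ?_
    intro i
    cases i
    · show IsReduced (VInf N ℓ K); infer_instance
    · show IsReduced (VFin N ℓ K); infer_instance
  -- irreducible
  have : IrreducibleSpace (YK N ℓ K) := by
    refine irreducibleSpace_of_two_opens (A := Set.range (jFin N ℓ K).base)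
      (B := Set.range (jInf N ℓ K).base) ?_ ?_ ?_ ?_ ?_ ?_
    · exact (jFin N ℓ K).isOpenEmbedding.isOpen_range
    · exact (jInf N ℓ K).isOpenEmbedding.isOpen_range
    · rw [← Set.image_univ]
      exact (IrreducibleSpace.isIrreducible_univ _).image _
        (jFin N ℓ K).continuous.continuousOn
    · rw [← Set.image_univ]
      exact (IrreducibleSpace.isIrreducible_univ _).image _
        (jInf N ℓ K).continuous.continuousOn
    · ext y
      simpa using mem_range_jFin_or_jInf N ℓ K y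
    · obtain ⟨x⟩ : Nonempty (Spec (BmidK N ℓ K)) := inferInstance
      refine ⟨(midToFin N ℓ K ≫ jFin N ℓ K).base x, ⟨(midToFin N ℓ K).base x, rfl⟩, ?_⟩
      rw [midToFin_jFin_eq]
      exact ⟨(midToInf N ℓ K).base x, rfl⟩
  exact isIntegral_of_irreducibleSpace_of_isReduced _


/-- The same statement in the exact shape of the frozen statement S28, with the three
chart facts as explicit hypotheses. -/
theorem isIntegral_pullback_igusaTo
    (hFin : IsDomain ((chartAlgFin N ℓ) ⊗[ℤℓ] K)) (hInf : IsDomain ((chartAlgInf N ℓ) ⊗[ℤℓ] K))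
    (hMid : Nontrivial ((chartAlgMid N ℓ) ⊗[ℤℓ] K)) :
    AlgebraicGeometry.IsIntegral (pullback (igusaTo N ℓ)
      (Spec.map (CommRingCat.ofHom (algebraMap ↥(GaloisRep.ratLocalizedAt ℓ) K)))) :=
  isIntegral_YK N ℓ K

end Fermat.Agent.S28.SchemeGlue
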