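import Mathlib
import Fermat.Prelude.Def_GaloisRep_Flat
import Fermat.Prelude.Def_ModularCurve_LaurentCoeff

set_option autoImplicit false
set_option linter.unusedSectionVars false

/-!
# S28, package B5: `B ⊗[ℤ_(ℓ)] K` is a domain

Let `B` be a `ℤ_(ℓ)`-algebra with a ring homomorphism `ρ : B → 𝔽_ℓ((q))` whose kernel is `ℓ B`.
Then for every field `K` of characteristic `ℓ` (any `ℤ_(ℓ)`-algebra structure),
`B ⊗[ℤ_(ℓ)] K` embeds into `K((q))`, hence is a domain.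
-/

namespace Fermat.Agent.S28.TensorDomain

open TensorProduct

noncomputable section

variable (ℓ : ℕ)

/-- `ℤ_(ℓ)` as a type. -/
abbrev Zl : Type := ↥(GaloisRep.ratLocalizedAt ℓ)

/-- the denominator of an element of `ℤ_(ℓ)`, as an element of `ℤ_(ℓ)`. -/
def denInv (a : Zl ℓ) : Zl ℓ :=
  ⟨((a : ℚ).den : ℚ)⁻¹, by
    show (((a : ℚ).den : ℚ)⁻¹).den.Coprime ℓ
    have h : (((a : ℚ).den : ℚ)⁻¹).den = (a : ℚ).den := by
      have hpos : 0 < (a : ℚ).den := (a : ℚ).den_pos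
      rw [Rat.inv_natCast_den_of_pos hpos]
    rw [h]
    exact a.2⟩

theorem eq_num_mul_denInv (a : Zl ℓ) : a = ((a : ℚ).num : Zl ℓ) * denInv ℓ a := by
  apply Subtype.ext
  have hd : ((a : ℚ).den : ℚ) ≠ 0 := by exact_mod_cast (a : ℚ).den_ne_zero
  show (a : ℚ) = (((a : ℚ).num : Zl ℓ) : ℚ) * ((a : ℚ).den : ℚ)⁻¹
  have : ((((a : ℚ).num : Zl ℓ) : Zl ℓ) : ℚ) = ((a : ℚ).num : ℚ) := by
    simp
  rw [this, ← div_eq_mul_inv, Rat.num_div_den]

theorem denInv_mul_den (a : Zl ℓ) : denInv ℓ a * (((a : ℚ).den : ℕ) : Zl ℓ) = 1 := by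
  apply Subtype.ext
  have hd : ((a : ℚ).den : ℚ) ≠ 0 := by exact_mod_cast (a : ℚ).den_ne_zero
  show ((a : ℚ).den : ℚ)⁻¹ * ((((a : ℚ).den : ℕ) : Zl ℓ) : ℚ) = 1
  have : (((((a : ℚ).den : ℕ) : Zl ℓ) : Zl ℓ) : ℚ) = ((a : ℚ).den : ℚ) := by simp
  rw [this, inv_mul_cancel₀ hd]

/-- ring homomorphisms out of `ℤ_(ℓ)` are unique. -/
theorem ringHom_ext_Zl {R : Type*} [CommRing R] (f g : Zl ℓ →+* R) : f = g := by
  ext a
  have hf : f (denInv ℓ a) * (((a : ℚ).den : ℕ) : R) = 1 := by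
    rw [← map_natCast f, ← map_mul, denInv_mul_den, map_one]
  have hg : g (denInv ℓ a) * (((a : ℚ).den : ℕ) : R) = 1 := by
    rw [← map_natCast g, ← map_mul, denInv_mul_den, map_one]
  have hfg : f (denInv ℓ a) = g (denInv ℓ a) := by
    calc f (denInv ℓ a) = f (denInv ℓ a) * (g (denInv ℓ a) * (((a : ℚ).den : ℕ) : R)) := by
          rw [hg, mul_one]
      _ = (f (denInv ℓ a) * (((a : ℚ).den : ℕ) : R)) * g (denInv ℓ a) := by ring
      _ = g (denInv ℓ a) := by rw [hf, one_mul]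
  rw [eq_num_mul_denInv ℓ a, map_mul, map_mul, map_intCast, map_intCast, hfg]

section main

variable [hℓ : Fact ℓ.Prime]
variable (B : Type*) [CommRing B] [Algebra (Zl ℓ) B]
variable (ρ : B →+* LaurentSeries (ZMod ℓ))
variable (K : Type) [Field K] [CharP K ℓ] [Algebra (Zl ℓ) K]

/-- the canonical map `𝔽_ℓ → K`. -/
def phi : ZMod ℓ →+* K := ZMod.castHom (dvd_refl ℓ) K

/-- `ρ` followed by the coefficientwise map `𝔽_ℓ((q)) → K((q))`. -/
def rhoK : B →+* LaurentSeries K := (ModularCurve.coeffMap (phi ℓ K)).comp ρ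

/-- `rhoK` as a `ℤ_(ℓ)`-algebra homomorphism. -/
def rhoKAlg : B →ₐ[Zl ℓ] LaurentSeries K :=
  { rhoK ℓ B ρ K with
    commutes' := fun a => by
      have h := ringHom_ext_Zl ℓ ((rhoK ℓ B ρ K).comp (algebraMap (Zl ℓ) B))
        (algebraMap (Zl ℓ) (LaurentSeries K))
      exact congrArg (fun f => f a) h }

/-- the constants `K → K((q))` as a `ℤ_(ℓ)`-algebra homomorphism. -/
def constAlg : K →ₐ[Zl ℓ] LaurentSeries K :=
  { (HahnSeries.C : K →+* LaurentSeries K) with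
    commutes' := fun a => by
      have h := ringHom_ext_Zl ℓ ((HahnSeries.C : K →+* LaurentSeries K).comp (algebraMap (Zl ℓ) K))
        (algebraMap (Zl ℓ) (LaurentSeries K))
      exact congrArg (fun f => f a) h }

/-- the comparison map `B ⊗ K → K((q))`. -/
def Psi : (B ⊗[Zl ℓ] K) →ₐ[Zl ℓ] LaurentSeries K :=
  Algebra.TensorProduct.productMap (rhoKAlg ℓ B ρ K) (constAlg ℓ K)

theorem Psi_tmul (b : B) (c : K) :
    Psi ℓ B ρ K (b ⊗ₜ c) = ModularCurve.coeffMap (phi ℓ K) (ρ b) * HahnSeries.C c := by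
  rw [Psi, Algebra.TensorProduct.productMap_apply_tmul]
  rfl

/-- moving a natural number across the tensor sign. -/
theorem natCast_mul_tmul (n : ℕ) (b : B) (c : K) :
    (((n : B) * b) ⊗ₜ[Zl ℓ] c) = b ⊗ₜ[Zl ℓ] ((n : K) * c) := by
  have h1 : (n : B) * b = (n : Zl ℓ) • b := by
    rw [Algebra.smul_def, map_natCast]
  have h2 : (n : K) * c = (n : Zl ℓ) • c := by
    rw [Algebra.smul_def, map_natCast]
  rw [h1, h2, TensorProduct.smul_tmul]

theorem phi_eq_natCast_val (α : ZMod ℓ) : phi ℓ K α = ((α.val : ℕ) : K) := by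
  rw [phi, ZMod.castHom_apply, ZMod.natCast_val]

section inj

variable {J : Type*} (e : J → K)

/-- `b ↦ ∑ⱼ bⱼ ⊗ eⱼ`. -/
def Theta : (J →₀ B) →+ (B ⊗[Zl ℓ] K) :=
  Finsupp.liftAddHom fun j => ((TensorProduct.mk (Zl ℓ) B K).flip (e j)).toAddMonoidHom

theorem Theta_single (j : J) (x : B) :
    Theta ℓ B K e (Finsupp.single j x) = x ⊗ₜ[Zl ℓ] e j := by
  rw [Theta, Finsupp.liftAddHom_apply_single]
  rfl

theorem Theta_apply (b : J →₀ B) :
    Theta ℓ B K e b = ∑ j ∈ b.support, (b j) ⊗ₜ[Zl ℓ] e j := by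
  rw [Theta, Finsupp.liftAddHom_apply]
  rfl

variable {ℓ B K} in
/-- if the `eⱼ` span `K` over `𝔽_ℓ`, every tensor is of the form `∑ⱼ bⱼ ⊗ eⱼ`. -/
theorem Theta_surjective
    (hspan : ∀ c : K, ∃ (s : Finset J) (r : J → ZMod ℓ), c = ∑ j ∈ s, phi ℓ K (r j) * e j) :
    Function.Surjective (Theta ℓ B K e) := by
  intro z
  induction z using TensorProduct.induction_on with
  | zero => exact ⟨0, map_zero _⟩
  | tmul b c =>
    obtain ⟨s, r, hc⟩ := hspan c
    refine ⟨∑ j ∈ s, Finsupp.single j ((((r j).val : ℕ) : B) * b), ?_⟩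
    rw [map_sum, hc, TensorProduct.tmul_sum]
    refine Finset.sum_congr rfl fun j _ => ?_
    rw [Theta_single, natCast_mul_tmul, phi_eq_natCast_val]
  | add x y hx hy =>
    obtain ⟨bx, rfl⟩ := hx
    obtain ⟨by', rfl⟩ := hy
    exact ⟨bx + by', map_add _ _ _⟩

theorem coeff_Psi_Theta (b : J →₀ B) (n : ℤ) :
    (Psi ℓ B ρ K (Theta ℓ B K e b)).coeff n =
      ∑ j ∈ b.support, phi ℓ K ((ρ (b j)).coeff n) * e j := by
  rw [Theta_apply, map_sum, HahnSeries.coeff_sum]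
  refine Finset.sum_congr rfl fun j _ => ?_
  rw [Psi_tmul, mul_comm, HahnSeries.C_mul_eq_smul, HahnSeries.coeff_smul, smul_eq_mul,
    ModularCurve.coeffMap_coeff, mul_comm]

variable {ℓ B K} in
/-- if the `eⱼ` are independent over `𝔽_ℓ` and `ker ρ = ℓ B`, then `Ψ ∘ Θ` has trivial kernel. -/
theorem Theta_eq_zero_of_Psi_eq_zero
    (hindep : ∀ (s : Finset J) (g : J → ZMod ℓ), ∑ j ∈ s, phi ℓ K (g j) * e j = 0 →
      ∀ j ∈ s, g j = 0)
    (hker : ∀ x : B, ρ x = 0 → ∃ y : B, x = (ℓ : B) * y)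
    (b : J →₀ B) (hb : Psi ℓ B ρ K (Theta ℓ B K e b) = 0) : Theta ℓ B K e b = 0 := by
  have h0 : ∀ j ∈ b.support, ρ (b j) = 0 := by
    intro j hj
    ext n
    have h := coeff_Psi_Theta ℓ B ρ K e b n
    rw [hb, HahnSeries.coeff_zero] at h
    rw [HahnSeries.coeff_zero]
    exact hindep b.support (fun j => (ρ (b j)).coeff n) h.symm j hj
  rw [Theta_apply]
  refine Finset.sum_eq_zero fun j hj => ?_
  obtain ⟨y, hy⟩ := hker (b j) (h0 j hj)
  rw [hy, natCast_mul_tmul, CharP.cast_eq_zero K ℓ, zero_mul, TensorProduct.tmul_zero]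

end inj

variable {ℓ B K} in
/-- the comparison map is injective as soon as `ker ρ = ℓ B`. -/
theorem Psi_injective (hker : ∀ x : B, ρ x = 0 → ∃ y : B, x = (ℓ : B) * y) :
    Function.Injective (Psi ℓ B ρ K) := by
  let _ : Algebra (ZMod ℓ) K := (phi ℓ K).toAlgebra
  let e := Module.Basis.ofVectorSpace (ZMod ℓ) K
  have hsmul : ∀ (α : ZMod ℓ) (c : K), α • c = phi ℓ K α * c := fun α c => by
    rw [Algebra.smul_def]; rfl
  have hspan : ∀ c : K, ∃ (s : Finset (Module.Basis.ofVectorSpaceIndex (ZMod ℓ) K))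
      (r : Module.Basis.ofVectorSpaceIndex (ZMod ℓ) K → ZMod ℓ),
      c = ∑ j ∈ s, phi ℓ K (r j) * e j := by
    intro c
    refine ⟨(e.repr c).support, fun j => e.repr c j, ?_⟩
    have h := e.linearCombination_repr c
    rw [Finsupp.linearCombination_apply, Finsupp.sum] at h
    exact h.symm.trans (Finset.sum_congr rfl fun j _ => hsmul _ _)
  have hindep : ∀ (s : Finset (Module.Basis.ofVectorSpaceIndex (ZMod ℓ) K))
      (g : Module.Basis.ofVectorSpaceIndex (ZMod ℓ) K → ZMod ℓ),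
      ∑ j ∈ s, phi ℓ K (g j) * e j = 0 → ∀ j ∈ s, g j = 0 := by
    intro s g hg
    have hli := e.linearIndependent
    rw [linearIndependent_iff'] at hli
    refine hli s g ?_
    rw [← hg]
    exact Finset.sum_congr rfl fun j _ => hsmul _ _
  rw [injective_iff_map_eq_zero]
  intro z hz
  obtain ⟨b, rfl⟩ := Theta_surjective (B := B) (fun j => e j) hspan z
  exact Theta_eq_zero_of_Psi_eq_zero ρ (fun j => e j) hindep hker b hz

variable {ℓ B K} in
/-- **B5.** `B ⊗[ℤ_(ℓ)] K` is a domain for every field `K` of characteristic `ℓ`, as soon as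
`B / ℓ B` embeds into `𝔽_ℓ((q))`. -/
theorem isDomain_tensor' (hker : ∀ x : B, ρ x = 0 → ∃ y : B, x = (ℓ : B) * y) :
    IsDomain (B ⊗[Zl ℓ] K) :=
  Function.Injective.isDomain (Psi ℓ B ρ K).toRingHom (Psi_injective ρ hker)

end main

/-- **B5**, in the shape announced on the board. -/
theorem isDomain_tensor (ℓ : ℕ) [Fact ℓ.Prime] (B : Type*) [CommRing B]
    [Algebra ↥(GaloisRep.ratLocalizedAt ℓ) B] (ρ : B →+* LaurentSeries (ZMod ℓ))
    (hker : ∀ x : B, ρ x = 0 → ∃ y : B, x = (ℓ : B) * y)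
    (K : Type) [Field K] [CharP K ℓ] [Algebra ↥(GaloisRep.ratLocalizedAt ℓ) K] :
    IsDomain (TensorProduct ↥(GaloisRep.ratLocalizedAt ℓ) B K) :=
  isDomain_tensor' (ℓ := ℓ) (B := B) (K := K) ρ hker

end

end Fermat.Agent.S28.TensorDomain
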