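import Mathlib
import Fermat.Agent.S28.TensorDomain

set_option autoImplicit false
set_option linter.unusedSectionVars false

/-!
# S28, package B5 (variants): flipped tensor order and nontriviality

Built on `Fermat.Agent.S28.TensorDomain` (helper18's file, main 91d9461 = f88a2b8: `Psi`,
`Psi_tmul`, `Psi_injective`).

* `isDomain_tensor_flip` : `IsDomain (K ⊗[ℤ_(ℓ)] B)`;
* `nontrivial_tensor`, `nontrivial_tensor_flip` : any ring hom `ρ : B → 𝔽_ℓ((q))` (no kernel
  condition) forces `B ⊗ K` and `K ⊗ B` to be nontrivial.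
-/

namespace Fermat.Agent.S28.TensorDomainFlip

open TensorProduct Fermat.Agent.S28.TensorDomain

noncomputable section

variable (ℓ : ℕ) [hℓ : Fact ℓ.Prime]
variable (B : Type*) [CommRing B] [Algebra ↥(GaloisRep.ratLocalizedAt ℓ) B]
variable (ρ : B →+* LaurentSeries (ZMod ℓ))
variable (K : Type) [Field K] [CharP K ℓ] [Algebra ↥(GaloisRep.ratLocalizedAt ℓ) K]

include ρ in
/-- any ring hom `ρ : B → 𝔽_ℓ((q))` makes `B ⊗[ℤ_(ℓ)] K` nontrivial. -/
theorem nontrivial_tensor : Nontrivial (TensorProduct ↥(GaloisRep.ratLocalizedAt ℓ) B K) :=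
  (Psi ℓ B ρ K).toRingHom.domain_nontrivial

include ρ in
/-- any ring hom `ρ : B → 𝔽_ℓ((q))` makes `K ⊗[ℤ_(ℓ)] B` nontrivial. -/
theorem nontrivial_tensor_flip : Nontrivial (TensorProduct ↥(GaloisRep.ratLocalizedAt ℓ) K B) :=
  ((Psi ℓ B ρ K).toRingHom.comp
    (Algebra.TensorProduct.comm ↥(GaloisRep.ratLocalizedAt ℓ) K B).toAlgHom.toRingHom).domain_nontrivial

/-- the comparison map on the flipped tensor product. -/
def PsiFlip : (K ⊗[↥(GaloisRep.ratLocalizedAt ℓ)] B) →ₐ[↥(GaloisRep.ratLocalizedAt ℓ)] LaurentSeries K :=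
  (Psi ℓ B ρ K).comp (Algebra.TensorProduct.comm ↥(GaloisRep.ratLocalizedAt ℓ) K B).toAlgHom

theorem PsiFlip_tmul (c : K) (b : B) :
    PsiFlip ℓ B ρ K (c ⊗ₜ b) = ModularCurve.coeffMap (phi ℓ K) (ρ b) * HahnSeries.C c := by
  rw [PsiFlip, AlgHom.comp_apply]
  erw [Algebra.TensorProduct.comm_tmul]
  exact Psi_tmul ℓ B ρ K b c

variable {ℓ B K} in
theorem PsiFlip_injective (hker : ∀ x : B, ρ x = 0 → ∃ y : B, x = (ℓ : B) * y) :
    Function.Injective (PsiFlip ℓ B ρ K) := by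
  rw [PsiFlip]
  exact (Psi_injective ρ hker).comp
    (Algebra.TensorProduct.comm ↥(GaloisRep.ratLocalizedAt ℓ) K B).injective

/-- **B5, flipped.** `K ⊗[ℤ_(ℓ)] B` is a domain. -/
theorem isDomain_tensor_flip (hker : ∀ x : B, ρ x = 0 → ∃ y : B, x = (ℓ : B) * y) :
    IsDomain (TensorProduct ↥(GaloisRep.ratLocalizedAt ℓ) K B) :=
  Function.Injective.isDomain (PsiFlip ℓ B ρ K).toRingHom (PsiFlip_injective ρ hker)

end

end Fermat.Agent.S28.TensorDomainFlip
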