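/-
S28 package B7a (helper10): final assembly against the chart-reduction interface.

Input (to be produced by ChartRed / B4):
* `ρFin : chartAlgFin N ℓ →+* LaurentSeries (ZMod ℓ)` with `ker ρFin ⊆ ℓ · chartAlgFin` and
  `ρFin j ≠ 0`;
* `ρInf : chartAlgInf N ℓ →+* LaurentSeries (ZMod ℓ)` with `ker ρInf ⊆ ℓ · chartAlgInf`.
Output: the frozen statement S28.
-/
import Mathlib
import Fermat.Prelude.Def_ModularCurve_IgusaScheme
import Fermat.Agent.S28.SchemeGlue
import Fermat.Agent.S28.TensorDomain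
import Fermat.Agent.S28.TensorDomainFlip

set_option autoImplicit false
open AlgebraicGeometry CategoryTheory CategoryTheory.Limits ModularCurve ModularCurve.IgusaScheme
open scoped TensorProduct

noncomputable section

namespace Fermat.Agent.S28.Assemble

variable (N : ℕ) [NeZero N] (ℓ : ℕ) [Fact ℓ.Prime]

set_option quotPrecheck false in
local notation "ℤℓ" => ↥(GaloisRep.ratLocalizedAt ℓ)

/-- Abstract form: a ring hom into a field not killing `a` extends to the localization away
from `a`. -/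
theorem exists_lift_of_away {A B L : Type*} [CommRing A] [CommRing B] [Field L] (f : A →+* B)
    (a : A) (h : @IsLocalization.Away A _ a B _ f.toAlgebra) (g : A →+* L) (hg : g a ≠ 0) :
    ∃ g' : B →+* L, g'.comp f = g := by
  let _ := f.toAlgebra
  refine ⟨IsLocalization.Away.lift (S := B) a (g := g) (IsUnit.mk0 _ hg), ?_⟩
  ext x
  exact IsLocalization.Away.lift_eq a (IsUnit.mk0 _ hg) x

/-- A ring hom out of the finite chart algebra into a field which does not kill `j` extends to the
middle chart algebra (`B_mid = B_fin[1/j]`). -/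
theorem exists_rhoMid_of_rhoFin {L : Type*} [Field L] (ρFin : chartAlgFin N ℓ →+* L)
    (hj : ρFin (jChartFin N ℓ) ≠ 0) :
    ∃ ρMid : chartAlgMid N ℓ →+* L, ρMid.comp (inclFin N ℓ).toRingHom = ρFin :=
  exists_lift_of_away (inclFin N ℓ).toRingHom (jChartFin N ℓ)
    (isLocalization_away_inclFin N ℓ) ρFin hj

/-- **Assembly.** The frozen statement S28 from the two chart reductions. -/
theorem isIntegral_pullback_of_chartRed
    (K : Type) [Field K] [CharP K ℓ] [Algebra ↥(GaloisRep.ratLocalizedAt ℓ) K]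
    (ρFin : chartAlgFin N ℓ →+* LaurentSeries (ZMod ℓ))
    (hkerFin : ∀ x : chartAlgFin N ℓ, ρFin x = 0 → ∃ y : chartAlgFin N ℓ,
      x = (ℓ : chartAlgFin N ℓ) * y)
    (hjFin : ρFin (jChartFin N ℓ) ≠ 0)
    (ρInf : chartAlgInf N ℓ →+* LaurentSeries (ZMod ℓ))
    (hkerInf : ∀ x : chartAlgInf N ℓ, ρInf x = 0 → ∃ y : chartAlgInf N ℓ,
      x = (ℓ : chartAlgInf N ℓ) * y) :
    AlgebraicGeometry.IsIntegral (pullback (igusaTo N ℓ)
      (Spec.map (CommRingCat.ofHom (algebraMap ↥(GaloisRep.ratLocalizedAt ℓ) K)))) := by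
  obtain ⟨ρMid, -⟩ := exists_rhoMid_of_rhoFin N ℓ ρFin hjFin
  exact SchemeGlue.isIntegral_pullback_igusaTo N ℓ K
    (TensorDomain.isDomain_tensor ℓ (chartAlgFin N ℓ) ρFin hkerFin K)
    (TensorDomain.isDomain_tensor ℓ (chartAlgInf N ℓ) ρInf hkerInf K)
    (TensorDomainFlip.nontrivial_tensor ℓ (chartAlgMid N ℓ) ρMid K)

end Fermat.Agent.S28.Assemble
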