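import Mathlib
import Fermat.Agent.S28.RegDegree

set_option autoImplicit false

/-!
# S28 / B1, consumer shape: `dependent_of_card`

Any `ψ(N) + 1` elements of `F = ℚ(j_d : d ∣ N) ⊆ ℚ((q))` satisfy a nontrivial linear relation
with coefficients in `ℤ[j]`.  This is the instance-free form of `[F : ℚ(j)] ≤ ψ(N)` consumed by
the chart reduction (`ChartRedInst` / `ChartInst21`); it is derived from
`RegDegree.card_le_psi` by clearing denominators.
-/

namespace Fermat.Agent.S28.RegDegree2

open ModularCurve IntermediateField Polynomial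

noncomputable section

/-- clearing denominators in a finite family of rational polynomials. -/
theorem exists_int_multiple {ι : Type*} [Finite ι] (g : ι → ℚ[X]) :
    ∃ d : ℤ, d ≠ 0 ∧ ∃ c : ι → ℤ[X], ∀ i,
      (c i).map (Int.castRingHom ℚ) = C (d : ℚ) * g i := by
  let _ := Polynomial.algebra ℤ ℚ
  have := Polynomial.isLocalization (nonZeroDivisors ℤ) ℚ
  obtain ⟨b, hb⟩ := IsLocalization.exist_integer_multiples_of_finite
    ((nonZeroDivisors ℤ).map (C : ℤ →+* ℤ[X])) g
  obtain ⟨d, hd, hdb⟩ := b.2
  refine ⟨d, nonZeroDivisors.ne_zero hd, ?_⟩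
  choose c hc using hb
  refine ⟨c, fun i => ?_⟩
  have h := hc i
  rw [Polynomial.algebraMap_def] at h
  rw [Algebra.smul_def, Polynomial.algebraMap_def, ← hdb] at h
  simpa using h

/-- evaluating an integral polynomial at a rational Laurent series, through `ℚ[X]`. -/
theorem aeval_int_eq_aeval_map (x : LaurentSeries ℚ) (p : ℤ[X]) :
    aeval x p = aeval x (p.map (Int.castRingHom ℚ)) := by
  rw [aeval_def, aeval_def, eval₂_map]
  congr 1
  exact RingHom.ext_int _ _

variable (N : ℕ) [NeZero N]

/-- **B1, dependence form over `ℚ[j]`**: more than `ψ(N)` elements of `F = ℚ(j_d : d ∣ N)` are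
linearly dependent with coefficients in `ℚ[j]`. -/
theorem dependent_rat_of_card_lt {ι : Type*} [Fintype ι] (v : ι → LaurentSeries ℚ)
    (hv : ∀ i, v i ∈ modularFunctionFieldFull N) (hcard : dedekindPsi N < Fintype.card ι) :
    ∃ c : ι → Polynomial ℚ, c ≠ 0 ∧ ∑ i, aeval jq (c i) * v i = 0 := by
  classical
  -- the family is not `ℚ(j)`-independent
  have hdep : ¬ LinearIndependent ↥ℚ⟮jq⟯ v := fun hli =>
    absurd (RegDegree.card_le_psi N v hv hli) (not_le.mpr hcard)
  rw [RegDegree.linearIndependent_adjoin_iff_polyIndep ℚ jq RegDegree.transcendental_jq] at hdep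
  unfold RegDegree.PolyIndep at hdep
  push Not at hdep
  obtain ⟨t, g, hg, i₀, hi₀, hgi₀⟩ := hdep
  -- extend by zero
  refine ⟨fun i => if i ∈ t then g i else 0, ?_, ?_⟩
  · intro hc0
    have h := congrFun hc0 i₀
    simp only [if_pos hi₀, Pi.zero_apply] at h
    exact hgi₀ h
  · rw [← hg, ← Finset.sum_subset (Finset.subset_univ t)]
    · refine Finset.sum_congr rfl fun i hi => ?_
      simp only [if_pos hi]
    · intro i _ hi
      simp only [if_neg hi, map_zero, zero_mul]

/-- **B1, dependence form over `ℤ[j]`**, any finite index type with more than `ψ(N)` elements. -/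
theorem dependent_of_card_lt {ι : Type*} [Fintype ι] (v : ι → LaurentSeries ℚ)
    (hv : ∀ i, v i ∈ modularFunctionFieldFull N) (hcard : dedekindPsi N < Fintype.card ι) :
    ∃ c : ι → Polynomial ℤ, c ≠ 0 ∧ ∑ i, aeval jq (c i) * v i = 0 := by
  obtain ⟨g, hg0, hg⟩ := dependent_rat_of_card_lt N v hv hcard
  obtain ⟨d, hd, c, hc⟩ := exists_int_multiple g
  refine ⟨c, ?_, ?_⟩
  · intro hc0
    apply hg0
    funext i
    have h := hc i
    rw [hc0] at h
    simp only [Pi.zero_apply, Polynomial.map_zero] at h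
    rcases mul_eq_zero.mp h.symm with h1 | h1
    · rw [C_eq_zero] at h1
      exact absurd (by exact_mod_cast h1) hd
    · exact h1
  · calc ∑ i, aeval jq (c i) * v i
        = ∑ i, aeval jq (C (d : ℚ)) * (aeval jq (g i) * v i) := by
          refine Finset.sum_congr rfl fun i _ => ?_
          rw [aeval_int_eq_aeval_map, hc i, map_mul, mul_assoc]
      _ = aeval jq (C (d : ℚ)) * ∑ i, aeval jq (g i) * v i := by rw [Finset.mul_sum]
      _ = 0 := by rw [hg, mul_zero]

/-- **B1, dependence form** (the shape of helper21 #609): any `ψ(N) + 1` elements of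
`F = ℚ(j_d : d ∣ N)` are linearly dependent with coefficients in `ℤ[j]`. -/
theorem dependent_of_card (v : Fin (dedekindPsi N + 1) → LaurentSeries ℚ)
    (hv : ∀ i, v i ∈ modularFunctionFieldFull N) :
    ∃ c : Fin (dedekindPsi N + 1) → Polynomial ℤ, c ≠ 0 ∧ ∑ i, aeval jq (c i) * v i = 0 :=
  dependent_of_card_lt N v hv (by rw [Fintype.card_fin]; exact Nat.lt_succ_self _)

end

end Fermat.Agent.S28.RegDegree2
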