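import Mathlib

/-!
# S28 (B3): abstract reduction of an integral closure modulo a prime

`A` a UFD, `π ∈ A` prime, `F ⊇ A` a field generated over `Frac A` by an integral element `θ`,
`red : R → L` a ring hom from a subring `R ⊇ A[θ]` of `F` to a field killing `π` such that the
reductions of `1, θ, …, θ^(n-1)` stay independent modulo `π`.  Then `red` extends to the integral
closure `B` of `A` in `F`, with kernel `π B`.
-/

set_option autoImplicit false
set_option linter.unusedSectionVars false
set_option linter.unusedVariables false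

open Polynomial

namespace Fermat.Agent.S28.AbsRed

section Kernel

variable {A F : Type*} [CommRing A] [IsDomain A] [IsIntegrallyClosed A]
  [Field F] [Algebra A F] [FaithfulSMul A F]

/-- if `π z` and `b z` are integral over the integrally closed domain `A`, with `π` prime not
dividing `b`, then `z` is integral. -/
theorem isIntegral_of_prime_mul {π b : A} (hπ : Prime π) (hb : ¬ π ∣ b) {z : F}
    (hx : IsIntegral A (algebraMap A F π * z)) (hy : IsIntegral A (algebraMap A F b * z)) :
    IsIntegral A z := by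
  classical
  have hb0 : b ≠ 0 := fun h => hb (h ▸ dvd_zero π)
  set x : F := algebraMap A F π * z with hxdef
  set y : F := algebraMap A F b * z with hydef
  have hsm : b • x = π • y := by
    rw [Algebra.smul_def, Algebra.smul_def, hxdef, hydef]; ring
  have h1 := IsIntegrallyClosed.minpoly_smul hb0 hx
  have h2 := IsIntegrallyClosed.minpoly_smul hπ.ne_zero hy
  rw [hsm] at h1
  have heq : (minpoly A x).scaleRoots b = (minpoly A y).scaleRoots π := h1.symm.trans h2
  set P := minpoly A x with hP
  set Q := minpoly A y with hQ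
  have hdeg : P.natDegree = Q.natDegree := by
    have := congrArg natDegree heq
    simpa [natDegree_scaleRoots] using this
  set d := P.natDegree with hd
  have hcoeff : ∀ i, P.coeff i * b ^ (d - i) = Q.coeff i * π ^ (d - i) := by
    intro i
    have := congrArg (fun p => p.coeff i) heq
    simpa [coeff_scaleRoots, ← hdeg] using this
  have hdvd : ∀ i, π ^ (d - i) ∣ P.coeff i := by
    intro i
    have h : π ^ (d - i) ∣ P.coeff i * b ^ (d - i) := ⟨Q.coeff i, by rw [hcoeff i, mul_comm]⟩
    exact hπ.pow_dvd_of_dvd_mul_right _ (fun h' => hb (hπ.dvd_of_dvd_pow h')) h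
  choose r hr using hdvd
  have hPmonic : P.Monic := minpoly.monic hx
  have hrd : r d = 1 := by
    have := hr d
    rw [Nat.sub_self, pow_zero, one_mul] at this
    rw [← this]; exact hPmonic.coeff_natDegree
  -- the candidate polynomial
  set P' : A[X] := X ^ d + ∑ i ∈ Finset.range d, C (r i) * X ^ i with hP'
  have hlt : (∑ i ∈ Finset.range d, C (r i) * X ^ i : A[X]).degree < d := by
    refine (degree_sum_le _ _).trans_lt ?_
    refine (Finset.sup_lt_iff (WithBot.bot_lt_coe d)).mpr ?_
    intro i hi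
    exact (degree_C_mul_X_pow_le i (r i)).trans_lt (WithBot.coe_lt_coe.mpr (Finset.mem_range.mp hi))
  have hmonic : P'.Monic := monic_X_pow_add hlt
  refine ⟨P', hmonic, ?_⟩
  have hπF : algebraMap A F π ≠ 0 := by
    simpa using hπ.ne_zero
  have hPx : aeval x P = 0 := minpoly.aeval A x
  rw [aeval_eq_sum_range, ← hd, Finset.sum_range_succ] at hPx
  have e1 : algebraMap A F π ^ d * z ^ d = P.coeff d • x ^ d := by
    rw [hd, hPmonic.coeff_natDegree, one_smul, hxdef, mul_pow]
  have e2 : ∀ i ∈ Finset.range d,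
      algebraMap A F π ^ d * eval₂ (algebraMap A F) z (C (r i) * X ^ i) = P.coeff i • x ^ i := by
    intro i hi
    have hi' : i < d := Finset.mem_range.mp hi
    rw [eval₂_mul, eval₂_C, eval₂_pow, eval₂_X, Algebra.smul_def, hr i, hxdef, map_mul, map_pow,
      mul_pow]
    have : algebraMap A F π ^ d = algebraMap A F π ^ (d - i) * algebraMap A F π ^ i := by
      rw [← pow_add, Nat.sub_add_cancel hi'.le]
    rw [this]; ring
  have key : algebraMap A F π ^ d * (eval₂ (algebraMap A F) z P') = 0 := by
    rw [hP', eval₂_add, eval₂_pow, eval₂_X, eval₂_finsetSum, mul_add, Finset.mul_sum, e1,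
      Finset.sum_congr rfl e2, add_comm]
    exact hPx
  exact (mul_eq_zero.mp key).resolve_left (pow_ne_zero _ hπF)

end Kernel

section Main

variable {A F L : Type*} [CommRing A] [IsDomain A] [UniqueFactorizationMonoid A]
  [Field F] [Algebra A F] [FaithfulSMul A F] [Field L]

/-- the `A`-linear combination `∑ a_i θ^i`. -/
def lin (θ : F) {n : ℕ} (a : Fin n → A) : F := ∑ i, algebraMap A F (a i) * θ ^ (i : ℕ)

theorem lin_smul (θ : F) {n : ℕ} (c : A) (a : Fin n → A) :
    lin θ (fun i => c * a i) = algebraMap A F c * lin θ a := by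
  unfold lin
  rw [Finset.mul_sum]
  exact Finset.sum_congr rfl fun i _ => by rw [map_mul, mul_assoc]

theorem isIntegral_lin {θ : F} (hθ : IsIntegral A θ) {n : ℕ} (a : Fin n → A) :
    IsIntegral A (lin θ a) :=
  IsIntegral.sum _ fun i _ => (isIntegral_algebraMap).mul (hθ.pow _)

variable (π : A) (θ : F) (n : ℕ) (R : Subring F) (hAR : ∀ a : A, algebraMap A F a ∈ R)
  (red : R →+* L)

/-- the structure map `A → R`. -/
def toR : A →+* R := (algebraMap A F).codRestrict R hAR

@[simp] theorem coe_toR (a : A) : ((toR R hAR a : R) : F) = algebraMap A F a := rfl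

include hAR in
theorem lin_mem (hθR : θ ∈ R) {n : ℕ} (a : Fin n → A) : lin θ a ∈ R :=
  Subring.sum_mem _ fun i _ => R.mul_mem (hAR _) (R.pow_mem hθR _)

include hAR in
/-- the nilpotent trick: if `π b₁ x = y` with `x` integral and `y ∈ R`, then `red y = 0`. -/
theorem red_eq_zero_of_mul (hredπ : red (toR R hAR π) = 0) {x : F} (hx : IsIntegral A x) (b₁ : A)
    (y : R) (h : algebraMap A F (π * b₁) * x = y) : red y = 0 := by
  obtain ⟨p, hp, hpx⟩ := hx
  set q := p.scaleRoots (π * b₁) with hq
  have hqm : q.Monic := (monic_scaleRoots_iff _).mpr hp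
  have h1 : eval₂ (algebraMap A F) (y : F) q = 0 := by
    rw [← h]; exact scaleRoots_eval₂_eq_zero _ hpx
  have h2 : eval₂ (toR R hAR) y q = 0 := by
    apply Subtype.val_injective
    have := hom_eval₂ q (toR R hAR) R.subtype y
    rw [show (R.subtype (eval₂ (toR R hAR) y q) : F) = ((eval₂ (toR R hAR) y q : R) : F) from rfl]
      at this
    rw [this]
    exact h1
  have h3 : eval₂ (red.comp (toR R hAR)) (red y) q = 0 := by
    rw [← hom_eval₂, h2, map_zero]
  have hnat : q.natDegree = p.natDegree := natDegree_scaleRoots _ _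
  have hlow : ∀ i ∈ Finset.range q.natDegree,
      (red.comp (toR R hAR)) (q.coeff i) * red y ^ i = 0 := by
    intro i hi
    have hi' : i < p.natDegree := hnat ▸ Finset.mem_range.mp hi
    obtain ⟨k, hk⟩ : ∃ k, p.natDegree - i = k + 1 := ⟨p.natDegree - i - 1, by omega⟩
    have : q.coeff i = π * (b₁ * (p.coeff i * (π * b₁) ^ k)) := by
      rw [hq, coeff_scaleRoots, hk, pow_succ]; ring
    rw [this, map_mul, RingHom.comp_apply, hredπ, zero_mul, zero_mul]
  rw [eval₂_eq_sum_range, Finset.sum_range_succ, Finset.sum_eq_zero hlow, zero_add,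
    hqm.coeff_natDegree, map_one, one_mul] at h3
  exact pow_eq_zero_iff (by
    intro h0
    rw [h0, pow_zero] at h3
    exact one_ne_zero h3) |>.mp h3

include hAR in
/-- divide a presentation by `π`. -/
theorem exists_lin_of_prime_mul (hπ : Prime π) (hθR : θ ∈ R) (hredπ : red (toR R hAR π) = 0)
    (hind : ∀ (a : Fin n → A) (y : R), (y : F) = lin θ a → red y = 0 → ∀ i, π ∣ a i)
    {x : F} (hx : IsIntegral A x) (b₁ : A) (a : Fin n → A)
    (h : algebraMap A F (π * b₁) * x = lin θ a) :
    ∃ a' : Fin n → A, algebraMap A F b₁ * x = lin θ a' := by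
  have hy := red_eq_zero_of_mul π R hAR red hredπ hx b₁ ⟨lin θ a, lin_mem θ R hAR hθR a⟩ h
  have hdvd := hind a ⟨lin θ a, lin_mem θ R hAR hθR a⟩ rfl hy
  choose a' ha' using hdvd
  refine ⟨a', ?_⟩
  have hπF : algebraMap A F π ≠ 0 := by simpa using hπ.ne_zero
  apply mul_left_cancel₀ hπF
  rw [← lin_smul, ← mul_assoc, ← map_mul, h]
  congr 1
  funext i
  exact ha' i

include hAR in
/-- every integral element has a presentation `b x = ∑ a_i θ^i` with `π ∤ b`. -/
theorem exists_pres (hπ : Prime π) (hθR : θ ∈ R) (hredπ : red (toR R hAR π) = 0)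
    (hgen : ∀ x : F, ∃ b : A, b ≠ 0 ∧ ∃ a : Fin n → A, algebraMap A F b * x = lin θ a)
    (hind : ∀ (a : Fin n → A) (y : R), (y : F) = lin θ a → red y = 0 → ∀ i, π ∣ a i)
    {x : F} (hx : IsIntegral A x) :
    ∃ b : A, ¬ π ∣ b ∧ ∃ a : Fin n → A, algebraMap A F b * x = lin θ a := by
  obtain ⟨b0, hb0, a0, h0⟩ := hgen x
  obtain ⟨k, b', hb', rfl⟩ := WfDvdMonoid.max_power_factor hb0 hπ.irreducible
  refine ⟨b', hb', ?_⟩
  clear hb0
  induction k generalizing a0 with
  | zero => exact ⟨a0, by simpa using h0⟩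
  | succ k ih =>
    have h0' : algebraMap A F (π * (π ^ k * b')) * x = lin θ a0 := by
      rw [← h0]; congr 2; ring
    obtain ⟨a1, h1⟩ := exists_lin_of_prime_mul π θ n R hAR red hπ hθR hredπ hind hx _ a0 h0'
    exact ih a1 h1

theorem n_pos (hgen : ∀ x : F, ∃ b : A, b ≠ 0 ∧ ∃ a : Fin n → A, algebraMap A F b * x = lin θ a) :
    0 < n := by
  rcases Nat.eq_zero_or_pos n with h | h
  · subst h
    obtain ⟨b, hb, a, h⟩ := hgen 1
    simp [lin] at h
    exact absurd h hb
  · exact h

include hAR in
theorem red_toR_ne_zero (hn : 0 < n)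
    (hind : ∀ (a : Fin n → A) (y : R), (y : F) = lin θ a → red y = 0 → ∀ i, π ∣ a i)
    {b : A} (hb : ¬ π ∣ b) : red (toR R hAR b) ≠ 0 := by
  intro h
  refine hb ?_
  have := hind (fun i => if (i : ℕ) = 0 then b else 0) (toR R hAR b) ?_ h ⟨0, hn⟩
  · simpa using this
  · unfold lin
    rw [Finset.sum_eq_single (⟨0, hn⟩ : Fin n)]
    · simp
    · intro i _ hi
      have : (i : ℕ) ≠ 0 := fun h0 => hi (Fin.ext h0)
      simp [this]
    · intro h'; exact absurd (Finset.mem_univ _) h'

include hAR in
/-- **B3**: `red` extends to the integral closure of `A` in `F`, with kernel generated by `π`. -/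
theorem exists_rho (hπ : Prime π) (hθ : IsIntegral A θ) (hθR : θ ∈ R)
    (hredπ : red (toR R hAR π) = 0)
    (hgen : ∀ x : F, ∃ b : A, b ≠ 0 ∧ ∃ a : Fin n → A, algebraMap A F b * x = lin θ a)
    (hind : ∀ (a : Fin n → A) (y : R), (y : F) = lin θ a → red y = 0 → ∀ i, π ∣ a i) :
    ∃ ρ : integralClosure A F →+* L,
      (∀ (x : integralClosure A F) (hx : (x : F) ∈ R), ρ x = red ⟨x, hx⟩) ∧
      (∀ x : integralClosure A F, ρ x = 0 →
        ∃ y : integralClosure A F, x = algebraMap A (integralClosure A F) π * y) := by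
  classical
  have hn : 0 < n := n_pos θ n hgen
  have hne : ∀ {b : A}, ¬ π ∣ b → red (toR R hAR b) ≠ 0 := fun hb =>
    red_toR_ne_zero π θ n R hAR red hn hind hb
  have hex : ∀ x : integralClosure A F, ∃ (b : A) (y : R), ¬ π ∣ b ∧
      algebraMap A F b * (x : F) = y := by
    intro x
    obtain ⟨b, hb, a, h⟩ := exists_pres π θ n R hAR red hπ hθR hredπ hgen hind x.2
    exact ⟨b, ⟨lin θ a, lin_mem θ R hAR hθR a⟩, hb, h⟩
  choose b y hb hy using hex
  set f : integralClosure A F → L := fun x => red (y x) / red (toR R hAR (b x)) with hf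
  have key : ∀ (x : integralClosure A F) (b' : A) (y' : R), ¬ π ∣ b' →
      algebraMap A F b' * (x : F) = y' → f x = red y' / red (toR R hAR b') := by
    intro x b' y' hb' hy'
    simp only [hf]
    rw [div_eq_div_iff (hne (hb x)) (hne hb'), ← map_mul, ← map_mul]
    congr 1
    apply Subtype.val_injective
    simp only [Subring.coe_mul, coe_toR]
    rw [← hy x, ← hy']; ring
  have hmulnd : ∀ {b₁ b₂ : A}, ¬ π ∣ b₁ → ¬ π ∣ b₂ → ¬ π ∣ b₁ * b₂ := fun h₁ h₂ h =>
    (hπ.dvd_or_dvd h).elim h₁ h₂
  refine ⟨{ toFun := f, map_one' := ?_, map_mul' := ?_, map_zero' := ?_, map_add' := ?_ }, ?_, ?_⟩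
  · rw [key 1 1 1 hπ.not_dvd_one (by simp)]; simp
  · intro x x'
    rw [key (x * x') (b x * b x') (y x * y x') (hmulnd (hb x) (hb x')) ?_]
    · simp only [hf]
      rw [map_mul, map_mul, map_mul, mul_div_mul_comm]
    · simp only [map_mul, Subring.coe_mul, Subalgebra.coe_mul]
      rw [← hy x, ← hy x']; ring
  · rw [key 0 1 0 hπ.not_dvd_one (by simp)]; simp
  · intro x x'
    rw [key (x + x') (b x * b x') (y x * toR R hAR (b x') + toR R hAR (b x) * y x')
      (hmulnd (hb x) (hb x')) ?_]
    · simp only [hf]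
      rw [div_add_div _ _ (hne (hb x)) (hne (hb x'))]
      simp only [map_mul, map_add]
    · simp only [map_mul, Subring.coe_mul, Subring.coe_add, Subalgebra.coe_add, coe_toR]
      rw [← hy x, ← hy x']; ring
  · intro x hx
    show f x = _
    rw [key x 1 ⟨x, hx⟩ hπ.not_dvd_one (by simp)]; simp
  · intro x hx
    change f x = 0 at hx
    obtain ⟨b', hb', a, h⟩ := exists_pres π θ n R hAR red hπ hθR hredπ hgen hind x.2
    rw [key x b' ⟨lin θ a, lin_mem θ R hAR hθR a⟩ hb' h, div_eq_zero_iff] at hx
    have hy0 := hx.resolve_right (hne hb')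
    have hdvd := hind a ⟨lin θ a, lin_mem θ R hAR hθR a⟩ rfl hy0
    choose a' ha' using hdvd
    have hπF : algebraMap A F π ≠ 0 := by simpa using hπ.ne_zero
    set z : F := (algebraMap A F π)⁻¹ * (x : F) with hz
    have hπz : algebraMap A F π * z = x := by rw [hz, mul_inv_cancel_left₀ hπF]
    have hbz : algebraMap A F b' * z = lin θ a' := by
      apply mul_left_cancel₀ hπF
      rw [← lin_smul, mul_left_comm, hπz, h]
      congr 1
      funext i
      exact ha' i
    have hzint : IsIntegral A z := by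
      refine isIntegral_of_prime_mul hπ hb' ?_ ?_
      · rw [hπz]; exact x.2
      · rw [hbz]; exact isIntegral_lin hθ a'
    refine ⟨⟨z, hzint⟩, Subtype.ext ?_⟩
    push_cast
    rw [← hπz]

end Main

end Fermat.Agent.S28.AbsRed
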