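/-
S28, complement to B5 (helper18's TensorDomain / TensorDomainFlip): the middle chart.
A reduced expansion `ρ_fin : B_fin →+* 𝔽_ℓ((q))` that does not kill `j` extends to
`B_mid = B_fin[1/j]` (Prelude `isLocalization_away_inclFin`), hence `B_mid ⊗[ℤ_(ℓ)] K` is
nontrivial: this is the hypothesis `hMid` of `SchemeGlue.isIntegral_pullback_igusaTo`.
-/
import Mathlib
import Fermat.Prelude.Def_ModularCurve_IgusaScheme
import Fermat.Agent.S28.TensorDomainFlip

set_option autoImplicit false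

open TensorProduct

noncomputable section

namespace Fermat.Agent.S28.TensorMid

open ModularCurve ModularCurve.IgusaScheme

variable {ℓ : ℕ} [Fact ℓ.Prime] (N : ℕ) [NeZero N]

/-- a reduced expansion on the finite chart that does not kill `j` extends to the middle chart
`B_mid = B_fin[1/j]`. -/
def rhoMidOfFin (ρfin : chartAlgFin N ℓ →+* LaurentSeries (ZMod ℓ))
    (hj : ρfin (jChartFin N ℓ) ≠ 0) : chartAlgMid N ℓ →+* LaurentSeries (ZMod ℓ) :=
  letI := (inclFin N ℓ).toRingHom.toAlgebra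
  haveI := isLocalization_away_inclFin N ℓ
  IsLocalization.Away.lift (jChartFin N ℓ) (g := ρfin) (isUnit_iff_ne_zero.mpr hj)

theorem rhoMidOfFin_inclFin (ρfin : chartAlgFin N ℓ →+* LaurentSeries (ZMod ℓ))
    (hj : ρfin (jChartFin N ℓ) ≠ 0) (x : chartAlgFin N ℓ) :
    rhoMidOfFin N ρfin hj (inclFin N ℓ x) = ρfin x := by
  let _ := (inclFin N ℓ).toRingHom.toAlgebra
  have := isLocalization_away_inclFin N ℓ
  exact IsLocalization.Away.lift_eq (jChartFin N ℓ) (g := ρfin) (isUnit_iff_ne_zero.mpr hj) x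

/-- the same from the chart at infinity, `B_mid = B_inf[j]`. -/
def rhoMidOfInf (ρinf : chartAlgInf N ℓ →+* LaurentSeries (ZMod ℓ))
    (hj : ρinf (jInvChartInf N ℓ) ≠ 0) : chartAlgMid N ℓ →+* LaurentSeries (ZMod ℓ) :=
  letI := (inclInf N ℓ).toRingHom.toAlgebra
  haveI := isLocalization_away_inclInf N ℓ
  IsLocalization.Away.lift (jInvChartInf N ℓ) (g := ρinf) (isUnit_iff_ne_zero.mpr hj)

theorem rhoMidOfInf_inclInf (ρinf : chartAlgInf N ℓ →+* LaurentSeries (ZMod ℓ))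
    (hj : ρinf (jInvChartInf N ℓ) ≠ 0) (x : chartAlgInf N ℓ) :
    rhoMidOfInf N ρinf hj (inclInf N ℓ x) = ρinf x := by
  let _ := (inclInf N ℓ).toRingHom.toAlgebra
  have := isLocalization_away_inclInf N ℓ
  exact IsLocalization.Away.lift_eq (jInvChartInf N ℓ) (g := ρinf) (isUnit_iff_ne_zero.mpr hj) x

/-- **`hMid` of `SchemeGlue.isIntegral_pullback_igusaTo`** from the finite chart. -/
theorem nontrivial_tensor_mid (K : Type) [Field K] [CharP K ℓ]
    [Algebra ↥(GaloisRep.ratLocalizedAt ℓ) K]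
    (ρfin : chartAlgFin N ℓ →+* LaurentSeries (ZMod ℓ)) (hj : ρfin (jChartFin N ℓ) ≠ 0) :
    Nontrivial (TensorProduct ↥(GaloisRep.ratLocalizedAt ℓ) (chartAlgMid N ℓ) K) :=
  Fermat.Agent.S28.TensorDomainFlip.nontrivial_tensor ℓ (chartAlgMid N ℓ)
    (rhoMidOfFin N ρfin hj) K

/-- the same from the chart at infinity. -/
theorem nontrivial_tensor_mid_of_inf (K : Type) [Field K] [CharP K ℓ]
    [Algebra ↥(GaloisRep.ratLocalizedAt ℓ) K]
    (ρinf : chartAlgInf N ℓ →+* LaurentSeries (ZMod ℓ)) (hj : ρinf (jInvChartInf N ℓ) ≠ 0) :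
    Nontrivial (TensorProduct ↥(GaloisRep.ratLocalizedAt ℓ) (chartAlgMid N ℓ) K) :=
  Fermat.Agent.S28.TensorDomainFlip.nontrivial_tensor ℓ (chartAlgMid N ℓ)
    (rhoMidOfInf N ρinf hj) K

end Fermat.Agent.S28.TensorMid
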