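import Mathlib
import Fermat.Agent.S28.ZlBasics

/-!
# S28 (B0'): `ℤ_(ℓ)` is a discrete valuation ring, hence a UFD
-/

set_option autoImplicit false
set_option linter.unusedSectionVars false

namespace Fermat.Agent.S28.ZlUFD

open Fermat.Agent.S28.ZlBasics

variable (ℓ : ℕ) [hℓ : Fact ℓ.Prime]

theorem isUnit_intCast_of_not_dvd (m : ℤ) (hm : ¬ (ℓ : ℤ) ∣ m) : IsUnit (m : Zl ℓ) := by
  have hcop : (m.natAbs).Coprime ℓ := by
    refine Nat.Coprime.symm ((Nat.Prime.coprime_iff_not_dvd hℓ.out).mpr ?_)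
    intro h
    exact hm (Int.natCast_dvd.mpr h)
  have key : ∀ k : ℕ, k.Coprime ℓ → ∀ m : ℤ, (m = k ∨ m = -k) → IsUnit (m : Zl ℓ) := by
    rintro k hk m (rfl | rfl)
    · rw [Int.cast_natCast]; exact isUnit_natCast_of_coprime ℓ k hk
    · rw [Int.cast_neg, Int.cast_natCast]; exact (isUnit_natCast_of_coprime ℓ k hk).neg
  exact key _ hcop m (Int.natAbs_eq m)

theorem exists_associated_pow {x : Zl ℓ} (hx : x ≠ 0) :
    ∃ n : ℕ, Associated ((ℓ : Zl ℓ) ^ n) x := by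
  have hnum : (x : ℚ).num ≠ 0 := by
    rw [Rat.num_ne_zero]
    exact fun h => hx (Subtype.ext h)
  have hirr : Irreducible (ℓ : ℤ) := (Nat.prime_iff_prime_int.mp hℓ.out).irreducible
  obtain ⟨n, m, hm, hnm⟩ := WfDvdMonoid.max_power_factor hnum hirr
  refine ⟨n, ?_⟩
  have hu1 := isUnit_intCast_of_not_dvd ℓ m hm
  have hu2 := isUnit_natCast_of_coprime ℓ (x : ℚ).den x.2
  have h := den_mul_self ℓ x
  rw [hnm] at h
  obtain ⟨u1, hu1⟩ := hu1
  obtain ⟨u2, hu2⟩ := hu2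
  refine ⟨u1 * u2⁻¹, ?_⟩
  have hx' : x = (↑u2⁻¹ : Zl ℓ) * ((((x : ℚ).den : ℕ) : Zl ℓ) * x) := by
    rw [← hu2, ← mul_assoc, Units.inv_mul, one_mul]
  rw [hx', h, Units.val_mul, hu1]
  push_cast
  ring

instance isDiscreteValuationRing_Zl : IsDiscreteValuationRing (Zl ℓ) :=
  IsDiscreteValuationRing.ofHasUnitMulPowIrreducibleFactorization
    ⟨(ℓ : Zl ℓ), (prime_l ℓ).irreducible, fun hx => exists_associated_pow ℓ hx⟩

instance uniqueFactorizationMonoid_Zl : UniqueFactorizationMonoid (Zl ℓ) := inferInstance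

instance uniqueFactorizationMonoid_ratLocalizedAt :
    UniqueFactorizationMonoid ↥(GaloisRep.ratLocalizedAt ℓ) :=
  uniqueFactorizationMonoid_Zl ℓ

end Fermat.Agent.S28.ZlUFD
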