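import Mathlib
import Fermat.Prelude.Def_ModularCurve_IgusaScheme
import Fermat.Agent.S28.AbsRed
import Fermat.Agent.S28.ZlBasics
import Fermat.Agent.S28.ZlUFD
import Fermat.Agent.S28.SeriesRed
import Fermat.Agent.S28.TensorMid

/-!
# S28 (B4, hedge): the reductions of the chart algebras

`chartRed`: ring homs `ρFin`, `ρInf` from the two chart algebras of the Igusa scheme to
`𝔽_ℓ((q))` with kernels generated by `ℓ`, from
* (E1) `j_N` is integral over `ℤ_(ℓ)[j]`,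
* (E2) `1, j̄_N, …, j̄_N^(n-1)` are independent over `𝔽_ℓ[j̄]`,
* (B1) any `n + 1` elements of `F` are dependent over `ℚ[j]`.
-/

set_option autoImplicit false
set_option linter.unusedSectionVars false
set_option linter.unusedVariables false

open Polynomial ModularCurve ModularCurve.IgusaScheme
open Fermat.Agent.S28.ZlBasics Fermat.Agent.S28.SeriesRed

namespace Fermat.Agent.S28.ChartInst21

noncomputable section

variable (N : ℕ) [NeZero N] (ℓ : ℕ) [hℓ : Fact ℓ.Prime]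

/-- the field `F = ℚ(j_d : d ∣ N)`. -/
abbrev FF : Type := ↥(modularFunctionFieldFull N)

/-- `j_N` as an element of `F`. -/
def thetaFull : FF N := ⟨qExpand ℚ N jq, jqd_mem_full N dvd_rfl⟩

@[simp] theorem coe_thetaFull : ((thetaFull N : FF N) : LaurentSeries ℚ) = qExpand ℚ N jq := rfl

/-- the coefficient map `ℤ_(ℓ) → F → ℚ((q))` is the constant map. -/
theorem coe_algebraMap (a : Zl ℓ) :
    ((algebraMap (Zl ℓ) (FF N) a : FF N) : LaurentSeries ℚ) = HahnSeries.C (a : ℚ) := by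
  show ((algebraMap ℚ (FF N) (algebraMap (Zl ℓ) ℚ a) : FF N) : LaurentSeries ℚ) = _
  rfl

/-- the inclusion `F → ℚ((q))` as a ring hom. -/
def valF : FF N →+* LaurentSeries ℚ where
  toFun x := x.1
  map_one' := rfl
  map_mul' _ _ := rfl
  map_zero' := rfl
  map_add' _ _ := rfl

@[simp] theorem valF_apply (x : FF N) : valF N x = (x : LaurentSeries ℚ) := rfl

theorem valF_injective : Function.Injective (valF N) := Subtype.val_injective

/-- the constants `ℤ_(ℓ) → ℚ((q))`. -/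
abbrev cQ : Zl ℓ →+* LaurentSeries ℚ :=
  (HahnSeries.C : ℚ →+* LaurentSeries ℚ).comp (GaloisRep.ratLocalizedAt ℓ).subtype

theorem valF_comp_algebraMap : (valF N).comp (algebraMap (Zl ℓ) (FF N)) = cQ ℓ :=
  RingHom.ext fun a => coe_algebraMap N ℓ a

/-- polynomial expressions in `s ∈ F`, seen in `ℚ((q))`. -/
theorem coe_aeval (s : FF N) (P : (Zl ℓ)[X]) :
    ((aeval s P : FF N) : LaurentSeries ℚ) = P.eval₂ (cQ ℓ) (s : LaurentSeries ℚ) := by
  have h := Polynomial.hom_eval₂ P (algebraMap (Zl ℓ) (FF N)) (valF N) s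
  rw [valF_comp_algebraMap] at h
  exact h

/-! ### the subring of `ℓ`-integral elements of `F` and its reduction -/

/-- the elements of `F` with `ℓ`-integral `q`-expansion. -/
def RF : Subring (FF N) := (intSeries ℓ).comap (valF N)

theorem mem_RF {x : FF N} : x ∈ RF N ℓ ↔ (x : LaurentSeries ℚ) ∈ intSeries ℓ := Iff.rfl

/-- `R_F → ℤ_(ℓ)((q))`. -/
def toInt : RF N ℓ →+* intSeries ℓ :=
  ((valF N).comp (RF N ℓ).subtype).codRestrict (intSeries ℓ) fun x => x.2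

@[simp] theorem coe_toInt (x : RF N ℓ) :
    ((toInt N ℓ x : intSeries ℓ) : LaurentSeries ℚ) = ((x : FF N) : LaurentSeries ℚ) := rfl

/-- the reduction `R_F → 𝔽_ℓ((q))`. -/
def redF : RF N ℓ →+* LaurentSeries (ZMod ℓ) := (redSeries ℓ).comp (toInt N ℓ)

theorem redF_apply (x : RF N ℓ) : redF N ℓ x = redSeries ℓ (toInt N ℓ x) := rfl

/-- polynomial expressions in an integral `s` are integral, with the expected reduction. -/
theorem aeval_mem_RF {s : FF N} (hs : s ∈ RF N ℓ) (P : (Zl ℓ)[X]) : aeval s P ∈ RF N ℓ := by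
  rw [mem_RF, coe_aeval, ← coe_eval₂ ℓ P ⟨(s : LaurentSeries ℚ), hs⟩]
  exact Subtype.prop _

theorem redF_aeval {s : FF N} (hs : s ∈ RF N ℓ) (P : (Zl ℓ)[X]) :
    redF N ℓ ⟨aeval s P, aeval_mem_RF N ℓ hs P⟩ =
      (P.map (res ℓ)).eval₂ (HahnSeries.C : ZMod ℓ →+* LaurentSeries (ZMod ℓ))
        (redF N ℓ ⟨s, hs⟩) := by
  rw [redF_apply, redF_apply, ← redSeries_eval₂]
  congr 1
  apply Subtype.ext
  rw [coe_toInt, coe_eval₂]
  exact coe_aeval N ℓ s P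

theorem algebraMap_mem_RF (a : Zl ℓ) : algebraMap (Zl ℓ) (FF N) a ∈ RF N ℓ := by
  rw [mem_RF, coe_algebraMap, ← coe_cInt]
  exact Subtype.prop _

theorem jFull_mem_RF : jFull N ∈ RF N ℓ := jq_mem ℓ

theorem jFull_inv_mem_RF : (jFull N)⁻¹ ∈ RF N ℓ := by
  rw [mem_RF]
  show ((jFull N)⁻¹ : FF N).1 ∈ _
  rw [show (((jFull N)⁻¹ : FF N) : LaurentSeries ℚ) = jq⁻¹ from rfl]
  exact jq_inv_mem ℓ

theorem thetaFull_mem_RF : thetaFull N ∈ RF N ℓ := jqN_mem ℓ N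

theorem redF_jFull : redF N ℓ ⟨jFull N, jFull_mem_RF N ℓ⟩ = jqModC (ZMod ℓ) :=
  redSeries_jInt ℓ

theorem redF_thetaFull : redF N ℓ ⟨thetaFull N, thetaFull_mem_RF N ℓ⟩ = jqNModC (ZMod ℓ) N :=
  redSeries_jNInt ℓ N

/-! ### transcendence of `j` and `j⁻¹` over `ℤ_(ℓ)` -/

theorem map_subtype_injective :
    Function.Injective (Polynomial.map (GaloisRep.ratLocalizedAt ℓ).subtype) :=
  Polynomial.map_injective _ Subtype.val_injective

theorem transcendental_jFull : Transcendental (Zl ℓ) (jFull N) := by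
  rw [transcendental_iff]
  intro P hP
  have h := congrArg (valF N) hP
  rw [valF_apply, coe_aeval, map_zero, coe_jFull, ← Polynomial.eval₂_map] at h
  have := eval₂_jqModC_eq_zero (R := ℚ) _ h
  exact map_subtype_injective ℓ (by rw [this, Polynomial.map_zero])

theorem transcendental_jFull_inv : Transcendental (Zl ℓ) (jFull N)⁻¹ := by
  rw [transcendental_iff]
  intro P hP
  have h := congrArg (valF N) hP
  rw [valF_apply, coe_aeval, map_zero,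
    show (((jFull N)⁻¹ : FF N) : LaurentSeries ℚ) = (jqModC ℚ)⁻¹ from rfl,
    ← Polynomial.eval₂_map] at h
  have := eval₂_inv_jqModC_eq_zero (K := ℚ) _ h
  exact map_subtype_injective ℓ (by rw [this, Polynomial.map_zero])

/-! ### the algebra `ℤ_(ℓ)[s]` for a transcendental `s` -/

section Adjoin

variable {N ℓ}
variable {s : FF N} (hs : Transcendental (Zl ℓ) s)

/-- `ℤ_(ℓ)[s]`. -/
abbrev As (s : FF N) : Subalgebra (Zl ℓ) (FF N) := Algebra.adjoin (Zl ℓ) {s}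

/-- `ℤ_(ℓ)[X] ≃ ℤ_(ℓ)[s]`. -/
abbrev eqv : (Zl ℓ)[X] ≃ₐ[Zl ℓ] As (ℓ := ℓ) s := Polynomial.algEquivOfTranscendental (Zl ℓ) s hs

theorem coe_eqv (P : (Zl ℓ)[X]) : ((eqv hs P : As (ℓ := ℓ) s) : FF N) = aeval s P := by
  rw [algEquivOfTranscendental_apply]
  exact (aeval_algebraMap_apply (A := As (ℓ := ℓ) s) (B := FF N)
    (⟨s, Algebra.self_mem_adjoin_singleton (Zl ℓ) s⟩ : As (ℓ := ℓ) s) P).symm

include hs in
theorem ufm_As : UniqueFactorizationMonoid (As (ℓ := ℓ) s) :=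
  hs.uniqueFactorizationMonoid_adjoin

/-- the prime `ℓ` of `ℤ_(ℓ)[s]`. -/
def piAs (s : FF N) : As (ℓ := ℓ) s := algebraMap (Zl ℓ) (As (ℓ := ℓ) s) (ℓ : Zl ℓ)

theorem piAs_eq : piAs (ℓ := ℓ) s = eqv hs (C (ℓ : Zl ℓ)) := by
  rw [piAs, ← Polynomial.algebraMap_eq, AlgEquiv.commutes]

include hs in
theorem prime_piAs : Prime (piAs (ℓ := ℓ) s) := by
  rw [piAs_eq hs]
  exact (MulEquiv.prime_iff (eqv hs)).mpr (prime_C_l ℓ)

theorem piAs_dvd_iff (P : (Zl ℓ)[X]) : piAs (ℓ := ℓ) s ∣ eqv hs P ↔ P.map (res ℓ) = 0 := by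
  rw [piAs_eq hs, map_dvd_iff (eqv hs), C_l_dvd_iff]

theorem coe_piAs : ((piAs (ℓ := ℓ) s : As (ℓ := ℓ) s) : FF N) = algebraMap (Zl ℓ) (FF N) (ℓ : Zl ℓ) := rfl

end Adjoin

/-! ### the finite chart -/

section Fin

variable (n : ℕ)

/-- the `ℤ_(ℓ)[j]`-combination `∑ c_i(j) θ^i` in `F`. -/
def linF (c : Fin n → (Zl ℓ)[X]) : FF N :=
  ∑ i, aeval (jFull N) (c i) * (thetaFull N) ^ (i : ℕ)

theorem linF_mem_RF (c : Fin n → (Zl ℓ)[X]) : linF N ℓ n c ∈ RF N ℓ :=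
  Subring.sum_mem _ fun i _ => (RF N ℓ).mul_mem (aeval_mem_RF N ℓ (jFull_mem_RF N ℓ) _)
    ((RF N ℓ).pow_mem (thetaFull_mem_RF N ℓ) _)

theorem redF_linF (c : Fin n → (Zl ℓ)[X]) :
    redF N ℓ ⟨linF N ℓ n c, linF_mem_RF N ℓ n c⟩ =
      ∑ i, ((c i).map (res ℓ)).eval₂ (HahnSeries.C : ZMod ℓ →+* LaurentSeries (ZMod ℓ))
        (jqModC (ZMod ℓ)) * (jqNModC (ZMod ℓ) N) ^ (i : ℕ) := by
  have h : (⟨linF N ℓ n c, linF_mem_RF N ℓ n c⟩ : RF N ℓ) =
      ∑ i, (⟨aeval (jFull N) (c i), aeval_mem_RF N ℓ (jFull_mem_RF N ℓ) _⟩ : RF N ℓ) *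
        (⟨thetaFull N, thetaFull_mem_RF N ℓ⟩ : RF N ℓ) ^ (i : ℕ) := by
    apply Subtype.ext
    have := map_sum (RF N ℓ).subtype (fun i : Fin n =>
      (⟨aeval (jFull N) (c i), aeval_mem_RF N ℓ (jFull_mem_RF N ℓ) _⟩ : RF N ℓ) *
        (⟨thetaFull N, thetaFull_mem_RF N ℓ⟩ : RF N ℓ) ^ (i : ℕ)) Finset.univ
    rw [Subring.coe_subtype] at this
    rw [this]
    rfl
  rw [h, map_sum]
  refine Finset.sum_congr rfl fun i _ => ?_
  rw [map_mul, map_pow, redF_aeval N ℓ (jFull_mem_RF N ℓ), redF_jFull, redF_thetaFull]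

variable (hE2 : ∀ a : Fin n → (ZMod ℓ)[X],
      (∑ i, (a i).eval₂ (HahnSeries.C : ZMod ℓ →+* LaurentSeries (ZMod ℓ)) (jqModC (ZMod ℓ)) *
        (jqNModC (ZMod ℓ) N) ^ (i : ℕ) = 0) → ∀ i, a i = 0)

include hE2 in
theorem map_res_eq_zero_of_redF (c : Fin n → (Zl ℓ)[X])
    (h : redF N ℓ ⟨linF N ℓ n c, linF_mem_RF N ℓ n c⟩ = 0) (i : Fin n) :
    (c i).map (res ℓ) = 0 := by
  rw [redF_linF] at h
  exact hE2 (fun i => (c i).map (res ℓ)) h i

theorem linF_C_mul (c : Fin n → (Zl ℓ)[X]) :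
    linF N ℓ n (fun i => C (ℓ : Zl ℓ) * c i) =
      algebraMap (Zl ℓ) (FF N) (ℓ : Zl ℓ) * linF N ℓ n c := by
  unfold linF
  rw [Finset.mul_sum]
  refine Finset.sum_congr rfl fun i _ => ?_
  rw [map_mul, aeval_C, mul_assoc]

theorem algebraMap_l_ne_zero : algebraMap (Zl ℓ) (FF N) (ℓ : Zl ℓ) ≠ 0 := by
  rw [map_natCast]
  exact_mod_cast hℓ.out.ne_zero

include hE2 in
/-- independence of `1, θ, …, θ^(n-1)` over `ℤ_(ℓ)[j]`, by descent. -/
theorem pow_dvd_of_linF_eq_zero (k : ℕ) (c : Fin n → (Zl ℓ)[X]) (h : linF N ℓ n c = 0) (i : Fin n) :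
    C (ℓ : Zl ℓ) ^ k ∣ c i := by
  induction k generalizing c with
  | zero => simp
  | succ k ih =>
    have h0 : redF N ℓ ⟨linF N ℓ n c, linF_mem_RF N ℓ n c⟩ = 0 := by
      have : (⟨linF N ℓ n c, linF_mem_RF N ℓ n c⟩ : RF N ℓ) = 0 := Subtype.ext h
      rw [this, map_zero]
    have hdvd : ∀ i, C (ℓ : Zl ℓ) ∣ c i := fun i =>
      (C_l_dvd_iff ℓ _).mpr (map_res_eq_zero_of_redF N ℓ n hE2 c h0 i)
    choose c' hc' using hdvd
    have hc : c = fun i => C (ℓ : Zl ℓ) * c' i := funext hc'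
    have h' : linF N ℓ n c' = 0 := by
      have := h
      rw [hc, linF_C_mul] at this
      exact (mul_eq_zero.mp this).resolve_left (algebraMap_l_ne_zero N ℓ)
    obtain ⟨d, hd⟩ := ih c' h'
    exact ⟨d, by rw [hc' i, hd, pow_succ]; ring⟩

include hE2 in
theorem eq_zero_of_linF_eq_zero (c : Fin n → (Zl ℓ)[X]) (h : linF N ℓ n c = 0) (i : Fin n) :
    c i = 0 := by
  by_contra hne
  obtain ⟨k, d, hd, hkd⟩ := WfDvdMonoid.max_power_factor hne (prime_C_l ℓ).irreducible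
  obtain ⟨e, he⟩ := pow_dvd_of_linF_eq_zero N ℓ n hE2 (k + 1) c h i
  apply hd
  refine ⟨e, ?_⟩
  have hpow : (C (ℓ : Zl ℓ) : (Zl ℓ)[X]) ^ k ≠ 0 := pow_ne_zero _ (prime_C_l ℓ).ne_zero
  apply mul_left_cancel₀ hpow
  rw [← hkd, he, pow_succ]; ring

/-- the structure map of `ℤ_(ℓ)[j]` lands in `R_F`. -/
theorem algebraMap_As_mem_RF (a : As (ℓ := ℓ) (jFull N)) :
    algebraMap (As (ℓ := ℓ) (jFull N)) (FF N) a ∈ RF N ℓ := by
  have hs := transcendental_jFull N ℓ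
  obtain ⟨P, rfl⟩ := (eqv hs).surjective a
  show ((eqv hs P : As (ℓ := ℓ) (jFull N)) : FF N) ∈ _
  rw [coe_eqv]
  exact aeval_mem_RF N ℓ (jFull_mem_RF N ℓ) P

theorem lin_eq_linF (c : Fin n → (Zl ℓ)[X]) :
    AbsRed.lin (A := As (ℓ := ℓ) (jFull N)) (thetaFull N)
      (fun i => eqv (transcendental_jFull N ℓ) (c i)) = linF N ℓ n c := by
  unfold AbsRed.lin linF
  refine Finset.sum_congr rfl fun i _ => ?_
  congr 1
  exact coe_eqv (transcendental_jFull N ℓ) (c i)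

variable (hE1 : IsIntegral (As (ℓ := ℓ) (jFull N)) (thetaFull N))
  (hB1 : ∀ x : FF N, ∃ c : Fin (n + 1) → (Zl ℓ)[X], c ≠ 0 ∧
      linF N ℓ n (fun i => c i.castSucc) + aeval (jFull N) (c (Fin.last n)) * x = 0)

include hE1 hE2 hB1 in
/-- **the finite chart**: the reduction on the integral closure of `ℤ_(ℓ)[j]` in `F`. -/
theorem exists_rho_As :
    ∃ ρ : integralClosure (As (ℓ := ℓ) (jFull N)) (FF N) →+* LaurentSeries (ZMod ℓ),
      (∀ (x : integralClosure (As (ℓ := ℓ) (jFull N)) (FF N)) (hx : (x : FF N) ∈ RF N ℓ),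
        ρ x = redF N ℓ ⟨x, hx⟩) ∧
      (∀ x : integralClosure (As (ℓ := ℓ) (jFull N)) (FF N), ρ x = 0 →
        ∃ y : integralClosure (As (ℓ := ℓ) (jFull N)) (FF N),
          (x : FF N) = algebraMap (Zl ℓ) (FF N) (ℓ : Zl ℓ) * (y : FF N)) := by
  have hs := transcendental_jFull N ℓ
  have := ufm_As hs
  have hsurj := (eqv hs).surjective
  have hgen : ∀ x : FF N, ∃ b : As (ℓ := ℓ) (jFull N), b ≠ 0 ∧ ∃ a : Fin n → As (ℓ := ℓ) (jFull N),
      algebraMap (As (ℓ := ℓ) (jFull N)) (FF N) b * x = AbsRed.lin (thetaFull N) a := by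
    intro x
    obtain ⟨c, hc0, hc⟩ := hB1 x
    have hlast : c (Fin.last n) ≠ 0 := by
      intro h0
      rw [h0, map_zero, zero_mul, add_zero] at hc
      apply hc0
      funext i
      refine Fin.lastCases h0 (fun i => ?_) i
      exact eq_zero_of_linF_eq_zero N ℓ n hE2 _ hc i
    refine ⟨eqv hs (c (Fin.last n)), fun h => hlast ((map_eq_zero_iff _ (eqv hs).injective).mp h),
      fun i => eqv hs (-(c i.castSucc)), ?_⟩
    rw [lin_eq_linF]
    show ((eqv hs (c (Fin.last n)) : As (ℓ := ℓ) (jFull N)) : FF N) * x = _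
    rw [coe_eqv]
    have hneg : linF N ℓ n (fun i => -(c i.castSucc)) = -linF N ℓ n (fun i => c i.castSucc) := by
      unfold linF
      rw [← Finset.sum_neg_distrib]
      refine Finset.sum_congr rfl fun i _ => ?_
      rw [map_neg, neg_mul]
    rw [hneg]
    exact eq_neg_of_add_eq_zero_right hc
  have hind : ∀ (a : Fin n → As (ℓ := ℓ) (jFull N)) (y : RF N ℓ),
      (y : FF N) = AbsRed.lin (thetaFull N) a → redF N ℓ y = 0 →
      ∀ i, piAs (ℓ := ℓ) (jFull N) ∣ a i := by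
    intro a y hy hred i
    choose c hc using fun i => hsurj (a i)
    have ha : a = fun i => eqv hs (c i) := funext fun i => (hc i).symm
    rw [ha, lin_eq_linF] at hy
    have hy' : y = ⟨linF N ℓ n c, linF_mem_RF N ℓ n c⟩ := Subtype.ext hy
    rw [hy'] at hred
    rw [← hc i, piAs_dvd_iff hs]
    exact map_res_eq_zero_of_redF N ℓ n hE2 c hred i
  have hredπ : redF N ℓ (AbsRed.toR (RF N ℓ) (algebraMap_As_mem_RF N ℓ)
      (piAs (ℓ := ℓ) (jFull N))) = 0 := by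
    have : AbsRed.toR (RF N ℓ) (algebraMap_As_mem_RF N ℓ) (piAs (ℓ := ℓ) (jFull N)) =
        ((ℓ : ℕ) : RF N ℓ) := by
      apply Subtype.ext
      rw [AbsRed.coe_toR]
      show algebraMap (Zl ℓ) (FF N) (ℓ : Zl ℓ) = _
      rw [map_natCast]
      rfl
    rw [this, map_natCast]
    have h0 : ((ℓ : ℕ) : ZMod ℓ) = 0 := ZMod.natCast_self ℓ
    rw [← map_natCast (HahnSeries.C : ZMod ℓ →+* LaurentSeries (ZMod ℓ)), h0, map_zero]
  obtain ⟨ρ, hρ1, hρ2⟩ := AbsRed.exists_rho (piAs (ℓ := ℓ) (jFull N)) (thetaFull N) n (RF N ℓ)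
    (algebraMap_As_mem_RF N ℓ) (redF N ℓ) (prime_piAs hs) hE1 (thetaFull_mem_RF N ℓ) hredπ
    hgen hind
  refine ⟨ρ, hρ1, fun x hx => ?_⟩
  obtain ⟨y, hy⟩ := hρ2 x hx
  exact ⟨y, by rw [hy]; rfl⟩

/-- `chartAlgFin` and the integral closure of `ℤ_(ℓ)[j]` have the same elements. -/
def finToIC : chartAlgFin N ℓ →+* integralClosure (As (ℓ := ℓ) (jFull N)) (FF N) where
  toFun x := ⟨x.1, x.2⟩
  map_one' := rfl
  map_mul' _ _ := rfl
  map_zero' := rfl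
  map_add' _ _ := rfl

include hE1 hE2 hB1 in
/-- **B4, finite chart.** -/
theorem exists_rhoFin :
    ∃ ρFin : chartAlgFin N ℓ →+* LaurentSeries (ZMod ℓ),
      (∀ x : chartAlgFin N ℓ, ρFin x = 0 → ∃ y : chartAlgFin N ℓ, x = (ℓ : chartAlgFin N ℓ) * y) ∧
      ρFin (jChartFin N ℓ) = jqModC (ZMod ℓ) := by
  obtain ⟨ρ, hρ1, hρ2⟩ := exists_rho_As N ℓ n hE2 hE1 hB1
  refine ⟨ρ.comp (finToIC N ℓ), fun x hx => ?_, ?_⟩
  · obtain ⟨y, hy⟩ := hρ2 (finToIC N ℓ x) hx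
    refine ⟨⟨y.1, y.2⟩, Subtype.ext ?_⟩
    rw [Subalgebra.coe_mul,
      show (((ℓ : ℕ) : chartAlgFin N ℓ) : FF N) = (ℓ : FF N) from rfl,
      ← map_natCast (algebraMap (Zl ℓ) (FF N))]
    exact hy
  · rw [RingHom.comp_apply, hρ1 (finToIC N ℓ (jChartFin N ℓ)) (jFull_mem_RF N ℓ)]
    exact redF_jFull N ℓ

end Fin

/-! ### the chart at infinity, from the finite chart -/

section Inf

theorem jChartFin_ne (ρFin : chartAlgFin N ℓ →+* LaurentSeries (ZMod ℓ))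
    (hj : ρFin (jChartFin N ℓ) = jqModC (ZMod ℓ)) : ρFin (jChartFin N ℓ) ≠ 0 := by
  rw [hj]
  exact jqModC_ne_zero_of_nontrivial (ZMod ℓ)

/-- **B4, chart at infinity.** -/
theorem exists_rhoInf (ρFin : chartAlgFin N ℓ →+* LaurentSeries (ZMod ℓ))
    (hker : ∀ x : chartAlgFin N ℓ, ρFin x = 0 →
      ∃ y : chartAlgFin N ℓ, x = (ℓ : chartAlgFin N ℓ) * y)
    (hj : ρFin (jChartFin N ℓ) ≠ 0) :
    ∃ ρInf : chartAlgInf N ℓ →+* LaurentSeries (ZMod ℓ),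
      ∀ x : chartAlgInf N ℓ, ρInf x = 0 → ∃ y : chartAlgInf N ℓ, x = (ℓ : chartAlgInf N ℓ) * y := by
  set ρMid := TensorMid.rhoMidOfFin N ρFin hj with hρMid
  have hMidFin : ∀ w : chartAlgFin N ℓ, ρMid (inclFin N ℓ w) = ρFin w :=
    TensorMid.rhoMidOfFin_inclFin N ρFin hj
  refine ⟨ρMid.comp (inclInf N ℓ).toRingHom, fun x hx => ?_⟩
  have hx0 : ρMid (inclInf N ℓ x) = 0 := hx
  have hjne : jFull N ≠ 0 := jFull_ne_zero N
  -- step A: `j^n x ∈ B_fin`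
  have hxA : (x : FF N) ∈ chartAlg N ℓ (insert (jFull N)⁻¹ {jFull N}) :=
    chartAlg_mono N ℓ (Set.singleton_subset_iff.mpr (Set.mem_insert _ _)) x.2
  obtain ⟨m, hm⟩ := exists_pow_mul_mem_chartAlg (N := N) (ℓ := ℓ) (S := {jFull N})
    (Set.mem_singleton _) hjne hxA
  set w : chartAlgFin N ℓ := ⟨jFull N ^ m * (x : FF N), hm⟩ with hw
  have hw0 : ρFin w = 0 := by
    rw [← hMidFin]
    have : inclFin N ℓ w = (inclFin N ℓ (jChartFin N ℓ)) ^ m * inclInf N ℓ x := by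
      apply Subtype.ext
      rfl
    rw [this, map_mul, hx0, mul_zero]
  obtain ⟨y, hy⟩ := hker w hw0
  have hyF : jFull N ^ m * (x : FF N) = (ℓ : FF N) * (y : FF N) := by
    have := congrArg Subtype.val hy
    rw [Subalgebra.coe_mul, show (((ℓ : ℕ) : chartAlgFin N ℓ) : FF N) = (ℓ : FF N) from rfl] at this
    exact this
  have hℓF : (ℓ : FF N) ≠ 0 := by exact_mod_cast hℓ.out.ne_zero
  -- the quotient `z = x / ℓ`
  set z : FF N := (ℓ : FF N)⁻¹ * (x : FF N) with hz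
  have hℓz : (ℓ : FF N) * z = x := by rw [hz, mul_inv_cancel_left₀ hℓF]
  have hzy : z = (jFull N)⁻¹ ^ m * (y : FF N) := by
    have h1 : jFull N ^ m * z = (y : FF N) := by
      apply mul_left_cancel₀ hℓF
      rw [mul_left_comm, hℓz, hyF]
    rw [← h1, inv_pow, inv_mul_cancel_left₀ (pow_ne_zero _ hjne)]
  -- step B: `z ∈ B_mid`, hence `(j⁻¹)^k z ∈ B_inf`
  have hzMid : z ∈ chartAlgMid N ℓ := by
    rw [hzy]
    refine (chartAlgMid N ℓ).mul_mem ((chartAlgMid N ℓ).pow_mem ?_ _) ?_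
    · exact subset_chartAlg N ℓ _ (Set.mem_insert_of_mem _ rfl)
    · exact chartAlg_mono N ℓ (sFin_subset N) y.2
  have hzB : z ∈ chartAlg N ℓ (insert ((jFull N)⁻¹)⁻¹ {(jFull N)⁻¹}) := by
    rw [inv_inv]; exact hzMid
  obtain ⟨k, hk⟩ := exists_pow_mul_mem_chartAlg (N := N) (ℓ := ℓ) (S := {(jFull N)⁻¹})
    (Set.mem_singleton _) (inv_ne_zero hjne) hzB
  -- step C: `z ∈ B_inf`
  have hs := transcendental_jFull_inv N ℓ
  have hufm := ufm_As hs
  have hXk : ¬ piAs (ℓ := ℓ) (jFull N)⁻¹ ∣ eqv hs (X ^ k) := by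
    rw [piAs_dvd_iff hs, Polynomial.map_pow, Polynomial.map_X]
    exact pow_ne_zero _ X_ne_zero
  have h1 : algebraMap (As (ℓ := ℓ) (jFull N)⁻¹) (FF N) (piAs (ℓ := ℓ) (jFull N)⁻¹) = (ℓ : FF N) := by
    show algebraMap (Zl ℓ) (FF N) (ℓ : Zl ℓ) = _
    rw [map_natCast]
  have h2 : algebraMap (As (ℓ := ℓ) (jFull N)⁻¹) (FF N) (eqv hs (X ^ k)) = (jFull N)⁻¹ ^ k := by
    exact (coe_eqv hs (X ^ k)).trans (by rw [map_pow, aeval_X])
  have hzint : IsIntegral (As (ℓ := ℓ) (jFull N)⁻¹) z := by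
    have i1 : IsIntegrallyClosed (As (ℓ := ℓ) (jFull N)⁻¹) :=
      UniqueFactorizationMonoid.instIsIntegrallyClosed
    refine AbsRed.isIntegral_of_prime_mul (A := As (ℓ := ℓ) (jFull N)⁻¹) (F := FF N)
      (π := piAs (ℓ := ℓ) (jFull N)⁻¹) (b := eqv hs (X ^ k)) (z := z) (prime_piAs hs) hXk ?_ ?_
    · rw [h1, hℓz]
      exact x.2
    · rw [h2]
      exact hk
  refine ⟨⟨z, hzint⟩, Subtype.ext ?_⟩
  rw [Subalgebra.coe_mul, show (((ℓ : ℕ) : chartAlgInf N ℓ) : FF N) = (ℓ : FF N) from rfl]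
  exact hℓz.symm

end Inf

/-! ### adapters for the hypotheses and the final statement -/

section Final

/-- evaluation `ℤ_(ℓ)[X] → ℚ((q))`, `X ↦ j`. -/
def evZl : (Zl ℓ)[X] →+* LaurentSeries ℚ := Polynomial.eval₂RingHom (cQ ℓ) jq

theorem evZl_apply (P : (Zl ℓ)[X]) : evZl ℓ P = P.eval₂ (cQ ℓ) jq := rfl

theorem valF_comp_eqv :
    (valF N).comp ((algebraMap (As (ℓ := ℓ) (jFull N)) (FF N)).comp
      (eqv (transcendental_jFull N ℓ)).toRingEquiv.toRingHom) = evZl ℓ := by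
  refine RingHom.ext fun P => ?_
  show (((eqv (transcendental_jFull N ℓ) P : As (ℓ := ℓ) (jFull N)) : FF N) : LaurentSeries ℚ) = _
  rw [coe_eqv, coe_aeval, coe_jFull, evZl_apply]

/-- (E1), `ℤ_(ℓ)`-form: `j_N` is integral over `ℤ_(ℓ)[j]`. -/
theorem isIntegral_thetaFull_of_Zl
    (h : ∃ Φ : Polynomial (Polynomial (Zl ℓ)), Φ.Monic ∧ Φ.eval₂ (evZl ℓ) (jqN N) = 0) :
    IsIntegral (As (ℓ := ℓ) (jFull N)) (thetaFull N) := by
  obtain ⟨Φ, hΦm, hΦ⟩ := h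
  refine ⟨Φ.map (eqv (transcendental_jFull N ℓ)).toRingEquiv.toRingHom, hΦm.map _, ?_⟩
  apply valF_injective N
  rw [Polynomial.eval₂_map, Polynomial.hom_eval₂, map_zero, valF_comp_eqv]
  exact hΦ

/-- the integer evaluation `evalAtJ` factors through `evZl`. -/
theorem evZl_comp_map :
    (evZl ℓ).comp (Polynomial.mapRingHom (Int.castRingHom (Zl ℓ))) = evalAtJ := by
  refine Polynomial.ringHom_ext' (Subsingleton.elim _ _) ?_
  show evZl ℓ (Polynomial.map (Int.castRingHom (Zl ℓ)) X) = evalAtJ X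
  rw [Polynomial.map_X, evalAtJ_X, evZl_apply, Polynomial.eval₂_X]

/-- (E1), integer form. -/
theorem isIntegral_thetaFull_of_int
    (h : ∃ Φ : Polynomial (Polynomial ℤ), Φ.Monic ∧ Φ.eval₂ evalAtJ (jqN N) = 0) :
    IsIntegral (As (ℓ := ℓ) (jFull N)) (thetaFull N) := by
  obtain ⟨Φ, hΦm, hΦ⟩ := h
  refine isIntegral_thetaFull_of_Zl N ℓ
    ⟨Φ.map (Polynomial.mapRingHom (Int.castRingHom (Zl ℓ))), hΦm.map _, ?_⟩
  rw [Polynomial.eval₂_map, evZl_comp_map]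
  exact hΦ

/-- (E2) in `aeval` form gives the `eval₂ C` form. -/
theorem hE2_of_aeval (n : ℕ)
    (h : ∀ a : Fin n → (ZMod ℓ)[X],
      (∑ i, Polynomial.aeval (jqModC (ZMod ℓ)) (a i) * (jqNModC (ZMod ℓ) N) ^ (i : ℕ) = 0) →
        ∀ i, a i = 0) :
    ∀ a : Fin n → (ZMod ℓ)[X],
      (∑ i, (a i).eval₂ (HahnSeries.C : ZMod ℓ →+* LaurentSeries (ZMod ℓ)) (jqModC (ZMod ℓ)) *
        (jqNModC (ZMod ℓ) N) ^ (i : ℕ) = 0) → ∀ i, a i = 0 := by
  intro a ha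
  refine h a ?_
  rw [← ha]
  have hC : algebraMap (ZMod ℓ) (LaurentSeries (ZMod ℓ)) = HahnSeries.C :=
    RingHom.ext fun x => LaurentSeries.algebraMap_apply (ZMod ℓ) x
  refine Finset.sum_congr rfl fun i _ => ?_
  rw [Polynomial.aeval_def, hC]

/-- **B4 (hedge)**: the two chart reductions, from (E1), (E2) and the dependence form of (B1). -/
theorem chartRed_of (n : ℕ)
    (hE1 : IsIntegral (As (ℓ := ℓ) (jFull N)) (thetaFull N))
    (hE2 : ∀ a : Fin n → (ZMod ℓ)[X],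
      (∑ i, (a i).eval₂ (HahnSeries.C : ZMod ℓ →+* LaurentSeries (ZMod ℓ)) (jqModC (ZMod ℓ)) *
        (jqNModC (ZMod ℓ) N) ^ (i : ℕ) = 0) → ∀ i, a i = 0)
    (hB1 : ∀ x : FF N, ∃ c : Fin (n + 1) → (Zl ℓ)[X], c ≠ 0 ∧
      linF N ℓ n (fun i => c i.castSucc) + aeval (jFull N) (c (Fin.last n)) * x = 0) :
    ∃ (ρFin : chartAlgFin N ℓ →+* LaurentSeries (ZMod ℓ))
      (ρInf : chartAlgInf N ℓ →+* LaurentSeries (ZMod ℓ)),
      (∀ x : chartAlgFin N ℓ, ρFin x = 0 → ∃ y : chartAlgFin N ℓ, x = (ℓ : chartAlgFin N ℓ) * y) ∧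
      ρFin (jChartFin N ℓ) ≠ 0 ∧
      (∀ x : chartAlgInf N ℓ, ρInf x = 0 → ∃ y : chartAlgInf N ℓ, x = (ℓ : chartAlgInf N ℓ) * y) := by
  obtain ⟨ρFin, hker, hj⟩ := exists_rhoFin N ℓ n hE2 hE1 hB1
  have hj' := jChartFin_ne N ℓ ρFin hj
  obtain ⟨ρInf, hkerInf⟩ := exists_rhoInf N ℓ ρFin hker hj'
  exact ⟨ρFin, ρInf, hker, hj', hkerInf⟩

end Final

end

end Fermat.Agent.S28.ChartInst21
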