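import Mathlib
import Fermat.Agent.S28.ChartInst21
import Fermat.Agent.S28.RegDegree

/-!
# S28 (B4, hedge): `chartRed` from (E1), (E2) alone

The dependence hypothesis (B1) of `ChartInst21.chartRed_of` is discharged with
`RegDegree.card_le_psi`.
-/

set_option autoImplicit false
set_option linter.unusedSectionVars false
set_option linter.unusedVariables false

open Polynomial ModularCurve ModularCurve.IgusaScheme IntermediateField
open Fermat.Agent.S28.ZlBasics Fermat.Agent.S28.SeriesRed Fermat.Agent.S28.ChartInst21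

namespace Fermat.Agent.S28.ChartRed21

noncomputable section

variable (N : ℕ) [NeZero N] (ℓ : ℕ) [hℓ : Fact ℓ.Prime]

/-- a nontrivial `ℚ[j]`-relation between `1, θ, …, θ^(n-1), x`. -/
theorem exists_rat_relation (x : FF N) :
    ∃ c : Fin (dedekindPsi N + 1) → ℚ[X], c ≠ 0 ∧
      ∑ i : Fin (dedekindPsi N), aeval jq (c i.castSucc) * (qExpand ℚ N jq) ^ (i : ℕ) +
        aeval jq (c (Fin.last _)) * (x : LaurentSeries ℚ) = 0 := by
  classical
  set n := dedekindPsi N with hn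
  set v : Fin (n + 1) → LaurentSeries ℚ :=
    Fin.snoc (fun i : Fin n => (qExpand ℚ N jq) ^ (i : ℕ)) (x : LaurentSeries ℚ) with hv
  have hvF : ∀ i, v i ∈ modularFunctionFieldFull N := by
    intro i
    refine Fin.lastCases ?_ (fun i => ?_) i
    · rw [hv, Fin.snoc_last]; exact x.2
    · rw [hv, Fin.snoc_castSucc]; exact pow_mem (jqd_mem_full N dvd_rfl) _
  have hnot : ¬ LinearIndependent ↥ℚ⟮jq⟯ v := fun h => by
    have := RegDegree.card_le_psi N v hvF h
    rw [Fintype.card_fin] at this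
    omega
  rw [RegDegree.linearIndependent_adjoin_iff_polyIndep ℚ jq RegDegree.transcendental_jq v] at hnot
  unfold RegDegree.PolyIndep at hnot
  push Not at hnot
  obtain ⟨t, g, hsum, i0, hi0t, hi0⟩ := hnot
  refine ⟨fun i => if i ∈ t then g i else 0, ?_, ?_⟩
  · intro h
    have := congrFun h i0
    simp only [hi0t, if_true, Pi.zero_apply] at this
    exact hi0 this
  · have h1 : ∑ i : Fin (n + 1), aeval jq (if i ∈ t then g i else 0) * v i = 0 := by
      calc ∑ i : Fin (n + 1), aeval jq (if i ∈ t then g i else 0) * v i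
          = ∑ i ∈ t, aeval jq (if i ∈ t then g i else 0) * v i :=
            (Finset.sum_subset (Finset.subset_univ t) (fun i _ hit => by
              rw [if_neg hit, map_zero, zero_mul])).symm
        _ = ∑ i ∈ t, aeval jq (g i) * v i :=
            Finset.sum_congr rfl (fun i hi => by rw [if_pos hi])
        _ = 0 := hsum
    rw [Fin.sum_univ_castSucc] at h1
    simp only [hv, Fin.snoc_castSucc, Fin.snoc_last] at h1
    exact h1

theorem eval₂_cQ (P : (Zl ℓ)[X]) (y : LaurentSeries ℚ) :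
    P.eval₂ (cQ ℓ) y = aeval y (P.map (algebraMap (Zl ℓ) ℚ)) := by
  rw [Polynomial.aeval_def, Polynomial.eval₂_map]
  congr 1
  refine RingHom.ext fun a => ?_
  show HahnSeries.C (a : ℚ) = algebraMap ℚ (LaurentSeries ℚ) (algebraMap (Zl ℓ) ℚ a)
  rw [LaurentSeries.algebraMap_apply]
  rfl

/-- **(B1)** in the form needed by `ChartInst21.chartRed_of`. -/
theorem hB1 (x : FF N) :
    ∃ c : Fin (dedekindPsi N + 1) → (Zl ℓ)[X], c ≠ 0 ∧
      linF N ℓ (dedekindPsi N) (fun i => c i.castSucc) +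
        aeval (jFull N) (c (Fin.last _)) * x = 0 := by
  classical
  obtain ⟨c0, hc0, hrel⟩ := exists_rat_relation N x
  have hspec := fun i => IsLocalization.integerNormalization_spec (nonZeroDivisors (Zl ℓ)) (c0 i)
  choose b hbM hb using hspec
  set B : Zl ℓ := ∏ i, b i with hB
  have hB0 : B ≠ 0 := Finset.prod_ne_zero_iff.mpr fun i _ => nonZeroDivisors.ne_zero (hbM i)
  set β : ℚ := algebraMap (Zl ℓ) ℚ B with hβ
  have hβ0 : β ≠ 0 := by
    rw [hβ]
    exact (map_ne_zero_iff _ (IsFractionRing.injective (Zl ℓ) ℚ)).mpr hB0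
  set c : Fin (dedekindPsi N + 1) → (Zl ℓ)[X] := fun i =>
    C (∏ j ∈ Finset.univ.erase i, b j) *
      IsLocalization.integerNormalization (nonZeroDivisors (Zl ℓ)) (c0 i) with hc
  have hcmap : ∀ i, (c i).map (algebraMap (Zl ℓ) ℚ) = C β * c0 i := by
    intro i
    simp only [hc]
    rw [Polynomial.map_mul, Polynomial.map_C, hb i, ← IsScalarTower.algebraMap_smul ℚ (b i) (c0 i),
      Polynomial.smul_eq_C_mul, ← mul_assoc, ← C_mul, ← map_mul, mul_comm _ (b i),
      Finset.mul_prod_erase _ _ (Finset.mem_univ i)]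
  refine ⟨c, ?_, ?_⟩
  · intro h
    obtain ⟨i0, hi0⟩ := Function.ne_iff.mp hc0
    have h1 := hcmap i0
    rw [h, Pi.zero_apply, Polynomial.map_zero] at h1
    have : C β * c0 i0 ≠ 0 := mul_ne_zero (C_ne_zero.mpr hβ0) hi0
    exact this h1.symm
  · apply valF_injective N
    rw [map_add, map_mul, map_zero]
    unfold linF
    rw [map_sum]
    simp only [map_mul, map_pow, valF_apply, coe_aeval, coe_jFull, coe_thetaFull, eval₂_cQ, hcmap,
      aeval_C]
    rw [← mul_zero (algebraMap ℚ (LaurentSeries ℚ) β), ← hrel, mul_add, Finset.mul_sum]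
    congr 1
    · refine Finset.sum_congr rfl fun i _ => ?_
      ring
    · ring

/-- **B4 (hedge): `chartRed`.** The two chart reductions from
(E1) `j_N` is a root of a monic polynomial over `ℤ_(ℓ)[j]` and
(E2) `1, j̄_N, …, j̄_N^(ψ(N)-1)` are independent over `𝔽_ℓ[j̄]`. -/
theorem chartRed
    (hE1 : ∃ Φ : Polynomial (Polynomial (Zl ℓ)), Φ.Monic ∧ Φ.eval₂ (evZl ℓ) (jqN N) = 0)
    (hE2 : ∀ a : Fin (dedekindPsi N) → (ZMod ℓ)[X],
      (∑ i, Polynomial.aeval (jqModC (ZMod ℓ)) (a i) * (jqNModC (ZMod ℓ) N) ^ (i : ℕ) = 0) →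
        ∀ i, a i = 0) :
    ∃ (ρFin : chartAlgFin N ℓ →+* LaurentSeries (ZMod ℓ))
      (ρInf : chartAlgInf N ℓ →+* LaurentSeries (ZMod ℓ)),
      (∀ x : chartAlgFin N ℓ, ρFin x = 0 → ∃ y : chartAlgFin N ℓ, x = (ℓ : chartAlgFin N ℓ) * y) ∧
      ρFin (jChartFin N ℓ) ≠ 0 ∧
      (∀ x : chartAlgInf N ℓ, ρInf x = 0 → ∃ y : chartAlgInf N ℓ, x = (ℓ : chartAlgInf N ℓ) * y) :=
  chartRed_of N ℓ (dedekindPsi N) (isIntegral_thetaFull_of_Zl N ℓ hE1)
    (hE2_of_aeval N ℓ (dedekindPsi N) hE2) (hB1 N ℓ)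

/-- the same with the integer form of (E1) (`ModularPolynomialData`-style). -/
theorem chartRed_int
    (hE1 : ∃ Φ : Polynomial (Polynomial ℤ), Φ.Monic ∧ Φ.eval₂ evalAtJ (jqN N) = 0)
    (hE2 : ∀ a : Fin (dedekindPsi N) → (ZMod ℓ)[X],
      (∑ i, Polynomial.aeval (jqModC (ZMod ℓ)) (a i) * (jqNModC (ZMod ℓ) N) ^ (i : ℕ) = 0) →
        ∀ i, a i = 0) :
    ∃ (ρFin : chartAlgFin N ℓ →+* LaurentSeries (ZMod ℓ))
      (ρInf : chartAlgInf N ℓ →+* LaurentSeries (ZMod ℓ)),
      (∀ x : chartAlgFin N ℓ, ρFin x = 0 → ∃ y : chartAlgFin N ℓ, x = (ℓ : chartAlgFin N ℓ) * y) ∧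
      ρFin (jChartFin N ℓ) ≠ 0 ∧
      (∀ x : chartAlgInf N ℓ, ρInf x = 0 → ∃ y : chartAlgInf N ℓ, x = (ℓ : chartAlgInf N ℓ) * y) :=
  chartRed_of N ℓ (dedekindPsi N) (isIntegral_thetaFull_of_int N ℓ hE1)
    (hE2_of_aeval N ℓ (dedekindPsi N) hE2) (hB1 N ℓ)

end

end Fermat.Agent.S28.ChartRed21
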