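import Mathlib
import Fermat.Agent.S28.ConjUData
import Fermat.Agent.S28.SymmRat
import Fermat.Agent.S28.CoeffRing

set_option autoImplicit false

/-!
# S28 / A4b-inst: the conjugate units as elements of `SymmRat.RatFun N A` (concrete dictionary)

`ConjUData` is abstract over a dictionary `Dict A N`. Here it is instantiated by
`SymmRat.RatFun N A` / `SymmRat.fexpA N A`, first for an arbitrary subring `A` containing the
`N`-th roots of unity and the inverses of the divisors of `N`, then for `A = CoeffRing.AInt ℓ`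
with `ℓ ∤ N` (shapes of board #634).
-/

namespace Fermat.Agent.S28.ConjUInst

open UpperHalfPlane CongruenceSubgroup Matrix.SpecialLinearGroup
open Fermat.Agent.S20 Fermat.Agent.S24 Fermat.Agent.S24.JConj
open Fermat.Agent.S28.HermiteGcd Fermat.Agent.S28.DeltaConj Fermat.Agent.S28.TauConj
open Fermat.Agent.S28.DeltaConjInv Fermat.Agent.S28.Defs
open Fermat.Agent.S28 Fermat.Agent.S28.SymmRat Fermat.Agent.S28.CoeffRing
open scoped MatrixGroups Manifold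

noncomputable section

variable (A : Subring ℂ) (N : ℕ) [NeZero N]

/-- helper7's dictionary `RatFun N A`, `fexpA N A` as a `ConjUData.Dict` -/
def dict : ConjUData.Dict A N where
  RF := RatFun N A
  mem_RF := fun _ => Iff.rfl
  fexpA := fexpA N A
  fexpA_eq := fun h m p _ hrep => by
    rw [coeffMap_fexpA, fexp_eq_of_rep h hrep]
    rfl

@[simp] theorem dict_RF : (dict A N).RF = RatFun N A := rfl

@[simp] theorem dict_fexpA : (dict A N).fexpA = fexpA N A := rfl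

/-! ### General subring `A` -/

section General

variable {A N}
variable (hroots : ∀ ζ : ℂ, ζ ^ N = 1 → ζ ∈ A)
  (hinvA : ∀ n : ℕ, n ∣ N → ((n : ℂ))⁻¹ ∈ A) {d : ℕ} [NeZero d] (hdN : d ∣ N)

/-- the conjugate unit `unitQ d N c` as an element of `RatFun N A` -/
def UA (c : Q N) : RatFun N A := ConjUData.UQ (dict A N) hroots hdN c

/-- the inverse of the conjugate unit as an element of `RatFun N A` -/
def VA (c : Q N) : RatFun N A := ConjUData.VQ (dict A N) hroots hinvA hdN c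

@[simp] theorem UA_val (c : Q N) : ((UA hroots hdN c : RatFun N A) : ℍ → ℂ) = unitQ d N c := rfl

@[simp] theorem VA_val (c : Q N) :
    ((VA hroots hinvA hdN c : RatFun N A) : ℍ → ℂ) = fun z => (unitQ d N c z)⁻¹ := rfl

theorem mdiff_UA (c : Q N) : MDiff ((UA hroots hdN c : RatFun N A) : ℍ → ℂ) := mdiff_unitQ d N c

theorem mdiff_VA (c : Q N) : MDiff ((VA hroots hinvA hdN c : RatFun N A) : ℍ → ℂ) :=
  mdiff_unitQ_inv d N c

theorem UA_smul (γ : SL(2, ℤ)) (c : Q N) (z : ℍ) :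
    ((UA hroots hdN c : RatFun N A) : ℍ → ℂ) (γ • z) =
      ((UA hroots hdN (γ⁻¹ • c) : RatFun N A) : ℍ → ℂ) z :=
  ConjUData.UQ_smul (dict A N) hroots hdN γ c z

theorem VA_smul (γ : SL(2, ℤ)) (c : Q N) (z : ℍ) :
    ((VA hroots hinvA hdN c : RatFun N A) : ℍ → ℂ) (γ • z) =
      ((VA hroots hinvA hdN (γ⁻¹ • c) : RatFun N A) : ℍ → ℂ) z :=
  ConjUData.VQ_smul (dict A N) hroots hinvA hdN γ c z

theorem UA_mul_VA (c : Q N) : UA hroots hdN c * VA hroots hinvA hdN c = 1 :=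
  ConjUData.UQ_mul_VQ (dict A N) hroots hinvA hdN c

theorem fexpA_UA_mul_VA (c : Q N) :
    fexpA N A (UA hroots hdN c) * fexpA N A (VA hroots hinvA hdN c) = 1 :=
  ConjUData.fexpA_UQ_mul_VQ (dict A N) hroots hinvA hdN c

theorem fexpA_VA_mul_UA (c : Q N) :
    fexpA N A (VA hroots hinvA hdN c) * fexpA N A (UA hroots hdN c) = 1 := by
  rw [mul_comm]
  exact fexpA_UA_mul_VA hroots hinvA hdN c

theorem coeff_fexpA_UA_of_lt (c : Q N) {k : ℤ} (hk : k < ordU N d (kappaQ N c)) :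
    (fexpA N A (UA hroots hdN c)).coeff k = 0 :=
  ConjUData.coeff_fexpA_UQ_of_lt (dict A N) hroots hdN c hk

include hinvA in
theorem isUnit_coeff_fexpA_UA (c : Q N) :
    IsUnit ((fexpA N A (UA hroots hdN c)).coeff (ordU N d (kappaQ N c))) :=
  ConjUData.isUnit_coeff_fexpA_UQ (dict A N) hroots hinvA hdN c

/-! #### the same elements in `NiceFun N A` (the domain of helper7's (S2) theorems) -/

/-- `unitQ d N c` in `NiceFun N A` -/
def UNA (c : Q N) : NiceFun N A :=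
  ⟨unitQ d N c, mem_niceFun.2 ⟨hasRatExp_unitQ A hroots hdN c, mdiff_unitQ d N c⟩⟩

/-- `(unitQ d N c)⁻¹` in `NiceFun N A` -/
def VNA (c : Q N) : NiceFun N A :=
  ⟨fun z => (unitQ d N c z)⁻¹,
    mem_niceFun.2 ⟨hasRatExp_unitQ_inv A hroots hinvA hdN c, mdiff_unitQ_inv d N c⟩⟩

@[simp] theorem UNA_val (c : Q N) : ((UNA hroots hdN c : NiceFun N A) : ℍ → ℂ) = unitQ d N c := rfl

@[simp] theorem VNA_val (c : Q N) :
    ((VNA hroots hinvA hdN c : NiceFun N A) : ℍ → ℂ) = fun z => (unitQ d N c z)⁻¹ := rfl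

theorem toRat_UNA (c : Q N) : toRat N A (UNA hroots hdN c) = UA hroots hdN c := rfl

theorem toRat_VNA (c : Q N) : toRat N A (VNA hroots hinvA hdN c) = VA hroots hinvA hdN c := rfl

theorem fexpN_UNA (c : Q N) : fexpN N A (UNA hroots hdN c) = fexpA N A (UA hroots hdN c) := rfl

theorem fexpN_VNA (c : Q N) :
    fexpN N A (VNA hroots hinvA hdN c) = fexpA N A (VA hroots hinvA hdN c) := rfl

theorem UNA_smul (γ : SL(2, ℤ)) (c : Q N) (z : ℍ) :
    ((UNA hroots hdN c : NiceFun N A) : ℍ → ℂ) (γ • z) =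
      ((UNA hroots hdN (γ⁻¹ • c) : NiceFun N A) : ℍ → ℂ) z :=
  unitQ_smul hdN c γ z

theorem VNA_smul (γ : SL(2, ℤ)) (c : Q N) (z : ℍ) :
    ((VNA hroots hinvA hdN c : NiceFun N A) : ℍ → ℂ) (γ • z) =
      ((VNA hroots hinvA hdN (γ⁻¹ • c) : NiceFun N A) : ℍ → ℂ) z :=
  VA_smul hroots hinvA hdN γ c z

theorem fexpN_UNA_mul_VNA (c : Q N) :
    fexpN N A (UNA hroots hdN c) * fexpN N A (VNA hroots hinvA hdN c) = 1 :=
  fexpA_UA_mul_VA hroots hinvA hdN c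

theorem fexpN_VNA_mul_UNA (c : Q N) :
    fexpN N A (VNA hroots hinvA hdN c) * fexpN N A (UNA hroots hdN c) = 1 :=
  fexpA_VA_mul_UA hroots hinvA hdN c

theorem coeff_fexpN_UNA_of_lt (c : Q N) {k : ℤ} (hk : k < ordU N d (kappaQ N c)) :
    (fexpN N A (UNA hroots hdN c)).coeff k = 0 :=
  coeff_fexpA_UA_of_lt hroots hdN c hk

include hinvA in
theorem isUnit_coeff_fexpN_UNA (c : Q N) :
    IsUnit ((fexpN N A (UNA hroots hdN c)).coeff (ordU N d (kappaQ N c))) :=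
  isUnit_coeff_fexpA_UA hroots hinvA hdN c

end General

/-! ### `A = AInt ℓ`, `ℓ ∤ N` (shapes of board #634) -/

section AIntL

variable {N}
variable (l : ℕ) [Fact l.Prime] (hlN : ¬ l ∣ N) {d : ℕ} [NeZero d] (hdN : d ∣ N)

omit [Fact l.Prime] in
theorem hroots_AInt : ∀ ζ : ℂ, ζ ^ N = 1 → ζ ∈ AInt l :=
  fun _ h => rootOfUnity_mem (NeZero.ne N) h

omit [NeZero N] in
include hlN in
theorem hinv_AInt : ∀ n : ℕ, n ∣ N → ((n : ℂ))⁻¹ ∈ AInt l :=
  fun _ ha => natCast_inv_mem_of_dvd l hlN ha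

/-- `unitQ d N c` in `RatFun N (AInt ℓ)` -/
def UQ (c : Q N) : RatFun N (AInt l) := UA (hroots_AInt l) hdN c

/-- `(unitQ d N c)⁻¹` in `RatFun N (AInt ℓ)` -/
def VQ (c : Q N) : RatFun N (AInt l) := VA (hroots_AInt l) (hinv_AInt l hlN) hdN c

omit [Fact l.Prime] in
@[simp] theorem UQ_val (c : Q N) : ((UQ l hdN c : RatFun N (AInt l)) : ℍ → ℂ) = unitQ d N c := rfl

@[simp] theorem VQ_val (c : Q N) :
    ((VQ l hlN hdN c : RatFun N (AInt l)) : ℍ → ℂ) = fun z => (unitQ d N c z)⁻¹ := rfl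

omit [Fact l.Prime] in
theorem mdiff_UQ (c : Q N) : MDiff ((UQ l hdN c : RatFun N (AInt l)) : ℍ → ℂ) :=
  mdiff_unitQ d N c

theorem mdiff_VQ (c : Q N) : MDiff ((VQ l hlN hdN c : RatFun N (AInt l)) : ℍ → ℂ) :=
  mdiff_unitQ_inv d N c

omit [Fact l.Prime] in
theorem UQ_smul (γ : SL(2, ℤ)) (c : Q N) (z : ℍ) :
    ((UQ l hdN c : RatFun N (AInt l)) : ℍ → ℂ) (γ • z) =
      ((UQ l hdN (γ⁻¹ • c) : RatFun N (AInt l)) : ℍ → ℂ) z :=
  UA_smul (hroots_AInt l) hdN γ c z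

theorem VQ_smul (γ : SL(2, ℤ)) (c : Q N) (z : ℍ) :
    ((VQ l hlN hdN c : RatFun N (AInt l)) : ℍ → ℂ) (γ • z) =
      ((VQ l hlN hdN (γ⁻¹ • c) : RatFun N (AInt l)) : ℍ → ℂ) z :=
  VA_smul (hroots_AInt l) (hinv_AInt l hlN) hdN γ c z

theorem UQ_mul_VQ (c : Q N) : UQ l hdN c * VQ l hlN hdN c = 1 :=
  UA_mul_VA (hroots_AInt l) (hinv_AInt l hlN) hdN c

theorem fexpA_UQ_mul_VQ (c : Q N) :
    fexpA N (AInt l) (UQ l hdN c) * fexpA N (AInt l) (VQ l hlN hdN c) = 1 :=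
  fexpA_UA_mul_VA (hroots_AInt l) (hinv_AInt l hlN) hdN c

theorem fexpA_VQ_mul_UQ (c : Q N) :
    fexpA N (AInt l) (VQ l hlN hdN c) * fexpA N (AInt l) (UQ l hdN c) = 1 :=
  fexpA_VA_mul_UA (hroots_AInt l) (hinv_AInt l hlN) hdN c

omit [Fact l.Prime] in
theorem coeff_fexpA_UQ_of_lt (c : Q N) {k : ℤ} (hk : k < ordU N d (kappaQ N c)) :
    (fexpA N (AInt l) (UQ l hdN c)).coeff k = 0 :=
  coeff_fexpA_UA_of_lt (hroots_AInt l) hdN c hk

include hlN in
theorem isUnit_coeff_fexpA_UQ (c : Q N) :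
    IsUnit ((fexpA N (AInt l) (UQ l hdN c)).coeff (ordU N d (kappaQ N c))) :=
  isUnit_coeff_fexpA_UA (hroots_AInt l) (hinv_AInt l hlN) hdN c

/-! #### the same elements in `NiceFun N (AInt ℓ)` -/

/-- `unitQ d N c` in `NiceFun N (AInt ℓ)` -/
def UN (c : Q N) : NiceFun N (AInt l) := UNA (hroots_AInt l) hdN c

/-- `(unitQ d N c)⁻¹` in `NiceFun N (AInt ℓ)` -/
def VN (c : Q N) : NiceFun N (AInt l) := VNA (hroots_AInt l) (hinv_AInt l hlN) hdN c

omit [Fact l.Prime] in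
@[simp] theorem UN_val (c : Q N) : ((UN l hdN c : NiceFun N (AInt l)) : ℍ → ℂ) = unitQ d N c := rfl

@[simp] theorem VN_val (c : Q N) :
    ((VN l hlN hdN c : NiceFun N (AInt l)) : ℍ → ℂ) = fun z => (unitQ d N c z)⁻¹ := rfl

omit [Fact l.Prime] in
theorem toRat_UN (c : Q N) : toRat N (AInt l) (UN l hdN c) = UQ l hdN c := rfl

theorem toRat_VN (c : Q N) : toRat N (AInt l) (VN l hlN hdN c) = VQ l hlN hdN c := rfl

omit [Fact l.Prime] in
theorem fexpN_UN (c : Q N) : fexpN N (AInt l) (UN l hdN c) = fexpA N (AInt l) (UQ l hdN c) := rfl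

theorem fexpN_VN (c : Q N) :
    fexpN N (AInt l) (VN l hlN hdN c) = fexpA N (AInt l) (VQ l hlN hdN c) := rfl

omit [Fact l.Prime] in
theorem UN_smul (γ : SL(2, ℤ)) (c : Q N) (z : ℍ) :
    ((UN l hdN c : NiceFun N (AInt l)) : ℍ → ℂ) (γ • z) =
      ((UN l hdN (γ⁻¹ • c) : NiceFun N (AInt l)) : ℍ → ℂ) z :=
  UNA_smul (hroots_AInt l) hdN γ c z

theorem VN_smul (γ : SL(2, ℤ)) (c : Q N) (z : ℍ) :
    ((VN l hlN hdN c : NiceFun N (AInt l)) : ℍ → ℂ) (γ • z) =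
      ((VN l hlN hdN (γ⁻¹ • c) : NiceFun N (AInt l)) : ℍ → ℂ) z :=
  VNA_smul (hroots_AInt l) (hinv_AInt l hlN) hdN γ c z

theorem fexpN_UN_mul_VN (c : Q N) :
    fexpN N (AInt l) (UN l hdN c) * fexpN N (AInt l) (VN l hlN hdN c) = 1 :=
  fexpA_UQ_mul_VQ l hlN hdN c

theorem fexpN_VN_mul_UN (c : Q N) :
    fexpN N (AInt l) (VN l hlN hdN c) * fexpN N (AInt l) (UN l hdN c) = 1 :=
  fexpA_VQ_mul_UQ l hlN hdN c

omit [Fact l.Prime] in
theorem coeff_fexpN_UN_of_lt (c : Q N) {k : ℤ} (hk : k < ordU N d (kappaQ N c)) :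
    (fexpN N (AInt l) (UN l hdN c)).coeff k = 0 :=
  coeff_fexpA_UQ_of_lt l hdN c hk

include hlN in
theorem isUnit_coeff_fexpN_UN (c : Q N) :
    IsUnit ((fexpN N (AInt l) (UN l hdN c)).coeff (ordU N d (kappaQ N c))) :=
  isUnit_coeff_fexpA_UQ l hlN hdN c

end AIntL

end

end Fermat.Agent.S28.ConjUInst
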