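import Mathlib

set_option autoImplicit false

/-!
# S28 (G3): the norm over the root set of a minimal polynomial

Abstract field theory (Mathlib only).  `P` an integrally closed domain with fraction field `K`,
`E / K` a field extension, `τ : T → E` the (pairwise distinct) roots of a monic polynomial
`Φ ∈ P[X]`, `u : T → E` a family of "conjugate units" (roots of a monic `W ∈ P[X]` with unit
constant term) which is interpolated over `P` on the roots `τ` (Lagrange numerator `L ∈ P[X]`).
Then the product of the `u s` over the roots `τ s` of the minimal polynomial of `τ s₀` over `K`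
is (the image of) a unit of `P`.
-/

namespace Fermat.Agent.S28.RootOrbit

open Polynomial Finset
open scoped Classical

noncomputable section

section prodRoots

variable {E : Type*} [Field E] {T : Type*} [Fintype T]

/-- a monic divisor of a product of pairwise distinct linear factors is the product of the factors
at its roots. -/
theorem eq_prod_of_dvd_prod (τ : T → E) (hτ : Function.Injective τ) (f : E[X]) (hf : f.Monic)
    (hdvd : f ∣ ∏ s, (X - C (τ s))) :
    f = ∏ s ∈ univ.filter (fun s => f.IsRoot (τ s)), (X - C (τ s)) := by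
  have hg0 : (∏ s : T, (X - C (τ s))) ≠ 0 := by
    refine Finset.prod_ne_zero_iff.mpr fun s _ => X_sub_C_ne_zero _
  have hgroots : (∏ s : T, (X - C (τ s))).roots = (univ : Finset T).val.map τ := by
    rw [Polynomial.roots_prod _ _ hg0]
    simp only [roots_X_sub_C]
    rw [Multiset.bind_singleton]
  have hsplit_g : (∏ s : T, (X - C (τ s))).Splits := by
    refine Polynomial.Splits.prod fun s _ => Polynomial.Splits.X_sub_C _
  have hsplit : f.Splits := hsplit_g.of_dvd hg0 hdvd
  have hle : f.roots ≤ (univ : Finset T).val.map τ := by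
    rw [← hgroots]
    exact Polynomial.roots.le_of_dvd hg0 hdvd
  have hnodup : f.roots.Nodup := by
    refine Multiset.nodup_of_le hle ?_
    exact (Multiset.nodup_map_iff_of_injective hτ).mpr univ.nodup
  have hroots : f.roots = (univ.filter (fun s => f.IsRoot (τ s))).val.map τ := by
    refine Multiset.Nodup.ext hnodup
      ((Multiset.nodup_map_iff_of_injective hτ).mpr (Finset.nodup _)) |>.mpr fun a => ?_
    constructor
    · intro ha
      obtain ⟨s, -, rfl⟩ := Multiset.mem_map.mp (Multiset.mem_of_le hle ha)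
      refine Multiset.mem_map.mpr ⟨s, ?_, rfl⟩
      rw [Finset.mem_val, Finset.mem_filter]
      exact ⟨Finset.mem_univ _, (Polynomial.mem_roots hf.ne_zero).mp ha⟩
    · intro ha
      obtain ⟨s, hs, rfl⟩ := Multiset.mem_map.mp ha
      rw [Finset.mem_val, Finset.mem_filter] at hs
      exact (Polynomial.mem_roots hf.ne_zero).mpr hs.2
  have := hsplit.eq_prod_roots_of_monic hf
  conv_lhs => rw [this, hroots, Multiset.map_map]
  rfl

end prodRoots

theorem algebraMap_PE_injective (P K E : Type*) [CommRing P] [Field K] [Algebra P K]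
    [IsFractionRing P K] [Field E] [Algebra K E] [Algebra P E] [IsScalarTower P K E] :
    Function.Injective (algebraMap P E) := by
  rw [IsScalarTower.algebraMap_eq P K E]
  exact (algebraMap K E).injective.comp (IsFractionRing.injective P K)

section main

variable {P K E : Type*} [CommRing P] [IsDomain P] [IsIntegrallyClosed P] [Field K] [Algebra P K]
  [IsFractionRing P K] [Field E] [Algebra K E] [Algebra P E] [IsScalarTower P K E]
  {T : Type*} [Fintype T]

variable (K) in
/-- the set of indices `s` such that `τ s` is a root of the minimal polynomial of `τ s₀` over `K`. -/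
def rootSet (τ : T → E) (s₀ : T) : Finset T :=
  univ.filter (fun s => aeval (τ s) (minpoly K (τ s₀)) = 0)

theorem mem_rootSet {τ : T → E} {s₀ s : T} :
    s ∈ rootSet K τ s₀ ↔ aeval (τ s) (minpoly K (τ s₀)) = 0 := by
  simp [rootSet]

theorem self_mem_rootSet (τ : T → E) (s₀ : T) : s₀ ∈ rootSet K τ s₀ :=
  mem_rootSet.mpr (minpoly.aeval K (τ s₀))

omit [IsDomain P] [IsIntegrallyClosed P] [IsFractionRing P K] in
theorem map_map_eq (f : P[X]) :
    (f.map (algebraMap P K)).map (algebraMap K E) = f.map (algebraMap P E) := by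
  rw [Polynomial.map_map, ← IsScalarTower.algebraMap_eq]

omit [IsDomain P] [IsIntegrallyClosed P] [IsFractionRing P K] in
/-- `τ s` is integral over `K`. -/
theorem isIntegral_tau (τ : T → E) (Φ : P[X])
    (hΦ : Φ.map (algebraMap P E) = ∏ s, (X - C (τ s))) (s : T) : IsIntegral K (τ s) := by
  have hmonic : (Φ.map (algebraMap P K)).Monic := by
    refine Polynomial.monic_of_injective (algebraMap K E).injective ?_
    rw [map_map_eq, hΦ]
    exact monic_prod_of_monic _ _ fun s _ => monic_X_sub_C _
  refine ⟨Φ.map (algebraMap P K), hmonic, ?_⟩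
  rw [← Polynomial.eval_map, map_map_eq, hΦ, eval_prod]
  exact Finset.prod_eq_zero (Finset.mem_univ s) (by simp)

omit [IsDomain P] [IsIntegrallyClosed P] [IsFractionRing P K] in
/-- over `E`, the minimal polynomial of `τ s₀` is the product of the linear factors at its root set. -/
theorem minpoly_map_eq_prod (τ : T → E) (hτ : Function.Injective τ) (Φ : P[X])
    (hΦ : Φ.map (algebraMap P E) = ∏ s, (X - C (τ s))) (s₀ : T) :
    (minpoly K (τ s₀)).map (algebraMap K E) = ∏ s ∈ rootSet K τ s₀, (X - C (τ s)) := by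
  have hint := isIntegral_tau (K := K) τ Φ hΦ s₀
  have hdvd : minpoly K (τ s₀) ∣ Φ.map (algebraMap P K) := by
    refine minpoly.dvd K (τ s₀) ?_
    rw [← Polynomial.eval_map_algebraMap, map_map_eq, hΦ, eval_prod]
    exact Finset.prod_eq_zero (Finset.mem_univ s₀) (by simp)
  have hdvd' : (minpoly K (τ s₀)).map (algebraMap K E) ∣ ∏ s, (X - C (τ s)) := by
    rw [← hΦ, ← map_map_eq (K := K) Φ]
    exact Polynomial.map_dvd _ hdvd
  have h := eq_prod_of_dvd_prod τ hτ _ ((minpoly.monic hint).map _) hdvd'
  rw [h]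
  refine Finset.prod_congr ?_ fun _ _ => rfl
  ext s
  rw [Finset.mem_filter, mem_rootSet, IsRoot.def, Polynomial.eval_map_algebraMap]
  simp


omit [IsDomain P] [IsIntegrallyClosed P] [IsFractionRing P K] [Algebra K E] [Algebra P E]
  [IsScalarTower P K E] [Field K] [Algebra P K] [CommRing P] in
/-- evaluation of a Lagrange-type numerator at a node. -/
theorem eval_sum_mul_prod_erase (τ : T → E) (c : T → E) (r : T) :
    eval (τ r) (∑ s, C (c s) * ∏ s' ∈ univ.erase s, (X - C (τ s'))) =
      c r * ∏ s' ∈ univ.erase r, (τ r - τ s') := by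
  rw [eval_finsetSum, Finset.sum_eq_single r]
  · simp [eval_prod]
  · intro s _ hs
    rw [eval_mul, eval_prod, Finset.prod_eq_zero (i := r)]
    · simp
    · exact Finset.mem_erase.mpr ⟨hs.symm, Finset.mem_univ _⟩
    · simp
  · intro h
    exact absurd (Finset.mem_univ r) h

omit [IsDomain P] [IsIntegrallyClosed P] [IsFractionRing P K] [Algebra K E] [Algebra P E]
  [IsScalarTower P K E] [Field K] [Algebra P K] [CommRing P] in
theorem derivative_prod_X_sub_C' (τ : T → E) :
    derivative (∏ s, (X - C (τ s))) =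
      ∑ s, C (1 : E) * ∏ s' ∈ univ.erase s, (X - C (τ s')) := by
  rw [derivative_prod_finset]
  simp

omit [IsDomain P] [IsIntegrallyClosed P] [IsFractionRing P K] [Algebra K E] [Algebra P E]
  [IsScalarTower P K E] [Field K] [Algebra P K] [CommRing P] in
theorem prod_erase_sub_ne_zero (τ : T → E) (hτ : Function.Injective τ) (r : T) :
    ∏ s' ∈ univ.erase r, (τ r - τ s') ≠ 0 := by
  refine Finset.prod_ne_zero_iff.mpr fun s hs => ?_
  rw [Finset.mem_erase] at hs
  exact sub_ne_zero.mpr fun h => hs.1 (hτ h).symm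

omit [IsDomain P] [IsIntegrallyClosed P] [IsFractionRing P K] in
/-- the product over the root set of the values of a polynomial with coefficients in `K`
lies in `K` (it is a resultant). -/
theorem exists_eq_prod_rootSet_eval (τ : T → E) (hτ : Function.Injective τ) (Φ : P[X])
    (hΦ : Φ.map (algebraMap P E) = ∏ s, (X - C (τ s))) (s₀ : T) (h : K[X]) :
    ∃ n : K, algebraMap K E n =
      ∏ s ∈ rootSet K τ s₀, eval (τ s) (h.map (algebraMap K E)) := by
  have hm := minpoly_map_eq_prod (K := K) τ hτ Φ hΦ s₀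
  have hne : (∏ s ∈ rootSet K τ s₀, (X - C (τ s))) ≠ 0 :=
    Finset.prod_ne_zero_iff.mpr fun s _ => X_sub_C_ne_zero _
  have hsplit : ((minpoly K (τ s₀)).map (algebraMap K E)).Splits := by
    rw [hm]
    exact Polynomial.Splits.prod fun s _ => Polynomial.Splits.X_sub_C _
  have hroots : ((minpoly K (τ s₀)).map (algebraMap K E)).roots =
      (rootSet K τ s₀).val.map τ := by
    rw [hm, Polynomial.roots_prod _ _ hne]
    simp only [roots_X_sub_C]
    rw [Multiset.bind_singleton]
  have hmonic : ((minpoly K (τ s₀)).map (algebraMap K E)).Monic := by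
    rw [hm]
    exact monic_prod_of_monic _ _ fun s _ => monic_X_sub_C _
  refine ⟨resultant (minpoly K (τ s₀)) h
    ((minpoly K (τ s₀)).map (algebraMap K E)).natDegree h.natDegree, ?_⟩
  rw [← resultant_map_map, resultant_eq_prod_eval _ _ _ natDegree_map_le hsplit,
    hmonic.leadingCoeff, one_pow, one_mul, hroots, Multiset.map_map]
  rfl



omit [IsIntegrallyClosed P] [IsDomain P] in
/-- the `u s` are integral over `P`. -/
theorem isIntegral_u (hinj : Function.Injective (algebraMap P E)) (u : T → E) (W : P[X])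
    (hW : W.map (algebraMap P E) = ∏ s, (X - C (u s))) (s : T) : IsIntegral P (u s) := by
  have hmonic : W.Monic := by
    refine Polynomial.monic_of_injective hinj ?_
    rw [hW]
    exact monic_prod_of_monic _ _ fun s _ => monic_X_sub_C _
  refine ⟨W, hmonic, ?_⟩
  rw [← Polynomial.eval_map, hW, eval_prod]
  exact Finset.prod_eq_zero (Finset.mem_univ s) (by simp)

omit [IsIntegrallyClosed P] [IsDomain P] in
/-- the `u s` are nonzero with integral inverse. -/
theorem isIntegral_inv_u (hinj : Function.Injective (algebraMap P E)) (u : T → E) (W : P[X])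
    (hW : W.map (algebraMap P E) = ∏ s, (X - C (u s))) (hW0 : IsUnit (W.coeff 0)) (s : T) :
    u s ≠ 0 ∧ IsIntegral P (u s)⁻¹ := by
  have hu := isIntegral_u hinj u W hW s
  have h0 : aeval (u s) W = 0 := by
    rw [← Polynomial.eval_map_algebraMap, hW, eval_prod]
    exact Finset.prod_eq_zero (Finset.mem_univ s) (by simp)
  have h1 : aeval (u s) (divX W) * u s + algebraMap P E (W.coeff 0) = 0 := by
    have := congrArg (aeval (u s)) (divX_mul_X_add W)
    rw [h0] at this
    simpa using this
  obtain ⟨c, hc⟩ := hW0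
  have hcc : algebraMap P E (↑c⁻¹ : P) * algebraMap P E (W.coeff 0) = 1 := by
    rw [← hc, ← map_mul, Units.inv_mul, map_one]
  have hinv : u s * (-(algebraMap P E (↑c⁻¹ : P)) * aeval (u s) (divX W)) = 1 := by
    have : aeval (u s) (divX W) * u s = - algebraMap P E (W.coeff 0) := by
      rw [eq_neg_iff_add_eq_zero]; exact h1
    calc u s * (-(algebraMap P E (↑c⁻¹ : P)) * aeval (u s) (divX W))
        = -(algebraMap P E (↑c⁻¹ : P)) * (aeval (u s) (divX W) * u s) := by ring
      _ = 1 := by rw [this, neg_mul_neg, hcc]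
  have hne : u s ≠ 0 := left_ne_zero_of_mul_eq_one hinv
  refine ⟨hne, ?_⟩
  have hinv' : (u s)⁻¹ = -(algebraMap P E (↑c⁻¹ : P)) * aeval (u s) (divX W) :=
    inv_eq_of_mul_eq_one_right hinv
  rw [hinv']
  refine IsIntegral.mul (IsIntegral.neg isIntegral_algebraMap) ?_
  have hmem : aeval (u s) (divX W) ∈ Algebra.adjoin P {u s} := aeval_mem_adjoin_singleton _ _
  exact adjoin_le_integralClosure hu hmem

omit [IsDomain P] [IsIntegrallyClosed P] [IsFractionRing P K] [Algebra K E] [Algebra P E]
  [IsScalarTower P K E] [Field K] [Algebra P K] [CommRing P] [Fintype T] in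
theorem map_prod_eq_sum_of_mul (v : E → ℤ) (hv_mul : ∀ x y, x ≠ 0 → y ≠ 0 → v (x * y) = v x + v y)
    (u : T → E) (hu : ∀ s, u s ≠ 0) (R : Finset T) : v (∏ s ∈ R, u s) = ∑ s ∈ R, v (u s) := by
  have h1 : v 1 = 0 := by
    have := hv_mul 1 1 one_ne_zero one_ne_zero
    rw [mul_one] at this
    linarith
  induction R using Finset.induction_on with
  | empty => simpa using h1
  | insert a R ha ih =>
    rw [Finset.prod_insert ha, Finset.sum_insert ha, hv_mul _ _ (hu a)
      (Finset.prod_ne_zero_iff.mpr fun s _ => hu s), ih]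

omit [IsDomain P] in
/-- **Main theorem**: the product of the `u s` over the root set of the minimal polynomial of
`τ s₀` is a unit of `P`. -/
theorem exists_isUnit_eq_prod_rootSet (τ : T → E) (hτ : Function.Injective τ) (Φ : P[X])
    (hΦ : Φ.map (algebraMap P E) = ∏ s, (X - C (τ s))) (s₀ : T)
    (u : T → E) (W : P[X]) (hW : W.map (algebraMap P E) = ∏ s, (X - C (u s)))
    (hW0 : IsUnit (W.coeff 0)) (L : P[X])
    (hL : L.map (algebraMap P E) = ∑ s, C (u s) * ∏ s' ∈ univ.erase s, (X - C (τ s'))) :
    ∃ n0 : P, IsUnit n0 ∧ algebraMap P E n0 = ∏ s ∈ rootSet K τ s₀, u s := by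
  have hinj := algebraMap_PE_injective P K E
  obtain ⟨nL, hnL⟩ := exists_eq_prod_rootSet_eval (K := K) τ hτ Φ hΦ s₀ (L.map (algebraMap P K))
  obtain ⟨nD, hnD⟩ := exists_eq_prod_rootSet_eval (K := K) τ hτ Φ hΦ s₀
    (derivative (Φ.map (algebraMap P K)))
  have hLv : ∀ s, eval (τ s) ((L.map (algebraMap P K)).map (algebraMap K E)) =
      u s * ∏ s' ∈ univ.erase s, (τ s - τ s') := by
    intro s
    rw [map_map_eq, hL, eval_sum_mul_prod_erase]
  have hDv : ∀ s, eval (τ s) ((derivative (Φ.map (algebraMap P K))).map (algebraMap K E)) =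
      ∏ s' ∈ univ.erase s, (τ s - τ s') := by
    intro s
    rw [← derivative_map, map_map_eq, hΦ, derivative_prod_X_sub_C', eval_sum_mul_prod_erase,
      one_mul]
  have hD0 : algebraMap K E nD ≠ 0 := by
    rw [hnD]
    refine Finset.prod_ne_zero_iff.mpr fun s _ => ?_
    rw [hDv]
    exact prod_erase_sub_ne_zero τ hτ s
  have hnD0 : nD ≠ 0 := fun h => hD0 (by rw [h, map_zero])
  have hprod : algebraMap K E (nL / nD) = ∏ s ∈ rootSet K τ s₀, u s := by
    rw [map_div₀, div_eq_iff hD0, hnL, hnD, ← Finset.prod_mul_distrib]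
    refine Finset.prod_congr rfl fun s _ => ?_
    rw [hLv, hDv]
  have hu0 : ∀ s, u s ≠ 0 := fun s => (isIntegral_inv_u hinj u W hW hW0 s).1
  have hint : IsIntegral P (nL / nD) := by
    rw [← isIntegral_algebraMap_iff (algebraMap K E).injective, hprod]
    exact IsIntegral.prod _ fun s _ => isIntegral_u hinj u W hW s
  have hint' : IsIntegral P (nD / nL) := by
    rw [← isIntegral_algebraMap_iff (algebraMap K E).injective, ← inv_div, map_inv₀, hprod,
      ← Finset.prod_inv_distrib]
    exact IsIntegral.prod _ fun s _ => (isIntegral_inv_u hinj u W hW hW0 s).2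
  obtain ⟨a, ha⟩ := IsIntegrallyClosed.isIntegral_iff.mp hint
  obtain ⟨b, hb⟩ := IsIntegrallyClosed.isIntegral_iff.mp hint'
  have hnL0 : nL ≠ 0 := by
    intro h
    have : (∏ s ∈ rootSet K τ s₀, u s) = 0 := by rw [← hprod, h, zero_div, map_zero]
    exact (Finset.prod_ne_zero_iff.mpr fun s _ => hu0 s) this
  have hab : a * b = 1 := by
    apply IsFractionRing.injective P K
    rw [map_mul, ha, hb, map_one, div_mul_div_comm, mul_comm nD, div_self (mul_ne_zero hnL0 hnD0)]
  refine ⟨a, IsUnit.of_mul_eq_one _ hab, ?_⟩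
  rw [IsScalarTower.algebraMap_apply P K E, ha, hprod]

omit [IsDomain P] in
/-- valuation form of the main theorem. -/
theorem sum_ord_rootSet_eq_zero (v : E → ℤ)
    (hv_mul : ∀ x y, x ≠ 0 → y ≠ 0 → v (x * y) = v x + v y)
    (hv_unit : ∀ x : P, IsUnit x → v (algebraMap P E x) = 0)
    (τ : T → E) (hτ : Function.Injective τ) (Φ : P[X])
    (hΦ : Φ.map (algebraMap P E) = ∏ s, (X - C (τ s))) (s₀ : T)
    (u : T → E) (W : P[X]) (hW : W.map (algebraMap P E) = ∏ s, (X - C (u s)))
    (hW0 : IsUnit (W.coeff 0)) (L : P[X])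
    (hL : L.map (algebraMap P E) = ∑ s, C (u s) * ∏ s' ∈ univ.erase s, (X - C (τ s'))) :
    ∑ s ∈ rootSet K τ s₀, v (u s) = 0 := by
  obtain ⟨n0, hn0, hn⟩ := exists_isUnit_eq_prod_rootSet (K := K) τ hτ Φ hΦ s₀ u W hW hW0 L hL
  rw [← map_prod_eq_sum_of_mul v hv_mul u
    (fun s => (isIntegral_inv_u (algebraMap_PE_injective P K E) u W hW hW0 s).1), ← hn]
  exact hv_unit n0 hn0

omit [IsIntegrallyClosed P] [IsDomain P] [IsFractionRing P K] in
/-- if the root set is everything then `Φ` is irreducible over `K` (it is the minimal polynomial of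
`τ s₀`). -/
theorem map_eq_minpoly_of_rootSet_eq_univ (τ : T → E) (hτ : Function.Injective τ) (Φ : P[X])
    (hΦ : Φ.map (algebraMap P E) = ∏ s, (X - C (τ s))) (s₀ : T)
    (h : rootSet K τ s₀ = univ) : Φ.map (algebraMap P K) = minpoly K (τ s₀) := by
  apply Polynomial.map_injective (algebraMap K E) (algebraMap K E).injective
  rw [map_map_eq, hΦ, minpoly_map_eq_prod (K := K) τ hτ Φ hΦ s₀, h]

omit [IsIntegrallyClosed P] [IsDomain P] [IsFractionRing P K] in
theorem irreducible_of_rootSet_eq_univ (τ : T → E) (hτ : Function.Injective τ) (Φ : P[X])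
    (hΦ : Φ.map (algebraMap P E) = ∏ s, (X - C (τ s))) (s₀ : T)
    (h : rootSet K τ s₀ = univ) : Irreducible (Φ.map (algebraMap P K)) := by
  rw [map_eq_minpoly_of_rootSet_eq_univ (K := K) τ hτ Φ hΦ s₀ h]
  exact minpoly.irreducible (isIntegral_tau (K := K) τ Φ hΦ s₀)

end main

end

end Fermat.Agent.S28.RootOrbit
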