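import Mathlib
import Fermat.Agent.S28.RootOrbit
import Fermat.Agent.S28.CuspMatrixCard

/-!
# S28 (C1'): abstract irreducibility from Lagrange data over an integrally closed base ring

Variant of `IrredAbs` whose hypotheses are exactly the polynomial identities delivered by the
symmetric-function theorem: `P` an integrally closed domain with fraction field `K`, `E / K` a field,
`Φ ∈ P[X]` with pairwise distinct roots `τ c ∈ E` (`c ∈ T`), and for every `d ∣ N` a family of units
`u d c ∈ E` with `∏ (X - u d c) = W d ∈ P[X]` (unit constant term) and Lagrange numerator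
`∑_c u d c ∏_{c' ≠ c} (X - τ c') = L d ∈ P[X]`, with `v (u d c) = (N / d) gcd(d, κ c)² - N` for a
"valuation" `v` vanishing on the units of `P`.  If exactly one `c0` has level `κ c0 = N`, then `Φ`
is the minimal polynomial of `τ c0` over `K`, hence irreducible.
-/

set_option autoImplicit false

namespace Fermat.Agent.S28.IrredLagrange

open Polynomial Finset Fermat.Agent.S28.RootOrbit Fermat.Agent.S28.CuspMatrix
open scoped Classical

variable {P K E : Type*} [CommRing P] [IsIntegrallyClosed P] [Field K] [Algebra P K]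
  [IsFractionRing P K] [Field E] [Algebra K E] [Algebra P E] [IsScalarTower P K E]
  {T : Type*} [Fintype T]

omit [IsIntegrallyClosed P] [Field K] [Algebra P K] [IsFractionRing P K] [Algebra K E]
  [IsScalarTower P K E] in
/-- the product of all the roots of `W` is (up to sign) its constant coefficient. -/
theorem prod_eq_algebraMap_coeff_zero (u : T → E) (W : P[X])
    (hW : W.map (algebraMap P E) = ∏ s, (X - C (u s))) :
    ∏ s, u s = algebraMap P E ((-1) ^ Fintype.card T * W.coeff 0) := by
  have h := congrArg (fun p => p.coeff 0) hW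
  simp only [coeff_map] at h
  rw [coeff_zero_eq_eval_zero (∏ s, (X - C (u s))), eval_prod] at h
  simp only [eval_sub, eval_X, eval_C, zero_sub] at h
  rw [Finset.prod_neg, Finset.card_univ] at h
  rw [map_mul, h, map_pow, map_neg, map_one, ← mul_assoc, ← mul_pow]
  simp

omit [IsIntegrallyClosed P] [Field K] [Algebra P K] [IsFractionRing P K] [Algebra K E]
  [IsScalarTower P K E] in
/-- the orders of all the `u s` sum to zero. -/
theorem sum_ord_univ_eq_zero (hinj : Function.Injective (algebraMap P E)) (v : E → ℤ)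
    (hv_mul : ∀ x y, x ≠ 0 → y ≠ 0 → v (x * y) = v x + v y)
    (hv_unit : ∀ x : P, IsUnit x → v (algebraMap P E x) = 0)
    (u : T → E) (W : P[X]) (hW : W.map (algebraMap P E) = ∏ s, (X - C (u s)))
    (hW0 : IsUnit (W.coeff 0)) : ∑ s, v (u s) = 0 := by
  rw [← map_prod_eq_sum_of_mul v hv_mul u (fun s => (isIntegral_inv_u hinj u W hW hW0 s).1),
    prod_eq_algebraMap_coeff_zero u W hW]
  refine hv_unit _ (IsUnit.mul ?_ hW0)
  exact IsUnit.pow _ isUnit_one.neg

/-- **Abstract irreducibility criterion (Lagrange form).** -/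
theorem irreducible_of_lagrange_units (N : ℕ) (hN : N ≠ 0)
    (κ : T → ℕ) (hκ : ∀ c, κ c ∣ N) (c0 : T) (hκ0 : ∀ c, κ c = N ↔ c = c0)
    (v : E → ℤ) (hv_mul : ∀ x y, x ≠ 0 → y ≠ 0 → v (x * y) = v x + v y)
    (hv_unit : ∀ x : P, IsUnit x → v (algebraMap P E x) = 0)
    (τ : T → E) (hτ : Function.Injective τ) (Φ : P[X])
    (hΦ : Φ.map (algebraMap P E) = ∏ s, (X - C (τ s)))
    (u : ℕ → T → E) (W L : ℕ → P[X])
    (hW : ∀ d ∈ N.divisors, (W d).map (algebraMap P E) = ∏ s, (X - C (u d s)))
    (hW0 : ∀ d ∈ N.divisors, IsUnit ((W d).coeff 0))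
    (hL : ∀ d ∈ N.divisors, (L d).map (algebraMap P E) =
      ∑ s, C (u d s) * ∏ s' ∈ univ.erase s, (X - C (τ s')))
    (hord : ∀ d ∈ N.divisors, ∀ c,
      v (u d c) = ((N / d : ℕ) : ℤ) * ((Nat.gcd d (κ c) : ℕ) : ℤ) ^ 2 - (N : ℤ)) :
    Φ.map (algebraMap P K) = minpoly K (τ c0) ∧ Irreducible (Φ.map (algebraMap P K)) := by
  have huniv : RootOrbit.rootSet K τ c0 = Finset.univ := by
    apply eq_univ_of_order_sums N hN κ hκ _ c0 (self_mem_rootSet τ c0) hκ0
    · intro d hd
      rw [← sum_ord_rootSet_eq_zero (K := K) v hv_mul hv_unit τ hτ Φ hΦ c0 (u d) (W d) (hW d hd)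
        (hW0 d hd) (L d) (hL d hd)]
      exact Finset.sum_congr rfl fun c _ => (hord d hd c).symm
    · intro d hd
      rw [← sum_ord_univ_eq_zero (algebraMap_PE_injective P K E) v hv_mul hv_unit (u d) (W d)
        (hW d hd) (hW0 d hd)]
      exact Finset.sum_congr rfl fun c _ => (hord d hd c).symm
  exact ⟨map_eq_minpoly_of_rootSet_eq_univ τ hτ Φ hΦ c0 huniv,
    irreducible_of_rootSet_eq_univ τ hτ Φ hΦ c0 huniv⟩

end Fermat.Agent.S28.IrredLagrange
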