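/-
S28 (helper10): reversal lemmas for the chart at infinity.

The chart at infinity is the finite chart with `(j, θ)` replaced by `(j⁻¹, j⁻ᵐ θ)`.
Three transfer statements, in a general field `F` over a commutative ring `R`:
* `exists_monic_inv`   (R1): integrality of `j⁻ᵐ θ` over `R[j⁻¹]`;
* `hgen_inv`           (R2): transfer of the spanning hypothesis;
* `hind_inv`           (R3): transfer of the independence hypothesis.
Mathlib only.
-/
import Mathlib

set_option autoImplicit false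

open Polynomial

noncomputable section

namespace Fermat.Agent.S28.Reversal

variable {R F : Type*} [CommRing R] [Field F] [Algebra R F]

/-- Evaluating the reflected polynomial at the inverse. -/
theorem aeval_inv_reflect {j : F} (hj : j ≠ 0) (D : ℕ) (p : R[X]) (hp : p.natDegree ≤ D) :
    aeval j⁻¹ (p.reflect D) = j⁻¹ ^ D * aeval j p := by
  let _ : Invertible j := invertibleOfNonzero hj
  have h := eval₂_reflect_mul_pow (algebraMap R F) j D p hp
  rw [invOf_eq_inv] at h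
  rw [aeval_def, aeval_def, ← h, mul_comm, mul_assoc, ← mul_pow, mul_inv_cancel₀ hj, one_pow,
    mul_one]

/-- Evaluating the reflected polynomial at the element itself. -/
theorem aeval_reflect {j : F} (hj : j ≠ 0) (D : ℕ) (p : R[X]) (hp : p.natDegree ≤ D) :
    aeval j (p.reflect D) = j ^ D * aeval j⁻¹ p := by
  have h := aeval_inv_reflect (R := R) (inv_ne_zero hj) D p hp
  rwa [inv_inv] at h


/-- **(R2)** transfer of the spanning hypothesis to the chart at infinity. -/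
theorem hgen_inv {j θ : F} (hj : j ≠ 0) (n m : ℕ)
    (hgen : ∀ x : F, ∃ b : R[X], b ≠ 0 ∧ ∃ a : Fin n → R[X],
      aeval j b * x = ∑ i, aeval j (a i) * θ ^ (i : ℕ)) :
    ∀ x : F, ∃ b : R[X], b ≠ 0 ∧ ∃ a : Fin n → R[X],
      aeval j⁻¹ b * x = ∑ i, aeval j⁻¹ (a i) * (j⁻¹ ^ m * θ) ^ (i : ℕ) := by
  intro x
  obtain ⟨b, hb, a, hba⟩ := hgen x
  set D : ℕ := b.natDegree + ∑ i, ((a i).natDegree + m * (i : ℕ)) with hD
  have hDb : b.natDegree ≤ D := Nat.le_add_right _ _
  have hDa : ∀ i, (a i).natDegree + m * (i : ℕ) ≤ D := fun i =>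
    le_trans (Finset.single_le_sum (f := fun i : Fin n => (a i).natDegree + m * (i : ℕ))
      (fun _ _ => Nat.zero_le _) (Finset.mem_univ i)) (Nat.le_add_left _ _)
  refine ⟨b.reflect D, by simpa using hb, fun i => (a i).reflect (D - m * (i : ℕ)), ?_⟩
  rw [aeval_inv_reflect hj D b hDb, mul_assoc, hba, Finset.mul_sum]
  refine Finset.sum_congr rfl fun i _ => ?_
  rw [aeval_inv_reflect hj (D - m * (i : ℕ)) (a i) (by have := hDa i; omega)]
  have hpow : j⁻¹ ^ D = j⁻¹ ^ (D - m * (i : ℕ)) * (j⁻¹ ^ m) ^ (i : ℕ) := by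
    rw [← pow_mul, ← pow_add]
    congr 1
    have := hDa i
    omega
  rw [hpow, mul_pow]
  ring

/-- **(R3)** transfer of the independence hypothesis to the chart at infinity. -/
theorem hind_inv {j θ : F} (hj : j ≠ 0) (n m : ℕ)
    (hind : ∀ a : Fin n → R[X], ∑ i, aeval j (a i) * θ ^ (i : ℕ) = 0 → ∀ i, a i = 0) :
    ∀ a : Fin n → R[X], ∑ i, aeval j⁻¹ (a i) * (j⁻¹ ^ m * θ) ^ (i : ℕ) = 0 → ∀ i, a i = 0 := by
  intro a ha
  set D : ℕ := ∑ i, ((a i).natDegree + m * (i : ℕ)) with hD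
  have hDa : ∀ i, (a i).natDegree + m * (i : ℕ) ≤ D := fun i =>
    Finset.single_le_sum (f := fun i : Fin n => (a i).natDegree + m * (i : ℕ))
      (fun _ _ => Nat.zero_le _) (Finset.mem_univ i)
  have key : ∑ i, aeval j ((a i).reflect (D - m * (i : ℕ))) * θ ^ (i : ℕ) = 0 := by
    have h : ∑ i, aeval j ((a i).reflect (D - m * (i : ℕ))) * θ ^ (i : ℕ) =
        j ^ D * ∑ i, aeval j⁻¹ (a i) * (j⁻¹ ^ m * θ) ^ (i : ℕ) := by
      rw [Finset.mul_sum]
      refine Finset.sum_congr rfl fun i _ => ?_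
      rw [aeval_reflect hj _ _ (by have := hDa i; omega)]
      have hpow : j ^ D = j ^ (D - m * (i : ℕ)) * (j ^ m) ^ (i : ℕ) := by
        rw [← pow_mul, ← pow_add]
        congr 1
        have := hDa i
        omega
      have hcancel : (j ^ m) ^ (i : ℕ) * (j⁻¹ ^ m) ^ (i : ℕ) = 1 := by
        rw [← mul_pow, ← mul_pow, mul_inv_cancel₀ hj, one_pow, one_pow]
      rw [hpow, mul_pow]
      calc j ^ (D - m * (i : ℕ)) * aeval j⁻¹ (a i) * θ ^ (i : ℕ)
          = j ^ (D - m * (i : ℕ)) * aeval j⁻¹ (a i) * θ ^ (i : ℕ) *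
              ((j ^ m) ^ (i : ℕ) * (j⁻¹ ^ m) ^ (i : ℕ)) := by rw [hcancel, mul_one]
        _ = _ := by ring
    rw [h, ha, mul_zero]
  intro i
  have := hind _ key i
  simpa using this

/-- a sum of monomials of degree `< n` has degree `< n`. -/
theorem degree_sum_lt {S : Type*} [CommRing S] (n : ℕ) (c : ℕ → S) :
    (∑ i ∈ Finset.range n, C (c i) * (X : S[X]) ^ i).degree < n := by
  rw [degree_lt_iff_coeff_zero]
  intro k hk
  rw [finsetSum_coeff]
  refine Finset.sum_eq_zero fun i hi => ?_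
  rw [coeff_C_mul, coeff_X_pow, if_neg, mul_zero]
  have := Finset.mem_range.mp hi
  omega

/-- **(R1)** if `θ` is a root of a monic `Φ ∈ R[X][Y]` (in `Y`, at `X = j`) of `Y`-degree `n` whose
lower coefficients have `X`-degree `≤ m`, then `j⁻ᵐ θ` is a root of a monic `Ψ ∈ R[X][Y]` of the
same degree at `X = j⁻¹`. -/
theorem exists_monic_inv {j θ : F} (hj : j ≠ 0) (n m : ℕ) (Φ : R[X][X]) (hΦ : Φ.Monic)
    (hn : Φ.natDegree = n)
    (hroot : Φ.eval₂ ((aeval j : R[X] →ₐ[R] F) : R[X] →+* F) θ = 0)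
    (hdeg : ∀ i < n, (Φ.coeff i).natDegree ≤ m) :
    ∃ Ψ : R[X][X], Ψ.Monic ∧ Ψ.natDegree = n ∧
      Ψ.eval₂ ((aeval j⁻¹ : R[X] →ₐ[R] F) : R[X] →+* F) (j⁻¹ ^ m * θ) = 0 := by
  set low : R[X][X] :=
    ∑ i ∈ Finset.range n, C ((Φ.coeff i).reflect (m * (n - i))) * (X : R[X][X]) ^ i with hlow
  have hlowdeg : low.degree < n := degree_sum_lt n _
  have hnat : (X ^ n + low).natDegree = n := by
    have : Nontrivial R := (algebraMap R F).domain_nontrivial
    have h1 : (X ^ n + low).degree = ((n : ℕ) : WithBot ℕ) := by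
      rw [degree_add_eq_left_of_degree_lt (by rw [degree_X_pow]; exact hlowdeg), degree_X_pow]
    exact natDegree_eq_of_degree_eq_some h1
  refine ⟨X ^ n + low, monic_X_pow_add hlowdeg, hnat, ?_⟩
  have hmain : (X ^ n + low).eval₂ ((aeval j⁻¹ : R[X] →ₐ[R] F) : R[X] →+* F) (j⁻¹ ^ m * θ) =
      j⁻¹ ^ (m * n) * Φ.eval₂ ((aeval j : R[X] →ₐ[R] F) : R[X] →+* F) θ := by
    rw [eval₂_add, eval₂_X_pow, hlow, eval₂_finsetSum, eval₂_eq_sum_range, hn,
      Finset.sum_range_succ, mul_add, Finset.mul_sum, add_comm]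
    congr 1
    · refine Finset.sum_congr rfl fun i hi => ?_
      have hi' : i < n := Finset.mem_range.mp hi
      rw [eval₂_mul, eval₂_C, eval₂_X_pow]
      show aeval j⁻¹ ((Φ.coeff i).reflect (m * (n - i))) * (j⁻¹ ^ m * θ) ^ i =
        j⁻¹ ^ (m * n) * (aeval j (Φ.coeff i) * θ ^ i)
      rw [aeval_inv_reflect hj _ _ (le_trans (hdeg i hi')
        (Nat.le_mul_of_pos_right m (by omega)))]
      have hpow : j⁻¹ ^ (m * n) = j⁻¹ ^ (m * (n - i)) * (j⁻¹ ^ m) ^ i := by
        rw [← pow_mul, ← pow_add, ← Nat.mul_add]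
        congr 2
        omega
      rw [hpow, mul_pow]
      ring
    · have h1 : Φ.coeff n = 1 := by rw [← hn]; exact hΦ.coeff_natDegree
      rw [h1, map_one, one_mul, mul_pow, ← pow_mul]
  rw [hmain, hroot, mul_zero]

end Fermat.Agent.S28.Reversal
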