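import Mathlib

/-!
# S28: the abstract algebra behind the symmetric-function theorem (S2)

Mathlib only.

* `prod_X_sub_C_comp_perm`, `lagrange_comp_perm`: the polynomial `∏ (X - C (f c))` and the Lagrange
  numerator `∑ C (u c) * ∏_{c' ≠ c} (X - C (f c'))` do not change when `f`, `u` are precomposed with
  the same permutation of the index type.
* `coeff_eq_of_perm`: consequently, for families `F U : T → H` in a ring `H` and two ring homs
  `ev ev' : H →+* R` ("evaluation at `z` and at `γ • z`") with `ev' (F c) = ev (F (σ c))` and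
  `ev' (U c) = ev (U (σ c))`, all coefficients of the two polynomials have the same image under `ev`
  and `ev'`.
* `exists_monic_lift`, `exists_lift`: a polynomial `p ∈ H[X]` all of whose coefficients are mapped by
  `fx : H →+* E` into the range of `ι : B →+* E` is the image of a polynomial over `B`
  (monic of the same degree if `p` is monic).
-/

set_option autoImplicit false
set_option linter.unusedSectionVars false
set_option linter.unusedVariables false

namespace Fermat.Agent.S28.SymmPoly

open Polynomial Finset

section perm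

variable {R : Type*} [CommRing R] {T : Type*} [Fintype T] [DecidableEq T]

/-- the Lagrange numerator of the pair of families `(f, u)` -/
noncomputable def lagrangeNum (f u : T → R) : R[X] :=
  ∑ c, C (u c) * ∏ c' ∈ univ.erase c, (X - C (f c'))

/-- the monic polynomial with roots `f c` -/
noncomputable def rootPoly (f : T → R) : R[X] := ∏ c, (X - C (f c))

theorem rootPoly_def (f : T → R) : rootPoly f = ∏ c, (X - C (f c)) := rfl

theorem lagrangeNum_def (f u : T → R) :
    lagrangeNum f u = ∑ c, C (u c) * ∏ c' ∈ univ.erase c, (X - C (f c')) := rfl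

theorem rootPoly_comp_perm (f : T → R) (σ : Equiv.Perm T) :
    rootPoly (fun c => f (σ c)) = rootPoly f := by
  unfold rootPoly
  exact Equiv.prod_comp σ (fun c => X - C (f c))

theorem lagrangeNum_comp_perm (f u : T → R) (σ : Equiv.Perm T) :
    lagrangeNum (fun c => f (σ c)) (fun c => u (σ c)) = lagrangeNum f u := by
  unfold lagrangeNum
  rw [← Equiv.sum_comp σ (fun c => C (u c) * ∏ c' ∈ univ.erase c, (X - C (f c')))]
  refine Finset.sum_congr rfl fun c _ => ?_
  congr 1
  refine Finset.prod_bij (fun c' _ => σ c') ?_ ?_ ?_ ?_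
  · intro a ha
    rw [Finset.mem_erase] at ha ⊢
    exact ⟨fun h => ha.1 (σ.injective h), Finset.mem_univ _⟩
  · intro a _ b _ h
    exact σ.injective h
  · intro b hb
    rw [Finset.mem_erase] at hb
    refine ⟨σ.symm b, ?_, by simp⟩
    rw [Finset.mem_erase]
    refine ⟨fun h => hb.1 ?_, Finset.mem_univ _⟩
    rw [← h]; simp
  · intro a _
    rfl

theorem rootPoly_monic (f : T → R) : (rootPoly f).Monic :=
  monic_prod_of_monic _ _ fun c _ => monic_X_sub_C _

theorem rootPoly_natDegree [Nontrivial R] (f : T → R) :
    (rootPoly f).natDegree = Fintype.card T := by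
  unfold rootPoly
  rw [natDegree_prod_of_monic _ _ fun c _ => monic_X_sub_C _]
  simp

variable {H : Type*} [CommRing H]

theorem map_rootPoly (g : H →+* R) (F : T → H) :
    (rootPoly F).map g = rootPoly (fun c => g (F c)) := by
  unfold rootPoly
  rw [Polynomial.map_prod]
  simp

theorem map_lagrangeNum (g : H →+* R) (F U : T → H) :
    (lagrangeNum F U).map g = lagrangeNum (fun c => g (F c)) (fun c => g (U c)) := by
  unfold lagrangeNum
  rw [Polynomial.map_sum]
  refine Finset.sum_congr rfl fun c _ => ?_
  rw [Polynomial.map_mul, Polynomial.map_prod]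
  simp

/-- **Invariance of the coefficients.**  If `ev'` ("evaluation at `γ • z`") is `ev` ("evaluation at
`z`") up to a permutation of the index type, then the coefficients of the root polynomial and of the
Lagrange numerator have the same image under `ev` and `ev'`. -/
theorem coeff_eq_of_perm (ev ev' : H →+* R) (F U : T → H) (σ : Equiv.Perm T)
    (hF : ∀ c, ev' (F c) = ev (F (σ c))) (hU : ∀ c, ev' (U c) = ev (U (σ c))) (k : ℕ) :
    ev' ((rootPoly F).coeff k) = ev ((rootPoly F).coeff k) ∧
      ev' ((lagrangeNum F U).coeff k) = ev ((lagrangeNum F U).coeff k) := by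
  constructor
  · rw [← coeff_map, ← coeff_map, map_rootPoly, map_rootPoly]
    simp only [hF]
    rw [rootPoly_comp_perm (fun c => ev (F c)) σ]
  · rw [← coeff_map, ← coeff_map, map_lagrangeNum, map_lagrangeNum]
    simp only [hF, hU]
    rw [lagrangeNum_comp_perm (fun c => ev (F c)) (fun c => ev (U c)) σ]

end perm

section lift

variable {H E B : Type*} [CommRing H] [CommRing E] [CommRing B]

/-- a polynomial over `H` whose coefficients go to the range of `ι` under `fx` lifts to `B`. -/
theorem exists_lift (fx : H →+* E) (ι : B →+* E) (p : H[X])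
    (h : ∀ k, ∃ b : B, fx (p.coeff k) = ι b) :
    ∃ L : B[X], L.map ι = p.map fx ∧ L.natDegree ≤ p.natDegree := by
  choose b hb using h
  refine ⟨∑ k ∈ range (p.natDegree + 1), C (b k) * X ^ k, ?_, ?_⟩
  · rw [Polynomial.map_sum]
    conv_rhs => rw [p.as_sum_range_C_mul_X_pow, Polynomial.map_sum]
    refine Finset.sum_congr rfl fun k _ => ?_
    simp only [Polynomial.map_mul, Polynomial.map_pow, map_C, map_X, hb]
  · refine natDegree_sum_le_of_forall_le _ _ fun k hk => ?_
    refine (natDegree_C_mul_X_pow_le _ _).trans ?_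
    rw [Finset.mem_range] at hk
    omega

/-- monic version: the lift can be chosen monic of the same degree. -/
theorem exists_monic_lift [Nontrivial B] (fx : H →+* E) (ι : B →+* E) (p : H[X]) (hp : p.Monic)
    (h : ∀ k < p.natDegree, ∃ b : B, fx (p.coeff k) = ι b) :
    ∃ Φ : B[X], Φ.Monic ∧ Φ.natDegree = p.natDegree ∧ Φ.map ι = p.map fx := by
  have h' : ∀ k, ∃ b : B, k < p.natDegree → fx (p.coeff k) = ι b := by
    intro k
    by_cases hk : k < p.natDegree
    · obtain ⟨b, hb⟩ := h k hk
      exact ⟨b, fun _ => hb⟩
    · exact ⟨0, fun hk' => absurd hk' hk⟩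
  choose b hb using h'
  set q : B[X] := ∑ k ∈ range p.natDegree, C (b k) * X ^ k with hq
  have hqdeg : q.degree < (p.natDegree : WithBot ℕ) := by
    refine (degree_sum_le _ _).trans_lt ?_
    rw [Finset.sup_lt_iff (WithBot.bot_lt_coe _)]
    intro k hk
    rw [Finset.mem_range] at hk
    exact (degree_C_mul_X_pow_le _ _).trans_lt (by exact_mod_cast hk)
  refine ⟨X ^ p.natDegree + q, monic_X_pow_add hqdeg, ?_, ?_⟩
  · have hd : (X ^ p.natDegree + q).degree = (p.natDegree : WithBot ℕ) := by
      rw [degree_add_eq_left_of_degree_lt (by rwa [degree_X_pow]), degree_X_pow]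
    exact natDegree_eq_of_degree_eq_some hd
  · rw [Polynomial.map_add, Polynomial.map_pow, map_X, hq, Polynomial.map_sum]
    conv_rhs => rw [p.as_sum_range_C_mul_X_pow, Finset.sum_range_succ, Polynomial.map_add,
      Polynomial.map_sum]
    rw [add_comm]
    congr 1
    · refine Finset.sum_congr rfl fun k hk => ?_
      rw [Finset.mem_range] at hk
      simp only [Polynomial.map_mul, Polynomial.map_pow, map_C, map_X, hb k hk]
    · have : p.coeff p.natDegree = 1 := hp.coeff_natDegree
      simp [this]

end lift

section main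

variable {H E B R : Type*} [CommRing H] [CommRing E] [CommRing B] [Nontrivial B] [CommRing R]
  [Nontrivial H] {T : Type*} [Fintype T] [DecidableEq T] {G Z : Type*}

/-- **Abstract form of the symmetric-function theorem (S2).**  `H` is a ring of "functions on `Z`"
(`ev z : H →+* R` the evaluations), `G` acts on `Z`, `fx : H →+* E` is the formal expansion and
`ι : B →+* E` the evaluation of polynomials at the expansion of `j`.  If every `G`-invariant element
of `H` expands into the range of `ι` (hypothesis `hS1`, the `q`-expansion principle in level one)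
and `G` permutes the families `F`, `U` simultaneously, then the root polynomial of `fx ∘ F` and the
Lagrange numerator of `(fx ∘ F, fx ∘ U)` come from polynomials over `B`. -/
theorem exists_symm_polys_abstract (ev : Z → H →+* R) (act : G → Z → Z) (fx : H →+* E)
    (ι : B →+* E)
    (hS1 : ∀ h : H, (∀ γ z, ev (act γ z) h = ev z h) → ∃ b : B, fx h = ι b)
    (F U : T → H)
    (hperm : ∀ γ : G, ∃ σ : Equiv.Perm T, ∀ c z,
      ev (act γ z) (F c) = ev z (F (σ c)) ∧ ev (act γ z) (U c) = ev z (U (σ c))) :
    ∃ Φ L : B[X], Φ.Monic ∧ Φ.natDegree = Fintype.card T ∧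
      Φ.map ι = rootPoly (fun c => fx (F c)) ∧
      L.map ι = lagrangeNum (fun c => fx (F c)) (fun c => fx (U c)) := by
  have hinv : ∀ k, (∀ γ z, ev (act γ z) ((rootPoly F).coeff k) = ev z ((rootPoly F).coeff k)) ∧
      (∀ γ z, ev (act γ z) ((lagrangeNum F U).coeff k) = ev z ((lagrangeNum F U).coeff k)) := by
    intro k
    constructor
    · intro γ z
      obtain ⟨σ, hσ⟩ := hperm γ
      exact (coeff_eq_of_perm (ev z) (ev (act γ z)) F U σ (fun c => (hσ c z).1)
        (fun c => (hσ c z).2) k).1
    · intro γ z
      obtain ⟨σ, hσ⟩ := hperm γ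
      exact (coeff_eq_of_perm (ev z) (ev (act γ z)) F U σ (fun c => (hσ c z).1)
        (fun c => (hσ c z).2) k).2
  obtain ⟨Φ, hΦm, hΦd, hΦ⟩ := exists_monic_lift fx ι (rootPoly F) (rootPoly_monic F)
    (fun k _ => hS1 _ (hinv k).1)
  obtain ⟨L, hL, -⟩ := exists_lift fx ι (lagrangeNum F U) (fun k => hS1 _ (hinv k).2)
  refine ⟨Φ, L, hΦm, ?_, ?_, ?_⟩
  · rw [hΦd, rootPoly_natDegree]
  · rw [hΦ, map_rootPoly]
  · rw [hL, map_lagrangeNum]

end main

end Fermat.Agent.S28.SymmPoly
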