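import Mathlib

/-!
# S28 / A3b: symmetric families of functions on the upper half plane

Abstract form of the "symmetric function" step (S2) of the S28 route.

Let `R` be a subring of the ring of functions `ℍ → ℂ` (in the application: the functions with a
finite-pole `q_N`-expansion over a coefficient ring `A`), `φ : R →+* S` a ring hom (the formal
expansion), `ψ : B[X] →+* S` (evaluation `X ↦ j(t^N)`) and suppose every *holomorphic*
`SL(2,ℤ)`-invariant element of `R` is hit by `ψ` (step (S1): it is a polynomial in `j`).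

If `F U : T → R` are finite families of holomorphic functions which are permuted simultaneously by
`SL(2,ℤ)`, then the polynomial `∏ c, (X - C (φ (F c)))` and the Lagrange numerator
`∑ c, C (φ (U c)) * ∏ c' ≠ c, (X - C (φ (F c')))` come from `B[X][X]` (`exists_symm_polys`).
-/

set_option autoImplicit false

namespace Fermat.Agent.S28.SymmRat2

open UpperHalfPlane Polynomial
open scoped MatrixGroups Manifold

noncomputable section

/-! ### Generic polynomial lemmas -/

section Generic

variable {R₀ K : Type*} [CommRing R₀] [CommRing K] {T : Type*} [Fintype T]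

/-- the "characteristic polynomial" of a finite family -/
def charPoly (F : T → R₀) : R₀[X] := ∏ c, (X - C (F c))

/-- the Lagrange numerator of the family `U` with respect to the nodes `F` -/
def lagNum [DecidableEq T] (F U : T → R₀) : R₀[X] :=
  ∑ c, C (U c) * ∏ c' ∈ Finset.univ.erase c, (X - C (F c'))

theorem charPoly_map (e : R₀ →+* K) (F : T → R₀) :
    (charPoly F).map e = charPoly (fun c => e (F c)) := by
  simp [charPoly, Polynomial.map_prod]

theorem lagNum_map [DecidableEq T] (e : R₀ →+* K) (F U : T → R₀) :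
    (lagNum F U).map e = lagNum (fun c => e (F c)) (fun c => e (U c)) := by
  simp [lagNum, Polynomial.map_sum, Polynomial.map_prod]

theorem charPoly_comp_perm (σ : Equiv.Perm T) (F : T → R₀) :
    charPoly (fun c => F (σ c)) = charPoly F := by
  unfold charPoly
  exact Equiv.prod_comp σ (fun c => X - C (F c))

theorem lagNum_comp_perm [DecidableEq T] (σ : Equiv.Perm T) (F U : T → R₀) :
    lagNum (fun c => F (σ c)) (fun c => U (σ c)) = lagNum F U := by
  unfold lagNum
  rw [← Equiv.sum_comp σ (fun c => C (U c) * ∏ c' ∈ Finset.univ.erase c, (X - C (F c')))]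
  refine Finset.sum_congr rfl fun c _ => ?_
  congr 1
  have h : Finset.univ.erase (σ c) = (Finset.univ.erase c).map σ.toEmbedding := by
    rw [Finset.map_erase, Finset.map_univ_equiv]
    rfl
  rw [h, Finset.prod_map]
  rfl

theorem charPoly_monic (F : T → R₀) : (charPoly F).Monic :=
  monic_prod_of_monic _ _ fun c _ => monic_X_sub_C (F c)

theorem charPoly_natDegree [Nontrivial R₀] (F : T → R₀) :
    (charPoly F).natDegree = Fintype.card T := by
  unfold charPoly
  rw [natDegree_finsetProd_X_sub_C_eq_card]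
  rfl

theorem lagNum_degree_lt [DecidableEq T] [Nontrivial R₀] (F U : T → R₀) :
    (lagNum F U).degree < (Fintype.card T : WithBot ℕ) := by
  unfold lagNum
  refine (degree_sum_le _ _).trans_lt ?_
  rw [Finset.sup_lt_iff (by exact WithBot.bot_lt_coe _)]
  intro c _
  have h1 : (∏ c' ∈ Finset.univ.erase c, (X - C (F c'))).natDegree = Fintype.card T - 1 := by
    rw [natDegree_finsetProd_X_sub_C_eq_card, Finset.card_erase_of_mem (Finset.mem_univ c)]
    rfl
  have hpos : 0 < Fintype.card T := Fintype.card_pos_iff.mpr ⟨c⟩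
  have h3 : (C (U c) * ∏ c' ∈ Finset.univ.erase c, (X - C (F c'))).natDegree
      < Fintype.card T := by
    refine (natDegree_C_mul_le _ _).trans_lt ?_
    rw [h1]
    exact Nat.sub_lt hpos one_pos
  refine (degree_le_natDegree).trans_lt ?_
  exact_mod_cast h3

/-- a polynomial of degree `< n` is the sum of its first `n` monomials -/
theorem eq_sum_range_of_degree_lt (p : R₀[X]) {n : ℕ} (h : p.degree < (n : WithBot ℕ)) :
    p = ∑ i ∈ Finset.range n, C (p.coeff i) * X ^ i := by
  ext m
  rw [finsetSum_coeff]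
  simp only [coeff_C_mul, coeff_X_pow, mul_ite, mul_one, mul_zero]
  rw [Finset.sum_ite_eq (Finset.range n) m (fun i => p.coeff i)]
  split_ifs with hm
  · rfl
  · rw [Finset.mem_range, not_lt] at hm
    exact coeff_eq_zero_of_degree_lt (h.trans_le (by exact_mod_cast hm))

end Generic

/-! ### Function rings on the upper half plane -/

/-- the subring of holomorphic functions on `ℍ` -/
def mdSub : Subring (ℍ → ℂ) where
  carrier := {f | MDiff f}
  mul_mem' := fun hf hg => hf.mul hg
  one_mem' := mdifferentiable_const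
  add_mem' := fun hf hg => hf.add hg
  zero_mem' := mdifferentiable_const
  neg_mem' := fun hf => hf.neg

theorem mem_mdSub {f : ℍ → ℂ} : f ∈ mdSub ↔ MDiff f := Iff.rfl

/-- evaluation at a point, as a ring hom on a subring of functions -/
def evAt (R : Subring (ℍ → ℂ)) (z : ℍ) : ↥R →+* ℂ :=
  (Pi.evalRingHom (fun _ : ℍ => ℂ) z).comp R.subtype

@[simp] theorem evAt_apply (R : Subring (ℍ → ℂ)) (z : ℍ) (f : ↥R) : evAt R z f = (f : ℍ → ℂ) z :=
  rfl

/-- `f` is holomorphic and `SL(2,ℤ)`-invariant. -/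
def IsInv (f : ℍ → ℂ) : Prop := MDiff f ∧ ∀ (γ : SL(2, ℤ)) (z : ℍ), f (γ • z) = f z

section Main

variable {R : Subring (ℍ → ℂ)} {T : Type*} [Fintype T] [DecidableEq T]

/-- the coefficients of the characteristic polynomial and of the Lagrange numerator of a
holomorphic, `SL(2,ℤ)`-permuted pair of families are holomorphic and invariant. -/
theorem isInv_coeff (F U : T → ↥R)
    (hF : ∀ c, MDiff (F c : ℍ → ℂ)) (hU : ∀ c, MDiff (U c : ℍ → ℂ))
    (hperm : ∀ γ : SL(2, ℤ), ∃ σ : Equiv.Perm T, ∀ (c : T) (z : ℍ),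
      (F c : ℍ → ℂ) (γ • z) = (F (σ c) : ℍ → ℂ) z ∧
      (U c : ℍ → ℂ) (γ • z) = (U (σ c) : ℍ → ℂ) z) (k : ℕ) :
    IsInv (((charPoly F).coeff k : ↥R) : ℍ → ℂ) ∧
    IsInv (((lagNum F U).coeff k : ↥R) : ℍ → ℂ) := by
  classical
  -- pass to the subring of holomorphic elements
  set R' : Subring (ℍ → ℂ) := R ⊓ mdSub with hR'
  set ι : ↥R' →+* ↥R := Subring.inclusion inf_le_left with hι
  set F' : T → ↥R' := fun c => ⟨(F c : ℍ → ℂ), ⟨(F c).2, hF c⟩⟩ with hF'
  set U' : T → ↥R' := fun c => ⟨(U c : ℍ → ℂ), ⟨(U c).2, hU c⟩⟩ with hU'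
  have hιF : (fun c => ι (F' c)) = F := by funext c; rfl
  have hιU : (fun c => ι (U' c)) = U := by funext c; rfl
  have e1 : charPoly F = (charPoly F').map ι := by rw [charPoly_map, hιF]
  have e2 : lagNum F U = (lagNum F' U').map ι := by rw [lagNum_map, hιF, hιU]
  have hval : ∀ x : ↥R', ((ι x : ↥R) : ℍ → ℂ) = (x : ℍ → ℂ) := fun x => rfl
  -- invariance of the polynomials
  have hinv : ∀ (γ : SL(2, ℤ)) (z : ℍ),
      (charPoly F').map (evAt R' (γ • z)) = (charPoly F').map (evAt R' z) ∧
      (lagNum F' U').map (evAt R' (γ • z)) = (lagNum F' U').map (evAt R' z) := by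
    intro γ z
    obtain ⟨σ, hσ⟩ := hperm γ
    have hF1 : (fun c => evAt R' (γ • z) (F' c)) = fun c => (fun c => evAt R' z (F' c)) (σ c) := by
      funext c
      exact (hσ c z).1
    have hU1 : (fun c => evAt R' (γ • z) (U' c)) = fun c => (fun c => evAt R' z (U' c)) (σ c) := by
      funext c
      exact (hσ c z).2
    refine ⟨?_, ?_⟩
    · rw [charPoly_map, charPoly_map, hF1]
      exact charPoly_comp_perm σ (fun c => evAt R' z (F' c))
    · rw [lagNum_map, lagNum_map, hF1, hU1]
      exact lagNum_comp_perm σ (fun c => evAt R' z (F' c)) (fun c => evAt R' z (U' c))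
  refine ⟨⟨?_, fun γ z => ?_⟩, ⟨?_, fun γ z => ?_⟩⟩
  · rw [e1, coeff_map, hval]
    exact ((charPoly F').coeff k).2.2
  · rw [e1, coeff_map, hval]
    have := congrArg (fun p => p.coeff k) (hinv γ z).1
    simpa [coeff_map] using this
  · rw [e2, coeff_map, hval]
    exact ((lagNum F' U').coeff k).2.2
  · rw [e2, coeff_map, hval]
    have := congrArg (fun p => p.coeff k) (hinv γ z).2
    simpa [coeff_map] using this

variable {S B : Type*} [CommRing S] [CommRing B]

/-- **Symmetric families (abstract form of (S2)).**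
`φ` is the formal-expansion hom, `ψ` the evaluation `B[X] → S` at the expansion of `J`, and `hS1`
says that holomorphic invariant elements of `R` are polynomials in `J` over `B`, compatibly with
`φ`, `ψ`.  Then for simultaneously permuted holomorphic families `F`, `U` the characteristic
polynomial of `φ ∘ F` and the Lagrange numerator of `φ ∘ U` descend to `B[X][X]`. -/
theorem exists_symm_polys (φ : ↥R →+* S) (ψ : B[X] →+* S) (b : B →+* ℂ) (J : ℍ → ℂ)
    (hS1 : ∀ f : ↥R, IsInv (f : ℍ → ℂ) →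
      ∃ P : B[X], φ f = ψ P ∧ ∀ z, (f : ℍ → ℂ) z = (P.map b).eval (J z))
    (F U : T → ↥R)
    (hF : ∀ c, MDiff (F c : ℍ → ℂ)) (hU : ∀ c, MDiff (U c : ℍ → ℂ))
    (hperm : ∀ γ : SL(2, ℤ), ∃ σ : Equiv.Perm T, ∀ (c : T) (z : ℍ),
      (F c : ℍ → ℂ) (γ • z) = (F (σ c) : ℍ → ℂ) z ∧
      (U c : ℍ → ℂ) (γ • z) = (U (σ c) : ℍ → ℂ) z) :
    ∃ Φ L : B[X][X], Φ.Monic ∧ Φ.natDegree = Fintype.card T ∧
      L.degree < (Fintype.card T : WithBot ℕ) ∧
      Φ.map ψ = ∏ c, (X - C (φ (F c))) ∧
      L.map ψ = ∑ c, C (φ (U c)) * ∏ c' ∈ Finset.univ.erase c, (X - C (φ (F c'))) ∧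
      (∀ z, (Φ.map (mapRingHom b)).map (evalRingHom (J z)) =
        ∏ c, (X - C ((F c : ℍ → ℂ) z))) ∧
      (∀ z, (L.map (mapRingHom b)).map (evalRingHom (J z)) =
        ∑ c, C ((U c : ℍ → ℂ) z) * ∏ c' ∈ Finset.univ.erase c, (X - C ((F c' : ℍ → ℂ) z))) := by
  classical
  have : Nontrivial B := b.domain_nontrivial
  set n := Fintype.card T with hn
  have hcoef := isInv_coeff F U hF hU hperm
  choose P hPφ hPz using fun k => hS1 _ (hcoef k).1
  choose Q hQφ hQz using fun k => hS1 _ (hcoef k).2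
  -- the two polynomials as sums of monomials
  have hchar : charPoly F = X ^ n + ∑ i ∈ Finset.range n, C ((charPoly F).coeff i) * X ^ i := by
    have := (charPoly_monic F).as_sum
    rwa [charPoly_natDegree F] at this
  have hlag : lagNum F U = ∑ i ∈ Finset.range n, C ((lagNum F U).coeff i) * X ^ i :=
    eq_sum_range_of_degree_lt _ (lagNum_degree_lt F U)
  have hdegΦ : (∑ i ∈ Finset.range n, C (P i) * X ^ i : B[X][X]).degree < (n : WithBot ℕ) := by
    refine (degree_sum_le _ _).trans_lt ?_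
    rw [Finset.sup_lt_iff (by exact WithBot.bot_lt_coe _)]
    intro i hi
    refine (degree_C_mul_X_pow_le i _).trans_lt ?_
    exact_mod_cast Finset.mem_range.mp hi
  have hdegL : (∑ i ∈ Finset.range n, C (Q i) * X ^ i : B[X][X]).degree < (n : WithBot ℕ) := by
    refine (degree_sum_le _ _).trans_lt ?_
    rw [Finset.sup_lt_iff (by exact WithBot.bot_lt_coe _)]
    intro i hi
    refine (degree_C_mul_X_pow_le i _).trans_lt ?_
    exact_mod_cast Finset.mem_range.mp hi
  refine ⟨X ^ n + ∑ i ∈ Finset.range n, C (P i) * X ^ i, ∑ i ∈ Finset.range n, C (Q i) * X ^ i,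
    monic_X_pow_add hdegΦ, ?_, hdegL, ?_, ?_, fun z => ?_, fun z => ?_⟩
  · -- natDegree
    have h1 : (X ^ n + ∑ i ∈ Finset.range n, C (P i) * X ^ i : B[X][X]).degree
        = (n : WithBot ℕ) := by
      rw [degree_add_eq_left_of_degree_lt (by rwa [degree_X_pow]), degree_X_pow]
    exact natDegree_eq_of_degree_eq_some h1
  · -- `Φ.map ψ`
    have h1 : (charPoly F).map φ = ∏ c, (X - C (φ (F c))) := by
      rw [charPoly_map]; rfl
    rw [← h1, hchar]
    simp only [Polynomial.map_add, Polynomial.map_pow, map_X, Polynomial.map_sum,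
      Polynomial.map_mul, map_C, hPφ]
  · -- `L.map ψ`
    have h1 : (lagNum F U).map φ
        = ∑ c, C (φ (U c)) * ∏ c' ∈ Finset.univ.erase c, (X - C (φ (F c'))) := by
      rw [lagNum_map]; rfl
    rw [← h1, hlag]
    simp only [Polynomial.map_sum, Polynomial.map_mul, Polynomial.map_pow, map_X, map_C, hQφ]
  · -- pointwise, `Φ`
    have h1 : (charPoly F).map (evAt R z) = ∏ c, (X - C ((F c : ℍ → ℂ) z)) := by
      rw [charPoly_map]; rfl
    rw [← h1, hchar]
    simp only [Polynomial.map_add, Polynomial.map_pow, map_X, Polynomial.map_sum,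
      Polynomial.map_mul, map_C, coe_mapRingHom, coe_evalRingHom, evAt_apply, hPz]
  · -- pointwise, `L`
    have h1 : (lagNum F U).map (evAt R z)
        = ∑ c, C ((U c : ℍ → ℂ) z) * ∏ c' ∈ Finset.univ.erase c, (X - C ((F c' : ℍ → ℂ) z)) := by
      rw [lagNum_map]; rfl
    rw [← h1, hlag]
    simp only [Polynomial.map_sum, Polynomial.map_mul, Polynomial.map_pow, map_X, map_C,
      coe_mapRingHom, coe_evalRingHom, evAt_apply, hQz]

/-- **Monic annihilator of a permuted family.**  Special case `U = F` of `exists_symm_polys`: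
all the `φ (F c)` are roots of one monic polynomial over `B[X]` (via `ψ`). -/
theorem exists_monic_annihilator (φ : ↥R →+* S) (ψ : B[X] →+* S) (b : B →+* ℂ) (J : ℍ → ℂ)
    (hS1 : ∀ f : ↥R, IsInv (f : ℍ → ℂ) →
      ∃ P : B[X], φ f = ψ P ∧ ∀ z, (f : ℍ → ℂ) z = (P.map b).eval (J z))
    (F : T → ↥R) (hF : ∀ c, MDiff (F c : ℍ → ℂ))
    (hperm : ∀ γ : SL(2, ℤ), ∃ σ : Equiv.Perm T, ∀ (c : T) (z : ℍ),
      (F c : ℍ → ℂ) (γ • z) = (F (σ c) : ℍ → ℂ) z) :
    ∃ W : B[X][X], W.Monic ∧ W.natDegree = Fintype.card T ∧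
      W.map ψ = ∏ c, (X - C (φ (F c))) ∧ (∀ c, (W.map ψ).eval (φ (F c)) = 0) ∧
      (∀ z, (W.map (mapRingHom b)).map (evalRingHom (J z)) =
        ∏ c, (X - C ((F c : ℍ → ℂ) z))) := by
  obtain ⟨W, -, hW, hdeg, -, hmap, -, hz, -⟩ :=
    exists_symm_polys φ ψ b J hS1 F F hF hF (fun γ => by
      obtain ⟨σ, hσ⟩ := hperm γ
      exact ⟨σ, fun c z => ⟨hσ c z, hσ c z⟩⟩)
  refine ⟨W, hW, hdeg, hmap, fun c => ?_, hz⟩
  rw [hmap, eval_prod]
  refine Finset.prod_eq_zero (Finset.mem_univ c) ?_
  simp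

end Main

end

end Fermat.Agent.S28.SymmRat2
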