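import Mathlib
import Fermat.Agent.S28.SymmRat
import Fermat.Agent.S28.Defs
import Fermat.Agent.S28.ConjUData
import Fermat.Prelude.Def_ModularCurve_X0ModL

set_option autoImplicit false

/-!
# S28: bridge between `SymmRat` (dictionary, helper7) and `Defs` / `ConjUData.Dict`
-/

namespace Fermat.Agent.S28.SymmRatDefs

open UpperHalfPlane Fermat.Agent.S24.JPoly Fermat.Agent.S28.SymmRat Fermat.Agent.S28
open scoped MatrixGroups Manifold

noncomputable section

variable {N : ℕ} [NeZero N] {A : Subring ℂ}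

/-- the formal expansion of `j` over `A` is `Defs.jt` -/
theorem JA_eq_jt : JA N A = Defs.jt ↥A N := by
  apply coeffMap_subtype_injective (A := A)
  rw [coeffMap_JA, Defs.jt]
  exact (ModularCurve.coeffMap_jqNModC A.subtype N).symm

theorem fexpA_jRat : fexpA N A (jRat N A) = Defs.jt ↥A N := JA_eq_jt

/-- evaluation at the formal `J` is `Defs.evalJt` -/
theorem evJA_eq_evalJt : evJA N A = Defs.evalJt ↥A N := by
  refine Polynomial.ringHom_ext (fun c => ?_) ?_
  · simp only [evJA, Defs.evalJt, Polynomial.coe_eval₂RingHom, Polynomial.eval₂_C,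
      AlgHom.toRingHom_eq_coe, RingHom.coe_coe, Polynomial.aeval_C]
    have h1 : algebraMap ↥A (PowerSeries ↥A) c = PowerSeries.C c := by simp
    rw [HahnSeries.algebraMap_apply', h1, HahnSeries.ofPowerSeries_C]
  · simp only [evJA, Defs.evalJt, Polynomial.coe_eval₂RingHom, Polynomial.eval₂_X,
      AlgHom.toRingHom_eq_coe, RingHom.coe_coe, Polynomial.aeval_X, JA_eq_jt]

variable (N A)

/-- the dictionary of `SymmRat` as a term of `ConjUData.Dict` -/
def dict : ConjUData.Dict A N where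
  RF := RatFun N A
  mem_RF _ := Iff.rfl
  fexpA := fexpA N A
  fexpA_eq h m p _ hp := by
    rw [coeffMap_fexpA, fexp_eq_of_rep h hp, ser]

variable {N A}

@[simp] theorem dict_RF : (dict N A).RF = RatFun N A := rfl

@[simp] theorem dict_fexpA : (dict N A).fexpA = fexpA N A := rfl

section Families

variable {T : Type*} [Fintype T]

/-- `exists_prodPoly_lift` in the vocabulary of `Defs` -/
theorem exists_prodPoly_lift' (F : T → NiceFun N A)
    (hperm : ∀ γ : SL(2, ℤ), ∃ σ : Equiv.Perm T, ∀ (c : T) (z : ℍ),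
      (F c : ℍ → ℂ) (γ • z) = (F (σ c) : ℍ → ℂ) z) :
    ∃ Φ : Polynomial (Polynomial ↥A), Φ.Monic ∧ Φ.natDegree = Fintype.card T ∧
      Φ.map (Defs.evalJt ↥A N) =
        ∏ c, (Polynomial.X - Polynomial.C (fexpA N A (toRat N A (F c)))) := by
  obtain ⟨Φ, h1, h2, -, h4⟩ := exists_prodPoly_lift F hperm
  exact ⟨Φ, h1, h2, by rw [← evJA_eq_evalJt, h4]; rfl⟩

/-- `exists_lagPoly_lift` in the vocabulary of `Defs` -/
theorem exists_lagPoly_lift' [DecidableEq T] (F U : T → NiceFun N A)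
    (hperm : ∀ γ : SL(2, ℤ), ∃ σ : Equiv.Perm T, ∀ (c : T) (z : ℍ),
      (F c : ℍ → ℂ) (γ • z) = (F (σ c) : ℍ → ℂ) z ∧ (U c : ℍ → ℂ) (γ • z) = (U (σ c) : ℍ → ℂ) z) :
    ∃ L : Polynomial (Polynomial ↥A),
      L.map (Defs.evalJt ↥A N) = ∑ c, Polynomial.C (fexpA N A (toRat N A (U c))) *
        ∏ c' ∈ Finset.univ.erase c,
          (Polynomial.X - Polynomial.C (fexpA N A (toRat N A (F c')))) := by
  obtain ⟨L, -, h2⟩ := exists_lagPoly_lift F U hperm
  exact ⟨L, by rw [← evJA_eq_evalJt, h2]; rfl⟩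

/-- (S1) in the shape `hS1` of `SymmRat2`: an invariant holomorphic element of `RatFun N A` is a
polynomial in `j` over `A`, pointwise and formally. -/
theorem exists_poly_fexp (f : RatFun N A) (hmd : MDiff (f : ℍ → ℂ))
    (hinv : ∀ (γ : SL(2, ℤ)) (z : ℍ), (f : ℍ → ℂ) (γ • z) = (f : ℍ → ℂ) z) :
    ∃ P : Polynomial ↥A,
      (∀ z, (f : ℍ → ℂ) z = (P.map A.subtype).eval (Fermat.Agent.S24.jFun z)) ∧
      fexpA N A f = Defs.evalJt ↥A N P := by
  obtain ⟨P, hP⟩ := exists_poly_of_invariant (⟨f.1, f.2, hmd⟩ : NiceFun N A) hinv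
  have hf : f = evJ N A P := hP
  refine ⟨P, fun z => ?_, ?_⟩
  · rw [hf, evJ_apply]
  · rw [hf, fexpA_evJ, ← evJA_eq_evalJt]
    rfl

end Families

end

end Fermat.Agent.S28.SymmRatDefs
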