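import Mathlib
import Fermat.Agent.S28.Defs
import Fermat.Agent.S28.SymmRat
import Fermat.Agent.S28.MapSys

/-!
# S28: the symmetric-function theorems of `SymmRat` in the `Defs.ConjSystem` shapes

`SymmRat.JA N A = Defs.jt ↥A N`, `SymmRat.evJA N A = Defs.evalJt ↥A N`, and the resulting forms of
`SymmRat.exists_prodPoly_lift` / `exists_lagPoly_lift` with `Defs.evalJt`: exactly the fields
`hΦ`, `hL`, `hL'`, `hW`, `hW'` of `Defs.ConjSystem`.
-/

set_option autoImplicit false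

namespace Fermat.Agent.S28.SymmRatInst

open UpperHalfPlane Polynomial Fermat.Agent.S28.SymmRat Fermat.Agent.S28.Defs
open scoped MatrixGroups Manifold

noncomputable section

variable {N : ℕ} [NeZero N] {A : Subring ℂ}

/-- the formal `J` of `SymmRat` is the Prelude series `j(t^N)` over `A`. -/
theorem JA_eq_jt : JA N A = jt ↥A N := by
  apply coeffMap_subtype_injective (A := A)
  rw [coeffMap_JA, MapSys.coeffMap_jt]
  rfl

/-- the evaluation hom of `SymmRat` is `Defs.evalJt`. -/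
theorem evJA_eq_evalJt : evJA N A = evalJt ↥A N := by
  refine Polynomial.ringHom_ext (fun a => ?_) ?_
  · simp only [evJA, evalJt, coe_eval₂RingHom, eval₂_C, AlgHom.toRingHom_eq_coe, RingHom.coe_coe,
      aeval_C]
    rw [HahnSeries.algebraMap_apply']
    simp
  · simp only [evJA, evalJt, coe_eval₂RingHom, eval₂_X, AlgHom.toRingHom_eq_coe, RingHom.coe_coe,
      aeval_X]
    exact JA_eq_jt

variable {T : Type*} [Fintype T]

/-- **`hΦ`-shape.**  The characteristic polynomial of a permuted family descends to `A[X][X]`. -/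
theorem exists_Phi (F : T → NiceFun N A)
    (hperm : ∀ γ : SL(2, ℤ), ∃ σ : Equiv.Perm T, ∀ (c : T) (z : ℍ),
      (F c : ℍ → ℂ) (γ • z) = (F (σ c) : ℍ → ℂ) z) :
    ∃ Φ : (↥A)[X][X], Φ.Monic ∧ Φ.natDegree = Fintype.card T ∧
      Φ.map (evalJt ↥A N) = ∏ c, (X - C (fexpN N A (F c))) := by
  obtain ⟨Φ, h1, h2, -, h3⟩ := exists_prodPoly_lift F hperm
  exact ⟨Φ, h1, h2, by rw [← evJA_eq_evalJt]; exact h3⟩

/-- **`hW`-shape.**  All members of a permuted family are roots of one monic polynomial over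
`A[J]`. -/
theorem exists_W (F : T → NiceFun N A)
    (hperm : ∀ γ : SL(2, ℤ), ∃ σ : Equiv.Perm T, ∀ (c : T) (z : ℍ),
      (F c : ℍ → ℂ) (γ • z) = (F (σ c) : ℍ → ℂ) z) :
    ∃ W : (↥A)[X][X], W.Monic ∧ W.natDegree = Fintype.card T ∧
      ∀ c, (W.map (evalJt ↥A N)).eval (fexpN N A (F c)) = 0 := by
  obtain ⟨W, h1, h2, h3⟩ := exists_Phi F hperm
  refine ⟨W, h1, h2, fun c => ?_⟩
  rw [h3, eval_prod]
  refine Finset.prod_eq_zero (Finset.mem_univ c) ?_
  simp

/-- **`hL`-shape.**  The Lagrange numerator of a permuted pair of families descends to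
`A[X][X]`. -/
theorem exists_L [DecidableEq T] (F U : T → NiceFun N A)
    (hperm : ∀ γ : SL(2, ℤ), ∃ σ : Equiv.Perm T, ∀ (c : T) (z : ℍ),
      (F c : ℍ → ℂ) (γ • z) = (F (σ c) : ℍ → ℂ) z ∧ (U c : ℍ → ℂ) (γ • z) = (U (σ c) : ℍ → ℂ) z) :
    ∃ L : (↥A)[X][X],
      L.map (evalJt ↥A N) = ∑ c, C (fexpN N A (U c)) *
        ∏ c' ∈ Finset.univ.erase c, (X - C (fexpN N A (F c'))) := by
  obtain ⟨L, -, h3⟩ := exists_lagPoly_lift F U hperm
  exact ⟨L, by rw [← evJA_eq_evalJt]; exact h3⟩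

end

end Fermat.Agent.S28.SymmRatInst
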