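import Mathlib
import Fermat.Agent.S28.DeltaConj
import Fermat.Agent.S28.TauConj

set_option autoImplicit false

/-!
# S28 / A4b (part 1): the inverses of the conjugate units, exact `q_N`-expansions

For `d ∣ N`, `g : SL(2,ℤ)` the conjugate unit `unitG d g` (helper6, `DeltaConj`) satisfies
`unitG d g · q_N^N = p(q_N)` with `p` a power series over `A` of order `m = (N/d) gcd(d,κ)²` and
leading coefficient `lc = a¹² ζ`.  Here we add the *inverse*: `(unitG d g)⁻¹ · q_N^m = p'(q_N)` with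
`p'` a power series over `A` of order `N` and leading coefficient `lc⁻¹`, provided `a⁻¹ ∈ A` for
`a ∣ N`.
-/

namespace Fermat.Agent.S28.UnitInv

open UpperHalfPlane CongruenceSubgroup Matrix.SpecialLinearGroup Filter Topology Complex
open Fermat.Agent.S20 Fermat.Agent.S20.Rank Fermat.Agent.S24 Fermat.Agent.S24.JConj
open Fermat.Agent.S28.HermiteGcd Fermat.Agent.S28.DeltaConj Fermat.Agent.S28.TauConj
open scoped MatrixGroups ModularForm Manifold Real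

noncomputable section

local notation "Δ" => ModularForm.discriminant

open Fermat.Agent.S24.EtaBridge (etaFun etaFun_ne_zero toC rep_dedekindEtaUnit
  rep_dedekindEtaUnitInv)
open Fermat.Agent.S24.CuspExp (substMulPow coeff_substMulPow rep_substMulPow rep_const rep_X_pow
  qParam_one_affH exp_ratio_pow_eq_one norm_exp_two_pi_I_mul_ratio)
open Fermat.Agent.S24.JPoly (qq CoeffIn qq_ne_zero qq_pow_self qq_one norm_qq_lt_one)

local notation "𝕢" => Function.Periodic.qParam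

/-- the power series `(c ζ)⁻¹ X^N · E(X^N) · E(ζ X^m)⁻¹`, `E = ∏ (1 - Xⁿ)²⁴` -/
def unitInvSeries (c ζ : ℂ) (m N : ℕ) : PowerSeries ℂ :=
  PowerSeries.X ^ N * (PowerSeries.C (c * ζ)⁻¹ *
    (substMulPow (toC ModularCurve.dedekindEtaUnitInv) ζ m *
      substMulPow (toC ModularCurve.dedekindEtaUnit) 1 N))

theorem coeff_unitInvSeries_of_lt (c ζ : ℂ) (m N : ℕ) {k : ℕ} (hk : k < N) :
    PowerSeries.coeff k (unitInvSeries c ζ m N) = 0 := by
  unfold unitInvSeries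
  rw [PowerSeries.coeff_X_pow_mul', if_neg (not_le.mpr hk)]

theorem coeff_unitInvSeries_self (c ζ : ℂ) (m N : ℕ) :
    PowerSeries.coeff N (unitInvSeries c ζ m N) = (c * ζ)⁻¹ := by
  unfold unitInvSeries
  rw [PowerSeries.coeff_X_pow_mul', if_pos le_rfl, Nat.sub_self, PowerSeries.coeff_C_mul,
    PowerSeries.coeff_zero_eq_constantCoeff, map_mul, ← PowerSeries.coeff_zero_eq_constantCoeff,
    coeff_zero_substMulPow, coeff_zero_substMulPow,
    coeff_zero_toC_dedekindEtaUnit, coeff_zero_toC_dedekindEtaUnitInv]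
  ring

theorem coeffIn_unitInvSeries (A : Subring ℂ) {c ζ : ℂ} (hc : (c * ζ)⁻¹ ∈ A) (hζ : ζ ∈ A)
    (m N : ℕ) : CoeffIn A (unitInvSeries c ζ m N) := by
  unfold unitInvSeries
  refine (CoeffIn.X.pow N).mul (CoeffIn.C_mul hc ?_)
  exact (coeffIn_substMulPow_toC A _ hζ m).mul (coeffIn_substMulPow_toC A _ A.one_mem N)

theorem rep_unitInvSeries (c : ℂ) {ζ : ℂ} (hζ : ‖ζ‖ ≤ 1) {m N : ℕ} (hm : 0 < m) (hN : 0 < N) :
    Fermat.Agent.S24.EtaBridge.Rep (unitInvSeries c ζ m N)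
      (fun q => q ^ N * ((c * ζ)⁻¹ * ((etaFun (ζ * q ^ m) ^ 24)⁻¹ * etaFun (1 * q ^ N) ^ 24))) := by
  unfold unitInvSeries
  exact (rep_X_pow N).mul ((rep_const (c * ζ)⁻¹).mul
    ((rep_substMulPow rep_dedekindEtaUnitInv hζ hm).mul
      (rep_substMulPow rep_dedekindEtaUnit (by simp) hN)))

/-- **Exact expansion of `(a¹² Δ((az+b)/e)/Δ(z))⁻¹`**, `e t = N`, `m = a t`. -/
theorem rep_unitInv_affH {N : ℕ} [NeZero N] (a b e : ℤ) (ha : 0 < a) (he : 0 < e) {t : ℤ}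
    (ht : (N : ℤ) = e * t) :
    Fermat.Agent.S24.JPoly.Rep N
      (unitInvSeries ((a : ℂ) ^ 12) (cexp (2 * π * Complex.I * ((b : ℂ) / e))) (a * t).toNat N)
      (fun z : ℍ => ((a : ℂ) ^ 12 * Δ (affH a b e (intCast_pos' ha) (intCast_pos' he) z) / Δ z)⁻¹ *
        qq N z ^ (a * t).toNat) := by
  have hN : 0 < N := Nat.pos_of_ne_zero (NeZero.ne N)
  have htpos : 0 < t := by
    have h1 : (0 : ℤ) < e * t := by rw [← ht]; exact_mod_cast hN
    exact (mul_pos_iff_of_pos_left he).mp h1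
  set m : ℕ := (a * t).toNat with hm
  have hmpos : 0 < m := Int.pos_iff_toNat_pos.mp (mul_pos ha htpos)
  set ζ : ℂ := cexp (2 * π * Complex.I * ((b : ℂ) / e)) with hζ
  have hζnorm : ‖ζ‖ ≤ 1 := (norm_exp_two_pi_I_mul_ratio b e).le
  have hrep := rep_unitInvSeries ((a : ℂ) ^ 12) hζnorm hmpos hN
  intro z
  have hq : ‖qq N z‖ < 1 := norm_qq_lt_one N z
  have h := hrep (qq N z) hq
  set w := affH a b e (intCast_pos' ha) (intCast_pos' he) z with hw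
  have hqw : 𝕢 1 (w : ℂ) = ζ * qq N z ^ m := by
    rw [hw, qParam_one_affH a b e ha he hN ht z, Fermat.Agent.S24.JPoly.qq_def]
  have hqz : 𝕢 1 (z : ℂ) = qq N z ^ N := by
    rw [qq_pow_self, qq_one]
  have hq0 : qq N z ≠ 0 := qq_ne_zero N z
  have hζ0 : ζ ≠ 0 := Complex.exp_ne_zero _
  have haC : (a : ℂ) ≠ 0 := by exact_mod_cast ha.ne'
  have hqN : ‖qq N z ^ N‖ < 1 := by
    rw [norm_pow]; exact pow_lt_one₀ (norm_nonneg _) hq hN.ne'
  have hqm : ‖ζ * qq N z ^ m‖ < 1 := by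
    rw [norm_mul, norm_pow]
    have h1 : ‖qq N z‖ ^ m < 1 := pow_lt_one₀ (norm_nonneg _) hq hmpos.ne'
    calc ‖ζ‖ * ‖qq N z‖ ^ m ≤ 1 * ‖qq N z‖ ^ m := by gcongr
      _ < 1 := by rwa [one_mul]
  have he1 : etaFun (ζ * qq N z ^ m) ^ 24 ≠ 0 := pow_ne_zero _ (etaFun_ne_zero hqm)
  have he2 : etaFun (qq N z ^ N) ^ 24 ≠ 0 := pow_ne_zero _ (etaFun_ne_zero hqN)
  have hval : ((a : ℂ) ^ 12 * Δ w / Δ z)⁻¹ * qq N z ^ m =
      qq N z ^ N * (((a : ℂ) ^ 12 * ζ)⁻¹ * ((etaFun (ζ * qq N z ^ m) ^ 24)⁻¹ *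
        etaFun (1 * qq N z ^ N) ^ 24)) := by
    rw [delta_eq_q_mul_eta w, delta_eq_q_mul_eta z, hqw, hqz, one_mul]
    field_simp
  show HasSum _ (((a : ℂ) ^ 12 * Δ w / Δ z)⁻¹ * qq N z ^ m)
  rw [hval]
  exact h

/-- `ζ⁻¹ ∈ A` for a root of unity `ζ ∈ A`. -/
theorem inv_mem_of_pow_eq_one (A : Subring ℂ) {N : ℕ} [NeZero N] {ζ : ℂ} (hζ : ζ ^ N = 1)
    (hζA : ζ ∈ A) : ζ⁻¹ ∈ A := by
  have hN : 0 < N := Nat.pos_of_ne_zero (NeZero.ne N)
  have h1 : ζ⁻¹ = ζ ^ (N - 1) := by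
    have hζ0 : ζ ≠ 0 := by
      rintro rfl
      rw [zero_pow hN.ne'] at hζ
      exact zero_ne_one hζ
    have : ζ ^ (N - 1) * ζ = 1 := by rw [← pow_succ, Nat.sub_add_cancel hN, hζ]
    exact (eq_inv_of_mul_eq_one_left this).symm
  rw [h1]
  exact A.pow_mem hζA _

/-- **Exact expansion of the inverse of a conjugate unit.** Same Hermite data as
`DeltaConj.exists_unit_expansion`; `(unitG d g)⁻¹ · q_N^m` is a power series over `A` of order `N`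
with leading coefficient `(a¹² ζ)⁻¹`. -/
theorem exists_unitInv_expansion (A : Subring ℂ) {N : ℕ} [NeZero N]
    (hroots : ∀ ζ : ℂ, ζ ^ N = 1 → ζ ∈ A) (hinvA : ∀ a : ℕ, a ∣ N → ((a : ℂ))⁻¹ ∈ A)
    {d : ℕ} [NeZero d] (hdN : d ∣ N) (g : SL(2, ℤ)) :
    ∃ (m : ℕ) (p' : PowerSeries ℂ) (ζ : ℂ), ζ ^ N = 1 ∧
      (m : ℤ) * d = N * ((Nat.gcd d (kappa N g) : ℕ) : ℤ) ^ 2 ∧
      CoeffIn A p' ∧
      Fermat.Agent.S24.JPoly.Rep N p' (fun z : ℍ => (unitG d g z)⁻¹ * qq N z ^ m) ∧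
      (∀ k < N, PowerSeries.coeff k p' = 0) ∧
      PowerSeries.coeff N p' = ((((Nat.gcd d (kappa N g) : ℕ) : ℂ)) ^ 12 * ζ)⁻¹ := by
  obtain ⟨a, b, e, ha, he, hae, hgcd, hb0, hbe, hprim, hJ, hU⟩ :=
    exists_hermite_joint (J := jFun) jFun_smul hdN g
  have heN : e ∣ (N : ℤ) := by
    have h1 : e ∣ (d : ℤ) := Dvd.intro_left a hae
    exact h1.trans (by exact_mod_cast hdN)
  obtain ⟨t, ht⟩ := heN
  have hN : 0 < N := Nat.pos_of_ne_zero (NeZero.ne N)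
  have htpos : 0 < t := by
    have h1 : (0 : ℤ) < e * t := by rw [← ht]; exact_mod_cast hN
    exact (mul_pos_iff_of_pos_left he).mp h1
  have hm : (((a * t).toNat : ℕ) : ℤ) = a * t := Int.toNat_of_nonneg (mul_pos ha htpos).le
  set ζ : ℂ := cexp (2 * π * Complex.I * ((b : ℂ) / e)) with hζ
  have hζN : ζ ^ N = 1 := exp_ratio_pow_eq_one b e he ht
  have haC : (a : ℂ) = ((Nat.gcd d (kappa N g) : ℕ) : ℂ) := by
    rw [hgcd]; push_cast; rfl
  have hgdvd : Nat.gcd d (kappa N g) ∣ N := (Nat.gcd_dvd_left _ _).trans hdN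
  refine ⟨(a * t).toNat, unitInvSeries ((a : ℂ) ^ 12) ζ (a * t).toNat N, ζ, hζN, ?_, ?_, ?_, ?_, ?_⟩
  · rw [hm, ht, ← hae, ← hgcd]; ring
  · apply coeffIn_unitInvSeries A _ (hroots ζ hζN)
    rw [mul_inv, ← inv_pow, haC]
    exact A.mul_mem (A.pow_mem (hinvA _ hgdvd) 12)
      (inv_mem_of_pow_eq_one A hζN (hroots ζ hζN))
  · have := rep_unitInv_affH (N := N) a b e ha he ht
    refine this.congr fun z => ?_
    rw [hU z]
  · intro k hk
    exact coeff_unitInvSeries_of_lt _ _ _ _ hk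
  · rw [coeff_unitInvSeries_self, haC]

/-- **Per-coset form of the expansion of the inverse unit**, companion of
`TauConj.exists_unitQ_expansion`. -/
theorem exists_unitQ_inv_expansion (A : Subring ℂ) {N : ℕ} [NeZero N]
    (hroots : ∀ ζ : ℂ, ζ ^ N = 1 → ζ ∈ A) (hinvA : ∀ a : ℕ, a ∣ N → ((a : ℂ))⁻¹ ∈ A)
    {d : ℕ} [NeZero d] (hdN : d ∣ N) (q : Q N) :
    ∃ (p' : PowerSeries ℂ) (ζ : ℂ), ζ ^ N = 1 ∧ CoeffIn A p' ∧
      Fermat.Agent.S24.JPoly.Rep N p'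
        (fun z : ℍ => (unitQ d N q z)⁻¹ * qq N z ^ unitOrd d N q) ∧
      (∀ k < N, PowerSeries.coeff k p' = 0) ∧
      PowerSeries.coeff N p' = (((Nat.gcd d (kappaQ N q) : ℕ) : ℂ) ^ 12 * ζ)⁻¹ := by
  obtain ⟨m, p', ζ, hζ, hmd, hp', hrep, hlt, hlead⟩ :=
    exists_unitInv_expansion A hroots hinvA hdN q.out
  have hm : m = unitOrd d N q := by
    unfold unitOrd
    rw [kappaQ_eq_kappa_out]
    have hd0 : (0 : ℤ) < d := by exact_mod_cast Nat.pos_of_ne_zero (NeZero.ne d)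
    obtain ⟨c, hc⟩ := hdN
    have hc' : N / d = c := by
      rw [hc]; exact Nat.mul_div_cancel_left c (Nat.pos_of_ne_zero (NeZero.ne d))
    rw [hc']
    have hNc : (N : ℤ) = (d : ℤ) * c := by exact_mod_cast hc
    have h1 : (m : ℤ) * d = ((c * (Nat.gcd d (kappa N q.out)) ^ 2 : ℕ) : ℤ) * d := by
      rw [hmd, hNc]; push_cast; ring
    have h2 := mul_right_cancel₀ hd0.ne' h1
    exact_mod_cast h2
  refine ⟨p', ζ, hζ, hp', ?_, hlt, ?_⟩
  · rw [← hm]; exact hrep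
  · rw [hlead, kappaQ_eq_kappa_out]

/-- the inverses of the conjugate units have `A`-rational finite-pole `q_N`-expansions -/
theorem hasRatExp_unitQ_inv (A : Subring ℂ) {N : ℕ} [NeZero N]
    (hroots : ∀ ζ : ℂ, ζ ^ N = 1 → ζ ∈ A) (hinvA : ∀ a : ℕ, a ∣ N → ((a : ℂ))⁻¹ ∈ A)
    {d : ℕ} [NeZero d] (hdN : d ∣ N) (q : Q N) :
    Fermat.Agent.S24.JPoly.HasRatExp N A (fun z => (unitQ d N q z)⁻¹) := by
  obtain ⟨p', ζ, -, hp', hrep, -, -⟩ := exists_unitQ_inv_expansion A hroots hinvA hdN q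
  exact ⟨unitOrd d N q, p', hp', hrep⟩

theorem mdiff_unitQ_inv (d N : ℕ) [NeZero d] (q : Q N) :
    MDiff (fun z => (unitQ d N q z)⁻¹) := by
  have h1 : MDiff (fun _ : ℍ => (1 : ℂ)) := mdifferentiable_const
  have := h1.div (mdiff_unitQ d N q) (fun z => unitQ_ne_zero d N q z)
  have heq : (fun z => (unitQ d N q z)⁻¹) = (fun _ : ℍ => (1 : ℂ)) / unitQ d N q := by
    funext z
    simp [Pi.div_apply]
  rw [heq]
  exact this

theorem unitQ_inv_smul {d N : ℕ} [NeZero d] (hdN : d ∣ N) (q : Q N) (δ : SL(2, ℤ)) (z : ℍ) :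
    (unitQ d N q (δ • z))⁻¹ = (unitQ d N (δ⁻¹ • q) z)⁻¹ := by
  rw [unitQ_smul hdN]

end

end Fermat.Agent.S28.UnitInv
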